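import Fermat.Agent.LocalModelP.Cocycle

/-!
# Bounds for cocycles with bounded radicands

`Kum S t (FlatBd S) c` is what a finite flat group gives for a cocycle `c` which vanishes on the
elements fixing its points.
-/

set_option autoImplicit false

noncomputable section

open Module Polynomial

namespace Fermat.Agent.LocalModelP

open Fermat.Agent.Duality Fermat.Agent.FlatBound

variable {p : ℕ} [hp : Fact p.Prime] {k : Type} [Field k] [CharP k p]

local notation "Ω" => PadicAlgCl p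

/-- The condition on the levels of radicands given by a finite flat group. -/
def FlatBd (S : Setup p) (i : ℕ) : Prop :=
  p * ((p - 1) * (S.e - 1)) < p * S.e + (p - 1) ^ 2 * (i - 1)

/-- The operators `τ` and `φ ^ d` of a setup and the values of a character at them. -/
theorem exists_ops (S : Setup p) {d : ℕ} (hd : d ≠ 0) {χ : GalLoc p → k} (hχ : IsChar d χ) :
    ∃ O : Ops S k, O.d = d ∧ O.χτ = χ O.τ ∧ O.χφ = χ (O.φ ^ d) := by
  obtain ⟨τ, hτ, z, hz, hτπ⟩ := S.toUnif.exists_generator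
  obtain ⟨φ, hφ, hφπ⟩ := S.exists_frob
  have : NeZero p := ⟨hp.out.ne_zero⟩
  obtain ⟨w, -, hw⟩ := S.hζ.eq_pow_of_pow_eq_one
    (show (τ S.ζ) ^ p = 1 by rw [← map_pow, S.ζ_pow, map_one])
  exact ⟨⟨τ, hτ, z, hz, hτπ, φ, hφ, hφπ, d, χ τ, hχ.ne_zero (inertia_le_Kd hd hτ), χ (φ ^ d),
    hχ.ne_zero (by simpa using pow_frob_mem_Kd hd hφ 1), w, hw.symm⟩, rfl, rfl, rfl⟩

namespace Ops

variable {S : Setup p} (O : Ops S k)

theorem norm_z : ‖O.z‖ = 1 := norm_eq_one_of_pow_eq_one S.toUnif.e_ne_zero O.z_prim.pow_eq_one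

theorem red_z_prim : IsPrimitiveRoot (red O.z) S.e := by
  refine ⟨by rw [← red_pow O.norm_z.le, O.z_prim.pow_eq_one, red_one], fun l hl => ?_⟩
  rw [← red_pow O.norm_z.le, ← red_one (p := p),
    red_eq_red_iff (by rw [norm_pow, O.norm_z, one_pow]) (by simp)] at hl
  exact O.z_prim.dvd_of_pow_eq_one _ (root_eq_of_near S.not_dvd
    (by rw [← pow_mul, mul_comm, pow_mul, O.z_prim.pow_eq_one, one_pow]) (one_pow _) hl)

theorem cast_w : (O.w : Res p) = red O.z ^ S.e₁ :=
  S.toUnif.cast_eq_red_pow S.e_eq S.ne_two S.hζ O.τ_π O.τ_ζ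

theorem red_z_pow_eq_iff {i n : ℕ} : red O.z ^ i = red O.z ^ n ↔ i % S.e = n % S.e := by
  have : NeZero S.e := ⟨S.toUnif.e_ne_zero⟩
  rw [(O.red_z_prim.isOfFinOrder S.toUnif.e_ne_zero).pow_eq_pow_iff_modEq,
    ← O.red_z_prim.eq_orderOf]
  rfl

theorem cast_w_ne : (O.w : k) ≠ 0 := by
  rw [Ne, CharP.cast_eq_zero_iff k p, ← CharP.cast_eq_zero_iff (Res p) p, O.cast_w]
  exact pow_ne_zero _ (O.red_z_prim.ne_zero S.toUnif.e_ne_zero)

end Ops

theorem conj_natCast {K : Type} [Field K] [CharP K p] (n : ℕ) : Conj p (n : k) (n : K) := by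
  intro P hP
  have hk : ∀ (F : Type) [Field F] [CharP F p],
      P.eval₂ (ZMod.castHom dvd_rfl F) (n : F) = ZMod.castHom dvd_rfl F (P.eval (n : ZMod p)) :=
    fun F _ _ => by rw [← map_natCast (ZMod.castHom dvd_rfl F : ZMod p →+* F),
      eval₂_at_apply]
  rw [hk k, map_eq_zero_iff _ (RingHom.injective _)] at hP
  rw [hk K, hP, map_zero]

theorem pow_p_sq_natCast (n : ℕ) : (n : k) ^ p ^ 2 = n := by
  rw [← map_natCast (ZMod.castHom dvd_rfl k), ← map_pow, sq, pow_mul, ZMod.pow_card, ZMod.pow_card]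

theorem setup_e_one {S : Setup p} (he : S.e₁ = 1) : S.e = p - 1 := by rw [S.e_eq, he, one_mul]

theorem GF_le_Kd {S : Setup p} {d : ℕ} (hd : d ∣ S.N) : S.GF ≤ Kd p d := fun g hg η hη => by
  refine (S.mem_GF.mp hg).2 η ?_
  obtain ⟨c, hc⟩ := Nat.pow_sub_one_dvd_pow_sub_one p hd
  rw [hc, pow_mul, hη, one_pow]

/-- The ordinary line: levels `p - 1`. -/
theorem finite_restrict_cyclotomic {S : Setup p} (he : S.e₁ = 1) [Finite k] {χ : GalLoc p → k}
    (hχ : IsChar 1 χ) (hGF : ∀ s ∈ S.GF, χ s = 1)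
    (hω : ∀ (g : GalLoc p), g ∈ inertiaLoc p → ∀ a : ℕ, g S.ζ = S.ζ ^ a → χ g = a)
    {t : k →+ ZMod p} (ht : t ≠ 0) (W : Submodule k (GalLoc p → k))
    (hW : ∀ c ∈ W, IsCocycle 1 χ c) (hval : ∀ c ∈ W, Kum S t (fun _ => True) c) :
    Module.Finite k W ∧ finrank k W ≤ 2 := by
  obtain ⟨O, hOd, hOτ, hOφ⟩ := exists_ops S one_ne_zero hχ
  have hτ : χ O.τ = (O.w : k) := hω _ O.τ_mem _ O.τ_ζ
  have ha : O.a = ((1 : ℕ) : k) := by rw [Ops.a, hOτ, hτ, div_self O.cast_w_ne, Nat.cast_one]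
  have he' : S.e = p - 1 := setup_e_one he
  have hp2 := hp.out.two_le
  have hp3 : 3 ≤ p := lt_of_le_of_ne hp2 (Ne.symm S.ne_two)
  have hpi₀ : ¬ p ∣ p - 1 := by simpa using not_dvd_pow_sub_one (p := p) one_ne_zero
  obtain ⟨hfin, hline⟩ := finrank_restrict_le_one (O := O) (a₀ := ((1 : ℕ) : Res p)) W
    (fun c hc => (hW c hc).equivariant O hχ (fun g _ => mem_Kd_one g) hOd (mem_Kd_one _)
      (mem_Kd_one _) hGF hOτ hOφ)
    ht hval (by rw [ha]; exact pow_p_sq_natCast 1) (by rw [ha]; exact conj_natCast 1)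
    (i₀ := p - 1) (by omega) (by rw [he, mul_one]; omega) hpi₀ (Or.inl hOd)
    (fun i hi0 hi hpi hne _ => by
      have h1 : red O.z ^ i ≠ 1 := by
        rw [← pow_zero (red O.z), Ne, O.red_z_pow_eq_iff, Nat.zero_mod, he']
        intro h0
        rw [he, mul_one] at hi
        have := Nat.le_of_dvd hi0 (Nat.dvd_of_mod_eq_zero h0)
        omega
      rw [Nat.cast_one, one_pow]
      exact ⟨h1, h1⟩)
  have hker : ∀ c ∈ W, (∀ s ∈ S.J, c s = 0) → c ∈ k ∙ (fun g => χ g - 1) := by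
    intro c hc hcJ
    have hτ1 : χ O.τ ≠ 1 := by
      rw [hτ, ← Nat.cast_one, Ne, CharP.natCast_eq_natCast k p,
        ← CharP.natCast_eq_natCast (Res p) p, O.cast_w, Nat.cast_one, he, pow_one]
      intro h1
      have := O.red_z_prim.eq_orderOf
      rw [h1, orderOf_one] at this
      omega
    refine Submodule.mem_span_singleton.mpr ⟨c O.τ / (χ O.τ - 1), funext fun g => ?_⟩
    rw [(hW c hc).eq_coboundary one_ne_zero O hχ hτ1 hcJ (mem_Kd_one g)
      fun s hs => hGF s (S.J_le hs), Pi.smul_apply, smul_eq_mul, mul_comm]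
  let R : W →ₗ[k] (S.J → k) := (LinearMap.funLeft k k Subtype.val).comp W.subtype
  have hrange : LinearMap.range R = W.map (LinearMap.funLeft k k Subtype.val) := by
    rw [LinearMap.range_comp, Submodule.range_subtype]
  let i : LinearMap.ker R →ₗ[k] (k ∙ (fun g => χ g - 1)) :=
    (W.subtype.comp (LinearMap.ker R).subtype).codRestrict _ fun f =>
      hker _ f.1.2 fun s hs => congrFun (LinearMap.mem_ker.mp f.2) ⟨s, hs⟩
  have hi : Function.Injective i := fun f f' h =>
    Subtype.ext (Subtype.ext (congrArg Subtype.val h :))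
  have : Module.Finite k (LinearMap.ker R) := Module.Finite.of_injective i hi
  have : Module.Finite k (LinearMap.range R) := hrange ▸ hfin
  have : Module.Finite k (W ⧸ LinearMap.ker R) :=
    Module.Finite.equiv R.quotKerEquivRange.symm
  have hWfin : Module.Finite k W := Module.Finite.of_submodule_quotient (LinearMap.ker R)
  refine ⟨hWfin, ?_⟩
  rw [← R.finrank_range_add_finrank_ker, hrange]
  have h1 : finrank k (LinearMap.ker R) ≤ 1 :=
    (LinearMap.finrank_le_finrank_of_injective hi).trans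
      ((finrank_span_le_card _).trans (by simp))
  omega

end Fermat.Agent.LocalModelP
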