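import Mathlib

/-!
# Two by two matrices with a stable line cut out by a character

If `(r g - d g) (r h - s h) = 0` for all `g, h` and some `X = r g₀` has eigenvalues `det X, 1` with
`det X - 1` a unit then `r g = d g (1 - e) + s g e + f g` for the idempotent `e = eProj X`.
-/

set_option autoImplicit false

noncomputable section

namespace Fermat.Agent.LocalModelP

open Matrix

variable {R : Type*} [CommRing R] {R' : Type*} [CommRing R']

local notation "M₂" => Matrix (Fin 2) (Fin 2)

/-- The projector on the eigenvalue `1` quotient. -/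
def eProj (X : M₂ R) : M₂ R := Ring.inverse (X.det - 1) • (X.det • (1 : M₂ R) - X)

/-- The off-diagonal part. -/
def fPart (e M : M₂ R) : M₂ R := (1 - e) * M * e

theorem map_ringInverse' (f : R →+* R') {x : R} (hx : IsUnit x) :
    f (Ring.inverse x) = Ring.inverse (f x) := by
  obtain ⟨u, rfl⟩ := hx
  rw [Ring.inverse_unit, show f (u : R) = ((Units.map (f : R →* R') u : R'ˣ) : R') from rfl,
    Ring.inverse_unit, ← map_inv]
  rfl

theorem map_eProj (f : R →+* R') {X : M₂ R} (hu : IsUnit (X.det - 1)) :
    (eProj X).map f = eProj (X.map f) := by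
  have hdet : (X.map f).det = f X.det := (f.map_det X).symm
  ext i j
  rw [Matrix.map_apply, eProj, eProj, hdet, Matrix.smul_apply, Matrix.smul_apply, smul_eq_mul,
    smul_eq_mul, map_mul, map_ringInverse' f hu, map_sub f, map_one]
  congr 1
  simp only [Matrix.sub_apply, Matrix.smul_apply, Matrix.map_apply, smul_eq_mul, map_sub, map_mul]
  congr 2
  rcases eq_or_ne i j with rfl | h
  · simp
  · simp [h]

theorem map_fPart (f : R →+* R') (e M : M₂ R) :
    (fPart e M).map f = fPart (e.map f) (M.map f) := by
  show f.mapMatrix (fPart e M) = fPart (f.mapMatrix e) (f.mapMatrix M)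
  simp only [fPart, map_mul, map_sub, map_one]

theorem trace_eq_det_add_one [Nontrivial R] {X : M₂ R} (hd : IsUnit X.det)
    (h : (X - X.det • (1 : M₂ R)) * (X - 1) = 0) : X.trace = X.det + 1 := by
  have hch := Matrix.aeval_self_charpoly X
  simp only [Matrix.charpoly_fin_two, map_add, map_sub, map_mul, map_pow, Polynomial.aeval_X,
    Polynomial.aeval_C, Algebra.algebraMap_eq_smul_one, smul_mul_assoc, one_mul] at hch
  have h2 : (X.det + 1 - X.trace) • X = 0 := by
    rw [sq] at hch
    simp only [sub_mul, mul_sub, mul_one, smul_mul_assoc, one_mul] at h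
    simp only [sub_smul, add_smul, one_smul]
    calc X.det • X + X - X.trace • X
        = (X * X - X.trace • X + X.det • (1 : M₂ R)) -
          (X * X - X - (X.det • X - X.det • 1)) := by abel
      _ = 0 := by
        rw [show X * X - X - (X.det • X - X.det • 1) = X * X - X.det • X - (X - X.det • 1) by abel,
          hch, h, sub_zero]
  have h3 := congrArg (· * X.adjugate) h2
  simp only [smul_mul_assoc, Matrix.mul_adjugate, smul_smul, zero_mul] at h3
  have h4 := congrFun (congrFun h3 0) 0
  simp only [Matrix.smul_apply, Matrix.one_apply_eq, smul_eq_mul, mul_one,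
    Matrix.zero_apply] at h4
  exact (sub_eq_zero.mp (hd.mul_left_eq_zero.mp h4)).symm

/-- The hypotheses on a representation with a stable line. -/
structure Line {G : Type*} [Group G] (r : G →* M₂ R) (d s : G → R) (g₀ : G) : Prop where
  rel : ∀ g h, (r g - d g • (1 : M₂ R)) * (r h - s h • (1 : M₂ R)) = 0
  s_g₀ : s g₀ = 1
  d_g₀ : d g₀ = (r g₀).det
  unit : IsUnit ((r g₀).det - 1)

variable {G : Type*} [Group G] {r : G →* M₂ R} {d s : G → R} {g₀ : G}

namespace Line

variable (L : Line r d s g₀)

local notation "E" => eProj (r g₀)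

include L

theorem inv_smul (M : M₂ R) :
    Ring.inverse ((r g₀).det - 1) • (((r g₀).det - 1) • M) = M := by
  rw [smul_smul, Ring.inverse_mul_cancel _ L.unit, one_smul]

theorem one_sub_proj : 1 - E = Ring.inverse ((r g₀).det - 1) • (r g₀ - 1) := by
  conv_lhs => rw [← L.inv_smul (1 : M₂ R)]
  rw [eProj, ← smul_sub]
  congr 1
  rw [sub_smul, one_smul]
  abel

theorem proj_mul (h : G) : E * r h = s h • E := by
  have h1 := L.rel g₀ h
  rw [L.d_g₀, ← neg_sub, neg_mul, neg_eq_zero] at h1
  have h2 : E * (r h - s h • (1 : M₂ R)) = 0 := by rw [eProj, smul_mul_assoc, h1, smul_zero]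
  rwa [mul_sub, mul_smul_comm, mul_one, sub_eq_zero] at h2

theorem mul_one_sub_proj (g : G) : r g * (1 - E) = d g • (1 - E) := by
  have h1 := L.rel g g₀
  rw [L.s_g₀, one_smul] at h1
  have h2 : (r g - d g • (1 : M₂ R)) * (1 - E) = 0 := by
    rw [L.one_sub_proj, mul_smul_comm, h1, smul_zero]
  rwa [sub_mul, smul_mul_assoc, one_mul, sub_eq_zero] at h2

theorem proj_mul_one_sub : E * (1 - E) = 0 := by
  have h1 := L.rel g₀ g₀
  rw [L.d_g₀, L.s_g₀, one_smul, ← neg_sub, neg_mul, neg_eq_zero] at h1
  rw [L.one_sub_proj, eProj, smul_mul_smul_comm, h1, smul_zero]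

theorem proj_idem : E * E = E := by
  have h := L.proj_mul_one_sub
  rw [mul_sub, mul_one, sub_eq_zero] at h
  exact h.symm

theorem trace_proj [Nontrivial R] (hd : IsUnit (r g₀).det) : (E : M₂ R).trace = 1 := by
  have h1 := L.rel g₀ g₀
  rw [L.d_g₀, L.s_g₀, one_smul] at h1
  rw [eProj, Matrix.trace_smul, Matrix.trace_sub, Matrix.trace_smul, Matrix.trace_one,
    trace_eq_det_add_one hd h1, Fintype.card_fin, smul_eq_mul, smul_eq_mul,
    show (r g₀).det * ((2 : ℕ) : R) - ((r g₀).det + 1) = (r g₀).det - 1 by push_cast; ring,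
    Ring.inverse_mul_cancel _ L.unit]

theorem s_eq_trace [Nontrivial R] (hd : IsUnit (r g₀).det) (h : G) :
    s h = (E * r h).trace := by
  rw [L.proj_mul, Matrix.trace_smul, L.trace_proj hd, smul_eq_mul, mul_one]

theorem decomp (g : G) : r g = d g • (1 - E) + s g • E + fPart E (r g) := by
  have h1 := L.mul_one_sub_proj g
  have h2 := L.proj_mul g
  rw [← h1, fPart, ← h2]
  calc r g = r g * (1 - E) + E * (r g * E) + (1 - E) * (r g * E) := by noncomm_ring
    _ = _ := by
      rw [← mul_assoc E, h2, smul_mul_assoc, L.proj_idem, mul_assoc]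

theorem fPart_mul (g h : G) :
    fPart E (r (g * h)) = d g • fPart E (r h) + s h • fPart E (r g) := by
  have h1 := L.mul_one_sub_proj g
  have h2 := L.proj_mul h
  have h3 : (1 - E) * (1 - E) = 1 - E := by
    rw [sub_mul, one_mul, L.proj_mul_one_sub, sub_zero]
  simp only [fPart, map_mul]
  calc (1 - E) * (r g * r h) * E
      = (1 - E) * (r g * (1 - E)) * r h * E + (1 - E) * r g * (E * r h) * E := by noncomm_ring
    _ = _ := by
      rw [h1, h2]
      simp only [mul_smul_comm, smul_mul_assoc, h3, mul_assoc, L.proj_idem]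

theorem fPart_g₀ : fPart E (r g₀) = 0 := by
  have h : (1 - E) * r g₀ = r g₀ * (1 - E) := by
    rw [L.one_sub_proj, smul_mul_assoc, mul_smul_comm, sub_mul, mul_sub, one_mul, mul_one]
  rw [fPart, h, L.mul_one_sub_proj, smul_mul_assoc, sub_mul, one_mul, L.proj_idem, sub_self,
    smul_zero]

end Line

/-- A trace one idempotent over a field is conjugate to `diag (0, 1)`. -/
theorem exists_conj_diag {k : Type*} [Field k] {e : M₂ k} (he : e * e = e) (ht : e.trace = 1) :
    ∃ U : (M₂ k)ˣ, e = (U : M₂ k) * !![0, 0; 0, 1] * (↑U⁻¹ : M₂ k) := by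
  have hdet : e.det = 0 := by
    have h1 := congrArg Matrix.det he
    rw [Matrix.det_mul] at h1
    rcases eq_or_ne e.det 0 with h | h
    · exact h
    · exfalso
      have hU : IsUnit e := (Matrix.isUnit_iff_isUnit_det e).mpr (isUnit_iff_ne_zero.mpr h)
      have h2 : e = 1 := hU.mul_right_inj.mp (he.trans (mul_one e).symm)
      rw [h2, Matrix.trace_fin_two] at ht
      simp only [Matrix.one_apply_eq] at ht
      exact one_ne_zero (α := k) (by linear_combination ht)
  rw [Matrix.trace_fin_two] at ht
  rw [Matrix.det_fin_two] at hdet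
  have hV : ∃ V : M₂ k, V.det ≠ 0 ∧ e * V = V * !![0, 0; 0, 1] := by
    by_cases h0 : e 1 1 = 0
    · have h00 : e 0 0 = 1 := by rw [h0, add_zero] at ht; exact ht
      rw [h0, mul_zero, zero_sub, neg_eq_zero] at hdet
      refine ⟨!![-(e 0 1), 1; 1, e 1 0], ?_, Matrix.ext fun i j => ?_⟩
      · rw [Matrix.det_fin_two_of]
        intro h
        exact one_ne_zero (α := k) (by linear_combination -h - hdet)
      · fin_cases i <;> fin_cases j <;>
          simp [Matrix.mul_apply, Fin.sum_univ_two, h0, h00] <;>
          first | linear_combination hdet | exact mul_eq_zero.mp (by linear_combination hdet)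
    · refine ⟨!![e 1 1, e 0 1; -(e 1 0), e 1 1], ?_, Matrix.ext fun i j => ?_⟩
      · rw [Matrix.det_fin_two_of]
        intro h
        refine h0 ?_
        linear_combination h - (e 1 1) * ht + hdet
      · fin_cases i <;> fin_cases j <;> simp [Matrix.mul_apply, Fin.sum_univ_two]
        · linear_combination hdet
        · linear_combination (e 0 1) * ht
        · ring
        · linear_combination -hdet + (e 1 1) * ht
  obtain ⟨V, hV0, hV⟩ := hV
  obtain ⟨U, rfl⟩ := (Matrix.isUnit_iff_isUnit_det V).mpr (isUnit_iff_ne_zero.mpr hV0)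
  exact ⟨U, by rw [← hV, mul_assoc, Units.mul_inv, mul_one]⟩

end Fermat.Agent.LocalModelP
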