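import Mathlib

/-!
# Additive maps from a finite field which are semilinear for a Frobenius

Let `u : k → K` be additive with `u (a c) = b * u c`.  Then `b` is a conjugate of `a`.  If moreover
`u (μ c) = (u c) ^ (p ^ d)` then such maps form a line over `k`.
-/

set_option autoImplicit false

noncomputable section

open Polynomial Module

namespace Fermat.Agent.LocalModelP

variable {p : ℕ} [hp : Fact p.Prime] {k K : Type} [Field k] [CharP k p] [Field K] [CharP K p]

/-- `b` satisfies every equation over `𝔽_p` satisfied by `a`. -/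
def Conj (p : ℕ) [Fact p.Prime] {k K : Type} [Field k] [CharP k p] [Field K] [CharP K p]
    (a : k) (b : K) : Prop :=
  ∀ P : (ZMod p)[X], P.eval₂ (ZMod.castHom dvd_rfl k) a = 0 →
    P.eval₂ (ZMod.castHom dvd_rfl K) b = 0

/-- Every element fixed by the Frobenius comes from `ZMod p`. -/
theorem exists_castHom_eq {x : k} (hx : x ^ p = x) :
    ∃ n : ZMod p, ZMod.castHom dvd_rfl k n = x := by
  classical
  have hsub : (Finset.univ.image (ZMod.castHom dvd_rfl k : ZMod p → k)) ⊆
      ((X ^ p - X : k[X]).roots.toFinset) := by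
    intro y hy
    simp only [Finset.mem_image, Finset.mem_univ, true_and] at hy
    obtain ⟨n, rfl⟩ := hy
    rw [Multiset.mem_toFinset, mem_roots (FiniteField.X_pow_card_sub_X_ne_zero k hp.out.one_lt),
      IsRoot.def, eval_sub, eval_pow, eval_X, ← map_pow, ZMod.pow_card, sub_self]
  have hcard : ((X ^ p - X : k[X]).roots.toFinset).card ≤
      (Finset.univ.image (ZMod.castHom dvd_rfl k : ZMod p → k)).card := by
    rw [Finset.card_image_of_injective _ (RingHom.injective _), Finset.card_univ, ZMod.card]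
    refine (Multiset.toFinset_card_le _).trans ((card_roots' _).trans ?_)
    rw [FiniteField.X_pow_card_sub_X_natDegree_eq k hp.out.one_lt]
  have h := Finset.eq_of_subset_of_card_le hsub hcard
  have hmem : x ∈ (X ^ p - X : k[X]).roots.toFinset := by
    rw [Multiset.mem_toFinset, mem_roots (FiniteField.X_pow_card_sub_X_ne_zero k hp.out.one_lt),
      IsRoot.def, eval_sub, eval_pow, eval_X, hx, sub_self]
  rw [← h, Finset.mem_image] at hmem
  obtain ⟨n, -, hn⟩ := hmem
  exact ⟨n, hn⟩

theorem map_castHom_mul (u : k →+ K) (n : ZMod p) (c : k) :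
    u (ZMod.castHom dvd_rfl k n * c) = ZMod.castHom dvd_rfl K n * u c := by
  obtain ⟨m, rfl⟩ := ZMod.natCast_zmod_surjective n
  rw [map_natCast, map_natCast, ← nsmul_eq_mul, ← nsmul_eq_mul, map_nsmul]

/-- The weight of a nonzero semilinear map is a conjugate of `a`. -/
theorem weight_eq (u : k →+ K) (hu : u ≠ 0) {a : k} (ha : a ^ (p ^ 2) = a) {b a₀ : K}
    (hc : Conj p a a₀) (h : ∀ c, u (a * c) = b * u c) : b = a₀ ∨ b = a₀ ^ p := by
  obtain ⟨n₁, hn₁⟩ := exists_castHom_eq (p := p) (x := a + a ^ p) (by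
    rw [add_pow_char, ← pow_mul, ← sq, ha, add_comm])
  obtain ⟨n₀, hn₀⟩ := exists_castHom_eq (p := p) (x := a * a ^ p) (by
    rw [mul_pow, ← pow_mul, ← sq, ha, mul_comm])
  have e₁ : a₀ + a₀ ^ p = ZMod.castHom dvd_rfl K n₁ := by
    have := hc (X + X ^ p - C n₁) (by simp [hn₁])
    simpa [sub_eq_zero] using this
  have e₀ : a₀ * a₀ ^ p = ZMod.castHom dvd_rfl K n₀ := by
    have := hc (X * X ^ p - C n₀) (by simp [hn₀])
    simpa [sub_eq_zero] using this
  obtain ⟨c, hc0⟩ : ∃ c, u c ≠ 0 := by
    by_contra h0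
    push Not at h0
    exact hu (AddMonoidHom.ext h0)
  have key : u (a * (a * c) - ZMod.castHom dvd_rfl k n₁ * (a * c) +
      ZMod.castHom dvd_rfl k n₀ * c) = 0 := by
    rw [hn₁, hn₀, show a * (a * c) - (a + a ^ p) * (a * c) + a * a ^ p * c = 0 by ring, map_zero]
  rw [map_add, map_sub, map_castHom_mul, map_castHom_mul, h, h, ← e₁, ← e₀] at key
  have : (b - a₀) * (b - a₀ ^ p) * u c = 0 := by linear_combination key
  rcases mul_eq_zero.mp this with h1 | h1
  · rcases mul_eq_zero.mp h1 with h2 | h2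
    · exact Or.inl (sub_eq_zero.mp h2)
    · exact Or.inr (sub_eq_zero.mp h2)
  · exact absurd h1 hc0

/-- Iterates of `u (μ c) = u c ^ q`. -/
theorem map_pow_mul (u : k →+ K) {μ : k} {q : ℕ} (h : ∀ c, u (μ * c) = u c ^ q) (i : ℕ) (c : k) :
    u (μ ^ i * c) = u c ^ q ^ i := by
  induction i generalizing c with
  | zero => simp
  | succ i ih => rw [pow_succ, mul_assoc, ih, h, ← pow_mul, ← pow_succ']

omit [CharP K p] in
/-- The semilinear maps form a line. -/
theorem finrank_le_one [Finite k] {W : Type} [AddCommGroup W] [Module k W] (Ψ : W →+ k →+ K)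
    (hinj : Function.Injective Ψ)
    {d : ℕ} (hd : d ≠ 0) (hcard : Nat.card {x : k // x ^ p ^ d = x} = p ^ d)
    (hF : ∀ x : k, x ^ p ^ d = x → ∃ s : K, ∀ w c, Ψ w (x * c) = s * Ψ w c)
    {μ : k} (hμ : ∀ w c, Ψ w (μ * c) = Ψ w c ^ p ^ d) :
    Module.Finite k W ∧ Module.finrank k W ≤ 1 := by
  classical
  let F : Subfield k :=
    { carrier := {x | x ^ p ^ d = x}
      mul_mem' := fun {x y} hx hy => by
        show (x * y) ^ p ^ d = x * y
        rw [mul_pow, hx, hy]
      one_mem' := one_pow _
      add_mem' := fun {x y} hx hy => by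
        show (x + y) ^ p ^ d = x + y
        rw [add_pow_char_pow, hx, hy]
      zero_mem' := zero_pow (pow_ne_zero _ hp.out.ne_zero)
      neg_mem' := fun {x} hx => by
        show (-x) ^ p ^ d = -x
        have h := add_pow_char_pow x (-x) p (n := d)
        rw [add_neg_cancel, zero_pow (pow_ne_zero _ hp.out.ne_zero), hx] at h
        exact (neg_eq_of_add_eq_zero_right h.symm).symm
      inv_mem' := fun x hx => by
        show x⁻¹ ^ p ^ d = x⁻¹
        rw [inv_pow, hx] }
  have hFcard : Nat.card F = p ^ d := hcard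
  have : Finite F := inferInstance
  choose s hs using fun x : F => hF (x : k) x.2
  have hint : IsIntegral F μ := IsIntegral.of_finite F μ
  set g := minpoly F μ
  set t := g.natDegree
  have hgm : g.Monic := minpoly.monic hint
  -- the values of one map on a vector are roots of an additive polynomial
  let P : K[X] := X ^ (p ^ d) ^ t + ∑ i ∈ Finset.range t, C (s (g.coeff i)) * X ^ (p ^ d) ^ i
  have hPdeg : P.natDegree ≤ (p ^ d) ^ t := by
    refine (natDegree_add_le _ _).trans (max_le (natDegree_X_pow_le _) ?_)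
    refine natDegree_sum_le_of_forall_le _ _ fun i hi => ?_
    refine natDegree_C_mul_X_pow_le _ _ |>.trans ?_
    exact Nat.pow_le_pow_right (pow_pos hp.out.pos d) (Finset.mem_range.mp hi).le
  have h1 : 1 < p ^ d := Nat.one_lt_pow hd hp.out.one_lt
  have hP0 : P ≠ 0 := fun h0 => by
    have := congrArg (fun Q : K[X] => Q.coeff ((p ^ d) ^ t)) h0
    simp only [P, coeff_add, coeff_X_pow_self, finsetSum_coeff, coeff_zero] at this
    rw [Finset.sum_eq_zero fun i hi => ?_, add_zero] at this
    · exact one_ne_zero this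
    · rw [coeff_C_mul_X_pow, if_neg]
      exact ne_of_gt (Nat.pow_lt_pow_right h1 (Finset.mem_range.mp hi))
  have hroot : ∀ w c, Ψ w c ∈ P.roots.toFinset := fun w c => by
    rw [Multiset.mem_toFinset, mem_roots hP0, IsRoot.def]
    simp only [P, eval_add, eval_pow, eval_X, eval_finsetSum, eval_mul, eval_C]
    have h0 : (μ ^ t + ∑ i ∈ Finset.range t, (g.coeff i : k) * μ ^ i) * c = 0 := by
      have h := minpoly.aeval F μ
      rw [aeval_eq_sum_range, Finset.sum_range_succ, add_comm] at h
      simp only [Subfield.smul_def, smul_eq_mul] at h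
      rw [show (g.coeff t : k) = 1 by rw [show g.coeff t = 1 from hgm]; rfl, one_mul] at h
      rw [h, zero_mul]
    have h2 := congrArg (Ψ w) h0
    rw [map_zero, add_mul, map_add, Finset.sum_mul, map_sum, map_pow_mul _ (hμ w)] at h2
    rw [← h2]
    congr 1
    exact Finset.sum_congr rfl fun i _ => by rw [mul_assoc, hs, map_pow_mul _ (hμ w)]
  have hrootcard : P.roots.toFinset.card ≤ (p ^ d) ^ t :=
    (Multiset.toFinset_card_le _).trans ((card_roots' P).trans hPdeg)
  let E := IntermediateField.adjoin F ({μ} : Set k)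
  have : Finite E := inferInstance
  have : Module.Finite E k := Module.Finite.of_finite
  have hEcard : Nat.card E = (p ^ d) ^ t := by
    rw [Module.natCard_eq_pow_finrank (K := F) (V := E), hFcard,
      IntermediateField.adjoin.finrank hint]
  let B := Module.finBasis E k
  let Φ : W → (Fin (finrank E k) → P.roots.toFinset) := fun w i => ⟨Ψ w (B i), hroot w (B i)⟩
  have hΦ : Function.Injective Φ := by
    intro w w' h
    refine hinj (AddMonoidHom.ext fun c => ?_)
    rw [← B.sum_repr c, map_sum, map_sum]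
    refine Finset.sum_congr rfl fun i _ => ?_
    have hv : Ψ w (B i) = Ψ w' (B i) := congrArg Subtype.val (congrFun h i)
    have hmem : ((B.repr c i : E) : k) ∈ E.toSubalgebra := (B.repr c i).2
    rw [IntermediateField.adjoin_simple_toSubalgebra_of_isAlgebraic hint.isAlgebraic,
      Algebra.adjoin_singleton_eq_range_aeval] at hmem
    obtain ⟨r, hr⟩ := hmem
    rw [IntermediateField.smul_def, smul_eq_mul]
    have halg : ∀ (r : F[X]) (w : W) (v : k),
        Ψ w (aeval μ r * v) = ∑ j ∈ Finset.range (r.natDegree + 1),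
          s (r.coeff j) * Ψ w v ^ (p ^ d) ^ j := fun r w v => by
      rw [aeval_eq_sum_range, Finset.sum_mul, map_sum]
      refine Finset.sum_congr rfl fun j _ => ?_
      rw [Subfield.smul_def, smul_eq_mul, mul_assoc, hs, map_pow_mul _ (hμ w)]
    rw [← hr, show (aeval μ).toRingHom r = aeval μ r from rfl, halg, halg, hv]
  have : Finite W := Finite.of_injective Φ hΦ
  have hWle : Nat.card W ≤ Nat.card k := by
    refine (Nat.card_le_card_of_injective Φ hΦ).trans ?_
    rw [Nat.card_fun, Nat.card_fin, Module.natCard_eq_pow_finrank (K := E) (V := k), hEcard,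
      Nat.card_eq_fintype_card, Fintype.card_coe]
    exact Nat.pow_le_pow_left hrootcard _
  have : Module.Finite k W := Module.Finite.of_finite
  rw [Module.natCard_eq_pow_finrank (K := k) (V := W)] at hWle
  refine ⟨inferInstance, ?_⟩
  exact (Nat.pow_le_pow_iff_right (Finite.one_lt_card (α := k))).mp (hWle.trans_eq (pow_one _).symm)

theorem card_fixed_eq_one_level [Finite k] : Nat.card {x : k // x ^ p ^ 1 = x} = p := by
  refine (Eq.trans (Nat.card_congr (Equiv.ofBijective
    (fun n : ZMod p => (⟨ZMod.castHom dvd_rfl k n, by rw [pow_one, ← map_pow, ZMod.pow_card]⟩ :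
      {x : k // x ^ p ^ 1 = x})) ⟨fun m n h => ?_, fun x => ?_⟩)).symm (Nat.card_zmod p))
  · exact RingHom.injective _ (congrArg Subtype.val h)
  · obtain ⟨n, hn⟩ := exists_castHom_eq (p := p) (x := (x : k)) (by simpa using x.2)
    exact ⟨n, Subtype.ext hn⟩

/-- The subfield with `p ^ 2` elements is spanned by `1` and any of its elements outside `𝔽_p`. -/
theorem exists_eq_add_mul [Finite k] {a : k} (ha : a ^ (p ^ 2) = a) (hap : a ^ p ≠ a) :
    Nat.card {x : k // x ^ p ^ 2 = x} = p ^ 2 ∧ ∀ x : k, x ^ p ^ 2 = x →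
      ∃ m n : ZMod p, ZMod.castHom dvd_rfl k m + ZMod.castHom dvd_rfl k n * a = x := by
  classical
  have hfix : ∀ n : ZMod p, (ZMod.castHom dvd_rfl k n) ^ p = ZMod.castHom dvd_rfl k n := fun n => by
    rw [← map_pow, ZMod.pow_card]
  have hfix2 : ∀ n : ZMod p, (ZMod.castHom dvd_rfl k n) ^ p ^ 2 = ZMod.castHom dvd_rfl k n :=
    fun n => by rw [sq, pow_mul, hfix, hfix]
  let f : ZMod p × ZMod p → {x : k // x ^ p ^ 2 = x} := fun q =>
    ⟨ZMod.castHom dvd_rfl k q.1 + ZMod.castHom dvd_rfl k q.2 * a, by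
      rw [add_pow_char_pow, mul_pow, hfix2, hfix2, ha]⟩
  have hf : Function.Injective f := by
    rintro ⟨m, n⟩ ⟨m', n'⟩ h
    have h' : ZMod.castHom dvd_rfl k (m - m') = ZMod.castHom dvd_rfl k (n' - n) * a := by
      have h0 : ZMod.castHom dvd_rfl k m + ZMod.castHom dvd_rfl k n * a =
          ZMod.castHom dvd_rfl k m' + ZMod.castHom dvd_rfl k n' * a := congrArg Subtype.val h
      rw [map_sub, map_sub]
      linear_combination h0
    rcases eq_or_ne (n' - n) 0 with hn | hn
    · rw [hn, map_zero, zero_mul, map_eq_zero_iff _ (RingHom.injective _), sub_eq_zero] at h'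
      rw [h', ← sub_eq_zero.mp hn]
    · exfalso
      refine hap ?_
      have h0 : ZMod.castHom dvd_rfl k (n' - n) ≠ 0 :=
        (map_ne_zero_iff _ (RingHom.injective _)).mpr hn
      have h2 : a = ZMod.castHom dvd_rfl k (m - m') / ZMod.castHom dvd_rfl k (n' - n) :=
        (eq_div_iff h0).mpr (by rw [h', mul_comm])
      rw [h2, div_pow, hfix, hfix]
  have hle : Nat.card {x : k // x ^ p ^ 2 = x} ≤ p ^ 2 := by
    cases nonempty_fintype k
    rw [Nat.card_eq_fintype_card, Fintype.card_subtype]
    have h1 : 1 < p ^ 2 := Nat.one_lt_pow two_ne_zero hp.out.one_lt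
    refine le_trans (Finset.card_le_card fun x hx => ?_)
      ((Multiset.toFinset_card_le (X ^ p ^ 2 - X : k[X]).roots).trans ((card_roots' _).trans
        (FiniteField.X_pow_card_sub_X_natDegree_eq k h1).le))
    rw [Multiset.mem_toFinset, mem_roots (FiniteField.X_pow_card_sub_X_ne_zero k h1)]
    simpa [IsRoot.def, sub_eq_zero] using hx
  have hq : Nat.card (ZMod p × ZMod p) = p ^ 2 := by rw [Nat.card_prod, Nat.card_zmod, sq]
  have heq : Nat.card {x : k // x ^ p ^ 2 = x} = p ^ 2 :=
    le_antisymm hle (hq.ge.trans (Nat.card_le_card_of_injective f hf))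
  refine ⟨heq, fun x hx => ?_⟩
  obtain ⟨⟨m, n⟩, h⟩ := ((Nat.bijective_iff_injective_and_card f).mpr ⟨hf, hq.trans heq.symm⟩).2
    ⟨x, hx⟩
  exact ⟨m, n, congrArg Subtype.val h⟩

end Fermat.Agent.LocalModelP
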