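import Fermat.Agent.LocalModelP.Kummer
import Fermat.Agent.LocalModelP.Line

/-!
# Equivariant homomorphisms on `GF` and their leading maps

An equivariant homomorphism `h` to a finite field `k` gives, for every `c ∈ k`, a radicand of
`g ↦ t (c * h g)`.  Its leading coefficient at a level is additive in `c` and semilinear for the
two operators coming from a tame generator and a power of Frobenius.
-/

set_option autoImplicit false

noncomputable section

open Module

namespace Fermat.Agent.LocalModelP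

open Fermat.Agent.Duality Fermat.Agent.FlatBound

variable {p : ℕ} [hp : Fact p.Prime]

local notation "Ω" => PadicAlgCl p

/-- Functions on the local group which factor through a finite level. -/
def FinLevel {α : Type} (h : GalLoc p → α) : Prop :=
  ∃ L : IntermediateField ℚ_[p] Ω, FiniteDimensional ℚ_[p] L ∧
    ∀ g g' : GalLoc p, (∀ x ∈ L, g x = g' x) → h g = h g'

theorem FinLevel.comp {α β : Type} {h : GalLoc p → α} (hh : FinLevel h) (f : α → β) :
    FinLevel fun g => f (h g) := by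
  obtain ⟨L, hL, hfac⟩ := hh
  exact ⟨L, hL, fun g g' hg => by simp only [hfac g g' hg]⟩

theorem FinLevel.prod {α β : Type} {h : GalLoc p → α} {h' : GalLoc p → β} (hh : FinLevel h)
    (hh' : FinLevel h') : FinLevel fun g => (h g, h' g) := by
  obtain ⟨L, hL, hfac⟩ := hh
  obtain ⟨L', hL', hfac'⟩ := hh'
  exact ⟨L ⊔ L', inferInstance, fun g g' hg => Prod.ext
    (hfac g g' fun x hx => hg x (le_sup_left (b := L') hx))
    (hfac' g g' fun x hx => hg x (le_sup_right (a := L) hx))⟩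

/-- The operators: a tame generator and a power of Frobenius. -/
structure Ops (S : Setup p) (k : Type) [Field k] [CharP k p] where
  /-- the tame generator -/
  τ : GalLoc p
  τ_mem : τ ∈ inertiaLoc p
  /-- its action on `π` -/
  z : PadicAlgCl p
  z_prim : IsPrimitiveRoot z S.e
  τ_π : τ S.π = z * S.π
  /-- a Frobenius -/
  φ : GalLoc p
  φ_frob : IsFrob φ
  φ_π : φ S.π = S.π
  /-- the residual degree -/
  d : ℕ
  /-- the value of the character at `τ` -/
  χτ : k
  χτ_ne : χτ ≠ 0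
  /-- the value of the character at `φ ^ d` -/
  χφ : k
  χφ_ne : χφ ≠ 0
  /-- the exponent of `τ` on `ζ` -/
  w : ℕ
  τ_ζ : τ S.ζ = S.ζ ^ w

variable {S : Setup p} {k : Type} [Field k] [CharP k p] (O : Ops S k)

/-- The twisted eigenvalue of `τ`. -/
def Ops.a : k := (O.w : k) / O.χτ

/-- An equivariant homomorphism on `GF`. -/
structure Equivariant (h : GalLoc p → k) : Prop where
  level : FinLevel h
  add : ∀ g ∈ S.GF, ∀ g' ∈ S.GF, h (g * g') = h g + h g'
  conj_τ : ∀ g ∈ S.GF, h (O.τ * g * O.τ⁻¹) = O.χτ * h g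
  conj_φ : ∀ g ∈ S.GF, h (O.φ ^ O.d * g * (O.φ ^ O.d)⁻¹) = O.χφ * h g

/-- The composite with the functional `x ↦ t (c x)`. -/
def lam (t : k →+ ZMod p) (h : GalLoc p → k) (c : k) : GalLoc p → ZMod p := fun g => t (c * h g)

variable {O} {t : k →+ ZMod p} {h h' : GalLoc p → k}

theorem Equivariant.exists_rad (hh : Equivariant O h) (c : k) : ∃ x, S.Rad (lam t h c) x := by
  obtain ⟨L, hL, hfac⟩ := hh.level
  exact S.exists_rad _ (fun g hg g' hg' => by simp only [lam, hh.add g hg g' hg', mul_add, map_add])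
    L fun g g' hg => by simp only [lam, hfac g g' hg]

/-- A radicand. -/
def Equivariant.X (hh : Equivariant O h) (t : k →+ ZMod p) (c : k) : Ω :=
  (hh.exists_rad (t := t) c).choose

theorem Equivariant.X_spec (hh : Equivariant O h) (c : k) : S.Rad (lam t h c) (hh.X t c) :=
  (hh.exists_rad (t := t) c).choose_spec

theorem Equivariant.X_mem (hh : Equivariant O h) (c : k) : hh.X t c ∈ S.F := (hh.X_spec c).1

theorem Equivariant.X_ne (hh : Equivariant O h) (c : k) : hh.X t c ≠ 0 := (hh.X_spec c).2.1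

/-- Radicands with the same class share valuations and leading coefficients. -/
theorem same_class {f f' : GalLoc p → ZMod p} (hf : ∀ g ∈ S.GF, f g = f' g) {x x' : Ω}
    (hx : S.Rad f x) (hx' : S.Rad f' x') :
    S.vp x' = S.vp x ∧ ∀ i, S.Lev i x → S.Lev i x' ∧
      (i < p * S.e₁ → ¬ p ∣ i → S.lead i x' = S.lead i x) := by
  obtain ⟨y, hy, hy0, rfl⟩ := S.rad_unique hf hx hx'
  exact ⟨S.vp_mul_pow hx.1 hx.2.1 hy hy0, fun i hi => ⟨Setup.Lev.mul_pow S hi hy hy0,
    fun h1 h2 => S.lead_mul_pow h1 h2 hx.2.1 hy hy0 hi⟩⟩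

theorem Equivariant.class_add (_hh : Equivariant O h) (c c' : k) :
    ∀ g ∈ S.GF, lam t h c g + lam t h c' g = lam t h (c + c') g := fun g _ => by
  simp only [lam, add_mul, map_add]

/-- All radicands have level `i`. -/
def Equivariant.LevAll (hh : Equivariant O h) (t : k →+ ZMod p) (i : ℕ) : Prop :=
  ∀ c, S.Lev i (hh.X t c)

/-- The leading map at a level prime to `p`. -/
def Equivariant.leadHom (hh : Equivariant O h) {i : ℕ} (hi : i < p * S.e₁) (hpi : ¬ p ∣ i)
    (hl : hh.LevAll t i) : k →+ Res p :=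
  AddMonoidHom.mk' (fun c => S.lead i (hh.X t c)) fun c c' => by
    obtain ⟨h1, h2⟩ := S.lead_mul hi hpi (hh.X_ne c) (hh.X_ne c') (hl c) (hl c')
    rw [((same_class (hh.class_add c c') (S.rad_mul (hh.X_spec c) (hh.X_spec c'))
      (hh.X_spec (c + c'))).2 i h1).2 hi hpi, h2]

theorem Equivariant.leadHom_apply (hh : Equivariant O h) {i : ℕ} (hi : i < p * S.e₁)
    (hpi : ¬ p ∣ i) (hl : hh.LevAll t i) (c : k) :
    hh.leadHom hi hpi hl c = S.lead i (hh.X t c) := rfl

theorem conj_mem_GF (d : GalLoc p) {g : GalLoc p} (hg : g ∈ S.GF) : d⁻¹ * g * d ∈ S.GF := by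
  have := S.toUnif.conj_mem_fixing S.e_dvd d⁻¹ hg
  rwa [inv_inv] at this

theorem lam_τ (hh : Equivariant O h) (c : k) :
    ∀ g ∈ S.GF, (O.w : ZMod p) * lam t h c (O.τ⁻¹ * g * O.τ) = lam t h (O.a * c) g := by
  intro g hg
  have hg' := conj_mem_GF O.τ hg
  have h1 := hh.conj_τ _ hg'
  rw [show O.τ * (O.τ⁻¹ * g * O.τ) * O.τ⁻¹ = g by group] at h1
  simp only [lam]
  rw [h1, ← nsmul_eq_mul, ← map_nsmul, nsmul_eq_mul, Ops.a,
    show (O.w : k) / O.χτ * c * (O.χτ * h (O.τ⁻¹ * g * O.τ)) =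
      (O.w : k) * (c * h (O.τ⁻¹ * g * O.τ)) by field_simp [O.χτ_ne]]

theorem lam_φ (hh : Equivariant O h) (c : k) :
    ∀ g ∈ S.GF, ((1 : ℕ) : ZMod p) * lam t h c ((O.φ ^ O.d)⁻¹ * g * O.φ ^ O.d) =
      lam t h (O.χφ⁻¹ * c) g := by
  intro g hg
  have hg' := conj_mem_GF (O.φ ^ O.d) hg
  have h1 := hh.conj_φ _ hg'
  rw [show O.φ ^ O.d * ((O.φ ^ O.d)⁻¹ * g * O.φ ^ O.d) * (O.φ ^ O.d)⁻¹ = g by group] at h1
  simp only [lam, Nat.cast_one, one_mul]
  rw [h1, show O.χφ⁻¹ * c * (O.χφ * h ((O.φ ^ O.d)⁻¹ * g * O.φ ^ O.d)) =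
    c * h ((O.φ ^ O.d)⁻¹ * g * O.φ ^ O.d) by field_simp [O.χφ_ne]]

theorem φ_pow_π (O : Ops S k) (n : ℕ) : (O.φ ^ n) S.π = S.π :=
  MulAction.mem_stabilizer_iff.1
    (pow_mem (show O.φ ∈ MulAction.stabilizer (GalLoc p) S.π from O.φ_π) n)

theorem φ_pow_ζ (O : Ops S k) (n : ℕ) : (O.φ ^ n) S.ζ = S.ζ ^ 1 := by
  rw [pow_one]
  exact S.toUnif.fix_root_p S.e_eq S.ne_two S.hζ (φ_pow_π O n)

/-- The two semilinearity rules of the leading map. -/
theorem Equivariant.leadHom_semilinear (hh : Equivariant O h) {i : ℕ} (hi : i < p * S.e₁)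
    (hpi : ¬ p ∣ i) (hl : hh.LevAll t i) (c : k) :
    hh.leadHom hi hpi hl (O.a * c) = red O.z ^ i * hh.leadHom hi hpi hl c ∧
      hh.leadHom hi hpi hl (O.χφ⁻¹ * c) = hh.leadHom hi hpi hl c ^ p ^ O.d := by
  simp only [leadHom_apply]
  constructor
  · obtain ⟨h1, h2⟩ := S.lead_apply hi hpi (hh.X_ne (t := t) c) (hl c) O.τ O.τ_π id
      fun u hu => red_inertia O.τ_mem hu
    rw [((same_class (lam_τ hh c) (S.rad_apply (hh.X_spec c) O.τ O.τ_ζ)
      (hh.X_spec (O.a * c))).2 i h1).2 hi hpi, h2, id]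
  · obtain ⟨h1, h2⟩ := S.lead_apply hi hpi (hh.X_ne (t := t) c) (hl c) (O.φ ^ O.d) (z := 1)
      (by rw [one_mul, φ_pow_π]) (fun r => r ^ p ^ O.d) fun u hu => O.φ_frob.red_pow O.d hu
    rw [((same_class (lam_φ hh c) (S.rad_apply (hh.X_spec c) (O.φ ^ O.d) (φ_pow_ζ O O.d))
      (hh.X_spec (O.χφ⁻¹ * c))).2 i h1).2 hi hpi, h2, red_one, one_pow, one_mul]

/-- A bound on the levels of the radicands. -/
structure Kum (S : Setup p) (t : k →+ ZMod p) (Bd : ℕ → Prop) (h : GalLoc p → k) : Prop where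
  val : ∀ c x, S.Rad (lam t h c) x → S.vp x = 0
  unit : ∀ c x i, S.Rad (lam t h c) x → ‖x - 1‖ = ‖S.π‖ ^ i → ¬ p ∣ i → i < p * S.e₁ → Bd i

theorem Equivariant.levAll_succ (hh : Equivariant O h) {Bd : ℕ → Prop} (hk : Kum S t Bd h) {i : ℕ}
    (hi0 : 0 < i) (hi : i < p * S.e₁) (hl : hh.LevAll t i)
    (hkill : ∀ hpi : ¬ p ∣ i, Bd i → hh.leadHom hi hpi hl = 0) : hh.LevAll t (i + 1) := by
  intro c
  by_cases hpi : p ∣ i
  · exact Setup.Lev.succ_of_dvd S (hh.X_mem c) (hl c) hi0.ne' hi hpi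
  · refine S.lev_succ_of_lead_eq_zero hi hpi (hh.X_mem c) (hh.X_ne c) (hl c) ?_
    by_contra hne
    obtain ⟨y, hy, hy0, hle⟩ := hl c
    have hrad : S.Rad (lam t h c) (hh.X t c / y ^ p) := by
      obtain ⟨hm, h0, α, hα, hαg⟩ := hh.X_spec (t := t) c
      refine ⟨div_mem hm (pow_mem hy _), div_ne_zero h0 (pow_ne_zero _ hy0), α / y,
        by rw [div_pow, hα], fun g hg => ?_⟩
      rw [map_div₀, hαg g hg, S.mem_F.mp hy g hg, mul_div_assoc]
    have heq : ‖hh.X t c / y ^ p - 1‖ = ‖S.π‖ ^ i := by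
      refine hle.antisymm (not_lt.mp fun hlt => hne ?_)
      rw [S.lead_eq hi hpi hy hy0 (hh.X_ne c) hle]
      refine red_eq_zero_of_lt ?_
      rw [norm_div, norm_pow]
      exact (div_lt_one (pow_pos S.norm_π_pos _)).mpr hlt
    exact hne (DFunLike.congr_fun (hkill hpi (hk.unit c _ i hrad heq hpi hi)) c)

theorem Equivariant.levAll_one (hh : Equivariant O h) {Bd : ℕ → Prop} (hk : Kum S t Bd h) :
    hh.LevAll t 1 := fun c =>
  S.lev_one_of_vp (hh.X_mem c) (hh.X_ne c) (hk.val c _ (hh.X_spec c))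

/-- A nonzero `𝔽_p`-linear functional on `k` exists. -/
theorem exists_functional [Finite k] : ∃ t : k →+ ZMod p, t ≠ 0 := by
  let : Algebra (ZMod p) k := ZMod.algebra k p
  obtain ⟨f, hf⟩ := Module.Projective.exists_dual_ne_zero (ZMod p) (one_ne_zero (α := k))
  exact ⟨f.toAddMonoidHom, fun h0 => hf (DFunLike.congr_fun h0 1)⟩

omit [CharP k p] in
/-- The twists `x ↦ f (c * x)` of a nonzero functional separate points. -/
theorem eq_zero_of_lam {f : k →+ ZMod p} (hf : f ≠ 0) {x : k} (hx : ∀ c : k, f (c * x) = 0) :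
    x = 0 := by
  by_contra hne
  exact hf (AddMonoidHom.ext fun y => by simpa [hne] using hx (y / x))

theorem Equivariant.eq_zero_of_top (hh : Equivariant O h) (ht : t ≠ 0)
    (hl : hh.LevAll t (p * S.e₁)) {s : GalLoc p} (hs : s ∈ S.J) : h s = 0 :=
  eq_zero_of_lam ht fun c => S.eq_zero_on_J_of_top (hh.X_spec c) (hl c) hs

variable [Finite k] {a₀ : Res p}

omit [Finite k] in
/-- No surviving level: the homomorphism is unramified. -/
theorem Equivariant.eq_zero_on_J (hh : Equivariant O h) (ht : t ≠ 0) {Bd : ℕ → Prop}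
    (hk : Kum S t Bd h) (ha : O.a ^ p ^ 2 = O.a) (hconj : Conj p O.a a₀)
    (hkill : ∀ i, 0 < i → i < p * S.e₁ → ¬ p ∣ i → Bd i →
      red O.z ^ i ≠ a₀ ∧ red O.z ^ i ≠ a₀ ^ p)
    {s : GalLoc p} (hs : s ∈ S.J) : h s = 0 := by
  have key : ∀ i, i + 1 ≤ p * S.e₁ → hh.LevAll t (i + 1) := by
    intro i
    induction i with
    | zero => exact fun _ => hh.levAll_one hk
    | succ i ih =>
      intro hi
      refine hh.levAll_succ hk (Nat.succ_pos i) hi (ih (Nat.le_of_succ_le hi)) fun hpi hbd => ?_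
      by_contra hne
      obtain ⟨h1, h2⟩ := hkill (i + 1) (Nat.succ_pos i) hi hpi hbd
      rcases weight_eq _ hne ha hconj (fun c => (hh.leadHom_semilinear hi hpi _ c).1) with h3 | h3
      · exact h1 h3
      · exact h2 h3
  have hm := Nat.mul_pos hp.out.pos S.e₁_pos
  have h1 := key (p * S.e₁ - 1) (by omega)
  rw [Nat.sub_add_cancel hm] at h1
  exact hh.eq_zero_of_top ht h1 hs

/-- One surviving level: the classes on `J` form at most a line. -/
theorem finrank_restrict_le_one (W : Submodule k (GalLoc p → k))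
    (hW : ∀ f ∈ W, Equivariant O f) (ht : t ≠ 0) {Bd : ℕ → Prop}
    (hk : ∀ f ∈ W, Kum S t Bd f) (ha : O.a ^ p ^ 2 = O.a) (hconj : Conj p O.a a₀)
    {i₀ : ℕ} (hi₀ : 0 < i₀) (hi₀' : i₀ < p * S.e₁) (hpi₀ : ¬ p ∣ i₀)
    (hd : O.d = 1 ∨ O.d = 2 ∧ O.a ^ p ≠ O.a)
    (hkill : ∀ i, 0 < i → i < p * S.e₁ → ¬ p ∣ i → i ≠ i₀ → Bd i →
      red O.z ^ i ≠ a₀ ∧ red O.z ^ i ≠ a₀ ^ p) :
    Module.Finite k (W.map (LinearMap.funLeft k k (Subtype.val : S.J → GalLoc p))) ∧
      finrank k (W.map (LinearMap.funLeft k k (Subtype.val : S.J → GalLoc p))) ≤ 1 := by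
  classical
  have key : ∀ (f) (hf : f ∈ W) (i : ℕ), i + 1 ≤ i₀ → (hW f hf).LevAll t (i + 1) := by
    intro f hf i
    induction i with
    | zero => exact fun _ => (hW f hf).levAll_one (hk f hf)
    | succ i ih =>
      intro hi
      have hlt : i + 1 < p * S.e₁ := lt_of_le_of_lt (Nat.le_of_succ_le hi) hi₀'
      refine (hW f hf).levAll_succ (hk f hf) (Nat.succ_pos i) hlt (ih (Nat.le_of_succ_le hi))
        fun hpi hbd => ?_
      by_contra hne
      obtain ⟨h1, h2⟩ := hkill (i + 1) (Nat.succ_pos i) hlt hpi (by omega) hbd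
      rcases weight_eq _ hne ha hconj (fun c => ((hW f hf).leadHom_semilinear hlt hpi _ c).1)
        with h3 | h3
      · exact h1 h3
      · exact h2 h3
  have hlev : ∀ f : W, (hW f f.2).LevAll t i₀ := fun f => by
    have := key f f.2 (i₀ - 1) (by omega)
    rwa [Nat.sub_add_cancel hi₀] at this
  let Ψ : W →+ k →+ Res p :=
    AddMonoidHom.mk' (fun f => (hW f f.2).leadHom hi₀' hpi₀ (hlev f)) fun f f' =>
      AddMonoidHom.ext fun c => by
        simp only [AddMonoidHom.add_apply, Equivariant.leadHom_apply]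
        have hc : ∀ g ∈ S.GF, lam t (f : GalLoc p → k) c g + lam t (f' : GalLoc p → k) c g =
            lam t ((f + f' : W) : GalLoc p → k) c g := fun g _ => by
          simp only [lam, Submodule.coe_add, Pi.add_apply, mul_add, map_add]
        obtain ⟨h1, h2⟩ := S.lead_mul hi₀' hpi₀ ((hW f f.2).X_ne (t := t) c)
          ((hW f' f'.2).X_ne (t := t) c) (hlev f c) (hlev f' c)
        rw [((same_class hc (S.rad_mul ((hW f f.2).X_spec c) ((hW f' f'.2).X_spec c))
          ((hW _ (f + f').2).X_spec c)).2 i₀ h1).2 hi₀' hpi₀, h2]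
  have hΨsmul : ∀ (e : k) (f : W) (c : k), Ψ (e • f) c = Ψ f (e * c) := by
    intro e f c
    show (hW _ (e • f).2).leadHom hi₀' hpi₀ (hlev _) c = (hW f f.2).leadHom hi₀' hpi₀ (hlev f) _
    simp only [Equivariant.leadHom_apply]
    refine ((same_class (fun g _ => ?_) ((hW f f.2).X_spec (e * c)) ((hW _ (e • f).2).X_spec c)).2
      i₀ (hlev f _)).2 hi₀' hpi₀
    simp only [lam, Submodule.coe_smul, Pi.smul_apply, smul_eq_mul]
    congr 1
    ring
  let K : Submodule k W :=
    { carrier := {f | Ψ f = 0}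
      add_mem' := fun {f f'} hf hf' => by
        show Ψ (f + f') = 0
        rw [map_add, show Ψ f = 0 from hf, show Ψ f' = 0 from hf', add_zero]
      zero_mem' := map_zero Ψ
      smul_mem' := fun e f hf => AddMonoidHom.ext fun c => by
        rw [hΨsmul, show Ψ f = 0 from hf]
        rfl }
  let R : W →ₗ[k] (S.J → k) := (LinearMap.funLeft k k Subtype.val).comp W.subtype
  have hker : K ≤ LinearMap.ker R := by
    intro f hf
    rw [LinearMap.mem_ker]
    funext s
    show (f : GalLoc p → k) s = 0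
    have key2 : ∀ i, i₀ + i ≤ p * S.e₁ → (hW f f.2).LevAll t (i₀ + i) := by
      intro i
      induction i with
      | zero => exact fun _ => hlev f
      | succ i ih =>
        intro hi
        have hlt : i₀ + i < p * S.e₁ := by omega
        refine (hW f f.2).levAll_succ (hk f f.2) (i := i₀ + i) (by omega) hlt
            (ih hlt.le) fun hpi hbd => ?_
        rcases Nat.eq_zero_or_pos i with rfl | hpos
        · exact hf
        by_contra hne
        obtain ⟨h1, h2⟩ := hkill (i₀ + i) (by omega) hlt hpi (by omega) hbd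
        rcases weight_eq _ hne ha hconj (fun c => ((hW f f.2).leadHom_semilinear hlt hpi _ c).1)
          with h3 | h3
        · exact h1 h3
        · exact h2 h3
    have h1 := key2 (p * S.e₁ - i₀) (by omega)
    rw [Nat.add_sub_cancel' hi₀'.le] at h1
    exact (hW f f.2).eq_zero_of_top ht h1 s.2
  let Ψ' : (W ⧸ K) →+ k →+ Res p :=
    QuotientAddGroup.lift K.toAddSubgroup Ψ (fun f hf => hf)
  have hinj : Function.Injective Ψ' := by
    rw [injective_iff_map_eq_zero]
    intro q hq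
    obtain ⟨f, rfl⟩ := Submodule.Quotient.mk_surjective K q
    exact (Submodule.Quotient.mk_eq_zero K).mpr hq
  have hsemi : ∀ (f : W) (c : k), Ψ f (O.a * c) = red O.z ^ i₀ * Ψ f c ∧
      Ψ f (O.χφ⁻¹ * c) = Ψ f c ^ p ^ O.d := fun f c =>
    (hW f f.2).leadHom_semilinear hi₀' hpi₀ (hlev f) c
  have hfix : Nat.card {x : k // x ^ p ^ O.d = x} = p ^ O.d ∧
      ∀ x : k, x ^ p ^ O.d = x → ∃ s : Res p, ∀ (q : W ⧸ K) (c : k),
        Ψ' q (x * c) = s * Ψ' q c := by
    rcases hd with hd | ⟨hd, hap⟩ <;> rw [hd]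
    · refine ⟨by rw [card_fixed_eq_one_level, pow_one], fun x hx => ?_⟩
      obtain ⟨n, rfl⟩ := exists_castHom_eq (p := p) (x := x) (by simpa using hx)
      exact ⟨_, fun q c => map_castHom_mul (Ψ' q) n c⟩
    · obtain ⟨hcard, hspan⟩ := exists_eq_add_mul (p := p) ha hap
      refine ⟨hcard, fun x hx => ?_⟩
      obtain ⟨m, n, rfl⟩ := hspan x hx
      refine ⟨ZMod.castHom dvd_rfl (Res p) m + ZMod.castHom dvd_rfl (Res p) n * red O.z ^ i₀,
        fun q c => ?_⟩
      obtain ⟨f, rfl⟩ := Submodule.Quotient.mk_surjective K q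
      show Ψ f _ = _ * Ψ f c
      rw [add_mul, map_add, map_castHom_mul, mul_assoc, map_castHom_mul, (hsemi f c).1]
      ring
  have hd0 : O.d ≠ 0 := by rcases hd with hd | ⟨hd, -⟩ <;> omega
  obtain ⟨hfin, hline⟩ := finrank_le_one Ψ' hinj hd0 hfix.1 hfix.2
    (μ := O.χφ⁻¹) fun q c => by
      obtain ⟨f, rfl⟩ := Submodule.Quotient.mk_surjective K q
      exact (hsemi f c).2
  rw [show W.map (LinearMap.funLeft k k (Subtype.val : S.J → GalLoc p)) =
      LinearMap.range (K.liftQ R hker) by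
    rw [Submodule.range_liftQ, LinearMap.range_comp, Submodule.range_subtype]]
  exact ⟨Module.Finite.range _, (LinearMap.finrank_range_le _).trans hline⟩

end Fermat.Agent.LocalModelP
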