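import Fermat.Agent.LocalModelP.TameQuot

/-!
# One-dimensional cocycles of the unramified subgroup of index `d`
-/

set_option autoImplicit false

noncomputable section

open scoped IntermediateField

namespace Fermat.Agent.LocalModelP

open Fermat.Agent.Duality Fermat.Agent.FlatBound

variable {p : ℕ} [hp : Fact p.Prime]

local notation "Ω" => PadicAlgCl p

/-- The elements fixing the roots of unity of order `p ^ d - 1`. -/
def Kd (p : ℕ) [Fact p.Prime] (d : ℕ) : Subgroup (GalLoc p) where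
  carrier := {g | ∀ η : PadicAlgCl p, η ^ (p ^ d - 1) = 1 → g η = η}
  mul_mem' {g h} hg hh η hη := by rw [AlgEquiv.mul_apply, hh η hη, hg η hη]
  one_mem' _ _ := rfl
  inv_mem' {g} hg η hη := by
    rw [AlgEquiv.aut_inv, AlgEquiv.symm_apply_eq, hg η hη]

theorem inertia_le_Kd {d : ℕ} (hd : d ≠ 0) : inertiaLoc p ≤ Kd p d := fun _ hg _ hη =>
  inertia_fix_root hg (not_dvd_pow_sub_one hd) hη

theorem pow_frob_mem_Kd {d : ℕ} (hd : d ≠ 0) {φ : GalLoc p} (hφ : IsFrob φ) (j : ℕ) :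
    φ ^ (d * j) ∈ Kd p d := by
  rw [pow_mul]
  refine pow_mem (fun η hη => ?_) j
  rw [hφ.apply_root (not_dvd_pow_sub_one hd) hη,
    ← Nat.sub_add_cancel (Nat.one_le_pow d p hp.out.pos), pow_succ, hη, one_mul]

/-- `Kd p 1` is the whole group. -/
theorem mem_Kd_one (g : GalLoc p) : g ∈ Kd p 1 := by
  intro η hη
  rw [pow_one] at hη
  have hn : ‖η‖ = 1 := norm_eq_one_of_pow_eq_one (Nat.sub_ne_zero_of_lt hp.out.one_lt) hη
  have hM : ¬ p ∣ p - 1 := by simpa using not_dvd_pow_sub_one (p := p) one_ne_zero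
  have hη' : red η ^ p = red η := by
    rw [← red_pow hn.le,
      show η ^ p = η ^ (p - 1) * η by rw [← pow_succ]; congr 1; have := hp.out.one_le; omega,
      hη, one_mul]
  obtain ⟨c, hc⟩ := exists_castHom_eq (p := p) hη'
  obtain ⟨m, rfl⟩ := ZMod.natCast_zmod_surjective c
  rw [map_natCast, ← red_natCast, eq_comm, red_eq_red_iff hn.le (norm_natCast_le_one' m)] at hc
  refine root_eq_of_near hM (by rw [← map_pow, hη, map_one]) hη ?_
  rw [show g η - η = g (η - (m : Ω)) - (η - (m : Ω)) by rw [map_sub, map_natCast]; ring]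
  exact (norm_sub_le_max' _ _).trans_lt (max_lt (by rwa [norm_loc]) hc)

/-- On a finite extension, an element of `Kd p d` is a power of `φ ^ d` times inertia. -/
theorem exists_decomp_Kd {d : ℕ} (hd : d ≠ 0) {φ : GalLoc p} (hφ : IsFrob φ) {g : GalLoc p}
    (hg : g ∈ Kd p d) (L : IntermediateField ℚ_[p] Ω) [FiniteDimensional ℚ_[p] L] :
    ∃ (j : ℕ) (i : GalLoc p), i ∈ inertiaLoc p ∧ ∀ x ∈ L, g x = (φ ^ (d * j) * i) x := by
  have hM := not_dvd_pow_sub_one (p := p) hd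
  have hpos : 0 < p ^ d - 1 := Nat.sub_pos_of_lt (Nat.one_lt_pow hd hp.out.one_lt)
  have : NeZero ((p ^ d - 1 : ℕ) : Ω) := ⟨Nat.cast_ne_zero.mpr hpos.ne'⟩
  obtain ⟨η, hη⟩ := HasEnoughRootsOfUnity.exists_primitiveRoot Ω (p ^ d - 1)
  have : FiniteDimensional ℚ_[p] ℚ_[p]⟮η⟯ :=
    IntermediateField.adjoin.finiteDimensional (Algebra.IsAlgebraic.isAlgebraic η).isIntegral
  obtain ⟨j, i, hi, hgi⟩ := exists_pow_mul_inertia (L ⊔ ℚ_[p]⟮η⟯) hφ g
  have h1 := hgi η (le_sup_right (a := L) (IntermediateField.mem_adjoin_simple_self _ η))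
  rw [hg η hη.pow_eq_one, AlgEquiv.mul_apply, inertia_fix_root hi hM hη.pow_eq_one,
    hφ.apply_root hM hη.pow_eq_one] at h1
  have hdvd : d ∣ j := by
    have h2 : η ^ (p ^ j - 1) = 1 := by
      refine mul_right_cancel₀ (hη.ne_zero hpos.ne') ?_
      rw [one_mul, ← pow_succ, Nat.sub_add_cancel (Nat.one_le_pow j p hp.out.pos), ← h1]
    have h3 := Nat.dvd_gcd (hη.dvd_of_pow_eq_one _ h2) (dvd_refl (p ^ d - 1))
    rw [Nat.pow_sub_one_gcd_pow_sub_one] at h3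
    have hle := Nat.le_of_dvd (Nat.sub_pos_of_lt (Nat.one_lt_pow
      (fun h => hd (Nat.gcd_eq_zero_iff.mp h).2) hp.out.one_lt)) h3
    have hge : d ≤ j.gcd d := by
      by_contra hlt
      have := Nat.pow_lt_pow_right hp.out.one_lt (not_le.mp hlt)
      have := Nat.one_le_pow (j.gcd d) p hp.out.pos
      omega
    exact le_antisymm hge (Nat.le_of_dvd (Nat.pos_of_ne_zero hd) (Nat.gcd_dvd_right j d)) ▸
      Nat.gcd_dvd_left j d
  obtain ⟨c, rfl⟩ := hdvd
  exact ⟨c, i, hi, fun x hx => hgi x (le_sup_left (b := ℚ_[p]⟮η⟯) hx)⟩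

variable {k : Type} [Field k]

/-- A character of `Kd p d`. -/
structure IsChar (d : ℕ) (χ : GalLoc p → k) : Prop where
  level : FinLevel χ
  map_one : χ 1 = 1
  mul : ∀ g ∈ Kd p d, ∀ h ∈ Kd p d, χ (g * h) = χ g * χ h

theorem IsChar.ne_zero {d : ℕ} {χ : GalLoc p → k} (hχ : IsChar d χ) {g : GalLoc p}
    (hg : g ∈ Kd p d) : χ g ≠ 0 := fun h0 => by
  have := hχ.mul g hg g⁻¹ (inv_mem hg)
  rw [mul_inv_cancel, hχ.map_one, h0, zero_mul] at this
  exact one_ne_zero this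

theorem IsChar.conj {d : ℕ} {χ : GalLoc p → k} (hχ : IsChar d χ) {g h : GalLoc p}
    (hg : g ∈ Kd p d) (hh : h ∈ Kd p d) : χ (g * h * g⁻¹) = χ h := by
  rw [hχ.mul _ (mul_mem hg hh) _ (inv_mem hg), hχ.mul g hg h hh, mul_comm (χ g), mul_assoc,
    ← hχ.mul g hg _ (inv_mem hg), mul_inv_cancel, hχ.map_one, mul_one]

/-- A cocycle of `Kd p d` with values in the line of `χ`. -/
structure IsCocycle (d : ℕ) (χ c : GalLoc p → k) : Prop where
  level : FinLevel c
  add : ∀ g ∈ Kd p d, ∀ h ∈ Kd p d, c (g * h) = c g + χ g * c h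

theorem IsCocycle.one {d : ℕ} {χ c : GalLoc p → k} (hc : IsCocycle d χ c) (hχ : IsChar d χ) :
    c 1 = 0 := by
  have := hc.add 1 (one_mem _) 1 (one_mem _)
  rw [mul_one, hχ.map_one, one_mul] at this
  exact left_eq_add.mp this

theorem IsCocycle.sub_coboundary {d : ℕ} {χ c : GalLoc p → k} (hc : IsCocycle d χ c)
    (hχ : IsChar d χ) (Y : k) : IsCocycle d χ fun g => c g - (χ g - 1) * Y where
  level := (hc.level.prod hχ.level).comp fun q => q.1 - (q.2 - 1) * Y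
  add g hg h hh := by rw [hc.add g hg h hh, hχ.mul g hg h hh]; ring

theorem IsCocycle.map_conj {d : ℕ} {χ c : GalLoc p → k} (hc : IsCocycle d χ c) (hχ : IsChar d χ)
    {g s : GalLoc p} (hg : g ∈ Kd p d) (hs : s ∈ Kd p d) :
    c (g * s * g⁻¹) = (1 - χ s) * c g + χ g * c s := by
  have h1 := hc.add _ (mul_mem (mul_mem hg hs) (inv_mem hg)) g hg
  rw [inv_mul_cancel_right, hc.add g hg s hs, hχ.conj hg hs] at h1
  linear_combination -h1

theorem IsCocycle.pow {d : ℕ} {χ c : GalLoc p → k} (hc : IsCocycle d χ c) (hχ : IsChar d χ)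
    {g : GalLoc p} (hg : g ∈ Kd p d) (h0 : c g = 0) (j : ℕ) : c (g ^ j) = 0 := by
  induction j with
  | zero => rw [pow_zero, hc.one hχ]
  | succ j ih => rw [pow_succ, hc.add _ (pow_mem hg j) _ hg, ih, h0, mul_zero, add_zero]

variable {d : ℕ} (hd : d ≠ 0) {S : Setup p} [CharP k p] (O : Ops S k) {χ c : GalLoc p → k}
  (hχ : IsChar d χ) (hc : IsCocycle d χ c)

include hd hχ hc O

/-- A cocycle vanishing on `J` with a character nontrivial at `τ` is a coboundary. -/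
theorem IsCocycle.eq_coboundary (hτ : χ O.τ ≠ 1) (hcJ : ∀ s ∈ S.J, c s = 0) {g : GalLoc p}
    (hg : g ∈ Kd p d) (hχJ : ∀ s ∈ S.J, χ s = 1) :
    c g = (χ g - 1) * (c O.τ / (χ O.τ - 1)) := by
  set Y := c O.τ / (χ O.τ - 1)
  set c' := fun g => c g - (χ g - 1) * Y
  have hc' : IsCocycle d χ c' := hc.sub_coboundary hχ Y
  suffices c' g = 0 from sub_eq_zero.mp this
  have hτK := inertia_le_Kd hd O.τ_mem
  have hτ0 : c' O.τ = 0 := by
    show c O.τ - (χ O.τ - 1) * (c O.τ / (χ O.τ - 1)) = 0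
    rw [mul_div_cancel₀ _ (sub_ne_zero.mpr hτ), sub_self]
  have hI : ∀ i ∈ inertiaLoc p, c' i = 0 := by
    intro i hi
    obtain ⟨j, -, s, hs, rfl⟩ := S.toUnif.exists_eq_pow_mul O.τ_mem O.z_prim O.τ_π hi
    rw [hc'.add _ (pow_mem hτK j) _ (inertia_le_Kd hd (S.toUnif.mem_J.mp hs).1),
      hc'.pow hχ hτK hτ0, show c' s = 0 by simp [c', hcJ s hs, hχJ s hs], mul_zero, add_zero]
  have hφK : O.φ ^ d ∈ Kd p d := by simpa using pow_frob_mem_Kd hd O.φ_frob 1
  have hφ0 : c' (O.φ ^ d) = 0 := by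
    have h1 := hc'.map_conj hχ hφK hτK
    rw [hI _ (conj_mem_inertiaLoc _ O.τ_mem), hτ0, mul_zero, add_zero, eq_comm, mul_eq_zero] at h1
    exact h1.resolve_left (sub_ne_zero.mpr (Ne.symm hτ))
  obtain ⟨L, hL, hfac⟩ := hc'.level
  obtain ⟨j, i, hi, hgi⟩ := exists_decomp_Kd hd O.φ_frob hg L
  rw [hfac g _ hgi, hc'.add _ (pow_frob_mem_Kd hd O.φ_frob j) _ (inertia_le_Kd hd hi), hI i hi,
    mul_zero, add_zero, pow_mul]
  exact hc'.pow hχ hφK hφ0 j

/-- A cocycle vanishing on `J` with a character trivial on inertia is unramified. -/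
theorem IsCocycle.eq_zero_on_inertia (hχI : ∀ i ∈ inertiaLoc p, χ i = 1)
    (hcJ : ∀ s ∈ S.J, c s = 0) {i : GalLoc p} (hi : i ∈ inertiaLoc p) : c i = 0 := by
  have hτK := inertia_le_Kd hd O.τ_mem
  have hpow : ∀ n : ℕ, c (O.τ ^ n) = n * c O.τ := fun n => by
    induction n with
    | zero => simp [hc.one hχ]
    | succ n ih =>
      rw [pow_succ, hc.add _ (pow_mem hτK n) _ hτK, ih, hχI _ (pow_mem O.τ_mem n), Nat.cast_succ]
      ring
  have hτ0 : c O.τ = 0 := by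
    have h1 := hcJ _ (S.toUnif.mem_J.mpr ⟨pow_mem O.τ_mem S.e,
      by rw [S.toUnif.pow_apply_π O.τ_mem O.z_prim.pow_eq_one O.τ_π, O.z_prim.pow_eq_one, one_mul]⟩)
    rw [hpow, mul_eq_zero] at h1
    refine h1.resolve_left ?_
    rw [CharP.cast_eq_zero_iff k p]
    exact S.not_dvd
  obtain ⟨j, -, s, hs, rfl⟩ := S.toUnif.exists_eq_pow_mul O.τ_mem O.z_prim O.τ_π hi
  rw [hc.add _ (pow_mem hτK j) _ (inertia_le_Kd hd (S.toUnif.mem_J.mp hs).1), hpow, hτ0,
    hcJ s hs, mul_zero, mul_zero, add_zero]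

omit hd in
/-- The restriction of a cocycle is an equivariant homomorphism. -/
theorem IsCocycle.equivariant (hdN : S.GF ≤ Kd p d) (hOd : O.d = d) (hτK : O.τ ∈ Kd p d)
    (hφK : O.φ ^ d ∈ Kd p d) (hGF : ∀ s ∈ S.GF, χ s = 1) (hτ : O.χτ = χ O.τ)
    (hφ : O.χφ = χ (O.φ ^ d)) : Equivariant O c where
  level := hc.level
  add g hg h hh := by rw [hc.add g (hdN hg) h (hdN hh), hGF g hg, one_mul]
  conj_τ g hg := by
    rw [hc.map_conj hχ hτK (hdN hg), hGF g hg, sub_self, zero_mul, zero_add, hτ]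
  conj_φ g hg := by
    rw [hOd, hc.map_conj hχ hφK (hdN hg), hGF g hg, sub_self, zero_mul, zero_add, hφ]

end Fermat.Agent.LocalModelP
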