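import Fermat.Agent.LocalModelP.Classes

/-!
# The tame quotient of inertia on a finite level

For a finite normal extension `L` with a uniformiser `x₀` the character `s ↦ s x₀ / x₀` modulo the
maximal ideal has cyclic image and a kernel acting on `L` through a `p`-group; Frobenius acts on
it by `p`-th powers.
-/

set_option autoImplicit false

noncomputable section

open scoped IntermediateField

namespace Fermat.Agent.LocalModelP

open Fermat.Agent.Duality Fermat.Agent.FlatBound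

variable {p : ℕ} [hp : Fact p.Prime]

local notation "Ω" => PadicAlgCl p

theorem apply_mem_normal (L : IntermediateField ℚ_[p] Ω) [Normal ℚ_[p] L] (g : GalLoc p) {x : Ω}
    (hx : x ∈ L) : g x ∈ L := by
  have h := AlgEquiv.restrictNormal_commutes g L ⟨x, hx⟩
  exact (show ((g.restrictNormal L ⟨x, hx⟩ : L) : Ω) = g x from h) ▸ SetLike.coe_mem _

/-- A finite normal level with a uniformiser. -/
structure Level (p : ℕ) [Fact p.Prime] where
  /-- the field -/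
  L : IntermediateField ℚ_[p] (PadicAlgCl p)
  fin : FiniteDimensional ℚ_[p] L
  normal : Normal ℚ_[p] L
  /-- the uniformiser -/
  x₀ : PadicAlgCl p
  x₀_mem : x₀ ∈ L
  x₀_ne : x₀ ≠ 0
  x₀_gen : ∀ x ∈ L, x ≠ 0 → ∃ k : ℤ, ‖x‖ = ‖x₀‖ ^ k

/-- Every finite extension is contained in a level. -/
theorem exists_level (L₀ : IntermediateField ℚ_[p] Ω) [FiniteDimensional ℚ_[p] L₀] :
    ∃ T : Level p, L₀ ≤ T.L := by
  let L : IntermediateField ℚ_[p] Ω := IntermediateField.normalClosure ℚ_[p] L₀ Ω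
  have : FiniteDimensional ℚ_[p] L := normalClosure.is_finiteDimensional ℚ_[p] _ _
  have : Normal ℚ_[p] L := normalClosure.normal ℚ_[p] _ _
  have : IsGalois ℚ_[p] L := ⟨⟩
  set n := Fintype.card (L ≃ₐ[ℚ_[p]] L)
  have hn : n ≠ 0 := Fintype.card_ne_zero
  have hval : ∀ x ∈ L, x ≠ 0 → ∃ k : ℤ, ‖x‖ ^ n = ‖(p : Ω)‖ ^ k := by
    intro x hx hx0
    set y : L := ∏ g : L ≃ₐ[ℚ_[p]] L, g ⟨x, hx⟩
    have hfix : ∀ g : GalLoc p, g (y : Ω) = y := fun g => by
      rw [show g (y : Ω) = ((g.restrictNormal L y : L) : Ω) from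
        (AlgEquiv.restrictNormal_commutes g L y).symm]
      congr 1
      rw [map_prod]
      exact Fintype.prod_equiv (Equiv.mulLeft (g.restrictNormal L)) _ _ fun h => rfl
    have hnorm : ‖(y : Ω)‖ = ‖x‖ ^ n := by
      rw [show ((y : L) : Ω) = ∏ g : L ≃ₐ[ℚ_[p]] L, ((g ⟨x, hx⟩ : L) : Ω) from
        map_prod L.val _ _, norm_prod]
      refine Finset.prod_eq_pow_card fun g _ => ?_
      have h := AlgEquiv.restrictNormal_commutes (g.liftNormal Ω) L ⟨x, hx⟩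
      rw [AlgEquiv.restrict_liftNormal] at h
      rw [show ((g ⟨x, hx⟩ : L) : Ω) = g.liftNormal Ω x from h, norm_loc]
    have hy0 : (y : Ω) ≠ 0 := fun h => by
      rw [h, norm_zero, eq_comm] at hnorm
      exact hx0 (norm_eq_zero.mp (eq_zero_of_pow_eq_zero hnorm))
    obtain ⟨k, hk⟩ := norm_eq_zpow_of_fixed hy0 fun g _ => hfix g
    exact ⟨k, hnorm ▸ hk⟩
  let E : AddSubgroup ℤ :=
    { carrier := {k | ∃ x ∈ L, x ≠ 0 ∧ ‖x‖ ^ n = ‖(p : Ω)‖ ^ k}
      add_mem' := fun {a b} ⟨x, hx, hx0, ha⟩ ⟨y, hy, hy0, hb⟩ => ⟨x * y, mul_mem hx hy,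
        mul_ne_zero hx0 hy0, by rw [norm_mul, mul_pow, ha, hb, zpow_add₀ norm_p_pos.ne']⟩
      zero_mem' := ⟨1, one_mem _, one_ne_zero, by simp⟩
      neg_mem' := fun {a} ⟨x, hx, hx0, ha⟩ => ⟨x⁻¹, inv_mem hx, inv_ne_zero hx0, by
        rw [norm_inv, inv_pow, ha, zpow_neg]⟩ }
  obtain ⟨g, hg⟩ := Int.subgroup_cyclic E
  obtain ⟨x₀, hx₀, hx₀0, hg₀⟩ :
      g ∈ E := hg ▸ AddSubgroup.subset_closure (Set.mem_singleton g)
  refine ⟨⟨L, ‹_›, ‹_›, x₀, hx₀, hx₀0, fun x hx hx0 => ?_⟩,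
    IntermediateField.le_normalClosure L₀⟩
  obtain ⟨k, hk⟩ := hval x hx hx0
  have hkE : k ∈ E := ⟨x, hx, hx0, hk⟩
  rw [hg, AddSubgroup.mem_closure_singleton] at hkE
  obtain ⟨m, rfl⟩ := hkE
  refine ⟨m, ?_⟩
  rw [smul_eq_mul, mul_comm, zpow_mul, ← hg₀, ← zpow_natCast ‖x₀‖, ← zpow_mul, mul_comm,
    zpow_mul, zpow_natCast] at hk
  exact (pow_left_inj₀ (norm_nonneg _) (zpow_nonneg (norm_nonneg _) _) hn).mp hk

theorem norm_div_eq_one (g : GalLoc p) {x : Ω} (hx : x ≠ 0) : ‖g x / x‖ = 1 := by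
  rw [norm_div, norm_loc, div_self (norm_ne_zero_iff.mpr hx)]

theorem red_div_mul {g : GalLoc p} {x y : Ω} (hx : x ≠ 0) (hy : y ≠ 0) :
    red (g (x * y) / (x * y)) = red (g x / x) * red (g y / y) := by
  rw [map_mul, mul_div_mul_comm, red_mul (norm_div_eq_one g hx).le (norm_div_eq_one g hy).le]

theorem red_div_unit {g : GalLoc p} (hg : g ∈ inertiaLoc p) {u : Ω} (hu : ‖u‖ = 1) :
    red (g u / u) = 1 := by
  have hu0 : u ≠ 0 := fun h => by simp [h] at hu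
  have h := congrArg red (div_mul_cancel₀ (g u) hu0)
  rw [red_mul (norm_div_eq_one g hu0).le hu.le, red_inertia hg hu.le] at h
  exact mul_eq_right₀ (fun h0 => by simp [(red_eq_zero_iff hu.le).mp h0 |>.ne hu] ) |>.mp h

namespace Level

variable (T : Level p)

/-- The tame character of the level. -/
def θ : inertiaLoc p →* Res p where
  toFun g := red ((g : GalLoc p) T.x₀ / T.x₀)
  map_one' := by simp [T.x₀_ne]
  map_mul' g h := by
    have hw := norm_div_eq_one (h : GalLoc p) T.x₀_ne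
    have hg0 : (g : GalLoc p) T.x₀ ≠ 0 := (map_ne_zero _).mpr T.x₀_ne
    have e : ((g * h : inertiaLoc p) : GalLoc p) T.x₀ / T.x₀ =
        (g : GalLoc p) ((h : GalLoc p) T.x₀ / T.x₀) * ((g : GalLoc p) T.x₀ / T.x₀) := by
      rw [Subgroup.coe_mul, AlgEquiv.mul_apply, map_div₀]
      field_simp
    rw [e, red_mul (by rw [norm_loc]; exact hw.le) (norm_div_eq_one _ T.x₀_ne).le,
      red_inertia g.2 hw.le, mul_comm]

theorem θ_apply (g : inertiaLoc p) : T.θ g = red ((g : GalLoc p) T.x₀ / T.x₀) := rfl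

theorem θ_ne_zero (g : inertiaLoc p) : T.θ g ≠ 0 := by
  rw [θ_apply, Ne, red_eq_zero_iff (norm_div_eq_one _ T.x₀_ne).le,
    norm_div_eq_one _ T.x₀_ne]
  exact lt_irrefl 1

/-- All twists of `L` are powers of `θ`. -/
theorem red_div_eq (g : inertiaLoc p) {x : Ω} (hx : x ∈ T.L) (hx0 : x ≠ 0) :
    ∃ k : ℤ, ‖x‖ = ‖T.x₀‖ ^ k ∧ red ((g : GalLoc p) x / x) = T.θ g ^ k := by
  obtain ⟨k, hk⟩ := T.x₀_gen x hx hx0
  refine ⟨k, hk, ?_⟩
  have hz0 : T.x₀ ^ k ≠ 0 := zpow_ne_zero _ T.x₀_ne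
  have hu : ‖x / T.x₀ ^ k‖ = 1 := by
    rw [norm_div, norm_zpow, hk, div_self (zpow_ne_zero _ (norm_ne_zero_iff.mpr T.x₀_ne))]
  have hu0 : x / T.x₀ ^ k ≠ 0 := div_ne_zero hx0 hz0
  conv_lhs => rw [← div_mul_cancel₀ x hz0, red_div_mul hu0 hz0, red_div_unit g.2 hu, one_mul,
    map_zpow₀, ← div_zpow]
  have hw := norm_div_eq_one (g : GalLoc p) T.x₀_ne
  rcases Int.eq_nat_or_neg k with ⟨n, rfl | rfl⟩
  · rw [zpow_natCast, zpow_natCast, red_pow hw.le, θ_apply]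
  · have hn : ‖(((g : GalLoc p) T.x₀ / T.x₀) ^ n)‖ = 1 := by rw [norm_pow, hw, one_pow]
    rw [zpow_neg, zpow_neg, zpow_natCast, zpow_natCast, θ_apply, ← red_pow hw.le]
    refine eq_inv_of_mul_eq_one_left ?_
    rw [← red_mul (by rw [norm_inv, hn, inv_one]) hn.le,
      inv_mul_cancel₀ (fun h => by simp [h] at hn), red_one]

/-- An element of the kernel whose order on `L` is prime to `p` acts trivially on `L`. -/
theorem fixes_of_pow_fixes {g : inertiaLoc p} (hg : T.θ g = 1) {r : ℕ} (hr : ¬ p ∣ r)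
    (hfix : ∀ x ∈ T.L, ((g : GalLoc p) ^ r) x = x) : ∀ x ∈ T.L, (g : GalLoc p) x = x := by
  intro x hx
  by_contra hne
  have := T.normal
  set y := (g : GalLoc p) x - x
  have hy0 : y ≠ 0 := sub_ne_zero.mpr hne
  have hyL : y ∈ T.L := sub_mem (apply_mem_normal T.L _ hx) hx
  have h1 : ∀ i : ℕ, red (((g : GalLoc p) ^ i) y / y) = 1 := fun i => by
    obtain ⟨k, -, hk⟩ := T.red_div_eq (g ^ i) hyL hy0
    rw [Subgroup.coe_pow, map_pow, hg, one_pow, one_zpow] at hk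
    exact hk
  have hsum : ∑ i ∈ Finset.range r, ((g : GalLoc p) ^ i) y / y = 0 := by
    rw [← Finset.sum_div]
    have e : ∀ i : ℕ, ((g : GalLoc p) ^ i) y =
        ((g : GalLoc p) ^ (i + 1)) x - ((g : GalLoc p) ^ i) x := fun i => by
      rw [pow_succ, AlgEquiv.mul_apply, map_sub]
    simp only [e]
    rw [Finset.sum_range_sub (fun i => ((g : GalLoc p) ^ i) x), hfix x hx, pow_zero,
      AlgEquiv.one_apply, sub_self, zero_div]
  have h2 := congrArg red hsum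
  rw [red_sum _ _ (fun i _ => (norm_div_eq_one _ hy0).le), red_zero] at h2
  simp only [h1, Finset.sum_const, Finset.card_range, nsmul_one, CharP.cast_eq_zero_iff (Res p) p]
    at h2
  exact hr h2

theorem exists_pow_fix : ∃ n : ℕ, 0 < n ∧ ∀ g : GalLoc p, ∀ x ∈ T.L, (g ^ n) x = x := by
  have := T.fin
  have := T.normal
  refine ⟨Nat.card (T.L ≃ₐ[ℚ_[p]] T.L), Nat.card_pos, fun g x hx => ?_⟩
  have h := AlgEquiv.restrictNormal_commutes (g ^ Nat.card (T.L ≃ₐ[ℚ_[p]] T.L)) T.L ⟨x, hx⟩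
  have h1 : AlgEquiv.restrictNormalHom T.L (g ^ Nat.card (T.L ≃ₐ[ℚ_[p]] T.L)) = 1 := by
    rw [map_pow, pow_card_eq_one']
  rw [show (g ^ Nat.card (T.L ≃ₐ[ℚ_[p]] T.L)).restrictNormal T.L = 1 from h1] at h
  exact h.symm

/-- Functions of level `L` send the kernel to elements of `p`-power order. -/
theorem pow_eq_one_of_ker {M : Type} [Monoid M] (ρ : inertiaLoc p →* M)
    (hρ : ∀ g : inertiaLoc p, (∀ x ∈ T.L, (g : GalLoc p) x = x) → ρ g = 1) {g : inertiaLoc p}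
    (hg : T.θ g = 1) : ∃ a : ℕ, ρ g ^ p ^ a = 1 := by
  obtain ⟨n, hn, hfix⟩ := T.exists_pow_fix
  obtain ⟨a, r, hr, rfl⟩ := Nat.exists_eq_pow_mul_and_not_dvd hn.ne' p hp.out.ne_one
  refine ⟨a, ?_⟩
  rw [← map_pow]
  refine hρ _ (T.fixes_of_pow_fixes (r := r) (by rw [map_pow, hg, one_pow]) hr fun x hx => ?_)
  rw [Subgroup.coe_pow, ← pow_mul]
  exact hfix _ x hx

/-- Frobenius acts on the tame character by `p`-th powers. -/
theorem θ_conj {φ : GalLoc p} (hφ : IsFrob φ) (g : inertiaLoc p) (h : φ * g * φ⁻¹ ∈ inertiaLoc p) :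
    T.θ ⟨_, h⟩ = T.θ g ^ p := by
  have := T.normal
  set y := φ⁻¹ T.x₀
  have hy0 : y ≠ 0 := (map_ne_zero _).mpr T.x₀_ne
  have hyL : y ∈ T.L := apply_mem_normal T.L _ T.x₀_mem
  obtain ⟨k, hk, hgy⟩ := T.red_div_eq g hyL hy0
  have hx1 : (φ ^ 1) ((g : GalLoc p) y / y) = (φ * g * φ⁻¹) T.x₀ / T.x₀ := by
    rw [pow_one, map_div₀, AlgEquiv.mul_apply, AlgEquiv.mul_apply]
    congr 1
    rw [← AlgEquiv.mul_apply, mul_inv_cancel, AlgEquiv.one_apply]
  have e := hφ.red_pow 1 (norm_div_eq_one (g : GalLoc p) hy0).le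
  rw [hx1, pow_one, hgy] at e
  rw [θ_apply, Subgroup.coe_mk, e]
  rcases eq_or_ne ‖T.x₀‖ 1 with h1 | h1
  · have : T.θ g = 1 := red_div_unit g.2 h1
    rw [this, one_zpow]
  · rw [norm_loc] at hk
    have : k = 1 := by
      refine (zpow_right_injective₀ (norm_pos_iff.mpr T.x₀_ne) h1
        (hk.symm.trans (zpow_one _).symm))
    rw [this, zpow_one]

/-- The range of the tame character is cyclic. -/
theorem exists_θ_generator : ∃ g : inertiaLoc p, ∀ h : inertiaLoc p, ∃ j : ℕ,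
    T.θ h = T.θ g ^ j := by
  have := T.normal
  have := T.fin
  obtain ⟨n, hn, hfix⟩ := T.exists_pow_fix
  let u : inertiaLoc p →* (Res p)ˣ :=
    { toFun := fun g => Units.mk0 (T.θ g) (T.θ_ne_zero g)
      map_one' := Units.ext (map_one T.θ)
      map_mul' := fun g h => Units.ext (map_mul T.θ g h) }
  have hsub : u.range ≤ rootsOfUnity n (Res p) := by
    rintro _ ⟨g, rfl⟩
    rw [mem_rootsOfUnity]
    refine Units.ext ?_
    have e : T.θ (g ^ n) = 1 := by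
      rw [θ_apply, Subgroup.coe_pow, hfix _ _ T.x₀_mem, div_self T.x₀_ne, red_one]
    rwa [map_pow] at e
  have : NeZero n := ⟨hn.ne'⟩
  have : IsCyclic u.range := isCyclic_of_injective (Subgroup.inclusion hsub)
    (Subgroup.inclusion_injective hsub)
  have : Finite u.range := Finite.of_injective (Subgroup.inclusion hsub)
    (Subgroup.inclusion_injective hsub)
  obtain ⟨⟨_, g, rfl⟩, hgen⟩ := IsCyclic.exists_monoid_generator (α := u.range)
  refine ⟨g, fun h => ?_⟩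
  obtain ⟨j, hj⟩ := hgen ⟨u h, h, rfl⟩
  exact ⟨j, (congrArg (fun w : u.range => ((w : (Res p)ˣ) : Res p)) hj).symm⟩

end Level

/-- A character of inertia with values prime to `p`, invariant under a `d`-th power of Frobenius,
is trivial on `J` for `e = p ^ d - 1`. -/
theorem char_eq_one_on_J (U : Unif p) {d : ℕ} (he : U.e = p ^ d - 1) {k : Type} [Field k]
    [CharP k p] (ψ : inertiaLoc p →* k) (L₀ : IntermediateField ℚ_[p] Ω)
    [FiniteDimensional ℚ_[p] L₀]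
    (hψ : ∀ g : inertiaLoc p, (∀ x ∈ L₀, (g : GalLoc p) x = x) → ψ g = 1) {φ : GalLoc p}
    (hφ : IsFrob φ) (hinv : ∀ g : inertiaLoc p, ψ ⟨φ ^ d * g * (φ ^ d)⁻¹,
      conj_mem_inertiaLoc _ g.2⟩ = ψ g) {g : inertiaLoc p} (hg : (g : GalLoc p) ∈ U.J) :
    ψ g = 1 := by
  have : FiniteDimensional ℚ_[p] ℚ_[p]⟮U.π⟯ :=
    IntermediateField.adjoin.finiteDimensional (Algebra.IsAlgebraic.isAlgebraic U.π).isIntegral
  obtain ⟨T, hT⟩ := exists_level (L₀ ⊔ ℚ_[p]⟮U.π⟯)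
  have hfac : ∀ x y : inertiaLoc p, T.θ x = T.θ y → ψ x = ψ y := by
    intro x y hxy
    have hk : T.θ (x * y⁻¹) = 1 := by
      rw [map_mul, hxy, ← map_mul, mul_inv_cancel, map_one]
    obtain ⟨a, ha⟩ := T.pow_eq_one_of_ker ψ
      (fun g hg => hψ g fun z hz => hg z (hT (le_sup_left (b := ℚ_[p]⟮U.π⟯) hz))) hk
    have h1 : ψ (x * y⁻¹) = 1 := by
      have h2 : (ψ (x * y⁻¹) - 1) ^ p ^ a = 0 := by rw [sub_pow_char_pow, ha, one_pow, sub_self]
      exact sub_eq_zero.mp (eq_zero_of_pow_eq_zero h2)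
    calc ψ x = ψ (x * y⁻¹ * y) := by rw [inv_mul_cancel_right]
      _ = ψ y := by rw [map_mul, h1, one_mul]
  obtain ⟨g₀, hg₀⟩ := T.exists_θ_generator
  have hψ₀ : ψ g₀ ^ U.e = 1 := by
    have h1 : ∀ n : ℕ, ∀ x : inertiaLoc p,
        T.θ ⟨φ ^ n * x * (φ ^ n)⁻¹, conj_mem_inertiaLoc _ x.2⟩ = T.θ x ^ p ^ n := by
      intro n
      induction n with
      | zero => intro x; simp
      | succ n ih =>
        intro x
        rw [show p ^ (n + 1) = p ^ n * p from pow_succ p n, pow_mul, ← ih x,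
          ← T.θ_conj hφ ⟨_, conj_mem_inertiaLoc (φ ^ n) x.2⟩ (conj_mem_inertiaLoc _
            (conj_mem_inertiaLoc (φ ^ n) x.2))]
        congr 1
        apply Subtype.ext
        simp only [pow_succ']
        group
    have h2 : ψ g₀ = ψ g₀ ^ p ^ d := by
      conv_lhs => rw [← hinv g₀, hfac _ (g₀ ^ p ^ d) (by rw [h1, map_pow]), map_pow]
    have hne : ψ g₀ ≠ 0 := fun h0 => by
      have := map_mul ψ g₀ g₀⁻¹
      rw [mul_inv_cancel, map_one, h0, zero_mul] at this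
      exact one_ne_zero this
    refine mul_right_cancel₀ hne ?_
    rw [he, one_mul, ← pow_succ, Nat.sub_add_cancel (Nat.one_le_pow d p hp.out.pos), ← h2]
  obtain ⟨τ, hτ, z, hz, hτπ⟩ := U.exists_generator
  obtain ⟨j, hj⟩ := hg₀ g
  obtain ⟨jτ, hjτ⟩ := hg₀ ⟨τ, hτ⟩
  have hπL : U.π ∈ T.L :=
    hT (le_sup_right (a := L₀) (IntermediateField.mem_adjoin_simple_self _ U.π))
  obtain ⟨M, hM, hM1⟩ := T.red_div_eq ⟨τ, hτ⟩ hπL U.π_ne_zero
  obtain ⟨M', hM', hM2⟩ := T.red_div_eq g hπL U.π_ne_zero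
  have hx1 : ‖T.x₀‖ ≠ 1 := fun h1 => by
    rw [h1, one_zpow] at hM
    exact U.norm_π_lt_one.ne hM
  obtain rfl : M = M' := zpow_right_injective₀ (norm_pos_iff.mpr T.x₀_ne) hx1 (hM.symm.trans hM')
  have hzn : ‖z‖ = 1 := norm_eq_one_of_pow_eq_one U.e_ne_zero hz.pow_eq_one
  rw [Subgroup.coe_mk, hτπ, mul_div_assoc, div_self U.π_ne_zero, mul_one, hjτ] at hM1
  rw [(U.mem_J.mp hg).2, div_self U.π_ne_zero, red_one, hj] at hM2
  have hrz : IsPrimitiveRoot (red z) U.e := by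
    refine ⟨by rw [← red_pow hzn.le, hz.pow_eq_one, red_one], fun l hl => ?_⟩
    rw [← red_pow hzn.le, ← red_one (p := p),
      red_eq_red_iff (by rw [norm_pow, hzn, one_pow]) (by simp)] at hl
    exact hz.dvd_of_pow_eq_one _ (root_eq_of_near U.not_dvd
      (by rw [← pow_mul, mul_comm, pow_mul, hz.pow_eq_one, one_pow]) (one_pow _) hl)
  have hdvd : U.e ∣ j * 1 := by
    have h1 : red z ^ j = 1 := by
      rw [hM1]
      rw [← zpow_natCast (T.θ g₀) jτ, ← zpow_mul, ← zpow_natCast _ j, ← zpow_mul,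
        show (jτ : ℤ) * M * j = (j : ℤ) * M * jτ by ring, zpow_mul, zpow_mul,
          zpow_natCast (T.θ g₀) j,
        ← hM2, one_zpow]
    rw [mul_one]
    exact hrz.dvd_of_pow_eq_one _ h1
  rw [mul_one] at hdvd
  obtain ⟨c, rfl⟩ := hdvd
  rw [hfac g (g₀ ^ (U.e * c)) (by rw [map_pow, hj]), map_pow, pow_mul, hψ₀, one_pow]

end Fermat.Agent.LocalModelP
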