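import Fermat.Agent.LocalModelP.Detector
import Fermat.Agent.LocalModelP.TameQuot
import Fermat.Agent.FlatBound.Model
import Fermat.Agent.FlatModel.Subquotient

/-!
# The connected part of a flat model killed by `p`

`x` is connected if it is congruent to `0` for every function of the model.  Inertia moves points
by connected ones, a connected point fixed by inertia vanishes, and the tame action on the
nonzero connected points has an exponent at most `e / (p - 1)`.
-/

set_option autoImplicit false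

noncomputable section

open Finset

namespace Fermat.Agent.LocalModelP

open Fermat.Agent.Duality Fermat.Agent.FlatBound Fermat.Agent.FlatModel

variable {p : ℕ} [hp : Fact p.Prime]

local notation "Ω" => PadicAlgCl p

variable {G : Type} [AddCommGroup G] {act : FlatModel.GalQ →* AddMonoid.End G}

/-- Congruent to `0` for all functions of the model. -/
def IsConn (M : Model p act) (x : G) : Prop :=
  ∀ φ ∈ M.H, ‖padicEmbedding p (φ x) - padicEmbedding p (φ 0)‖ < 1

theorem add_eq_bilin {ι : Type} [Fintype ι] (C : FlatBound.Coords Ω G ι) (j : ι) (x y : G) :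
    C.φ j (x + y) - C.φ j x - C.φ j y + C.φ j 0 =
      ∑ k, ∑ l, C.b j k l * ((C.φ k x - C.φ k 0) * (C.φ l y - C.φ l 0)) := by
  have h1 := C.add_eq j x y
  have h2 := C.add_eq j x 0
  have h3 := C.add_eq j 0 y
  have h4 := C.add_eq j 0 0
  rw [add_zero] at h2 h4
  rw [zero_add] at h3
  rw [h1]
  nth_rw 1 [h2, h3, h4]
  simp only [← Finset.sum_sub_distrib, ← Finset.sum_add_distrib]
  exact Finset.sum_congr rfl fun k _ => Finset.sum_congr rfl fun l _ => by ring

variable [Finite G] (M : Model p act)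

theorem isConn_of_coords {x : G}
    (h : ∀ j, ‖(localCoords M).φ j x - (localCoords M).φ j 0‖ < 1) : IsConn M x := by
  intro φ hφ
  rw [emb_eq_sum M ⟨φ, hφ⟩, emb_eq_sum M ⟨φ, hφ⟩, ← Finset.sum_sub_distrib]
  rcases (Finset.univ : Finset (Module.Free.ChooseBasisIndex (GaloisRep.ratLocalizedAt p) M.H))
    |>.eq_empty_or_nonempty with he | hne
  · simp [he]
  · obtain ⟨j, -, hj⟩ := IsUltrametricDist.exists_norm_finsetSum_le_of_nonempty hne fun j =>
      locCoe ((modelBasis M).repr ⟨φ, hφ⟩ j) * localφ M j x -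
        locCoe ((modelBasis M).repr ⟨φ, hφ⟩ j) * localφ M j 0
    refine hj.trans_lt ?_
    rw [← mul_sub, norm_mul]
    exact lt_of_le_of_lt (mul_le_of_le_one_left (norm_nonneg _) (norm_locCoe_le _)) (h j)

theorem IsConn.coords {x : G} (h : IsConn M x)
    (j : Module.Free.ChooseBasisIndex (GaloisRep.ratLocalizedAt p) M.H) :
    ‖(localCoords M).φ j x - (localCoords M).φ j 0‖ < 1 :=
  h _ (modelBasis M j).2

theorem coords_zero_fixed (g : GalLoc p)
    (j : Module.Free.ChooseBasisIndex (GaloisRep.ratLocalizedAt p) M.H) :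
    g ((localCoords M).φ j 0) = (localCoords M).φ j 0 := by
  show g (localφ M j 0) = localφ M j 0
  rw [localφ_act, map_zero]

theorem apply_coord_sub (g : GalLoc p) (x : G)
    (j : Module.Free.ChooseBasisIndex (GaloisRep.ratLocalizedAt p) M.H) :
    g ((localCoords M).φ j x - (localCoords M).φ j 0) =
      (localCoords M).φ j (act (localGaloisToGlobal p g) x) - (localCoords M).φ j 0 := by
  rw [map_sub, coords_zero_fixed]
  show g (localφ M j x) - _ = localφ M j _ - _
  rw [localφ_act]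

/-- Inertia moves points by connected points. -/
theorem isConn_act_sub {g : GalLoc p} (hg : g ∈ inertiaLoc p) (x : G) :
    IsConn M (act (localGaloisToGlobal p g) x - x) := by
  set C := localCoords M
  refine isConn_of_coords M fun j => ?_
  set y := act (localGaloisToGlobal p g) x
  have h1 := add_eq_bilin C j y (-x)
  have h2 := add_eq_bilin C j x (-x)
  rw [← sub_eq_add_neg] at h1
  rw [add_neg_cancel] at h2
  have hd : ∀ k, ‖C.φ k y - C.φ k x‖ < 1 := fun k => by
    have := mem_inertiaLoc_iff.mp hg (C.φ k x) (C.norm_φ_le k x)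
    rwa [show g (C.φ k x) = C.φ k y from localφ_act M g k x] at this
  have e : C.φ j (y - x) - C.φ j 0 = (C.φ j y - C.φ j x) +
      ∑ k, ∑ l, C.b j k l * ((C.φ k y - C.φ k x) * (C.φ l (-x) - C.φ l 0)) := by
    have e1 : ∑ k, ∑ l, C.b j k l * ((C.φ k y - C.φ k x) * (C.φ l (-x) - C.φ l 0)) =
        (∑ k, ∑ l, C.b j k l * ((C.φ k y - C.φ k 0) * (C.φ l (-x) - C.φ l 0))) -
          ∑ k, ∑ l, C.b j k l * ((C.φ k x - C.φ k 0) * (C.φ l (-x) - C.φ l 0)) := by
      simp only [← Finset.sum_sub_distrib]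
      exact Finset.sum_congr rfl fun k _ => Finset.sum_congr rfl fun l _ => by ring
    rw [e1, ← h1, ← h2]
    ring
  rw [e]
  refine (IsUltrametricDist.norm_add_le_max _ _).trans_lt (max_lt (hd j) ?_)
  rcases (Finset.univ : Finset (Module.Free.ChooseBasisIndex (GaloisRep.ratLocalizedAt p) M.H))
    |>.eq_empty_or_nonempty with he | hne
  · simp [he]
  · obtain ⟨k, -, hk⟩ := IsUltrametricDist.exists_norm_finsetSum_le_of_nonempty hne fun k =>
      ∑ l, C.b j k l * ((C.φ k y - C.φ k x) * (C.φ l (-x) - C.φ l 0))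
    refine hk.trans_lt (lt_of_le_of_lt ?_ (hd k))
    refine IsUltrametricDist.norm_sum_le_of_forall_le_of_nonneg (norm_nonneg _) fun l _ => ?_
    rw [norm_mul, norm_mul, mul_comm ‖C.φ k y - C.φ k x‖, ← mul_assoc]
    refine mul_le_of_le_one_left (norm_nonneg _)
      (mul_le_one₀ (C.norm_b_le _ _ _) (norm_nonneg _) ?_)
    exact (norm_sub_le_max' _ _).trans (max_le (C.norm_φ_le _ _) (C.norm_φ_le _ _))

variable (hG : ∀ x : G, p • x = 0)

include hG

/-- A connected point fixed by inertia is zero. -/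
theorem eq_zero_of_isConn_fixed (hp2 : p ≠ 2) {x : G} (hx : IsConn M x)
    (hfix : ∀ g ∈ inertiaLoc p, act (localGaloisToGlobal p g) x = x) : x = 0 := by
  obtain ⟨ζ, hζ⟩ := exists_primitive_root (p := p)
  refine (localCoords M).eq_of_near hζ hG (c := ‖(p : Ω)‖) ?_ fun j => ?_
  · have h2 : 2 ≤ p - 1 := by have := hp.out.two_le; omega
    exact lt_of_le_of_lt (pow_le_pow_of_le_one (norm_nonneg _) norm_p_lt_one.le h2)
      (by rw [sq]; exact mul_lt_of_lt_one_left norm_p_pos norm_p_lt_one)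
  · rcases eq_or_ne ((localCoords M).φ j x - (localCoords M).φ j 0) 0 with h0 | h0
    · rw [h0, norm_zero]; exact norm_nonneg _
    obtain ⟨m, hm⟩ := norm_eq_zpow_of_fixed h0 fun g hg => by
      rw [apply_coord_sub, hfix g hg]
    have h1 := hx.coords M j
    rw [hm] at h1 ⊢
    rw [← zpow_zero ‖(p : Ω)‖, zpow_lt_zpow_iff_right_of_lt_one₀ norm_p_pos norm_p_lt_one] at h1
    conv_rhs => rw [← zpow_one ‖(p : Ω)‖]
    rw [zpow_le_zpow_iff_right_of_lt_one₀ norm_p_pos norm_p_lt_one]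
    omega

/-- The tame exponent of a nonzero connected point. -/
theorem exists_exponent_conn (U : Unif p) {x₁ : G} (hx₁ : IsConn M x₁) (hx₁0 : x₁ ≠ 0)
    (hJ : ∀ g ∈ U.J, act (localGaloisToGlobal p g) x₁ = x₁) :
    ∃ m : ℕ, 1 ≤ m ∧ m * (p - 1) ≤ U.e ∧
      ∀ τ ∈ inertiaLoc p, ∀ z : Ω, τ U.π = z * U.π → ∀ n₀ n₁ n₂ : ℕ,
        (n₂ • act (localGaloisToGlobal p τ) (act (localGaloisToGlobal p τ) x₁) +
          n₁ • act (localGaloisToGlobal p τ) x₁ + n₀ • x₁ = 0) →
        (n₂ : Res p) * (red z ^ m) ^ 2 + (n₁ : Res p) * red z ^ m + (n₀ : Res p) = 0 := by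
  classical
  set C := localCoords M
  set c := fun (x : G) j => C.φ j x - C.φ j 0 with hc
  obtain ⟨ζ, hζ⟩ := exists_primitive_root (p := p)
  -- the scale of a connected point
  have hne : ∀ x : G, x ≠ 0 → ∃ j, ‖(p : Ω)‖ ≤ ‖c x j‖ ^ (p - 1) := fun x hx =>
    C.exists_coord_far hζ hG hx
  have hι : (Finset.univ :
      Finset (Module.Free.ChooseBasisIndex (GaloisRep.ratLocalizedAt p) M.H)).Nonempty := by
    obtain ⟨j, -⟩ := hne x₁ hx₁0
    exact ⟨j, Finset.mem_univ j⟩
  set r : G → ℝ := fun x => Finset.univ.sup' hι fun j => ‖c x j‖ with hr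
  obtain ⟨x₀, hx₀c, hx₀0, rfl⟩ : ∃ x : G, IsConn M x ∧ x ≠ 0 ∧ x = x₁ := ⟨x₁, hx₁, hx₁0, rfl⟩
  obtain ⟨j₀, -, hj₀⟩ := Finset.exists_mem_eq_sup' hι fun j => ‖c x₀ j‖
  set s := r x₀
  have hs : ‖c x₀ j₀‖ = s := hj₀.symm
  have hs1 : s < 1 := hs ▸ hx₀c.coords M j₀
  have hsp : ‖(p : Ω)‖ ≤ s ^ (p - 1) := by
    obtain ⟨j, hj⟩ := hne x₀ hx₀0
    exact hj.trans (pow_le_pow_left₀ (norm_nonneg _)
      (Finset.le_sup' (fun j => ‖c x₀ j‖) (Finset.mem_univ j)) _)
  have hp1 : p - 1 ≠ 0 := Nat.sub_ne_zero_of_lt hp.out.one_lt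
  have hs0 : 0 < s := by
    refine lt_of_le_of_ne (hs ▸ norm_nonneg _) fun h => ?_
    rw [← h, zero_pow hp1] at hsp
    exact norm_p_pos.not_ge hsp
  set c₀ := c x₀ j₀
  have hc₀ : c₀ ≠ 0 := norm_pos_iff.mp (hs.symm ▸ hs0)
  obtain ⟨mz, hmz⟩ := U.norm_eq_zpow hc₀ fun g hg => by
    simp only [c₀, hc]
    rw [apply_coord_sub, hJ g hg]
  rw [hs] at hmz
  have hm1 : 1 ≤ mz := by
    rw [hmz, ← zpow_zero ‖U.π‖,
      zpow_lt_zpow_iff_right_of_lt_one₀ U.norm_π_pos U.norm_π_lt_one] at hs1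
    omega
  obtain ⟨m, rfl⟩ := Int.eq_ofNat_of_zero_le (show 0 ≤ mz by omega)
  rw [zpow_natCast] at hmz
  refine ⟨m, by omega, ?_, fun τ hτ z hz n₀ n₁ n₂ hrel => ?_⟩
  · rw [hmz, ← U.norm_π_pow, ← pow_mul,
      pow_le_pow_iff_right_of_lt_one₀ U.norm_π_pos U.norm_π_lt_one] at hsp
    exact hsp
  -- the points with `r ≤ s` and their leading map
  let A : Set G := {x | ∀ j, ‖c x j‖ ≤ s}
  let Λ : G → Module.Free.ChooseBasisIndex (GaloisRep.ratLocalizedAt p) M.H → Res p :=
    fun x j => red (c x j / c₀)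
  have hint : ∀ x ∈ A, ∀ j, ‖c x j / c₀‖ ≤ 1 := fun x hx j => by
    rw [norm_div, hs]
    exact (div_le_one hs0).mpr (hx j)
  have hsum : ∀ x ∈ A, ∀ y ∈ A, ∀ j, ‖c (x + y) j - (c x j + c y j)‖ ≤ s * s := by
    intro x hx y hy j
    rw [show c (x + y) j - (c x j + c y j) = C.φ j (x + y) - C.φ j x - C.φ j y + C.φ j 0 by
      simp only [hc]; ring, add_eq_bilin]
    refine IsUltrametricDist.norm_sum_le_of_forall_le_of_nonneg (by positivity) fun k _ => ?_
    refine IsUltrametricDist.norm_sum_le_of_forall_le_of_nonneg (by positivity) fun l _ => ?_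
    rw [norm_mul, norm_mul]
    exact (mul_le_of_le_one_left (by positivity) (C.norm_b_le _ _ _)).trans
      (mul_le_mul (hx k) (hy l) (norm_nonneg _) hs0.le)
  have hss : s * s < s := mul_lt_of_lt_one_left hs0 hs1
  have hAadd : ∀ x ∈ A, ∀ y ∈ A, x + y ∈ A ∧ Λ (x + y) = Λ x + Λ y := by
    intro x hx y hy
    have hA : x + y ∈ A := fun j => by
      rw [show c (x + y) j = (c (x + y) j - (c x j + c y j)) + (c x j + c y j) by ring]
      exact (IsUltrametricDist.norm_add_le_max _ _).trans (max_le ((hsum x hx y hy j).trans hss.le)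
        ((IsUltrametricDist.norm_add_le_max _ _).trans (max_le (hx j) (hy j))))
    refine ⟨hA, funext fun j => ?_⟩
    show red _ = red _ + red _
    rw [← red_add (hint x hx j) (hint y hy j), red_eq_red_iff (hint _ hA j)
      ((IsUltrametricDist.norm_add_le_max _ _).trans (max_le (hint x hx j) (hint y hy j))),
      ← add_div, ← sub_div, norm_div, hs, div_lt_one hs0]
    exact lt_of_le_of_lt (hsum x hx y hy j) hss
  have hA0 : (0 : G) ∈ A := fun j => by simp [hc, hs0.le]
  have hΛ0 : Λ 0 = 0 := funext fun j => by simp [Λ, hc]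
  have hAsmul : ∀ (n : ℕ), ∀ x ∈ A, n • x ∈ A ∧ Λ (n • x) = n • Λ x := by
    intro n x hx
    induction n with
    | zero => exact ⟨by simpa using hA0, by simp [hΛ0]⟩
    | succ n ih =>
      rw [succ_nsmul, succ_nsmul]
      obtain ⟨h1, h2⟩ := hAadd _ ih.1 _ hx
      exact ⟨h1, by rw [h2, ih.2]⟩
  have hθ : red (τ c₀ / c₀) = red z ^ m := by
    have hπ0 : U.π ^ m ≠ 0 := pow_ne_zero _ U.π_ne_zero
    have hu : ‖c₀ / U.π ^ m‖ = 1 := by
      rw [norm_div, norm_pow, hs, hmz, div_self (pow_ne_zero _ U.norm_π_pos.ne')]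
    have hzn : ‖z‖ = 1 := by
      have h1 := congrArg norm hz
      rw [norm_loc, norm_mul] at h1
      exact (mul_eq_right₀ U.norm_π_pos.ne').mp h1.symm
    have hu0 : c₀ / U.π ^ m ≠ 0 := div_ne_zero hc₀ hπ0
    rw [show τ c₀ / c₀ = τ (c₀ / U.π ^ m) / (c₀ / U.π ^ m) * z ^ m by
        rw [map_div₀, map_pow, hz, mul_pow]
        have hz0 : z ^ m ≠ 0 := pow_ne_zero _ fun h => by simp [h] at hzn
        field_simp,
      red_mul (by rw [norm_div, norm_loc, div_self (norm_ne_zero_iff.mpr hu0)])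
        (by rw [norm_pow, hzn, one_pow]), red_div_unit hτ hu, one_mul, red_pow hzn.le]
  have hAτ : ∀ x ∈ A, act (localGaloisToGlobal p τ) x ∈ A ∧
      Λ (act (localGaloisToGlobal p τ) x) = fun j => red z ^ m * Λ x j := by
    intro x hx
    have he : ∀ j, c (act (localGaloisToGlobal p τ) x) j = τ (c x j) := fun j =>
      (apply_coord_sub M τ x j).symm
    refine ⟨fun j => by rw [he, norm_loc]; exact hx j, funext fun j => ?_⟩
    show red _ = _ * red _
    rw [he, ← hθ, show τ (c x j) / c₀ = τ (c x j / c₀) * (τ c₀ / c₀) by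
        rw [map_div₀]
        have : τ c₀ ≠ 0 := (map_ne_zero _).mpr hc₀
        field_simp,
      red_mul (by rw [norm_loc]; exact hint x hx j)
        (by rw [norm_div, norm_loc, div_self (norm_ne_zero_iff.mpr hc₀)]),
      red_inertia hτ (hint x hx j), mul_comm]
  have hx₀A : x₀ ∈ A := fun j => Finset.le_sup' (fun j => ‖c x₀ j‖) (Finset.mem_univ j)
  have h1 := hAτ x₀ hx₀A
  have h2 := hAτ _ h1.1
  have h := hrel
  have e := congrFun (congrArg Λ h) j₀
  rw [(hAadd _ (hAadd _ (hAsmul n₂ _ h2.1).1 _ (hAsmul n₁ _ h1.1).1).1 _ (hAsmul n₀ _ hx₀A).1).2,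
    (hAadd _ (hAsmul n₂ _ h2.1).1 _ (hAsmul n₁ _ h1.1).1).2, (hAsmul n₂ _ h2.1).2,
    (hAsmul n₁ _ h1.1).2, (hAsmul n₀ _ hx₀A).2, h2.2, h1.2, hΛ0] at e
  simp only [Pi.add_apply, Pi.mul_apply, Pi.natCast_apply, Pi.zero_apply, nsmul_eq_mul] at e
  have hone : Λ x₀ j₀ = 1 := by
    show red (c₀ / c₀) = 1
    rw [div_self hc₀, red_one]
  rw [hone] at e
  linear_combination e

omit hG

/-- The connected points form a subgroup. -/
theorem IsConn.add {x y : G} (hx : IsConn M x) (hy : IsConn M y) : IsConn M (x + y) := by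
  set C := localCoords M
  refine isConn_of_coords M fun j => ?_
  rw [show C.φ j (x + y) - C.φ j 0 = (C.φ j x - C.φ j 0) + (C.φ j y - C.φ j 0) +
    (C.φ j (x + y) - C.φ j x - C.φ j y + C.φ j 0) by ring, add_eq_bilin]
  refine (IsUltrametricDist.norm_add_le_max _ _).trans_lt (max_lt
    ((IsUltrametricDist.norm_add_le_max _ _).trans_lt (max_lt (hx.coords M j) (hy.coords M j))) ?_)
  rcases (Finset.univ : Finset (Module.Free.ChooseBasisIndex (GaloisRep.ratLocalizedAt p) M.H))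
    |>.eq_empty_or_nonempty with he | hne
  · simp [he]
  · obtain ⟨k, -, hk⟩ := IsUltrametricDist.exists_norm_finsetSum_le_of_nonempty hne fun k =>
      ∑ l, C.b j k l * ((C.φ k x - C.φ k 0) * (C.φ l y - C.φ l 0))
    refine hk.trans_lt (lt_of_le_of_lt ?_ (hx.coords M k))
    refine IsUltrametricDist.norm_sum_le_of_forall_le_of_nonneg (norm_nonneg _) fun l _ => ?_
    rw [norm_mul, norm_mul, mul_comm ‖C.φ k x - C.φ k 0‖, ← mul_assoc]
    exact mul_le_of_le_one_left (norm_nonneg _)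
      (mul_le_one₀ (C.norm_b_le _ _ _) (norm_nonneg _) (hy.coords M l).le)

theorem IsConn.nsmul {x : G} (hx : IsConn M x) (n : ℕ) : IsConn M (n • x) := by
  induction n with
  | zero => intro φ _; simp
  | succ n ih => rw [succ_nsmul]; exact ih.add M hx

theorem IsConn.act_loc {x : G} (hx : IsConn M x) (g : GalLoc p) :
    IsConn M (act (localGaloisToGlobal p g) x) :=
  isConn_of_coords M fun j => by rw [← apply_coord_sub, norm_loc]; exact hx.coords M j

omit [Finite G] in
theorem isConn_comap {G' : Type} [AddCommGroup G'] {act' : FlatModel.GalQ →* AddMonoid.End G'}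
    {i : G' →+ G} (hi : Function.Injective i) (hcomm : ∀ σ x, i (act' σ x) = act σ (i x))
    {x : G'} (hx : IsConn M (i x)) : IsConn (M.comap i hi hcomm) x := by
  rintro _ ⟨φ, hφ, rfl⟩
  show ‖padicEmbedding p (φ (i x)) - padicEmbedding p (φ (i 0))‖ < 1
  rw [map_zero]
  exact hx φ hφ

/-- A character of `G`. -/
def fChar (S : Setup p) (f : G →+ ZMod p) : AddChar G (PadicAlgCl p) where
  toFun x := zp S.ζ (f x)
  map_zero_eq_one' := by rw [map_zero, zp_zero]
  map_add_eq_mul' x y := by rw [map_add, zp_add S.ζ_pow]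

omit [Finite G] in
theorem fChar_apply (S : Setup p) (f : G →+ ZMod p) (x : G) : fChar S f x = zp S.ζ (f x) := rfl

theorem apply_ψ_fChar (S : Setup p) {f : G →+ ZMod p} {g : GalLoc p}
    (hf : ∀ x, f (act (localGaloisToGlobal p g) x) = f x) {a : ℕ} (ha : g S.ζ = S.ζ ^ a)
    (j : Module.Free.ChooseBasisIndex (GaloisRep.ratLocalizedAt p) M.H) :
    g ((localCoords M).ψ (fChar S f) j) = (localCoords M).ψ (fChar S (a • f)) j := by
  set C := localCoords M
  refine congrFun (C.coord_ext (f := fun j => g (C.ψ (fChar S f) j))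
    (g := C.ψ (fChar S (a • f))) fun y => ?_) j
  obtain ⟨x, rfl⟩ := act_surjective act (localGaloisToGlobal p g) y
  rw [C.sum_ψ, fChar_apply]
  calc ∑ i, g (C.ψ (fChar S f) i) * C.φ i (act (localGaloisToGlobal p g) x)
      = g (∑ i, C.ψ (fChar S f) i * C.φ i x) := by
        rw [map_sum]
        exact Finset.sum_congr rfl fun i _ => by
          rw [map_mul, show g (C.φ i x) = C.φ i _ from localφ_act M g i x]
    _ = zp S.ζ ((a • f) (act (localGaloisToGlobal p g) x)) := by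
        obtain ⟨n, hn⟩ := ZMod.natCast_zmod_surjective (f x)
        rw [C.sum_ψ, fChar_apply, AddMonoidHom.nsmul_apply, hf, ← hn, nsmul_eq_mul, ← Nat.cast_mul,
          zp_natCast S.ζ_pow, zp_natCast S.ζ_pow, map_pow, ha, ← pow_mul]

/-- Connected points are killed by the functionals fixed by inertia. -/
theorem eq_zero_of_isConn_functional (S : Setup p) (he : S.e₁ = 1) {x : G} (hx : IsConn M x)
    (f : G →+ ZMod p)
    (hf : ∀ g ∈ inertiaLoc p, ∀ y, f (act (localGaloisToGlobal p g) y) = f y) : f x = 0 := by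
  classical
  set C := localCoords M
  obtain ⟨τ, hτ, hτζ⟩ := setup_one_ne he
  have : NeZero p := ⟨hp.out.ne_zero⟩
  obtain ⟨w, -, hw⟩ := S.hζ.eq_pow_of_pow_eq_one
    (show (τ S.ζ) ^ p = 1 by rw [← map_pow, S.ζ_pow, map_one])
  have hw1 : (w : ZMod p) ≠ 1 := fun h => by
    refine hτζ ?_
    rw [← hw, ← zp_natCast S.ζ_pow, h, ← Nat.cast_one, zp_natCast S.ζ_pow, pow_one]
  obtain ⟨v, hv⟩ := ZMod.natCast_zmod_surjective ((1 : ZMod p) / ((w : ZMod p) - 1))
  set f₁ : G →+ ZMod p := v • f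
  have hf₁ : ∀ g ∈ inertiaLoc p, ∀ y, f₁ (act (localGaloisToGlobal p g) y) = f₁ y :=
    fun g hg y => by rw [AddMonoidHom.nsmul_apply, AddMonoidHom.nsmul_apply, hf g hg y]
  have hchar : fChar S (w • f₁) = fChar S f * fChar S f₁ := by
    ext y
    rw [AddChar.mul_apply, fChar_apply, fChar_apply, fChar_apply, ← zp_add S.ζ_pow,
      AddMonoidHom.nsmul_apply, AddMonoidHom.nsmul_apply, nsmul_eq_mul, nsmul_eq_mul, hv]
    congr 1
    field_simp [sub_ne_zero.mpr hw1]
    ring
  -- the coordinates of the character are congruent to those of the trivial one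
  have hconn : ∀ j, ‖C.ψ (fChar S f) j - C.ψ 1 j‖ < 1 := by
    intro j
    set χ := fChar S f₁
    set χ' := fChar S (-f₁)
    have h1 : χ * χ' = 1 := by
      ext y
      rw [AddChar.mul_apply, AddChar.one_apply, fChar_apply, fChar_apply, ← zp_add S.ζ_pow,
        AddMonoidHom.neg_apply, add_neg_cancel, zp_zero]
    have h2 : fChar S f = fChar S (w • f₁) * χ' := by rw [hchar, mul_assoc, h1, mul_one]
    rw [h2, ← h1, C.ψ_mul, C.ψ_mul, ← Finset.sum_sub_distrib]
    have hd : ∀ k, ‖C.ψ (fChar S (w • f₁)) k - C.ψ χ k‖ < 1 := fun k => by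
      rw [← apply_ψ_fChar M S (hf₁ τ hτ) hw.symm k]
      exact mem_inertiaLoc_iff.mp hτ _ (C.norm_ψ_le χ k)
    rcases (Finset.univ : Finset (Module.Free.ChooseBasisIndex (GaloisRep.ratLocalizedAt p) M.H))
      |>.eq_empty_or_nonempty with he' | hne
    · simp [he']
    · obtain ⟨k, -, hk⟩ := IsUltrametricDist.exists_norm_finsetSum_le_of_nonempty hne fun k =>
        ∑ l, C.a k l j * (C.ψ (fChar S (w • f₁)) k * C.ψ χ' l) -
          ∑ l, C.a k l j * (C.ψ χ k * C.ψ χ' l)
      refine hk.trans_lt (lt_of_le_of_lt ?_ (hd k))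
      rw [← Finset.sum_sub_distrib]
      refine IsUltrametricDist.norm_sum_le_of_forall_le_of_nonneg (norm_nonneg _) fun l _ => ?_
      rw [← mul_sub, ← sub_mul, norm_mul, norm_mul, mul_comm ‖_ - _‖, ← mul_assoc]
      exact mul_le_of_le_one_left (norm_nonneg _)
        (mul_le_one₀ (C.norm_a_le _ _ _) (norm_nonneg _) (C.norm_ψ_le _ _))
  -- they are at most a uniformiser of `ℚ_p (ζ)`
  have hsmall : ∀ j, ‖C.ψ (fChar S f) j - C.ψ 1 j‖ ≤ ‖S.π‖ := by
    intro j
    rcases eq_or_ne (C.ψ (fChar S f) j - C.ψ 1 j) 0 with h0 | h0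
    · rw [h0, norm_zero]; exact norm_nonneg _
    obtain ⟨m, hm⟩ := S.toUnif.norm_eq_zpow h0 fun g hg => by
      have hI := (S.toUnif.mem_J.mp hg).1
      have hζ' : g S.ζ = S.ζ ^ 1 := by rw [pow_one, S.GF_fix_ζ (S.J_le hg)]
      have h10 : fChar (G := G) S 0 = 1 := by
        ext y; rw [fChar_apply, AddMonoidHom.zero_apply, zp_zero, AddChar.one_apply]
      rw [map_sub, apply_ψ_fChar M S (hf g hI) hζ', one_smul, ← h10,
        apply_ψ_fChar M S (f := 0) (fun _ => rfl) hζ', smul_zero]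
    have h1 := hconn j
    rw [hm, ← zpow_zero ‖S.π‖,
      zpow_lt_zpow_iff_right_of_lt_one₀ S.norm_π_pos S.norm_π_lt_one] at h1
    rw [hm]
    conv_rhs => rw [← zpow_one ‖S.π‖]
    rw [zpow_le_zpow_iff_right_of_lt_one₀ S.norm_π_pos S.norm_π_lt_one]
    omega
  have key : zp S.ζ (f x) - 1 =
      ∑ j, (C.ψ (fChar S f) j - C.ψ 1 j) * (C.φ j x - C.φ j 0) := by
    simp only [sub_mul, mul_sub, Finset.sum_sub_distrib]
    rw [C.sum_ψ, C.sum_ψ, C.sum_ψ, C.sum_ψ, fChar_apply, fChar_apply, map_zero, zp_zero,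
      AddChar.one_apply, AddChar.one_apply]
    ring
  have hlt : ‖zp S.ζ (f x) - 1‖ < ‖S.π‖ := by
    rw [key]
    rcases (Finset.univ : Finset (Module.Free.ChooseBasisIndex (GaloisRep.ratLocalizedAt p) M.H))
      |>.eq_empty_or_nonempty with he' | hne
    · simp [he', S.norm_π_pos]
    · obtain ⟨k, -, hk⟩ := IsUltrametricDist.exists_norm_finsetSum_le_of_nonempty hne fun j =>
        (C.ψ (fChar S f) j - C.ψ 1 j) * (C.φ j x - C.φ j 0)
      refine hk.trans_lt ?_
      rw [norm_mul]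
      exact lt_of_le_of_lt (mul_le_mul_of_nonneg_right (hsmall k) (norm_nonneg _))
        (mul_lt_of_lt_one_right S.norm_π_pos (hx.coords M k))
  by_contra h0
  have hne : zp S.ζ (f x) ≠ 1 := fun h => h0 (ZMod.val_injective p (by
    have h' : S.ζ ^ (f x).val = S.ζ ^ (0 : ZMod p).val := by rw [ZMod.val_zero, pow_zero]; exact h
    exact S.hζ.pow_inj (ZMod.val_lt _) (ZMod.val_lt _) h'))
  have h2 := norm_root_sub_one_pow (zp_pow_p S.ζ_pow (f x)) hne
  rw [← S.norm_π_pow, show S.e = p - 1 by rw [S.e_eq, he, one_mul]] at h2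
  exact absurd h2 (pow_lt_pow_left₀ hlt (norm_nonneg _) (Nat.sub_ne_zero_of_lt hp.out.one_lt)).ne

end Fermat.Agent.LocalModelP
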