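import Fermat.Agent.LocalModelP.Detector

/-!
# Cyclotomic cocycles on a quiet element
-/

set_option autoImplicit false

noncomputable section

open scoped IntermediateField

namespace Fermat.Agent.LocalModelP

open Fermat.Agent.Duality Fermat.Agent.FlatBound

variable {p : ℕ} [hp : Fact p.Prime]

local notation "Ω" => PadicAlgCl p

/-- A radical of an element fixed by inertia: a power of a root of `p` times a quiet element. -/
theorem exists_zpow_root {N : ℕ} {b r : Ω} (hb : b ≠ 0)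
    (hfix : ∀ g ∈ inertiaLoc p, g (b ^ p ^ N) = b ^ p ^ N) (hr : r ^ p ^ N = (p : Ω)) :
    ∃ v : ℤ, ‖b ^ p ^ N‖ = ‖(p : Ω)‖ ^ v ∧ IsUnitRoot (b / r ^ v) := by
  obtain ⟨v, hv⟩ := norm_eq_zpow_of_fixed (pow_ne_zero _ hb) hfix
  refine ⟨v, hv, N, ?_, fun g hg => ?_⟩
  · refine (pow_eq_one_iff_of_nonneg (norm_nonneg _) (pow_ne_zero N hp.out.ne_zero)).mp ?_
    rw [← norm_pow, div_pow, ← zpow_natCast (r ^ v), ← zpow_mul, mul_comm, zpow_mul, zpow_natCast,
      hr, norm_div, hv, norm_zpow, div_self (zpow_ne_zero _ norm_p_pos.ne')]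
  · rw [div_pow, ← zpow_natCast (r ^ v), ← zpow_mul, mul_comm, zpow_mul, zpow_natCast, hr,
      map_div₀, hfix g hg, map_zpow₀, map_natCast]

/-- A quiet element acts on a radical through the exponent of the root of `p`. -/
theorem quiet_apply {s : GalLoc p} (hs : IsQuiet s) {b r z : Ω} {v : ℤ} (hr : r ≠ 0)
    (hη : IsUnitRoot (b / r ^ v)) (hz : s r = z * r) : s b = z ^ v * b := by
  have h := hs.2 _ hη
  rw [map_div₀, map_zpow₀, hz, mul_zpow] at h
  have hr' : r ^ v ≠ 0 := zpow_ne_zero _ hr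
  have hz0 : z ≠ 0 := fun e => hr (s.injective (by rw [hz, e, zero_mul, map_zero]))
  field_simp [zpow_ne_zero v hz0] at h
  linear_combination h

/-- Conjugation acts on the value of a cyclotomic cocycle at a quiet element by the cyclotomic
character. -/
theorem quiet_conj {A : Type} [AddCommGroup A] [Finite A] {N : ℕ}
    (hA : ∀ x : A, (p ^ N) • x = 0) {f : GalLoc p → A} (hlev : FinLevel f)
    (hf : ∀ g ∈ inertiaLoc p, ∀ h ∈ inertiaLoc p, ∀ a : ℕ,
      (∀ w : Ω, w ^ p ^ N = 1 → g w = w ^ a) → f (g * h) = f g + a • f h)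
    {s : GalLoc p} (hs : IsQuiet s) {d : GalLoc p} {a : ℕ}
    (hd : ∀ w : Ω, w ^ p ^ N = 1 → d w = w ^ a) : f (d * s * d⁻¹) = a • f s := by
  have hpN : p ^ N ≠ 0 := pow_ne_zero _ hp.out.ne_zero
  have : NeZero (p ^ N) := ⟨hpN⟩
  have : NeZero ((p ^ N : ℕ) : Ω) := ⟨Nat.cast_ne_zero.mpr hpN⟩
  have hexp : Monoid.exponent (Multiplicative A) ∣ p ^ N :=
    Monoid.exponent_dvd_of_forall_pow_eq_one fun x => hA (Multiplicative.toAdd x)
  have : HasEnoughRootsOfUnity Ω (Monoid.exponent (Multiplicative A)) :=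
    HasEnoughRootsOfUnity.of_dvd Ω hexp
  obtain ⟨zN, hzN⟩ := HasEnoughRootsOfUnity.exists_primitiveRoot Ω (p ^ N)
  obtain ⟨r, hr⟩ := IsAlgClosed.exists_pow_nat_eq (p : Ω) (Nat.pos_of_ne_zero hpN)
  have hr0 : r ≠ 0 := fun e => by
    rw [e, zero_pow hpN] at hr
    exact hp.out.ne_zero (Nat.cast_eq_zero.mp hr.symm)
  refine Multiplicative.ofAdd.injective ((CommGroup.forall_apply_eq_apply_iff
    (G := Multiplicative A) (M := Ω)).mp
    fun φ => ?_)
  set u : GalLoc p → Ω := fun g => (φ (Multiplicative.ofAdd (f g)) : Ω)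
  have hu : ∀ g, u g ^ p ^ N = 1 := fun g => by
    rw [← Units.val_pow_eq_pow_val, ← map_pow, ← ofAdd_nsmul, hA, ofAdd_zero, map_one,
      Units.val_one]
  obtain ⟨L, hL, hfac⟩ := hlev
  obtain ⟨b, hb0, hb⟩ := hilbert90 (inertiaLoc p) u (fun g _ => Units.ne_zero _)
    (fun g hg h hh => by
      obtain ⟨ag, hag⟩ := exists_exponent g hzN hpN
      rw [hag _ (hu h)]
      simp only [u, hf g hg h hh ag hag, ofAdd_add, map_mul, ofAdd_nsmul, map_pow, Units.val_mul,
        Units.val_pow_eq_pow_val])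
    L fun g _ g' _ hgg => by simp only [u, hfac g g' hgg]
  obtain ⟨v, -, hη⟩ := exists_zpow_root hb0 (fun g hg => by
    rw [map_pow, hb g hg, mul_pow, hu, one_mul]) hr
  set z := s r / r
  have hz : s r = z * r := (div_mul_cancel₀ _ hr0).symm
  have hzr : z ^ p ^ N = 1 := by
    rw [div_pow, ← map_pow, hr, map_natCast, div_self (Nat.cast_ne_zero.mpr hp.out.ne_zero)]
  have hconj : (d * s * d⁻¹) r = z ^ a * r := by
    set w := d⁻¹ r / r
    have hw : d⁻¹ r = w * r := (div_mul_cancel₀ _ hr0).symm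
    have hwr : w ^ p ^ N = 1 := by
      rw [div_pow, ← map_pow, hr, map_natCast, div_self (Nat.cast_ne_zero.mpr hp.out.ne_zero)]
    rw [AlgEquiv.mul_apply, AlgEquiv.mul_apply, hw, map_mul, hs.2 w (isUnitRoot_root hwr), hz,
      show w * (z * r) = z * (w * r) by ring, map_mul, hd z hzr, ← hw, AlgEquiv.aut_inv,
      AlgEquiv.apply_symm_apply]
  have h1 : u s = z ^ v := by
    have := hb s hs.1
    rw [quiet_apply hs hr0 hη hz] at this
    exact (mul_right_cancel₀ hb0 this).symm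
  have h2 : u (d * s * d⁻¹) = (z ^ a) ^ v := by
    have := hb _ (hs.conj d).1
    rw [quiet_apply (hs.conj d) hr0 hη hconj] at this
    exact (mul_right_cancel₀ hb0 this).symm
  apply Units.ext
  show u (d * s * d⁻¹) = _
  rw [h2, ofAdd_nsmul, map_pow, Units.val_pow_eq_pow_val,
    show ((φ (Multiplicative.ofAdd (f s)) : Ωˣ) : Ω) = u s from rfl, h1, ← zpow_natCast z a,
    ← zpow_natCast (z ^ v) a, ← zpow_mul, ← zpow_mul, mul_comm]

theorem zp_intCast {ζ : Ω} (hζ : IsPrimitiveRoot ζ p) (v : ℤ) : zp ζ (v : ZMod p) = ζ ^ v := by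
  obtain ⟨j, hj⟩ : ∃ j : ℕ, (j : ZMod p) = v := ZMod.natCast_zmod_surjective _
  obtain ⟨q, hq⟩ := (ZMod.intCast_eq_intCast_iff_dvd_sub (j : ℤ) v p).mp (by exact_mod_cast hj)
  rw [← hj, zp_natCast hζ.pow_eq_one, show v = (j : ℤ) + (p : ℤ) * q by omega,
    zpow_add₀ (hζ.ne_zero hp.out.ne_zero), zpow_mul, zpow_natCast, zpow_natCast, hζ.pow_eq_one,
    one_zpow, mul_one]

theorem zp_injective {ζ : Ω} (hζ : IsPrimitiveRoot ζ p) {a b : ZMod p} (h : zp ζ a = zp ζ b) :
    a = b := ZMod.val_injective p (hζ.pow_inj (ZMod.val_lt a) (ZMod.val_lt b) h)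

variable {k : Type} [Field k] [CharP k p]

omit [CharP k p] in
/-- For a cyclotomic cocycle, vanishing at a moving quiet element is the vanishing of the
valuations of the radicands. -/
theorem quiet_eq_zero_iff {S : Setup p} {χ f : GalLoc p → k} (hf : IsCocycle 1 χ f)
    (hω : ∀ (g : GalLoc p) (a : ℕ), g S.ζ = S.ζ ^ a → χ g = a) {t : k →+ ZMod p} (ht : t ≠ 0)
    {s : GalLoc p} (hs : IsQuiet s) {r : Ω} (hr : r ^ p = (p : Ω)) (hsr : s r ≠ r) :
    f s = 0 ↔ ∀ c x, S.Rad (lam t f c) x → S.vp x = 0 := by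
  have hr0 : r ≠ 0 := fun e => by
    rw [e, zero_pow hp.out.ne_zero] at hr
    exact hp.out.ne_zero (Nat.cast_eq_zero.mp hr.symm)
  have : NeZero p := ⟨hp.out.ne_zero⟩
  set z := s r / r
  have hz : s r = z * r := (div_mul_cancel₀ _ hr0).symm
  obtain ⟨m, -, hm⟩ := S.hζ.eq_pow_of_pow_eq_one (show z ^ p = 1 by
    rw [div_pow, ← map_pow, hr, map_natCast, div_self (Nat.cast_ne_zero.mpr hp.out.ne_zero)])
  have hm0 : (m : ZMod p) ≠ 0 := fun h0 => by
    refine hsr ?_
    rw [hz, ← hm, ← zp_natCast S.ζ_pow, h0, zp_zero, one_mul]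
  have key : ∀ c, ∃ (v : ℤ) (x : Ω), S.Rad (lam t f c) x ∧ S.vp x = ((S.e : ℤ) * v : ℤ) ∧
      lam t f c s = (v : ZMod p) * m := by
    intro c
    obtain ⟨L, hL, hfac⟩ := hf.level
    obtain ⟨b, hb0, hb⟩ := hilbert90 (⊤ : Subgroup (GalLoc p)) (fun g => zp S.ζ (lam t f c g))
      (fun g _ => zp_ne_zero S.ζ_pow _) (fun g _ h _ => by
        obtain ⟨a, -, ha⟩ := S.hζ.eq_pow_of_pow_eq_one
          (show (g S.ζ) ^ p = 1 by rw [← map_pow, S.ζ_pow, map_one])
        have e : lam t f c (g * h) = lam t f c g + (a : ZMod p) * lam t f c h := by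
          simp only [lam]
          rw [hf.add g (mem_Kd_one g) h (mem_Kd_one h), hω g a ha.symm, mul_add, map_add,
            show c * ((a : k) * f h) = a • (c * f h) by rw [nsmul_eq_mul]; ring, map_nsmul,
            nsmul_eq_mul]
        obtain ⟨n, hn⟩ := ZMod.natCast_zmod_surjective (lam t f c h)
        rw [e, zp_add S.ζ_pow, ← hn, ← Nat.cast_mul, zp_natCast S.ζ_pow, zp_natCast S.ζ_pow,
          map_pow, ← ha, ← pow_mul]) L fun g _ g' _ hgg => by simp only [lam, hfac g g' hgg]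
    have hbfix : ∀ g : GalLoc p, g (b ^ p) = b ^ p := fun g => by
      rw [map_pow, hb g (Subgroup.mem_top _), mul_pow, zp_pow_p S.ζ_pow, one_mul]
    obtain ⟨v, hv, hη⟩ := exists_zpow_root (N := 1) hb0 (fun g _ => by rw [pow_one, hbfix])
      (by rw [pow_one, hr])
    rw [pow_one] at hv
    refine ⟨v, b ^ p, ⟨S.mem_F.mpr fun g _ => hbfix g, pow_ne_zero _ hb0, b, rfl,
      fun g _ => hb g (Subgroup.mem_top _)⟩, S.vp_eq ?_, zp_injective S.hζ ?_⟩
    · rw [hv, zpow_mul, zpow_natCast, S.norm_π_pow]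
    · have h1 := hb s (Subgroup.mem_top _)
      rw [quiet_apply hs hr0 hη hz, ← hm] at h1
      rw [← mul_right_cancel₀ hb0 h1, ← Int.cast_natCast m, ← Int.cast_mul, zp_intCast S.hζ,
        mul_comm, zpow_mul, zpow_natCast]
  constructor
  · intro h0 c x hx
    obtain ⟨v, x', hx', hvp, hlam⟩ := key c
    rw [(same_class (fun _ _ => rfl) hx' hx).1, hvp]
    rw [show lam t f c s = 0 by simp [lam, h0], eq_comm, mul_eq_zero] at hlam
    rw [Int.cast_mul, hlam.resolve_right hm0, mul_zero]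
  · intro hall
    refine eq_zero_of_lam ht fun c => ?_
    obtain ⟨v, x, hx, hvp, hlam⟩ := key c
    have h1 := hall c x hx
    rw [hvp, Int.cast_mul, mul_eq_zero] at h1
    rw [show t (c * f s) = lam t f c s from rfl, hlam, h1.resolve_left ?_, zero_mul]
    rw [Int.cast_natCast, ZMod.natCast_eq_zero_iff]
    exact S.not_dvd

end Fermat.Agent.LocalModelP
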