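import Fermat.Agent.LocalModelP.Tangent
import Fermat.Agent.LocalModelP.Valuation
import Fermat.Agent.LocalModelP.Bounds

/-!
# Cocycles with values in the cyclotomic line: three dimensions
-/

set_option autoImplicit false

noncomputable section

open Module

namespace Fermat.Agent.LocalModelP

open Fermat.Agent.Duality Fermat.Agent.FlatBound

variable {p : ℕ} [hp : Fact p.Prime]

local notation "Ω" => PadicAlgCl p

variable {k : Type} [Field k]

theorem finLevel_const {α : Type} (a : α) : FinLevel fun _ : GalLoc p => a :=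
  ⟨⊥, inferInstance, fun _ _ _ => rfl⟩

theorem isCocycle_sub_one {d : ℕ} {χ : GalLoc p → k} (hχ : IsChar d χ) :
    IsCocycle d χ fun g => χ g - 1 where
  level := hχ.level.comp fun x => x - 1
  add g hg h hh := by rw [hχ.mul g hg h hh]; ring

/-- The cocycles of a character. -/
def cocycles (χ : GalLoc p → k) : Submodule k (GalLoc p → k) where
  carrier := {c | IsCocycle 1 χ c}
  add_mem' {c c'} hc hc' :=
    { level := (hc.level.prod hc'.level).comp fun q => q.1 + q.2
      add := fun g hg h hh => by
        simp only [Pi.add_apply, hc.add g hg h hh, hc'.add g hg h hh]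
        ring }
  zero_mem' :=
    { level := finLevel_const 0
      add := fun g _ h _ => by simp only [Pi.zero_apply, mul_zero, add_zero] }
  smul_mem' a c hc :=
    { level := hc.level.comp fun x => a * x
      add := fun g hg h hh => by
        simp only [Pi.smul_apply, smul_eq_mul, hc.add g hg h hh]
        ring }

variable [CharP k p] [Finite k]

/-- Cyclotomic cocycles have dimension at most three. -/
theorem finrank_cocycles_le {S : Setup p} (he : S.e₁ = 1) :
    Module.Finite k (cocycles (cyc S k)) ∧ finrank k (cocycles (cyc S k)) ≤ 3 := by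
  obtain ⟨t, ht⟩ := exists_functional (p := p) (k := k)
  obtain ⟨r, hr⟩ := IsAlgClosed.exists_pow_nat_eq (p : Ω) hp.out.pos
  obtain ⟨σ, hσ, hσr⟩ := exists_quiet_move he hr
  set Z := cocycles (p := p) (cyc S k)
  set W := Z ⊓ LinearMap.ker (LinearMap.proj σ) with hW
  have hmem : ∀ c ∈ W, IsCocycle 1 (cyc S k) c ∧ c σ = 0 := fun c hc => ⟨hc.1, hc.2⟩
  obtain ⟨hWfin, hW2⟩ := finite_restrict_cyclotomic he (cyc_isChar (k := k) S)
      (fun s hs => cyc_GF hs)
    (fun g _ a ha => cyc_eq ha) ht W (fun c hc => (hmem c hc).1) fun c hc =>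
      ⟨(quiet_eq_zero_iff (hmem c hc).1 (fun g a ha => cyc_eq ha) ht hσ hr hσr).mp (hmem c hc).2,
        fun _ _ _ _ _ _ _ => trivial⟩
  let R : Z →ₗ[k] k := (LinearMap.proj σ).comp Z.subtype
  let i : LinearMap.ker R →ₗ[k] W :=
    (Z.subtype.comp (LinearMap.ker R).subtype).codRestrict W fun f => ⟨f.1.2, f.2⟩
  have hi : Function.Injective i := fun f f' h =>
      Subtype.ext (Subtype.ext (congrArg Subtype.val h :))
  have : Module.Finite k (LinearMap.ker R) := Module.Finite.of_injective i hi
  have : Module.Finite k (Z ⧸ LinearMap.ker R) :=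
    Module.Finite.equiv R.quotKerEquivRange.symm
  have hZ : Module.Finite k Z := Module.Finite.of_submodule_quotient (LinearMap.ker R)
  refine ⟨hZ, ?_⟩
  rw [← R.finrank_range_add_finrank_ker]
  have h1 : finrank k (LinearMap.range R) ≤ 1 := (Submodule.finrank_le _).trans (finrank_self k).le
  have h2 := LinearMap.finrank_le_finrank_of_injective hi
  omega

/-- Normalised cyclotomic cocycles are determined by two values. -/
theorem exists_cyclotomic_points {S : Setup p} (he : S.e₁ = 1) {g₀ : GalLoc p}
    (hg₀ : cyc S k g₀ ≠ 1) :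
    ∃ x : Fin 2 → GalLoc p, ∀ c, IsCocycle 1 (cyc S k) c → c g₀ = 0 →
      (∀ i, c (x i) = 0) → c = 0 := by
  obtain ⟨hfin, h3⟩ := finrank_cocycles_le (k := k) he
  set Z := cocycles (p := p) (cyc S k)
  set W := Z ⊓ LinearMap.ker (LinearMap.proj g₀) with hW
  have hle : W ≤ Z := inf_le_left
  have : Module.Finite k W := Module.Finite.of_injective _ (Submodule.inclusion_injective hle)
  let b : Z := ⟨fun g => cyc S k g - 1, isCocycle_sub_one (cyc_isChar S)⟩
  have hlt : finrank k W < finrank k Z :=
    Submodule.finrank_lt_finrank_of_lt (lt_of_le_of_ne hle fun h => hg₀ (by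
      have h1 : (b : GalLoc p → k) ∈ W := h.symm ▸ b.2
      exact sub_eq_zero.mp h1.2))
  obtain ⟨x, hx⟩ := exists_eval_points 2 W inferInstance (by omega)
  exact ⟨x, fun c hc h0 h => hx c ⟨hc, h0⟩ h⟩

end Fermat.Agent.LocalModelP
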