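import Fermat.Agent.LocalModelP.Bounds

/-!
# An inertia element detecting the valuation

`σ` fixes all roots of unity of `p`-power order and all `p`-power roots of the units fixed by
inertia, and moves the `p`-th roots of `p`.
-/

set_option autoImplicit false

noncomputable section

open scoped IntermediateField

namespace Fermat.Agent.LocalModelP

open Fermat.Agent.Duality Fermat.Agent.FlatBound

variable {p : ℕ} [hp : Fact p.Prime]

local notation "Ω" => PadicAlgCl p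

/-- `p`-power roots of units fixed by inertia. -/
def IsUnitRoot (η : Ω) : Prop :=
  ∃ n : ℕ, ‖η‖ = 1 ∧ ∀ g ∈ inertiaLoc p, g (η ^ p ^ n) = η ^ p ^ n

/-- The inertia elements fixing all those roots. -/
def IsQuiet (s : GalLoc p) : Prop :=
  s ∈ inertiaLoc p ∧ ∀ η : Ω, IsUnitRoot η → s η = η

theorem isUnitRoot_root {n : ℕ} {η : Ω} (h : η ^ p ^ n = 1) : IsUnitRoot η :=
  ⟨n, norm_eq_one_of_pow_eq_one (pow_ne_zero _ hp.out.ne_zero) h, fun g _ => by rw [h, map_one]⟩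

theorem IsUnitRoot.apply {η : Ω} (h : IsUnitRoot η) (d : GalLoc p) : IsUnitRoot (d η) := by
  obtain ⟨n, h1, h2⟩ := h
  refine ⟨n, by rw [norm_loc, h1], fun g hg => ?_⟩
  have h3 := congrArg d (h2 _ (by simpa using conj_mem_inertiaLoc d⁻¹ hg))
  rwa [AlgEquiv.mul_apply, AlgEquiv.mul_apply, AlgEquiv.aut_inv, AlgEquiv.apply_symm_apply,
    map_pow] at h3

theorem IsQuiet.conj {s : GalLoc p} (hs : IsQuiet s) (d : GalLoc p) : IsQuiet (d * s * d⁻¹) :=
  ⟨conj_mem_inertiaLoc d hs.1, fun η hη => by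
    rw [AlgEquiv.mul_apply, AlgEquiv.mul_apply, hs.2 _ (hη.apply d⁻¹), AlgEquiv.aut_inv,
      AlgEquiv.apply_symm_apply]⟩

theorem exists_exponent (g : GalLoc p) {n : ℕ} {z : Ω} (hz : IsPrimitiveRoot z n) (hn : n ≠ 0) :
    ∃ a : ℕ, ∀ w : Ω, w ^ n = 1 → g w = w ^ a := by
  have : NeZero n := ⟨hn⟩
  obtain ⟨a, -, ha⟩ := hz.eq_pow_of_pow_eq_one
    (show (g z) ^ n = 1 by rw [← map_pow, hz.pow_eq_one, map_one])
  refine ⟨a, fun w hw => ?_⟩
  obtain ⟨i, -, rfl⟩ := hz.eq_pow_of_pow_eq_one hw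
  rw [map_pow, ← ha, ← pow_mul, mul_comm, pow_mul]

/-- `f` is multiplicative on the group generated by a finite set of coordinates. -/
theorem exists_exponents_of_factor {G : Type} [Group G] {N m : ℕ} {zN : Ω}
    (hz : IsPrimitiveRoot zN (p ^ N)) (h : G →* (Fin m → rootsOfUnity (p ^ N) Ω))
    (f : G →* Ωˣ) (hf : ∀ g, h g = 1 → f g = 1) :
    ∃ k : Fin m → ℕ, ∀ g, (f g : Ω) = ∏ i, ((h g i : Ωˣ) : Ω) ^ k i := by
  classical
  have : NeZero (p ^ N) := ⟨pow_ne_zero _ hp.out.ne_zero⟩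
  have hker : h.rangeRestrict.ker ≤ f.ker := by
    intro g hg
    rw [MonoidHom.mem_ker] at hg ⊢
    exact hf g (congrArg Subtype.val hg)
  let ψ : h.range →* Ωˣ := h.rangeRestrict.liftOfSurjective h.rangeRestrict_surjective ⟨f, hker⟩
  have hψ : ∀ g, ψ (h.rangeRestrict g) = f g := fun g =>
    MonoidHom.liftOfRightInverse_comp_apply _ _ _ _ g
  have hexp : Monoid.exponent (Fin m → rootsOfUnity (p ^ N) Ω) ∣ p ^ N := by
    refine Monoid.exponent_dvd_of_forall_pow_eq_one fun v => funext fun i => ?_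
    exact Subtype.ext ((mem_rootsOfUnity _ _).mp (v i).2)
  have : HasEnoughRootsOfUnity Ω (Monoid.exponent (Fin m → rootsOfUnity (p ^ N) Ω)) :=
    HasEnoughRootsOfUnity.of_dvd Ω hexp
  obtain ⟨Ψ, hΨ⟩ := MonoidHom.domRestrict_surjective Ω h.range ψ
  let w : rootsOfUnity (p ^ N) Ω := rootsOfUnity.mkOfPowEq zN hz.pow_eq_one
  have hgen : ∀ x : rootsOfUnity (p ^ N) Ω, ∃ a : ℕ, w ^ a = x := fun x => by
    obtain ⟨a, -, ha⟩ := hz.eq_pow_of_pow_eq_one (show ((x : Ωˣ) : Ω) ^ p ^ N = 1 by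
      rw [← Units.val_pow_eq_pow_val, (mem_rootsOfUnity _ _).mp x.2, Units.val_one])
    exact ⟨a, Subtype.ext (Units.ext (by simpa [w] using ha))⟩
  have hk : ∀ i, ∃ a : ℕ, ((Ψ (Pi.mulSingle i w) : Ωˣ) : Ω) = zN ^ a := fun i => by
    obtain ⟨a, -, ha⟩ := hz.eq_pow_of_pow_eq_one
      (show ((Ψ (Pi.mulSingle i w) : Ωˣ) : Ω) ^ p ^ N = 1 by
        rw [← Units.val_pow_eq_pow_val, ← map_pow, ← Pi.mulSingle_pow,
          show w ^ p ^ N = 1 from Subtype.ext ((mem_rootsOfUnity _ _).mp w.2), Pi.mulSingle_one,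
          map_one, Units.val_one])
    exact ⟨a, ha.symm⟩
  choose k hk using hk
  refine ⟨k, fun g => ?_⟩
  have h1 : f g = Ψ (h g) := by
    rw [← hψ g, ← hΨ]
    rfl
  rw [h1]
  conv_lhs => rw [← Finset.univ_prod_mulSingle (h g)]
  rw [map_prod, Units.coe_prod]
  refine Finset.prod_congr rfl fun i _ => ?_
  obtain ⟨a, ha⟩ := hgen (h g i)
  rw [← ha, Pi.mulSingle_pow, map_pow, Units.val_pow_eq_pow_val, hk, SubmonoidClass.coe_pow,
    Units.val_pow_eq_pow_val, show ((w : Ωˣ) : Ω) = zN from rfl, ← pow_mul, ← pow_mul, mul_comm]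

theorem setup_one_ne {S : Setup p} (he : S.e₁ = 1) : ∃ s ∈ inertiaLoc p, s S.ζ ≠ S.ζ := by
  obtain ⟨τ, hτ, z, hz, hτπ⟩ := S.toUnif.exists_generator
  refine ⟨τ, hτ, fun h => ?_⟩
  have h1 := S.toUnif.cast_eq_red_pow S.e_eq S.ne_two S.hζ hτπ (a := 1) (by rw [pow_one, h])
  have hzn : ‖z‖ = 1 := norm_eq_one_of_pow_eq_one S.toUnif.e_ne_zero hz.pow_eq_one
  rw [he, pow_one, Nat.cast_one, ← red_one (p := p), eq_comm,
    red_eq_red_iff hzn.le (by simp)] at h1
  have h2 : z = 1 := root_eq_of_near S.not_dvd hz.pow_eq_one (one_pow _) h1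
  have h3 : S.e = 1 := hz.unique (h2 ▸ IsPrimitiveRoot.one)
  rw [S.e_eq, he, one_mul] at h3
  have := hp.out.two_le
  have := S.ne_two
  omega

/-- The detector exists. -/
theorem exists_quiet_move {S : Setup p} (he : S.e₁ = 1) {r : Ω} (hr : r ^ p = (p : Ω)) :
    ∃ s, IsQuiet s ∧ s r ≠ r := by
  classical
  by_contra hcon
  push Not at hcon
  let T : Set Ω := {η | IsUnitRoot η} ∪ {η | ∃ M : ℕ, ¬ p ∣ M ∧ η ^ M = 1}
  have hrT : r ∈ IntermediateField.adjoin ℚ_[p] T := by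
    rw [← InfiniteGalois.fixedField_fixingSubgroup (IntermediateField.adjoin ℚ_[p] T)]
    rintro ⟨g, hg⟩
    rw [IntermediateField.mem_fixingSubgroup_iff] at hg
    exact hcon g ⟨mem_inertiaLoc_of_fix_roots fun M η hM hη => hg η
      (IntermediateField.subset_adjoin _ _ (Or.inr ⟨M, hM, hη⟩)),
      fun η hη => hg η (IntermediateField.subset_adjoin _ _ (Or.inl hη))⟩
  obtain ⟨F, hFT, hrF⟩ := IntermediateField.exists_finset_of_mem_adjoin hrT
  let η : Fin F.card → Ω := fun i => (F.equivFin.symm i : Ω)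
  have hη1 : ∀ i, ‖η i‖ = 1 := fun i => by
    rcases hFT (F.equivFin.symm i).2 with ⟨_, h, -⟩ | ⟨M, hM, h⟩
    · exact h
    · exact norm_eq_one_of_pow_eq_one (fun h0 : M = 0 => hM (h0 ▸ dvd_zero p)) h
  have hex : ∀ i, ∃ n : ℕ, ∀ g ∈ inertiaLoc p, g (η i ^ p ^ n) = η i ^ p ^ n := fun i => by
    rcases hFT (F.equivFin.symm i).2 with ⟨n, -, h⟩ | ⟨M, hM, h⟩
    · exact ⟨n, h⟩
    · exact ⟨0, fun g hg => by rw [pow_zero, pow_one]; exact inertia_fix_root hg hM h⟩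
  choose n hn using hex
  set N := Finset.univ.sup n + 1 with hN
  have hηN : ∀ i, ∀ g ∈ inertiaLoc p, g (η i ^ p ^ N) = η i ^ p ^ N := fun i g hg => by
    obtain ⟨c, hc⟩ := Nat.exists_eq_add_of_le (show n i ≤ N from
      (Finset.le_sup (f := n) (Finset.mem_univ i)).trans (Nat.le_succ _))
    rw [hc, pow_add, pow_mul, map_pow, hn i g hg]
  have hpN : p ^ N ≠ 0 := pow_ne_zero _ hp.out.ne_zero
  have : NeZero (p ^ N) := ⟨hpN⟩
  have : NeZero ((p ^ N : ℕ) : Ω) := ⟨Nat.cast_ne_zero.mpr hpN⟩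
  obtain ⟨zN, hzN⟩ := HasEnoughRootsOfUnity.exists_primitiveRoot Ω (p ^ N)
  let G' : Subgroup (GalLoc p) := inertiaLoc p ⊓ MulAction.stabilizer (GalLoc p) zN
  have hfixz : ∀ g : G', ∀ w : Ω, w ^ p ^ N = 1 → (g : GalLoc p) w = w := fun g w hw => by
    obtain ⟨i, -, rfl⟩ := hzN.eq_pow_of_pow_eq_one hw
    rw [map_pow, show (g : GalLoc p) zN = zN from g.2.2]
  have hη0 : ∀ i, η i ≠ 0 := fun i e => by have := hη1 i; simp [e] at this
  have hroot : ∀ (g : G') (i : Fin F.card), ((g : GalLoc p) (η i) / η i) ^ p ^ N = 1 :=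
      fun g i => by
    rw [div_pow, ← map_pow, hηN i _ g.2.1, div_self (pow_ne_zero _ (hη0 i))]
  let h : G' →* (Fin F.card → rootsOfUnity (p ^ N) Ω) :=
    { toFun := fun g i => rootsOfUnity.mkOfPowEq _ (hroot g i)
      map_one' := funext fun i => Subtype.ext (Units.ext (by simp [hη0 i]))
      map_mul' := fun g g' => funext fun i => Subtype.ext (Units.ext (by
        simp only [rootsOfUnity.val_mkOfPowEq_coe, Pi.mul_apply, Subgroup.coe_mul, Units.val_mul]
        rw [AlgEquiv.mul_apply]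
        have e : (g' : GalLoc p) (η i) = ((g' : GalLoc p) (η i) / η i) * η i :=
          (div_mul_cancel₀ _ (hη0 i)).symm
        conv_lhs => rw [e, map_mul, hfixz g _ (hroot g' i)]
        ring)) }
  have hr0 : r ≠ 0 := fun e => by
    rw [e, zero_pow hp.out.ne_zero] at hr
    exact hp.out.ne_zero (Nat.cast_eq_zero.mp hr.symm)
  have hrroot : ∀ g : GalLoc p, (g r / r) ^ p = 1 := fun g => by
    rw [div_pow, ← map_pow, hr, map_natCast, div_self (Nat.cast_ne_zero.mpr hp.out.ne_zero)]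
  have hrfix : ∀ g : G', ∀ w : Ω, w ^ p = 1 → (g : GalLoc p) w = w := fun g w hw =>
    hfixz g w (by
      rw [hN, pow_succ', pow_mul, hw, one_pow])
  let f : G' →* Ωˣ :=
    { toFun := fun g => Units.mk0 ((g : GalLoc p) r / r) (div_ne_zero ((map_ne_zero _).mpr hr0) hr0)
      map_one' := Units.ext (by simp [hr0])
      map_mul' := fun g g' => Units.ext (by
        simp only [Units.val_mk0, Units.val_mul, Subgroup.coe_mul]
        rw [AlgEquiv.mul_apply]
        have e : (g' : GalLoc p) r = ((g' : GalLoc p) r / r) * r :=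
          (div_mul_cancel₀ _ hr0).symm
        conv_lhs => rw [e, map_mul, hrfix g _ (hrroot g')]
        ring) }
  obtain ⟨k, hk⟩ := exists_exponents_of_factor hzN h f fun g hg => Units.ext (by
    show (g : GalLoc p) r / r = 1
    rw [div_eq_one_iff_eq hr0]
    have hle : IntermediateField.adjoin ℚ_[p] (F : Set Ω) ≤
        IntermediateField.fixedField (Subgroup.zpowers (g : GalLoc p)) := by
      rw [IntermediateField.adjoin_le_iff]
      rintro y hy ⟨_, a, rfl⟩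
      refine MulAction.mem_stabilizer_iff.1
        (zpow_mem (K := MulAction.stabilizer (GalLoc p) y) ?_ a)
      have h1 := congrArg (fun v => ((v (F.equivFin ⟨y, hy⟩) : Ωˣ) : Ω)) hg
      have hy' : η (F.equivFin ⟨y, hy⟩) = y := by simp [η]
      simp only [h, MonoidHom.coe_mk, OneHom.coe_mk, rootsOfUnity.val_mkOfPowEq_coe,
        Pi.one_apply, OneMemClass.coe_one, Units.val_one, hy'] at h1
      exact (div_eq_one_iff_eq (hy' ▸ hη0 _)).mp h1
    exact hle hrF ⟨g, Subgroup.mem_zpowers _⟩)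
  set β := r / ∏ i, η i ^ k i
  have hP0 : ∏ i, η i ^ k i ≠ 0 := Finset.prod_ne_zero_iff.mpr fun i _ => pow_ne_zero _ (hη0 i)
  have hβ0 : β ≠ 0 := div_ne_zero hr0 hP0
  have hβG : ∀ g : G', (g : GalLoc p) β = β := fun g => by
    have h1 := hk g
    simp only [f, h, MonoidHom.coe_mk, OneHom.coe_mk, Units.val_mk0,
      rootsOfUnity.val_mkOfPowEq_coe, div_pow, Finset.prod_div_distrib] at h1
    rw [map_div₀, map_prod, Finset.prod_congr rfl fun i _ => map_pow (g : GalLoc p) (η i) (k i),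
      div_eq_div_iff (Finset.prod_ne_zero_iff.mpr fun i _ =>
        pow_ne_zero _ ((map_ne_zero _).mpr (hη0 i))) hP0]
    exact (div_eq_div_iff hr0 hP0).mp h1 |>.trans (mul_comm _ _)
  have hβN : ∀ g ∈ inertiaLoc p, g (β ^ p ^ N) = β ^ p ^ N := fun g hg => by
    rw [div_pow, ← Finset.prod_pow, map_div₀, map_prod]
    congr 1
    · rw [hN, pow_succ', pow_mul, hr, ← Nat.cast_pow, map_natCast]
    · exact Finset.prod_congr rfl fun i _ => by
        rw [← pow_mul, mul_comm, pow_mul, map_pow, hηN i g hg]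
  have hc : ∀ g ∈ inertiaLoc p, (g β / β) ^ p ^ N = 1 := fun g hg => by
    rw [div_pow, ← map_pow, hβN g hg, div_self (pow_ne_zero _ hβ0)]
  obtain ⟨s₀, hs₀, hs₀ζ⟩ := setup_one_ne he
  obtain ⟨a₀, ha₀⟩ := exists_exponent s₀ hzN hpN
  have hcop : ((a₀ : ℤ) - 1).gcd ((p ^ N : ℕ) : ℤ) = 1 := by
    rw [← Int.isCoprime_iff_gcd_eq_one, Nat.cast_pow]
    refine IsCoprime.pow_right ?_
    rw [isCoprime_comm, Prime.coprime_iff_not_dvd (Nat.prime_iff_prime_int.mp hp.out)]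
    intro hdvd
    refine hs₀ζ ?_
    have h1 : S.ζ ^ p ^ N = 1 := by rw [hN, pow_succ', pow_mul, S.ζ_pow, one_pow]
    obtain ⟨q, hq⟩ := hdvd
    have h0 : S.ζ ≠ 0 := S.hζ.ne_zero hp.out.ne_zero
    rw [ha₀ _ h1, ← zpow_natCast, show (a₀ : ℤ) = (p : ℤ) * q + 1 by omega, zpow_add₀ h0,
      zpow_mul, zpow_natCast, S.ζ_pow, one_zpow, one_mul, zpow_one]
  obtain ⟨u, v, huv⟩ := Int.isCoprime_iff_gcd_eq_one.mpr hcop
  set y := (s₀ β / β) ^ u
  have hy : y ^ p ^ N = 1 := by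
    rw [← zpow_natCast, ← zpow_mul, mul_comm, zpow_mul, zpow_natCast, hc s₀ hs₀, one_zpow]
  have hfix : ∀ t ∈ inertiaLoc p, t (β / y) = β / y := fun t ht => by
    obtain ⟨aₜ, haₜ⟩ := exists_exponent t hzN hpN
    set A := s₀ β / β
    set B := t β / β
    have hA0 : A ≠ 0 := div_ne_zero ((map_ne_zero _).mpr hβ0) hβ0
    have hB0 : B ≠ 0 := div_ne_zero ((map_ne_zero _).mpr hβ0) hβ0
    have hcomm : s₀ (t β) = t (s₀ β) := by
      have hg' : (t * s₀)⁻¹ * (s₀ * t) ∈ G' := by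
        refine Subgroup.mem_inf.mpr
          ⟨mul_mem (inv_mem (mul_mem ht hs₀)) (mul_mem hs₀ ht), ?_⟩
        show ((t * s₀)⁻¹ * (s₀ * t)) zN = zN
        have e : (s₀ * t) zN = (t * s₀) zN := by
          rw [AlgEquiv.mul_apply, AlgEquiv.mul_apply, haₜ zN hzN.pow_eq_one,
            ha₀ zN hzN.pow_eq_one, map_pow, map_pow, haₜ zN hzN.pow_eq_one,
            ha₀ zN hzN.pow_eq_one, ← pow_mul, ← pow_mul, mul_comm]
        rw [AlgEquiv.mul_apply, e, AlgEquiv.aut_inv, AlgEquiv.symm_apply_apply]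
      have h1 := congrArg (t * s₀) (hβG ⟨_, hg'⟩)
      rwa [← AlgEquiv.mul_apply (t * s₀), mul_inv_cancel_left] at h1
    have e : A * B ^ a₀ = B * A ^ aₜ := by
      have h1 : s₀ (t β) = B ^ a₀ * (A * β) := by
        rw [show t β = B * β from (div_mul_cancel₀ _ hβ0).symm, map_mul, ha₀ B (hc t ht),
          show s₀ β = A * β from (div_mul_cancel₀ _ hβ0).symm]
      have h2 : t (s₀ β) = A ^ aₜ * (B * β) := by
        rw [show s₀ β = A * β from (div_mul_cancel₀ _ hβ0).symm, map_mul, haₜ A (hc s₀ hs₀),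
          show t β = B * β from (div_mul_cancel₀ _ hβ0).symm]
      rw [h1, h2] at hcomm
      exact mul_right_cancel₀ hβ0 (by linear_combination hcomm)
    have hB : B = y ^ ((aₜ : ℤ) - 1) := by
      have e1 : B ^ ((a₀ : ℤ) - 1) = A ^ ((aₜ : ℤ) - 1) := by
        rw [zpow_sub₀ hB0, zpow_sub₀ hA0, zpow_one, zpow_one, zpow_natCast, zpow_natCast,
          div_eq_div_iff hB0 hA0]
        linear_combination e
      calc B = B ^ (u * ((a₀ : ℤ) - 1) + v * ((p ^ N : ℕ) : ℤ)) := by rw [huv, zpow_one]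
        _ = (B ^ ((a₀ : ℤ) - 1)) ^ u * (B ^ ((p ^ N : ℕ) : ℤ)) ^ v := by
          rw [zpow_add₀ hB0, ← zpow_mul, ← zpow_mul, mul_comm u, mul_comm v]
        _ = y ^ ((aₜ : ℤ) - 1) := by
          rw [e1, zpow_natCast, hc t ht, one_zpow, mul_one, ← zpow_mul, ← zpow_mul, mul_comm]
    have hy0 : y ≠ 0 := zpow_ne_zero _ hA0
    rw [map_div₀, haₜ y hy, show t β = B * β from (div_mul_cancel₀ _ hβ0).symm, hB,
      zpow_sub₀ hy0, zpow_one, zpow_natCast]
    field_simp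
  obtain ⟨m, hm⟩ := norm_eq_zpow_of_fixed
    (div_ne_zero hβ0 (zpow_ne_zero _ (div_ne_zero ((map_ne_zero _).mpr hβ0) hβ0))) hfix
  have hβn : ‖β / y‖ ^ p = ‖(p : Ω)‖ := by
    rw [norm_div, norm_eq_one_of_pow_eq_one hpN hy, div_one, norm_div, norm_prod,
      Finset.prod_congr rfl fun i _ => by rw [norm_pow, hη1 i, one_pow], Finset.prod_const_one,
      div_one, ← norm_pow, hr]
  rw [hm, ← zpow_natCast, ← zpow_mul] at hβn
  have h4 := zpow_right_injective₀ norm_p_pos norm_p_lt_one.ne (hβn.trans (zpow_one _).symm)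
  exact hp.out.ne_one (Nat.eq_one_of_mul_eq_one_left (m := m.natAbs) (by
    have := congrArg Int.natAbs h4
    simpa [Int.natAbs_mul] using this))

end Fermat.Agent.LocalModelP
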