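import Fermat.Agent.Duality.PlaceSum
import Fermat.Agent.Duality.Places.Fields
import Fermat.Agent.Duality.Local.Basic
import Fermat.Agent.Gal.Residue
import Fermat.Agent.Carayol.Descent.InertiaField
import Fermat.Agent.FlatBound.Roots

/-!
# Inertia, Frobenius and residues on an algebraic closure of `ℚ_p`
-/

set_option autoImplicit false

noncomputable section

open scoped Pointwise IntermediateField

namespace Fermat.Agent.LocalModelP

open Fermat.Agent.Duality Fermat.Agent.FlatBound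

local notation "ℚbar" => AlgebraicClosure ℚ

variable {p : ℕ} [hp : Fact p.Prime]

local notation "Ω" => PadicAlgCl p
local notation "ι" => padicEmbedding p

theorem norm_loc (g : GalLoc p) (x : Ω) : ‖g x‖ = ‖x‖ := Duality.Local.norm_galLoc_apply g x

theorem norm_p : ‖(p : Ω)‖ = (p : ℝ)⁻¹ := Places.norm_natCast_self p

theorem norm_p_pos : 0 < ‖(p : Ω)‖ := by
  rw [norm_p]
  exact inv_pos.mpr (Nat.cast_pos.mpr hp.out.pos)

theorem norm_p_lt_one : ‖(p : Ω)‖ < 1 := by
  rw [norm_p]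
  exact inv_lt_one_of_one_lt₀ (by exact_mod_cast hp.out.one_lt)

/-! ### Approximation by algebraic numbers -/

theorem exists_qbar_near (x : Ω) {ε : ℝ} (hε : 0 < ε) :
    ∃ b : ℚbar, ‖x - ι b‖ < ε ∧ ∀ g : GalLoc p, g x = x → g (ι b) = ι b := by
  have : FiniteDimensional ℚ_[p] ℚ_[p]⟮x⟯ :=
    IntermediateField.adjoin.finiteDimensional (Algebra.IsAlgebraic.isAlgebraic x).isIntegral
  obtain ⟨F, hF, hFL⟩ := Places.exists_localField_eq p ℚ_[p]⟮x⟯
  have hx : x ∈ Places.localField p F := hFL ▸ IntermediateField.mem_adjoin_simple_self _ x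
  obtain ⟨b, hb, hxb⟩ := Places.exists_mem_norm_sub_lt p F hx hε
  refine ⟨b, hxb, fun g hg => ?_⟩
  have hle : ℚ_[p]⟮x⟯ ≤ IntermediateField.fixedField (Subgroup.zpowers g) := by
    rw [IntermediateField.adjoin_simple_le_iff]
    rintro ⟨_, m, rfl⟩
    exact MulAction.mem_stabilizer_iff.1
      (zpow_mem (K := MulAction.stabilizer (GalLoc p) x) hg m)
  exact hle (hFL ▸ Places.embedding_mem_localField p hb) ⟨g, Subgroup.mem_zpowers g⟩

theorem exists_qbar_near_integral {x : Ω} (hx : ‖x‖ ≤ 1) :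
    ∃ b : ℚbar, b ∈ padicPlace p ∧ ‖x - ι b‖ < 1 := by
  obtain ⟨b, hb, -⟩ := exists_qbar_near x one_pos
  refine ⟨b, (Places.mem_padicPlace p).mpr ?_, hb⟩
  rw [show ι b = x - (x - ι b) by ring]
  exact (norm_sub_le_max' _ _).trans (max_le hx hb.le)

/-! ### Inertia and Frobenius -/

/-- Inertia moves every integral element by less than `1`. -/
theorem mem_inertiaLoc_iff {g : GalLoc p} :
    g ∈ inertiaLoc p ↔ ∀ x : Ω, ‖x‖ ≤ 1 → ‖g x - x‖ < 1 := by
  have hD : localGaloisToGlobal p g • padicPlace p = padicPlace p :=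
    localGaloisToGlobal_mem_decompositionSubgroup p g
  rw [inertiaLoc, Subgroup.mem_comap, Gal.mem_inertia_iff]
  refine ⟨fun h x hx => ?_, fun h => ⟨hD, fun a ha => ?_⟩⟩
  · obtain ⟨b, hb, hxb⟩ := exists_qbar_near_integral hx
    have h1 := (Places.mem_nonunits_padicPlace p).mp (h.2 b hb)
    rw [map_sub, padicEmbedding_localGaloisToGlobal] at h1
    rw [show g x - x = (g (x - ι b) + (g (ι b) - ι b)) - (x - ι b) by rw [map_sub]; ring]
    refine (norm_sub_le_max' _ _).trans_lt (max_lt ?_ hxb)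
    exact (IsUltrametricDist.norm_add_le_max _ _).trans_lt (max_lt (by rwa [norm_loc]) h1)
  · rw [Places.mem_nonunits_padicPlace, map_sub, padicEmbedding_localGaloisToGlobal]
    exact h _ ((Places.mem_padicPlace p).mp ha)

/-- Frobenius elements of the local group. -/
def IsFrob (g : GalLoc p) : Prop :=
  ∀ x : Ω, ‖x‖ ≤ 1 → ‖g x - x ^ p‖ < 1

theorem norm_pow_sub_pow_le {x y : Ω} (hx : ‖x‖ ≤ 1) (hy : ‖y‖ ≤ 1) (n : ℕ) :
    ‖x ^ n - y ^ n‖ ≤ ‖x - y‖ := by
  rw [← geom_sum₂_mul, norm_mul]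
  refine mul_le_of_le_one_left (norm_nonneg _) ?_
  refine IsUltrametricDist.norm_sum_le_of_forall_le_of_nonneg zero_le_one fun i _ => ?_
  rw [norm_mul, norm_pow, norm_pow]
  exact mul_le_one₀ (pow_le_one₀ (norm_nonneg _) hx) (by positivity)
    (pow_le_one₀ (norm_nonneg _) hy)

/-- `IsFrob` is being a Frobenius at the standard place above `p`. -/
theorem isFrob_iff {g : GalLoc p} :
    IsFrob g ↔ (padicPlace p).IsFrobeniusAt (localGaloisToGlobal p g) p := by
  have hD : localGaloisToGlobal p g • padicPlace p = padicPlace p :=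
    localGaloisToGlobal_mem_decompositionSubgroup p g
  rw [Gal.isFrobeniusAt_iff]
  refine ⟨fun h => ⟨hD, fun a ha => ?_⟩, fun h x hx => ?_⟩
  · rw [Places.mem_nonunits_padicPlace, map_sub, padicEmbedding_localGaloisToGlobal, map_pow]
    exact h _ ((Places.mem_padicPlace p).mp ha)
  · obtain ⟨b, hb, hxb⟩ := exists_qbar_near_integral hx
    have h1 := (Places.mem_nonunits_padicPlace p).mp (h.2 b hb)
    rw [map_sub, padicEmbedding_localGaloisToGlobal, map_pow] at h1
    rw [show g x - x ^ p = (g (x - ι b) + (g (ι b) - ι b ^ p)) - (x ^ p - ι b ^ p) by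
      rw [map_sub]; ring]
    refine (norm_sub_le_max' _ _).trans_lt (max_lt ?_ ?_)
    · exact (IsUltrametricDist.norm_add_le_max _ _).trans_lt (max_lt (by rwa [norm_loc]) h1)
    · exact (norm_pow_sub_pow_le hx ((Places.mem_padicPlace p).mp hb) p).trans_lt hxb

/-- A Frobenius element exists. -/
theorem exists_isFrob : ∃ g : GalLoc p, IsFrob g := by
  obtain ⟨φ, hφ⟩ := Gal.exists_isFrobeniusAt hp.out (Places.liesOverPrime_padicPlace p)
  have hD : φ ∈ (padicPlace p).decompositionSubgroup ℚ := ((Gal.isFrobeniusAt_iff _ _ _).mp hφ).1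
  rw [← Places.range_localGaloisToGlobal] at hD
  obtain ⟨g, rfl⟩ := hD
  exact ⟨g, isFrob_iff.mpr hφ⟩

theorem IsFrob.mul_inertia {φ g : GalLoc p} (h : IsFrob φ) (hg : g ∈ inertiaLoc p) :
    IsFrob (φ * g) := by
  intro x hx
  rw [AlgEquiv.mul_apply,
    show φ (g x) - x ^ p = φ (g x - x) + (φ x - x ^ p) by rw [map_sub]; ring]
  exact (IsUltrametricDist.norm_add_le_max _ _).trans_lt
    (max_lt (by rw [norm_loc]; exact mem_inertiaLoc_iff.mp hg x hx) (h x hx))

theorem IsFrob.pow {φ : GalLoc p} (h : IsFrob φ) (n : ℕ) {x : Ω} (hx : ‖x‖ ≤ 1) :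
    ‖(φ ^ n) x - x ^ p ^ n‖ < 1 := by
  induction n with
  | zero => simp
  | succ n ih =>
    have hx' : ‖x ^ p ^ n‖ ≤ 1 := by rw [norm_pow]; exact pow_le_one₀ (norm_nonneg _) hx
    rw [pow_succ', AlgEquiv.mul_apply, pow_succ, pow_mul, show φ ((φ ^ n) x) - (x ^ p ^ n) ^ p =
      φ ((φ ^ n) x - x ^ p ^ n) + (φ (x ^ p ^ n) - (x ^ p ^ n) ^ p) by rw [map_sub]; ring]
    exact (IsUltrametricDist.norm_add_le_max _ _).trans_lt
      (max_lt (by rw [norm_loc]; exact ih) (h _ hx'))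

theorem conj_mem_inertiaLoc (d : GalLoc p) {g : GalLoc p} (hg : g ∈ inertiaLoc p) :
    d * g * d⁻¹ ∈ inertiaLoc p := by
  rw [mem_inertiaLoc_iff] at hg ⊢
  intro x hx
  have h := hg (d⁻¹ x) (by rwa [norm_loc])
  rw [AlgEquiv.mul_apply, AlgEquiv.mul_apply]
  conv_lhs => rw [show d (g (d⁻¹ x)) - x = d (g (d⁻¹ x) - d⁻¹ x) by
    rw [map_sub, ← AlgEquiv.mul_apply d d⁻¹, mul_inv_cancel, AlgEquiv.one_apply]]
  rwa [norm_loc]

/-- Elements fixed by inertia have norm a power of `p`. -/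
theorem norm_eq_zpow_of_fixed {x : Ω} (hx0 : x ≠ 0) (hx : ∀ g ∈ inertiaLoc p, g x = x) :
    ∃ m : ℤ, ‖x‖ = ‖(p : Ω)‖ ^ m := by
  obtain ⟨b, hb, hfix⟩ := exists_qbar_near x (norm_pos_iff.mpr hx0)
  have hnb : ‖ι b‖ = ‖x‖ := by
    rw [show ι b = x - (x - ι b) by ring]
    exact norm_sub_eq_of_lt hb
  have hb0 : b ≠ 0 := fun h => by
    rw [h, map_zero, norm_zero] at hnb
    exact hx0 (norm_eq_zero.mp hnb.symm)
  obtain ⟨m, h1, h2⟩ := Carayol.InertiaField.exists_zpow_mul_unit hp.out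
    (Places.liesOverPrime_padicPlace p) (x := b) (fun σ hσ => by
      have hD : σ ∈ (localGaloisToGlobal p).range := by
        rw [Places.range_localGaloisToGlobal]
        exact ((Gal.mem_inertia_iff _ _).mp hσ).1
      obtain ⟨g, rfl⟩ := hD
      apply (padicEmbedding p).toRingHom.injective
      exact (padicEmbedding_localGaloisToGlobal p g b).trans (hfix g (hx g hσ))) hb0
  refine ⟨m, ?_⟩
  rw [Places.mem_padicPlace, map_div₀, map_zpow₀, map_natCast, norm_div, norm_zpow, hnb] at h1 h2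
  have hpm : 0 < ‖(p : Ω)‖ ^ m := zpow_pos norm_p_pos m
  exact le_antisymm ((div_le_one hpm).mp h1) ((div_le_one (norm_pos_iff.mpr hx0)).mp h2)

/-! ### Residues -/

variable (p) in
/-- The residue field of `Ω`. -/
abbrev Res : Type := IsLocalRing.ResidueField (padicIntegers p)

theorem mem_integers {x : Ω} : x ∈ padicIntegers p ↔ ‖x‖ ≤ 1 :=
  ⟨fun h => by exact_mod_cast (mem_padicIntegers_iff p).mp h,
    fun h => (mem_padicIntegers_iff p).mpr (by exact_mod_cast h)⟩

/-- The residue of an integral element, zero elsewhere. -/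
def red (x : Ω) : Res p :=
  if h : ‖x‖ ≤ 1 then IsLocalRing.residue (padicIntegers p) ⟨x, mem_integers.mpr h⟩ else 0

theorem red_mk {x : Ω} (h : ‖x‖ ≤ 1) :
    red x = IsLocalRing.residue (padicIntegers p) ⟨x, mem_integers.mpr h⟩ := dif_pos h

theorem residue_eq_zero_iff_norm {x : padicIntegers p} :
    IsLocalRing.residue (padicIntegers p) x = 0 ↔ ‖(x : Ω)‖ < 1 := by
  rw [IsLocalRing.residue_eq_zero_iff, IsLocalRing.mem_maximalIdeal, mem_nonunits_iff]
  constructor
  · intro h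
    refine lt_of_le_of_ne (mem_integers.mp x.2) fun h1 => h ?_
    have hx0 : (x : Ω) ≠ 0 := fun h0 => by rw [h0, norm_zero] at h1; exact zero_ne_one h1
    exact IsUnit.of_mul_eq_one ⟨(x : Ω)⁻¹, mem_integers.mpr (by rw [norm_inv, h1, inv_one])⟩
      (Subtype.ext (mul_inv_cancel₀ hx0))
  · rintro h ⟨u, hu⟩
    have h1 : (x : Ω) * ((↑u⁻¹ : padicIntegers p) : Ω) = 1 := by
      rw [← hu, ← MulMemClass.coe_mul, Units.mul_inv]
      rfl
    have h2 := congrArg norm h1
    rw [norm_mul, norm_one] at h2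
    nlinarith [mem_integers.mp (↑u⁻¹ : padicIntegers p).2, norm_nonneg (x : Ω),
      norm_nonneg ((↑u⁻¹ : padicIntegers p) : Ω)]

/-- Two integral elements have the same reduction iff their distance is less than `1`. -/
theorem red_eq_red_iff {x y : Ω} (hx : ‖x‖ ≤ 1) (hy : ‖y‖ ≤ 1) :
    red x = red y ↔ ‖x - y‖ < 1 := by
  rw [red_mk hx, red_mk hy, ← sub_eq_zero, ← map_sub, residue_eq_zero_iff_norm]
  rfl

theorem red_eq_zero_iff {x : Ω} (hx : ‖x‖ ≤ 1) : red x = 0 ↔ ‖x‖ < 1 := by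
  rw [red_mk hx, residue_eq_zero_iff_norm]

theorem red_eq_zero_of_lt {x : Ω} (hx : ‖x‖ < 1) : red x = 0 := (red_eq_zero_iff hx.le).mpr hx

@[simp]
theorem red_zero : red (0 : Ω) = 0 := red_eq_zero_of_lt (by simp)

theorem red_add {x y : Ω} (hx : ‖x‖ ≤ 1) (hy : ‖y‖ ≤ 1) : red (x + y) = red x + red y := by
  rw [red_mk hx, red_mk hy, red_mk ((IsUltrametricDist.norm_add_le_max _ _).trans (max_le hx hy)),
    ← map_add]
  rfl

theorem red_sub {x y : Ω} (hx : ‖x‖ ≤ 1) (hy : ‖y‖ ≤ 1) : red (x - y) = red x - red y := by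
  rw [red_mk hx, red_mk hy, red_mk ((norm_sub_le_max' _ _).trans (max_le hx hy)), ← map_sub]
  rfl

theorem red_mul {x y : Ω} (hx : ‖x‖ ≤ 1) (hy : ‖y‖ ≤ 1) : red (x * y) = red x * red y := by
  rw [red_mk hx, red_mk hy,
    red_mk (by rw [norm_mul]; exact mul_le_one₀ hx (norm_nonneg _) hy), ← map_mul]
  rfl

theorem red_natCast (n : ℕ) : red (n : Ω) = (n : Res p) := by
  rw [red_mk (norm_natCast_le_one' n)]
  exact map_natCast (IsLocalRing.residue (padicIntegers p)) n

@[simp]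
theorem red_one : red (1 : Ω) = 1 := by simpa using red_natCast (p := p) 1

theorem red_pow {x : Ω} (hx : ‖x‖ ≤ 1) (n : ℕ) : red (x ^ n) = red x ^ n := by
  induction n with
  | zero => simp
  | succ n ih =>
    rw [pow_succ, red_mul (by rw [norm_pow]; exact pow_le_one₀ (norm_nonneg _) hx) hx, ih,
      pow_succ]

instance charP_res : CharP (Res p) p := by
  refine (CharP.charP_iff_prime_eq_zero hp.out).mpr ?_
  rw [← red_natCast]
  exact red_eq_zero_of_lt norm_p_lt_one

theorem red_inertia {g : GalLoc p} (hg : g ∈ inertiaLoc p) {x : Ω} (hx : ‖x‖ ≤ 1) :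
    red (g x) = red x :=
  (red_eq_red_iff (by rwa [norm_loc]) hx).mpr (mem_inertiaLoc_iff.mp hg x hx)

theorem IsFrob.red_pow {φ : GalLoc p} (h : IsFrob φ) (n : ℕ) {x : Ω} (hx : ‖x‖ ≤ 1) :
    red ((φ ^ n) x) = red x ^ p ^ n := by
  rw [← LocalModelP.red_pow hx]
  exact (red_eq_red_iff (by rwa [norm_loc])
    (by rw [norm_pow]; exact pow_le_one₀ (norm_nonneg _) hx)).mpr (h.pow n hx)

/-- Residue classes are killed by some `X ^ p ^ N - X`. -/
theorem exists_pow_frobenius_near {x : Ω} (hx : ‖x‖ ≤ 1) :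
    ∃ N, 0 < N ∧ ‖x ^ p ^ N - x‖ < 1 := by
  obtain ⟨b, hb, hxb⟩ := exists_qbar_near_integral hx
  have := Gal.charP_residueField (padicPlace p) hp.out (Places.liesOverPrime_padicPlace p)
  let : Algebra (ZMod p) (IsLocalRing.ResidueField (padicPlace p)) := ZMod.algebra _ p
  have := Gal.isAlgebraic_residueField (padicPlace p) (Places.liesOverPrime_padicPlace p)
  set z := IsLocalRing.residue (padicPlace p) ⟨b, hb⟩
  have : FiniteDimensional (ZMod p) (ZMod p)⟮z⟯ :=
    IntermediateField.adjoin.finiteDimensional (Algebra.IsAlgebraic.isAlgebraic z).isIntegral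
  have : Finite (ZMod p)⟮z⟯ := Module.finite_of_finite (ZMod p)
  cases nonempty_fintype (ZMod p)⟮z⟯
  refine ⟨Module.finrank (ZMod p) (ZMod p)⟮z⟯, Module.finrank_pos, ?_⟩
  set N := Module.finrank (ZMod p) (ZMod p)⟮z⟯
  have hz : z ^ p ^ N = z := by
    have h := congrArg Subtype.val (FiniteField.pow_card
      (⟨z, IntermediateField.mem_adjoin_simple_self _ z⟩ : (ZMod p)⟮z⟯))
    rwa [Fintype.card_eq_nat_card, Module.natCard_eq_pow_finrank (K := ZMod p), Nat.card_zmod]
      at h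
  have h1 : b ^ p ^ N - b ∈ (padicPlace p).nonunits := by
    rw [← map_pow, Gal.residue_eq_residue_iff] at hz
    exact hz
  rw [Places.mem_nonunits_padicPlace, map_sub, map_pow] at h1
  rw [show x ^ p ^ N - x = ((x ^ p ^ N - ι b ^ p ^ N) + (ι b ^ p ^ N - ι b)) - (x - ι b) by ring]
  refine (norm_sub_le_max' _ _).trans_lt (max_lt ?_ hxb)
  exact (IsUltrametricDist.norm_add_le_max _ _).trans_lt
    (max_lt ((norm_pow_sub_pow_le hx ((Places.mem_padicPlace p).mp hb) _).trans_lt hxb) h1)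

/-- A unit is congruent to a root of unity of order prime to `p`. -/
theorem exists_root_near {x : Ω} (hx : ‖x‖ = 1) :
    ∃ (M : ℕ) (η : Ω), ¬ p ∣ M ∧ η ^ M = 1 ∧ ‖x - η‖ < 1 := by
  classical
  obtain ⟨N, hN, h⟩ := exists_pow_frobenius_near hx.le
  have hpN : 1 < p ^ N := Nat.one_lt_pow hN.ne' hp.out.one_lt
  set M := p ^ N - 1 with hM
  have hdvd : ¬ p ∣ M := by
    intro hd
    have h1 : p ∣ p ^ N := dvd_pow_self p hN.ne'
    have h2 := Nat.dvd_sub h1 hd
    rw [hM, Nat.sub_sub_self hpN.le, Nat.dvd_one] at h2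
    exact hp.out.ne_one h2
  have hM0 : M ≠ 0 := fun h0 => hdvd (h0 ▸ dvd_zero p)
  have h1 : ‖x ^ M - 1‖ < 1 := by
    rw [show p ^ N = M + 1 by omega, pow_succ', show x * x ^ M - x = x * (x ^ M - 1) by ring,
      norm_mul, hx, one_mul] at h
    exact h
  have : NeZero (M : Ω) := ⟨Nat.cast_ne_zero.mpr hM0⟩
  obtain ⟨ζ, hζ⟩ := HasEnoughRootsOfUnity.exists_primitiveRoot Ω M
  have hp' := congrArg (Polynomial.eval x)
    (Polynomial.X_pow_sub_one_eq_prod (Nat.pos_of_ne_zero hM0) hζ)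
  simp only [Polynomial.eval_sub, Polynomial.eval_pow, Polynomial.eval_X, Polynomial.eval_one,
    Polynomial.eval_prod, Polynomial.eval_C] at hp'
  rw [hp', norm_prod] at h1
  by_contra hcon
  push Not at hcon
  exact absurd h1 (not_lt.mpr (Finset.one_le_prod fun η hη => hcon M η hdvd
    ((Polynomial.mem_nthRootsFinset (Nat.pos_of_ne_zero hM0) 1).mp hη)))

/-- Congruent roots of unity of order prime to `p` are equal. -/
theorem root_eq_of_near {M : ℕ} (hM : ¬ p ∣ M) {η η' : Ω} (h : η ^ M = 1) (h' : η' ^ M = 1)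
    (hnear : ‖η - η'‖ < 1) : η = η' := by
  have hM0 : M ≠ 0 := fun h0 => hM (h0 ▸ dvd_zero p)
  have hn' : ‖η'‖ = 1 := norm_eq_one_of_pow_eq_one hM0 h'
  have h0 : η' ≠ 0 := fun e => by simp [e] at hn'
  set z := η / η'
  have hz : z ^ M = 1 := by rw [div_pow, h, h', div_one]
  have hz1 : ‖z - 1‖ < 1 := by
    rw [show z - 1 = (η - η') / η' by simp only [z]; field_simp, norm_div, hn', div_one]
    exact hnear
  by_contra hne
  have hsum : ∑ i ∈ Finset.range M, z ^ i = 0 := by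
    have h2 := geom_sum_mul z M
    rw [hz, sub_self, mul_eq_zero] at h2
    exact h2.resolve_right (sub_ne_zero.mpr fun e => hne ((div_eq_one_iff_eq h0).mp e))
  have hlt : ‖(M : Ω)‖ < 1 := by
    have e : (M : Ω) = ∑ i ∈ Finset.range M, (1 - z ^ i) := by
      rw [Finset.sum_sub_distrib, hsum, sub_zero]
      simp
    rw [e]
    refine lt_of_le_of_lt (IsUltrametricDist.norm_sum_le_of_forall_le_of_nonneg
      (norm_nonneg (z - 1)) fun i _ => ?_) hz1
    rw [norm_sub_rev]
    simpa using norm_pow_sub_pow_le (norm_eq_one_of_pow_eq_one hM0 hz).le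
      (norm_one (α := Ω)).le i
  rw [← red_eq_zero_iff (norm_natCast_le_one' M), red_natCast,
    CharP.cast_eq_zero_iff (Res p) p] at hlt
  exact hM hlt

/-- Inertia fixes the roots of unity of order prime to `p`. -/
theorem inertia_fix_root {g : GalLoc p} (hg : g ∈ inertiaLoc p) {M : ℕ} (hM : ¬ p ∣ M) {η : Ω}
    (h : η ^ M = 1) : g η = η := by
  have hn : ‖η‖ = 1 := norm_eq_one_of_pow_eq_one (fun h0 : M = 0 => hM (h0 ▸ dvd_zero p)) h
  exact root_eq_of_near hM (by rw [← map_pow, h, map_one]) h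
    (mem_inertiaLoc_iff.mp hg η hn.le)

/-- An element fixing all roots of unity of order prime to `p` lies in inertia. -/
theorem mem_inertiaLoc_of_fix_roots {g : GalLoc p}
    (h : ∀ (M : ℕ) (η : Ω), ¬ p ∣ M → η ^ M = 1 → g η = η) : g ∈ inertiaLoc p := by
  rw [mem_inertiaLoc_iff]
  intro x hx
  rcases hx.lt_or_eq with hlt | he
  · exact (norm_sub_le_max' _ _).trans_lt (max_lt (by rwa [norm_loc]) hlt)
  · obtain ⟨M, η, hM, hη, hxη⟩ := exists_root_near he
    rw [show g x - x = g (x - η) - (x - η) by rw [map_sub, h M η hM hη]; ring]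
    exact (norm_sub_le_max' _ _).trans_lt (max_lt (by rwa [norm_loc]) hxη)

/-- A Frobenius raises roots of unity of order prime to `p` to the `p`-th power. -/
theorem IsFrob.apply_root {φ : GalLoc p} (hφ : IsFrob φ) {M : ℕ} (hM : ¬ p ∣ M) {η : Ω}
    (h : η ^ M = 1) (n : ℕ) : (φ ^ n) η = η ^ p ^ n := by
  have hn : ‖η‖ = 1 := norm_eq_one_of_pow_eq_one (fun h0 : M = 0 => hM (h0 ▸ dvd_zero p)) h
  exact root_eq_of_near hM (by rw [← map_pow, h, map_one])
    (by rw [← pow_mul, mul_comm, pow_mul, h, one_pow]) (hφ.pow n hn.le)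

/-! ### Hilbert 90 -/

/-- A multiplicative cocycle of finite level on a subgroup is a coboundary. -/
theorem hilbert90 (H : Subgroup (GalLoc p)) (u : GalLoc p → Ω) (hu0 : ∀ g ∈ H, u g ≠ 0)
    (hc : ∀ g ∈ H, ∀ h ∈ H, u (g * h) = u g * g (u h)) (E : IntermediateField ℚ_[p] Ω)
    [FiniteDimensional ℚ_[p] E]
    (hE : ∀ g ∈ H, ∀ g' ∈ H, (∀ x ∈ E, g x = g' x) → u g = u g') :
    ∃ b : Ω, b ≠ 0 ∧ ∀ g ∈ H, g b = u g * b := by
  classical
  let r : H → (E →ₐ[ℚ_[p]] Ω) := fun g => ((g : GalLoc p) : Ω →ₐ[ℚ_[p]] Ω).comp E.val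
  have := Fintype.ofFinite (Set.range r)
  let sec : Set.range r → H := fun s => s.2.choose
  have hsec : ∀ s : Set.range r, r (sec s) = (s : E →ₐ[ℚ_[p]] Ω) := fun s => s.2.choose_spec
  let χ : Set.range r → (E →* Ω) := fun s => ((s : E →ₐ[ℚ_[p]] Ω) : E →* Ω)
  have hχ : Function.Injective χ := fun s t hst =>
    Subtype.ext (AlgHom.ext fun x => DFunLike.congr_fun hst x)
  obtain ⟨e, he⟩ : ∃ e : E, ∑ s : Set.range r, u (sec s) * χ s e ≠ 0 := by
    by_contra h
    simp only [not_exists, not_not] at h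
    have hli := (linearIndependent_monoidHom E Ω).comp χ hχ
    rw [Fintype.linearIndependent_iff] at hli
    have h1 := hli (fun s => u (sec s))
      (funext fun e => by simpa [Finset.sum_apply] using h e) ⟨r 1, 1, rfl⟩
    exact hu0 _ (sec ⟨r 1, 1, rfl⟩).2 h1
  set β := ∑ s : Set.range r, u (sec s) * χ s e
  refine ⟨β⁻¹, inv_ne_zero he, fun g hg => ?_⟩
  have key : u g * g β = β := by
    rw [map_sum, Finset.mul_sum]
    let perm : Set.range r → Set.range r := fun s => ⟨r (⟨g, hg⟩ * sec s), _, rfl⟩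
    have hperm : Function.Bijective perm := by
      refine Finite.injective_iff_bijective.mp fun s t h => Subtype.ext (AlgHom.ext fun x => ?_)
      have h1 := DFunLike.congr_fun (congrArg Subtype.val h) x
      change g ((sec s : GalLoc p) x) = g ((sec t : GalLoc p) x) at h1
      rw [← hsec s, ← hsec t]
      exact g.injective h1
    refine Fintype.sum_bijective perm hperm _ _ fun s => ?_
    rw [map_mul, ← mul_assoc, ← hc g hg _ (sec s).2]
    congr 1
    · exact hE _ (H.mul_mem hg (sec s).2) _ (sec (perm s)).2 fun x hx =>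
        (DFunLike.congr_fun (hsec (perm s)) ⟨x, hx⟩).symm
    · show g ((s : E →ₐ[ℚ_[p]] Ω) e) = ((perm s : Set.range r) : E →ₐ[ℚ_[p]] Ω) e
      rw [← hsec s]
      rfl
  have hgβ : g β ≠ 0 := (map_ne_zero _).mpr he
  rw [map_inv₀, inv_eq_one_div, eq_comm, eq_div_iff hgβ, mul_assoc, ← div_eq_inv_mul,
    mul_div_assoc', key, div_self he]

/-! ### The decomposition group of an arbitrary place -/

/-- A parametrisation of the decomposition group of a place over `p`. -/
structure AtPlace (p : ℕ) [Fact p.Prime] (P : ValuationSubring ℚbar) where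
  /-- the conjugating element -/
  σ : ℚbar ≃ₐ[ℚ] ℚbar
  smul_eq : σ • padicPlace p = P

/-- Every place above `p` comes from the standard embedding. -/
theorem exists_atPlace {P : ValuationSubring ℚbar} (hP : P.LiesOverPrime p) :
    Nonempty (AtPlace p P) := by
  obtain ⟨σ, h⟩ := Places.exists_smul_padicPlace_eq p hP
  exact ⟨⟨σ, h⟩⟩

namespace AtPlace

variable {P : ValuationSubring ℚbar} (T : AtPlace p P)

/-- The local group inside the global one. -/
def hom : GalLoc p →* (ℚbar ≃ₐ[ℚ] ℚbar) :=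
  (MulAut.conj T.σ).toMonoidHom.comp (localGaloisToGlobal p)

theorem hom_apply (g : GalLoc p) : T.hom g = T.σ * localGaloisToGlobal p g * T.σ⁻¹ := rfl

theorem hom_mem (g : GalLoc p) : T.hom g ∈ P.decompositionSubgroup ℚ := by
  show T.hom g • P = P
  obtain ⟨σ, rfl⟩ := T
  rw [hom_apply, smul_smul, inv_mul_cancel_right, mul_smul,
    show localGaloisToGlobal p g • padicPlace p = padicPlace p from
      localGaloisToGlobal_mem_decompositionSubgroup p g]

/-- Every element of the decomposition group comes from the local Galois group. -/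
theorem exists_hom_eq {d : ℚbar ≃ₐ[ℚ] ℚbar} (hd : d ∈ P.decompositionSubgroup ℚ) :
    ∃ g, T.hom g = d := by
  have hd' : T.σ⁻¹ * d * T.σ ∈ (padicPlace p).decompositionSubgroup ℚ := by
    show (T.σ⁻¹ * d * T.σ) • padicPlace p = padicPlace p
    rw [mul_smul, T.smul_eq, mul_smul, show d • P = P from hd, inv_smul_eq_iff, T.smul_eq]
  rw [← Places.range_localGaloisToGlobal] at hd'
  obtain ⟨g, hg⟩ := hd'
  exact ⟨g, by rw [hom_apply, hg]; group⟩

/-- Local inertia corresponds to the inertia group of the place. -/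
theorem hom_mem_inertia_iff (g : GalLoc p) :
    T.hom g ∈ P.inertiaSubgroupIn ℚ ↔ g ∈ inertiaLoc p := by
  obtain ⟨σ, rfl⟩ := T
  rw [hom_apply, Gal.mem_inertia_smul_iff]
  rfl

theorem exists_hom_eq_inertia {d : ℚbar ≃ₐ[ℚ] ℚbar} (hd : d ∈ P.inertiaSubgroupIn ℚ) :
    ∃ g ∈ inertiaLoc p, T.hom g = d := by
  obtain ⟨g, hg⟩ := T.exists_hom_eq ((Gal.mem_inertia_iff _ _).mp hd).1
  exact ⟨g, (T.hom_mem_inertia_iff g).mp (hg ▸ hd), hg⟩

/-- Local Frobenius elements correspond to Frobenius elements at the place. -/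
theorem isFrobeniusAt_hom_iff (g : GalLoc p) :
    P.IsFrobeniusAt (T.hom g) p ↔ IsFrob g := by
  obtain ⟨σ, rfl⟩ := T
  rw [hom_apply, Gal.isFrobeniusAt_smul_iff, isFrob_iff]

/-- The embedding attached to `P`. -/
def emb : ℚbar →ₐ[ℚ] Ω := (padicEmbedding p).comp (T.σ⁻¹ : ℚbar ≃ₐ[ℚ] ℚbar).toAlgHom

/-- The embedding is equivariant. -/
theorem emb_hom (g : GalLoc p) (x : ℚbar) : T.emb (T.hom g x) = g (T.emb x) := by
  show padicEmbedding p (T.σ⁻¹ (T.hom g x)) = g (padicEmbedding p (T.σ⁻¹ x))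
  rw [← padicEmbedding_localGaloisToGlobal, hom_apply, AlgEquiv.mul_apply, AlgEquiv.mul_apply,
    AlgEquiv.aut_inv, AlgEquiv.symm_apply_apply]

end AtPlace

end Fermat.Agent.LocalModelP
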