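import Fermat.Agent.LocalModel.Common
import Fermat.Agent.LocalModelP.Cocycle
import Fermat.Agent.LocalModelP.Detector

/-!
# Lifts restricted to the decomposition group at `p`: tangent vectors, determinants, levels
-/

set_option autoImplicit false

noncomputable section

open IsLocalRing

namespace Fermat.Agent.LocalModelP

open Fermat.Agent.Duality Fermat.Agent.Deformation Fermat.Agent.Root.Patched

local notation "ℚbar" => AlgebraicClosure ℚ

variable {p : ℕ} [hp : Fact p.Prime]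

local notation "Ω" => PadicAlgCl p

/-! ### Evaluation points -/

/-- A finite-dimensional space of functions is detected by finitely many points. -/
theorem exists_eval_points {k X : Type} [Field k] [Nonempty X] :
    ∀ (n : ℕ) (W : Submodule k (X → k)), Module.Finite k W → Module.finrank k W ≤ n →
      ∃ x : Fin n → X, ∀ f ∈ W, (∀ i, f (x i) = 0) → f = 0 := by
  intro n
  induction n with
  | zero =>
    intro W hW hn
    refine ⟨Fin.elim0, fun f hf _ => ?_⟩
    rw [Nat.le_zero, Submodule.finrank_eq_zero] at hn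
    rwa [hn, Submodule.mem_bot] at hf
  | succ n ih =>
    intro W hW hn
    by_cases hbot : W = ⊥
    · refine ⟨fun _ => Classical.arbitrary X, fun f hf _ => ?_⟩
      rwa [hbot, Submodule.mem_bot] at hf
    · obtain ⟨f₀, hf₀, hne⟩ := (Submodule.ne_bot_iff W).mp hbot
      obtain ⟨x₀, hx₀⟩ := Function.ne_iff.mp hne
      set W' : Submodule k (X → k) := W ⊓ LinearMap.ker (LinearMap.proj x₀) with hW'
      have hle : W' ≤ W := inf_le_left
      have hfin : Module.Finite k W' :=
        Module.Finite.of_injective _ (Submodule.inclusion_injective hle)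
      have hlt : Module.finrank k W' < Module.finrank k W :=
        Submodule.finrank_lt_finrank_of_lt (lt_of_le_of_ne hle fun h => hx₀ (by
          have : f₀ ∈ W' := h.symm ▸ hf₀
          simpa [hW'] using this.2))
      obtain ⟨x, hx⟩ := ih W' hfin (by omega)
      refine ⟨Fin.cons x₀ x, fun f hf h => hx f ⟨hf, ?_⟩ fun i => by simpa using h i.succ⟩
      show f x₀ = 0
      simpa using h 0

/-! ### The cyclotomic character -/

variable {k : Type} [Field k] [CharP k p]

/-- The cyclotomic character modulo `p` with values in `k`. -/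
def cyc (S : Setup p) (k : Type) [Field k] (g : GalLoc p) : k :=
  ((exists_exponent g S.hζ hp.out.ne_zero).choose : k)

theorem cyc_eq {S : Setup p} {g : GalLoc p} {a : ℕ} (h : g S.ζ = S.ζ ^ a) :
    cyc S k g = (a : k) := by
  rw [cyc, CharP.natCast_eq_natCast k p]
  have h1 := ((exists_exponent g S.hζ hp.out.ne_zero).choose_spec S.ζ S.ζ_pow).symm.trans h
  rw [(S.hζ.isOfFinOrder hp.out.ne_zero).pow_eq_pow_iff_modEq, ← S.hζ.eq_orderOf] at h1
  exact h1

/-- `cyc S k g` is the exponent of `g` on the `p`-th root of unity, read in `k`. -/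
theorem cyc_spec (S : Setup p) (g : GalLoc p) : ∃ a : ℕ, g S.ζ = S.ζ ^ a ∧ cyc S k g = (a : k) :=
  let ⟨a, ha⟩ := exists_exponent g S.hζ hp.out.ne_zero
  ⟨a, ha _ S.ζ_pow, cyc_eq (ha _ S.ζ_pow)⟩

theorem cyc_isChar (S : Setup p) : IsChar 1 (cyc S k) where
  level := by
    refine ⟨IntermediateField.adjoin ℚ_[p] {S.ζ},
      IntermediateField.adjoin.finiteDimensional
        (Algebra.IsAlgebraic.isAlgebraic S.ζ).isIntegral, fun g g' hg => ?_⟩
    obtain ⟨a, ha, ha'⟩ := cyc_spec (k := k) S g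
    rw [ha', cyc_eq (k := k) (a := a)]
    rw [← hg _ (IntermediateField.mem_adjoin_simple_self _ _), ha]
  map_one := by rw [cyc_eq (k := k) (a := 1) (by rw [pow_one]; rfl), Nat.cast_one]
  mul g _ h _ := by
    obtain ⟨a, ha, ha'⟩ := cyc_spec (k := k) S g
    obtain ⟨b, hb, hb'⟩ := cyc_spec (k := k) S h
    rw [ha', hb', cyc_eq (k := k) (a := a * b) (by rw [AlgEquiv.mul_apply, hb, map_pow, ha,
      ← pow_mul]), Nat.cast_mul]

theorem cyc_GF {S : Setup p} {g : GalLoc p} (hg : g ∈ S.GF) : cyc S k g = 1 := by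
  rw [cyc_eq (k := k) (a := 1) (by rw [pow_one, S.GF_fix_ζ hg]), Nat.cast_one]

theorem exists_cyc_ne_one {S : Setup p} (he : S.e₁ = 1) :
    ∃ g ∈ inertiaLoc p, cyc S k g ≠ 1 := by
  obtain ⟨g, hg, hne⟩ := setup_one_ne he
  refine ⟨g, hg, fun h => hne ?_⟩
  obtain ⟨a, ha, ha'⟩ := cyc_spec (k := k) S g
  rw [h, ← Nat.cast_one, CharP.natCast_eq_natCast k p] at ha'
  conv_rhs => rw [← pow_one S.ζ]
  rw [ha, (S.hζ.isOfFinOrder hp.out.ne_zero).pow_eq_pow_iff_modEq, ← S.hζ.eq_orderOf]
  exact ha'.symm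

/-! ### Lifts -/

variable {O : Type} [CommRing O] [IsLocalRing O] {ρbar : GQ →* M2 (ResidueField O)} {S : TestRing O}

theorem exists_global_exponent (σ : GQ) (N : ℕ) (hN : N ≠ 0) :
    ∃ a : ℕ, ∀ μ : ℚbar, μ ^ N = 1 → σ μ = μ ^ a := by
  have : NeZero N := ⟨hN⟩
  have : NeZero ((N : ℕ) : ℚbar) := ⟨Nat.cast_ne_zero.mpr hN⟩
  obtain ⟨z, hz⟩ := HasEnoughRootsOfUnity.exists_primitiveRoot ℚbar N
  obtain ⟨a, -, ha⟩ := hz.eq_pow_of_pow_eq_one
    (show (σ z) ^ N = 1 by rw [← map_pow, hz.pow_eq_one, map_one])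
  refine ⟨a, fun μ hμ => ?_⟩
  obtain ⟨j, -, rfl⟩ := hz.eq_pow_of_pow_eq_one hμ
  rw [map_pow, ← ha, ← pow_mul, ← pow_mul, mul_comm]

/-- Two lifts with cyclotomic determinant have the same determinant. -/
theorem det_eq_det (hpO : (p : O) ∈ maximalIdeal O) {r r' : Lift ρbar S}
    (hr : DetCyclotomic p S r) (hr' : DetCyclotomic p S r') (σ : GQ) :
    (r.M σ).det = (r'.M σ).det := by
  refine LocalModel.eq_of_forall_sub_mem_pow fun n => ?_
  obtain ⟨a, ha⟩ := exists_global_exponent σ (p ^ n) (pow_ne_zero _ hp.out.ne_zero)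
  have hle : Ideal.span {((p ^ n : ℕ) : S.R)} ≤ maximalIdeal S.R ^ n := by
    rw [Ideal.span_singleton_le_iff_mem, Nat.cast_pow]
    exact Ideal.pow_mem_pow (LocalModel.natCast_mem hpO) n
  have := sub_mem (hle (hr n σ a ha)) (hle (hr' n σ a ha))
  rwa [sub_sub_sub_cancel_right] at this

/-- The residual determinant at the place is the cyclotomic character. -/
theorem red_det_hom [CharP (ResidueField O) p] (hpO : (p : O) ∈ maximalIdeal O)
    {P : ValuationSubring ℚbar} (T : AtPlace p P) (U : Setup p) {r : Lift ρbar S}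
    (hr : DetCyclotomic p S r) (g : GalLoc p) :
    (ρbar (T.hom g)).det = cyc U (ResidueField O) g := by
  obtain ⟨a, ha⟩ := exists_exponent g U.hζ hp.out.ne_zero
  rw [cyc_eq (ha _ U.ζ_pow), ← LocalModel.red_det r, ← sub_eq_zero,
    ← map_natCast S.red a, ← map_sub, ← LocalModel.mem_max_iff]
  refine (Ideal.span_singleton_le_iff_mem _).mpr ?_ (hr 1 (T.hom g) a fun μ hμ => ?_)
  · rw [pow_one]
    exact LocalModel.natCast_mem hpO
  · rw [pow_one] at hμ
    apply T.emb.injective
    show T.emb (T.hom g μ) = T.emb (μ ^ a)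
    rw [T.emb_hom, map_pow, ha _ (by rw [← map_pow, hμ, map_one])]

theorem finLevel_hom {P : ValuationSubring ℚbar} (T : AtPlace p P) {α : Type} (f : GQ → α)
    (L : IntermediateField ℚ ℚbar) [FiniteDimensional ℚ L]
    (h : ∀ σ σ' : GQ, (∀ x ∈ L, σ x = σ' x) → f σ = f σ') :
    FinLevel fun g : GalLoc p => f (T.hom g) := by
  refine ⟨Places.localField p (L.map ((T.σ⁻¹ : ℚbar ≃ₐ[ℚ] ℚbar).toAlgHom)), inferInstance,
    fun g g' hg => h _ _ fun x hx => T.emb.injective ?_⟩
  show T.emb (T.hom g x) = T.emb (T.hom g' x)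
  rw [T.emb_hom, T.emb_hom]
  exact hg _ (Places.embedding_mem_localField p ⟨x, hx, rfl⟩)

theorem finLevel_lift_mod {P : ValuationSubring ℚbar} (T : AtPlace p P) (r : Lift ρbar S) (n : ℕ) :
    FinLevel fun g : GalLoc p =>
      (r.M (T.hom g)).map (Ideal.Quotient.mk (maximalIdeal S.R ^ n)) := by
  obtain ⟨L, hL, hfac⟩ := r.cont n
  refine finLevel_hom T (fun σ => (r.M σ).map (Ideal.Quotient.mk _)) L fun σ σ' h => ?_
  have h1 : ∀ x ∈ L, (σ⁻¹ * σ') x = x := fun x hx => by
    rw [AlgEquiv.mul_apply, ← h x hx, AlgEquiv.aut_inv, AlgEquiv.symm_apply_apply]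
  have h2 : (Ideal.Quotient.mk (maximalIdeal S.R ^ n)).mapMatrix (r.M (σ⁻¹ * σ')) = 1 := by
    refine Matrix.ext fun i j => ?_
    rw [RingHom.mapMatrix_apply, Matrix.map_apply,
      ← Matrix.map_one (Ideal.Quotient.mk (maximalIdeal S.R ^ n)) (map_zero _) (map_one _),
      Matrix.map_apply, Ideal.Quotient.eq]
    exact hfac _ h1 i j
  conv_rhs => rw [show σ' = σ * (σ⁻¹ * σ') by group, map_mul]
  rw [← RingHom.mapMatrix_apply, ← RingHom.mapMatrix_apply, map_mul, h2, mul_one]

theorem finLevel_residual {P : ValuationSubring ℚbar} (T : AtPlace p P) (r : Lift ρbar S) :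
    FinLevel fun g : GalLoc p => ρbar (T.hom g) := by
  obtain ⟨L, hL, hfac⟩ := finLevel_lift_mod T r 1
  refine ⟨L, hL, fun g g' hg => ?_⟩
  show ρbar (T.hom g) = ρbar (T.hom g')
  rw [← r.reduces, ← r.reduces]
  refine Matrix.ext fun i j => sub_eq_zero.mp ?_
  rw [Matrix.map_apply, Matrix.map_apply, ← map_sub, ← LocalModel.mem_max_iff,
    ← pow_one (maximalIdeal S.R), ← Ideal.Quotient.eq]
  exact congrFun (congrFun (hfac g g' hg) i) j

/-- A tangent lift has finite level at the place. -/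
theorem finLevel_lift {P : ValuationSubring ℚbar} (T : AtPlace p P) (r : Lift ρbar S)
    (hS : S.IsTangent) : FinLevel fun g : GalLoc p => r.M (T.hom g) := by
  obtain ⟨L, hL, hfac⟩ := finLevel_lift_mod T r 2
  refine ⟨L, hL, fun g g' hg => Matrix.ext fun i j => sub_eq_zero.mp ?_⟩
  have h := congrFun (congrFun (hfac g g' hg) i) j
  simp only at h ⊢
  rw [Matrix.map_apply, Matrix.map_apply, Ideal.Quotient.eq, show maximalIdeal S.R ^ 2 = ⊥ from hS,
    Ideal.mem_bot] at h
  exact h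

/-- Tangent vectors are separated by semilinear functionals. -/
theorem exists_tangent_functional (hS : S.IsTangent) {x : S.R} (hx : x ∈ maximalIdeal S.R)
    (hx0 : x ≠ 0) : ∃ lm : S.R → ResidueField O,
      (∀ a ∈ maximalIdeal S.R, ∀ b ∈ maximalIdeal S.R, lm (a + b) = lm a + lm b) ∧
      (∀ (c : S.R), ∀ a ∈ maximalIdeal S.R, lm (c * a) = S.red c * lm a) ∧ lm x ≠ 0 := by
  classical
  have hne : (maximalIdeal S.R).toCotangent ⟨x, hx⟩ ≠ 0 := fun h => by
    rw [Ideal.toCotangent_eq_zero, show maximalIdeal S.R ^ 2 = ⊥ from hS, Ideal.mem_bot] at h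
    exact hx0 h
  obtain ⟨ψ, hψ⟩ := Module.Projective.exists_dual_ne_zero (ResidueField S.R) hne
  let e : ResidueField S.R →+* ResidueField O :=
    Ideal.Quotient.lift (maximalIdeal S.R) S.red fun a ha => (S.ker_red a).mpr ha
  refine ⟨fun a => if ha : a ∈ maximalIdeal S.R then e (ψ ((maximalIdeal S.R).toCotangent ⟨a, ha⟩))
    else 0, fun a ha b hb => ?_, fun c a ha => ?_, ?_⟩
  · simp only [dif_pos ha, dif_pos hb, dif_pos (add_mem ha hb)]
    rw [← map_add e, ← map_add ψ, ← map_add]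
    rfl
  · simp only [dif_pos ha, dif_pos (Ideal.mul_mem_left _ c ha)]
    rw [show (⟨c * a, Ideal.mul_mem_left _ c ha⟩ : maximalIdeal S.R) = c • ⟨a, ha⟩ from rfl,
      map_smul, ← algebraMap_smul (ResidueField S.R) c, map_smul, smul_eq_mul, map_mul]
    rfl
  · simp only [dif_pos hx]
    exact (map_ne_zero e).mpr hψ

end Fermat.Agent.LocalModelP
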