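import Fermat.Agent.LocalModelP.Algebra
import Fermat.Agent.LocalModelP.Tangent

/-!
# The frame of an ordinary lift at `p`
-/

set_option autoImplicit false

noncomputable section

open IsLocalRing Matrix

namespace Fermat.Agent.LocalModelP

open Fermat.Agent.Duality Fermat.Agent.Deformation Fermat.Agent.Root.Patched

local notation "ℚbar" => AlgebraicClosure ℚ

/-- A residue field in which the prime `p` vanishes has characteristic `p`. -/
theorem charP_residue {O : Type} [CommRing O] [IsLocalRing O] {p : ℕ} (hpp : p.Prime)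
    (hpO : (p : O) ∈ maximalIdeal O) : CharP (ResidueField O) p :=
  (CharP.charP_iff_prime_eq_zero hpp).mpr (by
    rw [← map_natCast (residue O)]; exact (residue_eq_zero_iff _).mpr hpO)

/-- A morphism preserves the stable line. -/
theorem Line.map {R R' G : Type*} [CommRing R] [CommRing R'] [Group G]
    {r : G →* Matrix (Fin 2) (Fin 2) R} {d s : G → R} {g₀ : G} (L : Line r d s g₀) (f : R →+* R') :
    Line (f.mapMatrix.toMonoidHom.comp r) (fun g => f (d g)) (fun g => f (s g)) g₀ where
  rel g h := by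
    have e := congrArg f.mapMatrix (L.rel g h)
    have hs : ∀ (c : R), f.mapMatrix (c • (1 : Matrix (Fin 2) (Fin 2) R)) =
        f c • (1 : Matrix (Fin 2) (Fin 2) R') := fun c => by
      ext i j
      rcases eq_or_ne i j with rfl | hij
      · simp
      · simp [hij]
    rw [map_mul, map_sub, map_sub, map_zero, hs, hs] at e
    exact e
  s_g₀ := by simp only [L.s_g₀, map_one]
  d_g₀ := by
    show f (d g₀) = (f.mapMatrix (r g₀)).det
    rw [L.d_g₀, RingHom.map_det]
  unit := by
    show IsUnit ((f.mapMatrix (r g₀)).det - 1)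
    rw [← RingHom.map_det, ← map_one f, ← map_sub]
    exact L.unit.map f

section Conj

variable {A B : Type} [CommRing A] [CommRing B]

/-- Conjugation into a frame. -/
def cj (V : (M2 A)ˣ) (M : M2 A) : M2 A := (↑V⁻¹ : M2 A) * M * V

theorem cj_mul (V : (M2 A)ˣ) (M N : M2 A) : cj V (M * N) = cj V M * cj V N := by
  simp [cj, mul_assoc]

theorem cj_add (V : (M2 A)ˣ) (M N : M2 A) : cj V (M + N) = cj V M + cj V N := by
  simp [cj, mul_add, add_mul]

theorem cj_sub (V : (M2 A)ˣ) (M N : M2 A) : cj V (M - N) = cj V M - cj V N := by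
  simp [cj, mul_sub, sub_mul]

theorem cj_smul (V : (M2 A)ˣ) (c : A) (M : M2 A) : cj V (c • M) = c • cj V M := by
  simp [cj]

theorem cj_zero (V : (M2 A)ˣ) : cj V (0 : M2 A) = 0 := by simp [cj]

theorem cj_one (V : (M2 A)ˣ) : cj V (1 : M2 A) = 1 := by simp [cj]

theorem cj_injective (V : (M2 A)ˣ) : Function.Injective (cj V) := fun M N h => by
  simpa [cj, ← mul_assoc] using congrArg (fun X => (V : M2 A) * X * (↑V⁻¹ : M2 A)) h

theorem trace_cj (V : (M2 A)ˣ) (M : M2 A) : (cj V M).trace = M.trace := by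
  rw [cj, Matrix.trace_mul_comm, ← mul_assoc, Units.mul_inv, one_mul]

theorem map_cj (f : A →+* B) (V : (M2 A)ˣ) (M : M2 A) :
    (cj V M).map f = cj (Units.map f.mapMatrix.toMonoidHom V) (M.map f) := by
  show f.mapMatrix (cj V M) = cj (Units.map f.mapMatrix.toMonoidHom V) (f.mapMatrix M)
  rw [cj, cj, map_mul, map_mul]
  rfl

end Conj

variable {O : Type} [CommRing O] [IsLocalRing O]

/-- A frame over `O` with given residue. -/
theorem exists_frame_lift (U : (M2 (ResidueField O))ˣ) :
    ∃ V : (M2 O)ˣ, Units.map (residue O).mapMatrix.toMonoidHom V = U := by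
  classical
  let W : M2 O := Matrix.of fun i j => Function.surjInv residue_surjective ((U : M2 _) i j)
  have hW : (residue O).mapMatrix W = U :=
    Matrix.ext fun i j => Function.surjInv_eq residue_surjective _
  have hdet : IsUnit W.det := by
    refine notMem_maximalIdeal.mp fun h => ?_
    have h1 := (residue_eq_zero_iff _).mpr h
    rw [RingHom.map_det, hW] at h1
    exact ((Matrix.isUnit_iff_isUnit_det _).mp U.isUnit).ne_zero h1
  obtain ⟨V, hV⟩ := (Matrix.isUnit_iff_isUnit_det W).mpr hdet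
  exact ⟨V, Units.ext (show (residue O).mapMatrix (V : M2 O) = U by rw [hV, hW])⟩

/-- The frame in a coefficient ring. -/
def frame (V : (M2 O)ˣ) (S : TestRing O) : (M2 S.R)ˣ := Units.map S.alg.mapMatrix.toMonoidHom V

theorem map_frame (V : (M2 O)ˣ) {S S' : TestRing O} (φ : S.R →+* S'.R)
    (hφ : φ.comp S.alg = S'.alg) (M : M2 S.R) :
    (cj (frame V S) M).map φ = cj (frame V S') (M.map φ) := by
  rw [map_cj]
  congr 1
  apply Units.ext
  show φ.mapMatrix (S.alg.mapMatrix (V : M2 O)) = S'.alg.mapMatrix (V : M2 O)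
  rw [← hφ]
  rfl

theorem red_frame (V : (M2 O)ˣ) (S : TestRing O) (M : M2 S.R) :
    (cj (frame V S) M).map S.red =
      cj (Units.map (residue O).mapMatrix.toMonoidHom V) (M.map S.red) := by
  rw [map_cj]
  congr 1
  apply Units.ext
  refine Matrix.ext fun i j => ?_
  show S.red (S.alg ((V : M2 O) i j)) = residue O ((V : M2 O) i j)
  exact S.red_alg _

section Ordinary

variable {ρbar : GQ →* M2 (ResidueField O)} {S : TestRing O} {p : ℕ} [hp : Fact p.Prime]
  {P : ValuationSubring ℚbar} (T : AtPlace p P)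

/-- The local group in the decomposition group. -/
def AtPlace.homD : GalLoc p →* P.decompositionSubgroup ℚ := T.hom.codRestrict _ T.hom_mem

variable [CharP (ResidueField O) p]

/-- An ordinary lift has a stable line. -/
theorem line_of_ordinary (hpO : (p : O) ∈ maximalIdeal O) (U : Setup p) {r : Lift ρbar S}
    (hdet : DetCyclotomic p S r) {s : P.decompositionSubgroup ℚ →* S.R}
    (hs : OrdinaryShape P S r s) {g₀ : GalLoc p} (hg₀ : g₀ ∈ inertiaLoc p)
    (hne : cyc U (ResidueField O) g₀ ≠ 1) :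
    Line (r.M.comp T.hom) (fun g => (r.M (T.hom g)).det * s (T.homD g)⁻¹)
      (fun g => s (T.homD g)) g₀ where
  rel g h := hs.2 (T.homD g) (T.homD h)
  s_g₀ := hs.1 _ ((T.hom_mem_inertia_iff g₀).mpr hg₀)
  d_g₀ := by
    rw [hs.1 (T.homD g₀)⁻¹ (inv_mem ((T.hom_mem_inertia_iff g₀).mpr hg₀)), mul_one]
    rfl
  unit := LocalModel.isUnit_of_red_ne_zero (by
    rw [map_sub, map_one, MonoidHom.comp_apply, LocalModel.red_det,
      red_det_hom hpO T U hdet g₀]
    exact sub_ne_zero.mpr hne)

theorem isUnit_det_lift {R : Type} [CommRing R] (M : GQ →* M2 R) (σ : GQ) : IsUnit (M σ).det :=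
  IsUnit.of_mul_eq_one ((M σ⁻¹).det) (by
    rw [← Matrix.det_mul, ← map_mul, mul_inv_cancel, map_one, Matrix.det_one])

end Ordinary

/-- Idempotents of trace one congruent to `diag (0, 1)` for tangent rings. -/
theorem eq_of_idem {R : Type} [CommRing R] [IsLocalRing R] (hR : maximalIdeal R ^ 2 = ⊥)
    {e : M2 R} (he : e * e = e) (ht : e.trace = 1) (h00 : e 0 0 ∈ maximalIdeal R)
    (h01 : e 0 1 ∈ maximalIdeal R) (h10 : e 1 0 ∈ maximalIdeal R) :
    e = !![0, e 0 1; e 1 0, 1] := by
  have hz : ∀ a ∈ maximalIdeal R, ∀ b ∈ maximalIdeal R, a * b = 0 := fun a ha b hb => by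
    have := Ideal.mul_mem_mul ha hb
    rwa [← sq, hR, Ideal.mem_bot] at this
  have e00 := congrFun (congrFun he 0) 0
  rw [Matrix.mul_apply, Fin.sum_univ_two, hz _ h00 _ h00, hz _ h01 _ h10, add_zero] at e00
  rw [Matrix.trace_fin_two, ← e00, zero_add] at ht
  refine Matrix.ext fun i j => ?_
  fin_cases i <;> fin_cases j <;> simp [← e00, ht]

/-- The off-diagonal part of a tangent difference is its `(0, 1)` entry. -/
theorem fPart_tangent {R : Type} [CommRing R] [IsLocalRing R] (hR : maximalIdeal R ^ 2 = ⊥)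
    {a b : R} (ha : a ∈ maximalIdeal R) (hb : b ∈ maximalIdeal R) {D : M2 R}
    (hD : ∀ i j, D i j ∈ maximalIdeal R) :
    fPart !![0, a; b, 1] D = !![0, D 0 1; 0, 0] := by
  have hz : ∀ a ∈ maximalIdeal R, ∀ b ∈ maximalIdeal R, a * b = 0 := fun a ha b hb => by
    have := Ideal.mul_mem_mul ha hb
    rwa [← sq, hR, Ideal.mem_bot] at this
  refine Matrix.ext fun i j => ?_
  have h1 := fun i j => hz a ha _ (hD i j)
  have h2 := fun i j => hz b hb _ (hD i j)
  have h3 := fun i j => hz _ (hD i j) a ha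
  have h4 := fun i j => hz _ (hD i j) b hb
  fin_cases i <;> fin_cases j <;>
    simp [fPart, Matrix.mul_apply, Fin.sum_univ_two, h1, h2, h3, h4]

end Fermat.Agent.LocalModelP
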