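import Fermat.Agent.LocalModelP.Count
import Fermat.Agent.LocalModelP.Frame
import Fermat.Agent.Patching.Limit

/-!
# Ordinary lifts at `p`: the valuation detector

The off-diagonal coordinate at a quiet element is killed by `s ^ 2 - 1`; the residual one vanishes
for a flat residual representation; with one further value it determines normalised cyclotomic
cocycles.
-/

set_option autoImplicit false

noncomputable section

open IsLocalRing Matrix

namespace Fermat.Agent.LocalModelP

open Fermat.Agent.Duality Fermat.Agent.Deformation Fermat.Agent.FlatBound Fermat.Agent.Root.Patched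

variable {p : ℕ} [hp : Fact p.Prime]

local notation "Ω" => PadicAlgCl p
local notation "ℚbar" => AlgebraicClosure ℚ

/-- Unramified homomorphisms of finite level are determined by a Frobenius. -/
theorem hom_ext_frob {A : Type} [Monoid A] {u v : GalLoc p →* A} (hu : FinLevel u)
    (hv : FinLevel v) (hIu : ∀ g ∈ inertiaLoc p, u g = 1) (hIv : ∀ g ∈ inertiaLoc p, v g = 1)
    {φ : GalLoc p} (hφ : IsFrob φ) (h : u φ = v φ) (g : GalLoc p) : u g = v g := by
  obtain ⟨L, hL, hfac⟩ := hu.prod hv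
  obtain ⟨j, i, hi, hgi⟩ := exists_pow_mul_inertia L hφ g
  have e := hfac g _ hgi
  simp only [Prod.mk.injEq] at e
  rw [e.1, e.2, map_mul, map_mul, map_pow, map_pow, hIu i hi, hIv i hi, h]

theorem fix_zeta_of_cyc_eq_one {k : Type} [Field k] [CharP k p] {U : Setup p} {g : GalLoc p}
    (h : cyc U k g = 1) : g U.ζ = U.ζ := by
  obtain ⟨a, ha, ha'⟩ := cyc_spec (k := k) U g
  rw [h, ← Nat.cast_one, CharP.natCast_eq_natCast k p] at ha'
  conv_rhs => rw [← pow_one U.ζ]
  rw [ha, (U.hζ.isOfFinOrder hp.out.ne_zero).pow_eq_pow_iff_modEq, ← U.hζ.eq_orderOf]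
  exact ha'.symm

/-- An element fixing `ζ` fixes `π` when `e₁ = 1`. -/
theorem fix_pi_of_fix_zeta {U : Setup p} (he : U.e₁ = 1) {g : GalLoc p}
    (hζ : g U.ζ = U.ζ) : g U.π = U.π := by
  obtain ⟨z, hz, hgz⟩ := U.toUnif.apply_π g
  have h1 := U.toUnif.cast_eq_red_pow U.e_eq U.ne_two U.hζ hgz (a := 1) (by rw [pow_one, hζ])
  have hzn : ‖z‖ = 1 := norm_eq_one_of_pow_eq_one U.toUnif.e_ne_zero hz
  rw [he, pow_one, Nat.cast_one, ← red_one (p := p), eq_comm,
    red_eq_red_iff hzn.le (by simp)] at h1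
  rw [hgz, root_eq_of_near U.not_dvd hz (one_pow _) h1, one_mul]

/-- Normalised cyclotomic cocycles vanishing at a moving quiet element are determined by one
value. -/
theorem exists_quiet_point {k : Type} [Field k] [CharP k p] [Finite k] {U : Setup p}
    (he : U.e₁ = 1) {g₀ : GalLoc p} (hg₀ : cyc U k g₀ ≠ 1) {σ : GalLoc p} (hσ : IsQuiet σ)
    {r : Ω} (hr : r ^ p = (p : Ω)) (hσr : σ r ≠ r) :
    ∃ g₁, ∀ c, IsCocycle 1 (cyc U k) c → c g₀ = 0 → c σ = 0 → c g₁ = 0 → c = 0 := by
  obtain ⟨t, ht⟩ := exists_functional (p := p) (k := k)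
  set W : Submodule k (GalLoc p → k) :=
    cocycles (p := p) (cyc U k) ⊓ LinearMap.ker (LinearMap.proj σ) with hW
  obtain ⟨hfin, h2⟩ := finite_restrict_cyclotomic he (cyc_isChar (k := k) U)
    (fun s hs => cyc_GF hs) (fun g _ a ha => cyc_eq ha) ht W (fun c hc => hc.1) fun c hc =>
      ⟨(quiet_eq_zero_iff hc.1 (fun g a ha => cyc_eq ha) ht hσ hr hσr).mp hc.2,
        fun _ _ _ _ _ _ _ => trivial⟩
  set W₀ : Submodule k (GalLoc p → k) := W ⊓ LinearMap.ker (LinearMap.proj g₀) with hW₀
  have hle : W₀ ≤ W := inf_le_left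
  have : Module.Finite k W₀ := Module.Finite.of_injective _ (Submodule.inclusion_injective hle)
  let b : GalLoc p → k := fun g => cyc U k g - 1
  have hb : b ∈ W := ⟨isCocycle_sub_one (cyc_isChar U), by
    show cyc U k σ - 1 = 0
    rw [cyc_eq (k := k) (a := 1) (by rw [pow_one, hσ.2 _ (isUnitRoot_root (n := 1)
      (by rw [pow_one, U.ζ_pow]))]), Nat.cast_one, sub_self]⟩
  have hlt : Module.finrank k W₀ < Module.finrank k W :=
    Submodule.finrank_lt_finrank_of_lt (lt_of_le_of_ne hle fun h => hg₀ (by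
      have h1 : b ∈ W₀ := h.symm ▸ hb
      exact sub_eq_zero.mp h1.2))
  obtain ⟨x, hx⟩ := exists_eval_points 1 W₀ inferInstance (by omega)
  refine ⟨x 0, fun c hc h0 hσ0 h1 => hx c ⟨⟨hc, hσ0⟩, h0⟩ fun i => ?_⟩
  rw [Subsingleton.elim i 0]
  exact h1

variable {O : Type} [CommRing O] [IsLocalRing O] {ρbar : GQ →* M2 (ResidueField O)}

/-- The residue field as a test ring. -/
def residualRing (O : Type) [CommRing O] [IsLocalRing O] [Finite (ResidueField O)] : TestRing O :=
  haveI : Finite (ResidueField (ResidueField O)) := Finite.of_surjective _ residue_surjective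
  haveI : IsAdicComplete (maximalIdeal (ResidueField O)) (ResidueField O) := by
    rw [maximalIdeal_eq_bot]; infer_instance
  { R := { carrier := ResidueField O }
    alg := residue O
    red := RingHom.id _
    red_alg := fun _ => rfl
    ker_red := fun x => by
      change x = 0 ↔ x ∈ maximalIdeal (ResidueField O)
      rw [maximalIdeal_eq_bot, Ideal.mem_bot] }

theorem maximalIdeal_residualRing [Finite (ResidueField O)] :
    maximalIdeal (residualRing O).R = ⊥ :=
  (Submodule.eq_bot_iff _).mpr fun x hx => ((residualRing O).ker_red x).mpr hx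

/-- The residual representation as a lift. -/
def residualLift [Finite (ResidueField O)] {S : TestRing O} (r : Lift ρbar S) :
    Lift ρbar (residualRing O) where
  M := ρbar
  cont n := by
    obtain ⟨L, hL, h⟩ := r.cont 1
    refine ⟨L, hL, fun σ hσ i j => ?_⟩
    have h1 := h σ hσ i j
    rw [pow_one, LocalModel.mem_max_iff, map_sub, LocalModel.red_entry] at h1
    have e : S.red ((1 : M2 S.R) i j) = (1 : M2 (ResidueField O)) i j := by
      rcases eq_or_ne i j with rfl | hij
      · simp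
      · simp [hij]
    rw [e] at h1
    show ρbar σ i j - (1 : M2 (ResidueField O)) i j ∈ maximalIdeal (residualRing O).R ^ n
    rw [h1]
    exact zero_mem _
  reduces σ := Matrix.ext fun _ _ => rfl

variable {S : TestRing O} {P : ValuationSubring ℚbar} (T : AtPlace p P)

/-- The value at a quiet element of the off-diagonal coordinate is killed by `s ^ 2 - 1`. -/
theorem quiet_mul [CharP (ResidueField O) p] (hpO : (p : O) ∈ maximalIdeal O) (U : Setup p)
    {r : Lift ρbar S} (hdet : DetCyclotomic p S r) {s : P.decompositionSubgroup ℚ →* S.R}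
    (hs : OrdinaryShape P S r s) {g₀ : GalLoc p} (hg₀ : g₀ ∈ inertiaLoc p)
    (hne : cyc U (ResidueField O) g₀ ≠ 1) {σ : GalLoc p} (hσ : IsQuiet σ) (φ : GalLoc p)
    (V : (M2 S.R)ˣ) :
    (s (T.homD φ) * s (T.homD φ) - 1) *
      cj V (fPart (eProj (r.M (T.hom g₀))) (r.M (T.hom σ))) 0 1 = 0 := by
  have L := line_of_ordinary T hpO U hdet hs hg₀ hne
  set F : GalLoc p → S.R := fun g =>
    cj V (fPart (eProj (r.M (T.hom g₀))) (r.M (T.hom g))) 0 1 with hF
  set d : GalLoc p → S.R := fun g => (r.M (T.hom g)).det * s (T.homD g)⁻¹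
  set t : GalLoc p → S.R := fun g => s (T.homD g)
  have hmul : ∀ g h, F (g * h) = d g * F h + t h * F g := fun g h => by
    show cj V (fPart _ (r.M (T.hom (g * h)))) 0 1 = _
    have e := L.fPart_mul g h
    simp only [MonoidHom.comp_apply] at e
    rw [e, cj_add, cj_smul, cj_smul, Matrix.add_apply, Matrix.smul_apply, Matrix.smul_apply,
      smul_eq_mul, smul_eq_mul]
  have hexp : ∀ (n : ℕ) (g : GalLoc p) (a : ℕ), (∀ w : Ω, w ^ p ^ n = 1 → g w = w ^ a) →
      (r.M (T.hom g)).det - (a : S.R) ∈ maximalIdeal S.R ^ n := fun n g a ha => by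
    refine (Ideal.span_singleton_le_iff_mem _).mpr ?_ (hdet n (T.hom g) a fun μ hμ => ?_)
    · rw [Nat.cast_pow]
      exact Ideal.pow_mem_pow (LocalModel.natCast_mem hpO) n
    · refine T.emb.injective ?_
      show T.emb (T.hom g μ) = T.emb (μ ^ a)
      rw [T.emb_hom, map_pow, ha _ (by rw [← map_pow, hμ, map_one])]
  have hI : ∀ g ∈ inertiaLoc p, t g = 1 ∧ d g = (r.M (T.hom g)).det := fun g hg => by
    refine ⟨hs.1 _ ((T.hom_mem_inertia_iff g).mpr hg), ?_⟩
    show _ * _ = _
    rw [hs.1 (T.homD g)⁻¹ (inv_mem ((T.hom_mem_inertia_iff g).mpr hg)), mul_one]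
  have hdetσ : (r.M (T.hom σ)).det = 1 := by
    refine LocalModel.eq_of_forall_sub_mem_pow fun n => ?_
    simpa using hexp n σ 1 fun w hw => by rw [pow_one, hσ.2 w (isUnitRoot_root hw)]
  have hc : φ * σ * φ⁻¹ ∈ inertiaLoc p := conj_mem_inertiaLoc φ hσ.1
  have hdetc : (r.M (T.hom (φ * σ * φ⁻¹))).det = 1 := by
    rw [map_mul, map_mul, map_mul, map_mul, Matrix.det_mul, Matrix.det_mul, hdetσ, mul_one,
      ← Matrix.det_mul, ← map_mul, ← map_mul, mul_inv_cancel, map_one, map_one, Matrix.det_one]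
  have e1 : F (φ * σ) = d φ * F σ + F φ := by rw [hmul, (hI σ hσ.1).1, one_mul]
  have e2 : F (φ * σ) = F φ + t φ * F (φ * σ * φ⁻¹) := by
    conv_lhs => rw [show φ * σ = (φ * σ * φ⁻¹) * φ by group]
    rw [hmul, (hI _ hc).2, hdetc, one_mul]
  have e3 : t φ * F (φ * σ * φ⁻¹) = d φ * F σ :=
    add_left_cancel (e2.symm.trans (e1.trans (add_comm _ _)))
  refine LocalModel.eq_of_forall_sub_mem_pow fun n => ?_
  rw [sub_zero]
  set π := Ideal.Quotient.mk (maximalIdeal S.R ^ n)
  have : Finite (S.R ⧸ maximalIdeal S.R ^ n) := Patching.finite_quotient_maximalIdeal_pow n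
  have hkill : ∀ x : S.R ⧸ maximalIdeal S.R ^ n, (p ^ n) • x = 0 := fun x => by
    rw [nsmul_eq_mul, ← map_natCast π, Nat.cast_pow,
      Ideal.Quotient.eq_zero_iff_mem.mpr
        (Ideal.pow_mem_pow (LocalModel.natCast_mem hpO) n), zero_mul]
  have hn : p ^ n ≠ 0 := pow_ne_zero _ hp.out.ne_zero
  have : NeZero (p ^ n) := ⟨hn⟩
  have : NeZero ((p ^ n : ℕ) : Ω) := ⟨Nat.cast_ne_zero.mpr hn⟩
  obtain ⟨z, hz⟩ := HasEnoughRootsOfUnity.exists_primitiveRoot Ω (p ^ n)
  obtain ⟨a, ha⟩ := exists_exponent φ hz hn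
  have hlev : FinLevel fun g => π (F g) := by
    have e : (fun g => π (F g)) = fun g => cj (Units.map π.mapMatrix.toMonoidHom V)
        (fPart ((eProj (r.M (T.hom g₀))).map π) ((r.M (T.hom g)).map π)) 0 1 := funext fun g => by
      rw [← map_fPart, ← map_cj]
      rfl
    rw [e]
    exact (finLevel_lift_mod T r n).comp fun X => cj _ (fPart _ X) 0 1
  have hconj : π (F (φ * σ * φ⁻¹)) = a • π (F σ) := by
    refine quiet_conj (f := fun g => π (F g)) hkill hlev (fun g hg h hh b hb => ?_) hσ ha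
    show π (F (g * h)) = π (F g) + b • π (F h)
    rw [hmul, (hI h hh).1, (hI g hg).2, one_mul, map_add, map_mul,
      Ideal.Quotient.eq.mpr (hexp n g b hb), map_natCast, nsmul_eq_mul, add_comm]
  have hda : π (r.M (T.hom φ)).det = (a : S.R ⧸ maximalIdeal S.R ^ n) := by
    rw [← map_natCast π, Ideal.Quotient.eq]
    exact hexp n φ a ha
  have e4 := congrArg π e3
  rw [map_mul, hconj, nsmul_eq_mul, show d φ = (r.M (T.hom φ)).det * s (T.homD φ)⁻¹ from rfl,
    map_mul, map_mul, hda] at e4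
  have hau : IsUnit (a : S.R ⧸ maximalIdeal S.R ^ n) := hda ▸ (isUnit_det_lift r.M _).map π
  have e5 : π (t φ) * π (F σ) = π (s (T.homD φ)⁻¹) * π (F σ) :=
    hau.mul_left_cancel (by linear_combination e4)
  have hinv : π (t φ) * π (s (T.homD φ)⁻¹) = 1 := by
    rw [← map_mul π, ← map_mul s, mul_inv_cancel, map_one, map_one]
  show (t φ * t φ - 1) * F σ ∈ _
  rw [← Ideal.Quotient.eq_zero_iff_mem, map_mul, map_sub, map_one, map_mul]
  linear_combination π (t φ) * e5 + π (F σ) * hinv

end Fermat.Agent.LocalModelP
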