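import Fermat.Agent.LocalModelP.FlatLocal

/-!
# The wild kernel of a two dimensional representation without stable line
-/

set_option autoImplicit false

noncomputable section

open Matrix

namespace Fermat.Agent.LocalModelP

open Fermat.Agent.Duality Fermat.Agent.Deformation

local notation "ℚbar" => AlgebraicClosure ℚ

variable {k : Type} [Field k]

theorem sq_zero_of_nilpotent {N : M2 k} (h : IsNilpotent N) : N * N = 0 ∧ N.trace = 0 := by
  have ht : N.trace = 0 := (Matrix.isNilpotent_trace_of_isNilpotent h).eq_zero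
  have hd : N.det = 0 := by
    obtain ⟨n, hn⟩ := h
    have h0 := congrArg Matrix.det hn
    rw [Matrix.det_pow, Matrix.det_zero] at h0
    exact eq_zero_of_pow_eq_zero h0
  refine ⟨?_, ht⟩
  rw [Matrix.trace_fin_two] at ht
  rw [Matrix.det_fin_two] at hd
  refine Matrix.ext fun i j => ?_
  fin_cases i <;> fin_cases j <;> simp [Matrix.mul_apply, Fin.sum_univ_two]
  · linear_combination (N 0 0) * ht - hd
  · linear_combination (N 0 1) * ht
  · linear_combination (N 1 0) * ht
  · linear_combination (N 1 1) * ht - hd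

/-- Square zero matrices with orthogonal trace annihilate each other. -/
theorem mul_eq_zero_of_sq_zero {N N' : M2 k} (h : N * N = 0) (ht : N.trace = 0) (h' : N' * N' = 0)
    (ht' : N'.trace = 0) (hp : (N * N').trace = 0) : N' * N = 0 := by
  rw [Matrix.trace_fin_two] at ht ht'
  have e : N 1 1 = -N 0 0 := by linear_combination ht
  have e' : N' 1 1 = -N' 0 0 := by linear_combination ht'
  have q := congrFun (congrFun h 0) 0
  have q' := congrFun (congrFun h' 0) 0
  simp [Matrix.mul_apply, Fin.sum_univ_two] at q q'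
  simp [Matrix.trace_fin_two, Matrix.mul_apply, Fin.sum_univ_two, e, e'] at hp
  have h01 : N' 0 0 * N 0 1 - N' 0 1 * N 0 0 = 0 := by
    refine mul_self_eq_zero.mp ?_
    linear_combination (N 0 1) ^ 2 * q' + (N' 0 1) ^ 2 * q - (N 0 1) * (N' 0 1) * hp
  have h10 : N' 1 0 * N 0 0 - N' 0 0 * N 1 0 = 0 := by
    refine mul_self_eq_zero.mp ?_
    linear_combination (N' 1 0) ^ 2 * q + (N 1 0) ^ 2 * q' - (N 1 0) * (N' 1 0) * hp
  have hprod : (N' 0 0 * N 0 0 + N' 0 1 * N 1 0) * (N' 1 0 * N 0 1 + N' 0 0 * N 0 0) = 0 := by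
    linear_combination (N' 0 0 * N 0 0) * hp - (N' 0 0) ^ 2 * q + (N 0 1) * (N 1 0) * q'
  have h00 : N' 0 0 * N 0 0 + N' 0 1 * N 1 0 = 0 := by
    rcases mul_eq_zero.mp hprod with h | h
    · exact h
    · linear_combination hp - h
  have h11 : N' 1 0 * N 0 1 + N' 0 0 * N 0 0 = 0 := by linear_combination hp - h00
  refine Matrix.ext fun i j => ?_
  fin_cases i <;> fin_cases j <;> simp [Matrix.mul_apply, Fin.sum_univ_two, e, e']
  · exact h00
  · linear_combination h01
  · linear_combination h10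
  · linear_combination h11

theorem kernel_line {N : M2 k} (hN : N ≠ 0) {v w : Fin 2 → k} (hv : N.mulVec v = 0) (hv0 : v ≠ 0)
    (hw : N.mulVec w = 0) : ∃ c : k, w = c • v := by
  have hd : v 0 * w 1 - v 1 * w 0 = 0 := by
    by_contra hd
    refine hN (Matrix.ext fun i j => ?_)
    have h1 := congrFun hv i
    have h2 := congrFun hw i
    simp [Matrix.mulVec, dotProduct, Fin.sum_univ_two] at h1 h2
    fin_cases j
    · exact (mul_eq_zero.mp (show N i 0 * (v 0 * w 1 - v 1 * w 0) = 0 by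
        linear_combination w 1 * h1 - v 1 * h2)).resolve_right hd
    · exact (mul_eq_zero.mp (show N i 1 * (v 0 * w 1 - v 1 * w 0) = 0 by
        linear_combination v 0 * h2 - w 0 * h1)).resolve_right hd
  by_cases h0 : v 0 = 0
  · have h1 : v 1 ≠ 0 := fun h1 => hv0 (funext fun i => by fin_cases i <;> simpa)
    refine ⟨w 1 / v 1, funext fun i => ?_⟩
    fin_cases i <;> simp [h0, h1]
    rw [h0, zero_mul, zero_sub, neg_eq_zero] at hd
    exact (mul_eq_zero.mp hd).resolve_left h1
  · refine ⟨w 0 / v 0, funext fun i => ?_⟩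
    fin_cases i
    · simp [h0]
    · simp
      field_simp
      linear_combination hd

variable {p : ℕ} [hp : Fact p.Prime] {P : ValuationSubring ℚbar}

/-- Without a stable line the kernel of the tame character acts trivially. -/
theorem eq_one_of_θ_eq_one [CharP k p] (T : AtPlace p P) {ρ : GQ →* M2 k} (TL : Level p)
    (hfac : ∀ g ∈ inertiaLoc p, (∀ x ∈ TL.L, g x = x) → ρ (T.hom g) = 1)
    (hno : ¬ ∃ v : Fin 2 → k, v ≠ 0 ∧ ∀ g, ∃ c : k, (ρ (T.hom g)).mulVec v = c • v)
    {g : inertiaLoc p} (hg : TL.θ g = 1) : ρ (T.hom (g : GalLoc p)) = 1 := by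
  let r : inertiaLoc p →* M2 k := ρ.comp (T.hom.comp (inertiaLoc p).subtype)
  have : CharP (M2 k) p := Matrix.charP p
  have hnil : ∀ g : inertiaLoc p, TL.θ g = 1 →
      (r g - 1) * (r g - 1) = 0 ∧ (r g - 1).trace = 0 := fun g hg => by
    obtain ⟨a, ha⟩ := TL.pow_eq_one_of_ker r (fun g h => hfac g g.2 h) hg
    exact sq_zero_of_nilpotent ⟨p ^ a,
      by rw [sub_pow_char_pow_of_commute (R := M2 k) (p := p) (h := Commute.one_right (r g)),
          ha, one_pow, sub_self]⟩
  by_contra hne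
  set N := r g - 1
  have hN : N ≠ 0 := sub_ne_zero.mpr hne
  obtain ⟨j, hj⟩ : ∃ j, N.col j ≠ 0 := by
    by_contra h
    push Not at h
    exact hN (Matrix.ext fun i l => congrFun (h l) i)
  set v := N.col j
  have hv : ∀ g' : inertiaLoc p, TL.θ g' = 1 → (r g' - 1).mulVec v = 0 := fun g' hg' => by
    obtain ⟨h1, h2⟩ := hnil g hg
    obtain ⟨h3, h4⟩ := hnil g' hg'
    obtain ⟨-, h5⟩ := hnil (g * g') (by rw [map_mul, hg, hg', one_mul])
    have h6 : (N * (r g' - 1)).trace = 0 := by
      rw [show N * (r g' - 1) = (r (g * g') - 1) - (r g - 1) - (r g' - 1) by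
        rw [map_mul]; simp only [N, sub_mul, mul_sub, one_mul, mul_one]; abel,
        Matrix.trace_sub, Matrix.trace_sub, h5, h2, h4]
      ring
    have h7 := mul_eq_zero_of_sq_zero h1 h2 h3 h4 h6
    funext i
    exact congrFun (congrFun h7 i) j
  refine hno ⟨v, hj, fun d => ?_⟩
  -- the kernel is normal
  have hc : (d⁻¹ * (g : GalLoc p) * d⁻¹⁻¹) ∈ inertiaLoc p := conj_mem_inertiaLoc _ g.2
  set g' : inertiaLoc p := ⟨_, hc⟩
  have hg' : TL.θ g' = 1 := by
    have := TL.normal
    have hy0 : d TL.x₀ ≠ 0 := (map_ne_zero _).mpr TL.x₀_ne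
    obtain ⟨m, -, hm⟩ := TL.red_div_eq g (apply_mem_normal TL.L d TL.x₀_mem) hy0
    rw [hg, _root_.one_zpow, ← red_one (p := p),
      red_eq_red_iff (norm_div_eq_one _ hy0).le (by simp)] at hm
    rw [Level.θ_apply, ← red_one (p := p), red_eq_red_iff (norm_div_eq_one _ TL.x₀_ne).le (by simp)]
    rw [← norm_loc d⁻¹, map_sub, map_div₀, map_one] at hm
    simpa [g', AlgEquiv.mul_apply] using hm
  have h := hv g' hg'
  have he : r g' - 1 = ρ (T.hom d⁻¹) * N * ρ (T.hom d) := by
    show ρ (T.hom (d⁻¹ * (g : GalLoc p) * d⁻¹⁻¹)) - 1 = _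
    simp only [N, r, inv_inv, map_mul, mul_sub, sub_mul, mul_one, MonoidHom.comp_apply,
      Subgroup.coe_subtype]
    congr 1
    rw [← map_mul, ← map_mul, inv_mul_cancel, map_one, map_one]
  rw [he, ← Matrix.mulVec_mulVec, ← Matrix.mulVec_mulVec] at h
  have h2 : N.mulVec ((ρ (T.hom d)).mulVec v) = 0 := by
    have := congrArg (ρ (T.hom d)).mulVec h
    rwa [Matrix.mulVec_mulVec _ (ρ (T.hom d)) (ρ (T.hom d⁻¹)), ← map_mul ρ, ← map_mul T.hom,
      mul_inv_cancel, map_one, map_one, Matrix.one_mulVec, Matrix.mulVec_zero] at this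
  exact kernel_line hN (hv g hg) hj h2

end Fermat.Agent.LocalModelP
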