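import Fermat.Agent.LocalModelP.FlatSS
import Fermat.Agent.LocalModelP.Unipotent

/-!
# The supersingular shape of a flat residual representation without stable line

In a basis of eigenvectors of a generator of tame inertia exchanged by Frobenius, inertia acts
through `α` and `α ^ p`.  The connected part of the model gives that `α` is conjugate to the
fundamental character of level two.
-/

set_option autoImplicit false

noncomputable section

open Matrix Polynomial

namespace Fermat.Agent.LocalModelP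

open Fermat.Agent.Duality Fermat.Agent.FlatBound Fermat.Agent.FlatModel Fermat.Agent.Deformation

local notation "ℚbar" => AlgebraicClosure ℚ

variable {p : ℕ} [hp : Fact p.Prime]

theorem red_prim (U : Unif p) {z : PadicAlgCl p} (hz : IsPrimitiveRoot z U.e) :
    IsPrimitiveRoot (red z) U.e := by
  have hn : ‖z‖ = 1 := norm_eq_one_of_pow_eq_one U.e_ne_zero hz.pow_eq_one
  refine ⟨by rw [← red_pow hn.le, hz.pow_eq_one, red_one], fun l hl => ?_⟩
  rw [← red_pow hn.le, ← red_one (p := p),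
    red_eq_red_iff (by rw [norm_pow, hn, one_pow]) (by simp)] at hl
  exact hz.dvd_of_pow_eq_one _ (root_eq_of_near U.not_dvd
    (by rw [← pow_mul, mul_comm, pow_mul, hz.pow_eq_one, one_pow]) (one_pow _) hl)

/-- Evaluation of a polynomial over `ZMod p` commutes with `p`-th powers. -/
theorem eval₂_pow_char {K : Type} [Field K] [CharP K p] (Q : (ZMod p)[X]) (x : K) :
    Q.eval₂ (ZMod.castHom dvd_rfl K) x ^ p = Q.eval₂ (ZMod.castHom dvd_rfl K) (x ^ p) := by
  rw [← frobenius_def (R := K), Polynomial.hom_eval₂]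
  congr 1
  exact Subsingleton.elim _ _

variable {P : ValuationSubring ℚbar} {T : AtPlace p P}
  {k : Type} [Field k] [Finite k] [CharP k p]

omit hp [Finite k] [CharP k p] in
theorem coe_pow_vec {G : M2 k} {v : Fin 2 → k} {a : k} (h : G.mulVec v = a • v) (n : ℕ) :
    (G ^ n).mulVec v = a ^ n • v := by
  induction n with
  | zero => simp
  | succ n ih => rw [pow_succ, ← Matrix.mulVec_mulVec, h, Matrix.mulVec_smul, ih, smul_smul,
      ← pow_succ']

/-- The weight of the nonzero connected points. -/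
theorem conj_of_conn (U : Setup p) (he : U.e₁ = p + 1) {ρ : GQ →* M2 k}
    (M : Model p (actAt T (colAct ρ))) (hJ : ∀ g ∈ U.J, ρ (T.hom g) = 1) {τ : GalLoc p}
    (hτ : τ ∈ inertiaLoc p) {z : PadicAlgCl p} (hz : IsPrimitiveRoot z U.e)
    (hτπ : τ U.π = z * U.π) {α : k} (hα2 : α ^ p ^ 2 = α)
    (hα : ρ (T.hom τ) 0 0 = α) (h10 : ρ (T.hom τ) 1 0 = 0)
    (hdet : α ^ (p + 1) = cyc U k τ) : Conj p α (red z) ∧ α ^ p ≠ α := by
  have hv : (ρ (T.hom τ)).mulVec (Pi.single 0 1) = α • Pi.single 0 1 := by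
    funext l
    fin_cases l <;> simp [hα, h10]
  have hG : ∀ x : Fin 2 → k, p • x = 0 := fun x => by
    rw [← Nat.cast_smul_eq_nsmul k, CharP.cast_eq_zero, zero_smul]
  have hp3 : 3 ≤ p := lt_of_le_of_ne hp.out.two_le (Ne.symm U.ne_two)
  obtain ⟨q, hq⟩ := Nat.exists_eq_add_of_le hp3
  have heq : U.e = (p + 1) * (p - 1) := by rw [U.e_eq, he]
  have hrz := red_prim U.toUnif hz
  obtain ⟨w, hwζ, hw'⟩ := cyc_spec (k := k) U τ
  have hw : (w : Res p) = red z ^ (p + 1) := by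
    rw [← he]; exact U.toUnif.cast_eq_red_pow U.e_eq U.ne_two U.hζ hτπ hwζ
  rw [hw'] at hdet
  have hz1 : red z ^ (p + 1) ≠ 1 := hrz.pow_ne_one_of_pos_of_lt (by omega)
    (by rw [heq, hq, show 3 + q - 1 = q + 2 by omega]; nlinarith)
  have hα1 : α ≠ 1 := fun h => by
    rw [h, one_pow, ← Nat.cast_one, CharP.natCast_eq_natCast k p,
      ← CharP.natCast_eq_natCast (R := Res p) (p := p), hw, Nat.cast_one] at hdet
    exact hz1 hdet.symm
  have hx₁ := isConn_act_sub M hτ (Pi.single 0 1)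
  rw [actAt_loc, colAct_apply, hv] at hx₁
  set x₁ : Fin 2 → k := α • Pi.single 0 1 - Pi.single 0 1
  have hx₁0 : x₁ ≠ 0 := fun h => by
    have := congrFun h 0
    simp [x₁, sub_eq_zero] at this
    exact hα1 this
  obtain ⟨m, hm1, hm, hrel⟩ := exists_exponent_conn M hG U.toUnif hx₁ hx₁0 fun g hg => by
    rw [actAt_loc, colAct_apply, hJ g hg, Matrix.one_mulVec]
  have hact : actAt T (colAct ρ) (localGaloisToGlobal p τ) x₁ = α • x₁ := by
    rw [actAt_loc, colAct_apply]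
    simp only [x₁, Matrix.mulVec_sub, Matrix.mulVec_smul, hv, smul_sub]
  have hact2 : actAt T (colAct ρ) (localGaloisToGlobal p τ) (α • x₁) = (α * α) • x₁ := by
    rw [actAt_loc, colAct_apply] at hact ⊢
    rw [Matrix.mulVec_smul, hact, smul_smul]
  -- the conjugacy with `red z ^ m`
  have hsum : (α + α ^ p) ^ p = α + α ^ p := by
    rw [add_pow_char, ← pow_mul, ← sq, hα2, add_comm]
  have hnorm : (α * α ^ p) ^ p = α * α ^ p := by
    rw [mul_pow, ← pow_mul, ← sq, hα2, mul_comm]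
  obtain ⟨t, ht⟩ := exists_castHom_eq (p := p) hsum
  obtain ⟨n, hn⟩ := exists_castHom_eq (p := p) hnorm
  obtain ⟨t, rfl⟩ := ZMod.natCast_zmod_surjective t
  obtain ⟨n, rfl⟩ := ZMod.natCast_zmod_surjective n
  rw [map_natCast] at ht hn
  have hp1 : (((p - 1 : ℕ)) : k) = -1 := by
    rw [Nat.cast_sub hp.out.one_le, CharP.cast_eq_zero k p, Nat.cast_one, zero_sub]
  have hp1' : (((p - 1 : ℕ)) : Res p) = -1 := by
    rw [Nat.cast_sub hp.out.one_le, CharP.cast_eq_zero (Res p) p, Nat.cast_one, zero_sub]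
  set θ := red z ^ m
  have hθ : Conj p α θ := by
    by_cases hfix : α ^ p = α
    · obtain ⟨c, hc⟩ := exists_castHom_eq (p := p) hfix
      obtain ⟨c, rfl⟩ := ZMod.natCast_zmod_surjective c
      rw [map_natCast] at hc
      have h1 := hrel τ hτ z hτπ ((p - 1) * c) 1 0 (by
        rw [zero_smul, zero_add, one_smul, hact, ← Nat.cast_smul_eq_nsmul k, ← add_smul,
          Nat.cast_mul, hp1, hc]
        simp)
      rw [Nat.cast_zero, Nat.cast_one, Nat.cast_mul, hp1'] at h1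
      have : θ = (c : Res p) := by linear_combination h1
      rw [this, ← hc]
      exact conj_natCast c
    · have h1 := hrel τ hτ z hτπ n ((p - 1) * t) 1 (by
        rw [one_smul, hact, hact2, ← Nat.cast_smul_eq_nsmul k, ← Nat.cast_smul_eq_nsmul k,
          smul_smul, ← add_smul, ← add_smul, Nat.cast_mul, hp1, ht, hn]
        simp only [smul_eq_zero]
        exact Or.inl (by ring))
      rw [Nat.cast_one, Nat.cast_mul, hp1'] at h1
      intro Q hQ
      set R : (ZMod p)[X] := X ^ 2 - C (t : ZMod p) * X + C (n : ZMod p) with hR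
      have hRm : R.Monic := by rw [hR]; monicity!
      have hRd : R.natDegree = 2 := by rw [hR]; compute_degree!
      have hRk : R.eval₂ (ZMod.castHom dvd_rfl k) α = 0 := by
        simp only [hR, eval₂_add, eval₂_sub, eval₂_mul, eval₂_pow, eval₂_X, map_natCast,
          eval₂_natCast, ht, hn]
        ring
      have hRθ : R.eval₂ (ZMod.castHom dvd_rfl (Res p)) θ = 0 := by
        simp only [hR, eval₂_add, eval₂_sub, eval₂_mul, eval₂_pow, eval₂_X, map_natCast,
          eval₂_natCast]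
        linear_combination h1
      have e := Polynomial.modByMonic_add_div Q R
      have hdeg : (Q %ₘ R).natDegree < 2 := hRd ▸ Polynomial.natDegree_modByMonic_lt Q hRm
        (fun h => by rw [h, natDegree_one] at hRd; omega)
      obtain ⟨c, d, hcd⟩ : ∃ c d, Q %ₘ R = C c * X + C d :=
        ⟨_, _, Polynomial.eq_X_add_C_of_natDegree_le_one (by omega)⟩
      rw [← e, hcd, eval₂_add, eval₂_mul, hRk, zero_mul, add_zero] at hQ
      simp only [eval₂_add, eval₂_mul, eval₂_C, eval₂_X] at hQ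
      have hc : c = 0 := by
        by_contra hc
        refine hfix ?_
        have hc' : ZMod.castHom dvd_rfl k c ≠ 0 := (_root_.map_ne_zero _).mpr hc
        have hα : α = ZMod.castHom dvd_rfl k (-d / c) := by
          rw [map_div₀, map_neg, eq_div_iff hc']
          linear_combination hQ
        rw [hα, ← map_pow, ZMod.pow_card]
      subst hc
      rw [map_zero, zero_mul, zero_add, map_eq_zero_iff _ (RingHom.injective _)] at hQ
      rw [← e, hcd, hQ]
      simp [hRθ]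
  -- the exponent
  have hθw : θ ^ (p + 1) = red z ^ (p + 1) := by
    have h := hθ (X ^ (p + 1) - C (w : ZMod p))
      (by simp [eval₂_sub, eval₂_X_pow, hdet])
    simpa [eval₂_sub, eval₂_X_pow, eval₂_C, sub_eq_zero, hw] using h
  have hmval : m = 1 ∨ m = p := by
    have hm' : m ≤ p + 1 := Nat.le_of_mul_le_mul_right (heq ▸ hm) (by omega)
    have h1 : red z ^ ((p + 1) * (m - 1)) = 1 := by
      refine mul_right_cancel₀ (pow_ne_zero (p + 1) (hrz.ne_zero U.toUnif.e_ne_zero)) ?_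
      rw [one_mul, ← pow_add, ← Nat.mul_succ, Nat.succ_eq_add_one, Nat.sub_add_cancel hm1,
        mul_comm, pow_mul]
      exact hθw
    have h2 := hrz.dvd_of_pow_eq_one _ h1
    rw [heq, Nat.mul_dvd_mul_iff_left (by omega)] at h2
    obtain ⟨c, hc⟩ := h2
    rcases c with _ | _ | c
    · left; omega
    · right; omega
    · exfalso
      have : (p - 1) * 2 ≤ (p - 1) * (c + 1 + 1) := Nat.mul_le_mul_left _ (by omega)
      omega
  have hC : Conj p α (red z) := by
    rcases hmval with rfl | rfl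
    · simpa [θ] using hθ
    · intro Q hQ
      have h := hθ Q hQ
      rw [← eval₂_pow_char] at h
      exact eq_zero_of_pow_eq_zero h
  refine ⟨hC, fun hfix => ?_⟩
  have h := hC (X ^ p - X) (by simp [eval₂_sub, eval₂_X_pow, hfix])
  simp only [eval₂_sub, eval₂_X_pow, eval₂_X, sub_eq_zero] at h
  have h' : red z ^ (p - 1) = 1 := by
    refine mul_right_cancel₀ (hrz.ne_zero U.toUnif.e_ne_zero) ?_
    rw [← pow_succ, Nat.sub_add_cancel hp.out.one_le, h, one_mul]
  exact hrz.pow_ne_one_of_pos_of_lt (by omega)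
    (by rw [heq, hq, show 3 + q - 1 = q + 2 by omega]; nlinarith) h'

/-- A flat representation without stable line has a supersingular frame. -/
theorem exists_ssFrame {U : Setup p} (he : U.e₁ = p + 1) (hN : 2 ∣ U.N)
    (hN' : Nat.card (M2 k)ˣ ∣ U.N) {ρ : GQ →* M2 k} (h0 : IsFlatTan p ρ 0)
    (hdet : ∀ g : GalLoc p, (ρ (T.hom g)).det = cyc U k g)
    (hsplit : ∀ g ∈ inertiaLoc p, ∃ (a : k) (v : Fin 2 → k), v ≠ 0 ∧
      (ρ (T.hom g)).mulVec v = a • v)
    (hno : ¬ ∃ v : Fin 2 → k, v ≠ 0 ∧ ∀ g, ∃ c : k, (ρ (T.hom g)).mulVec v = c • v) :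
    ∃ (Q : (M2 k)ˣ) (φ : GalLoc p), SSFrame T U (conjRep Q ρ) φ := by
  obtain ⟨L₀, hL₀, hfac₀⟩ := h0.level T
  have hfac : ∀ g g' : GalLoc p, (∀ x ∈ L₀, g x = g' x) → ρ (T.hom g) = ρ (T.hom g') :=
    fun g g' h => congrArg Prod.fst (hfac₀ g g' h)
  obtain ⟨TL, hTL⟩ := exists_level L₀
  have hfac1 : ∀ g ∈ inertiaLoc p, (∀ x ∈ TL.L, g x = x) → ρ (T.hom g) = 1 := fun g _ hg => by
    rw [hfac g 1 fun x hx => hg x (hTL hx), map_one, map_one]
  -- inertia factors through the tame character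
  have hθ : ∀ x y : inertiaLoc p, TL.θ x = TL.θ y →
      ρ (T.hom (x : GalLoc p)) = ρ (T.hom (y : GalLoc p)) := fun x y hxy => by
    have hk : TL.θ (x * y⁻¹) = 1 := by
      rw [map_mul, hxy, ← map_mul, mul_inv_cancel, map_one]
    have h1 := eq_one_of_θ_eq_one T TL hfac1 hno hk
    calc ρ (T.hom (x : GalLoc p)) = ρ (T.hom (((x * y⁻¹) * y : inertiaLoc p) : GalLoc p)) := by
          rw [inv_mul_cancel_right]
      _ = _ := by rw [Subgroup.coe_mul, map_mul T.hom, map_mul ρ, h1, one_mul]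
  obtain ⟨g₀, hg₀⟩ := TL.exists_θ_generator
  obtain ⟨φ, hφ, hφπ⟩ := U.exists_frob
  have hconj : ∀ i : inertiaLoc p,
      ρ (T.hom φ) * ρ (T.hom (i : GalLoc p)) * ρ (T.hom φ⁻¹) = ρ (T.hom (i : GalLoc p)) ^ p :=
    fun i => by
      have h := hθ ⟨_, conj_mem_inertiaLoc φ i.2⟩ (i ^ p) (by rw [TL.θ_conj hφ, map_pow])
      simpa only [map_mul, Subgroup.coe_pow, map_pow, Subgroup.coe_mk] using h
  have hFF : ρ (T.hom φ) * ρ (T.hom φ⁻¹) = 1 := by
    rw [← map_mul, ← map_mul, mul_inv_cancel, map_one, map_one]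
  have hFF' : ρ (T.hom φ⁻¹) * ρ (T.hom φ) = 1 := by
    rw [← map_mul, ← map_mul, inv_mul_cancel, map_one, map_one]
  obtain ⟨a, v, hv0, hv⟩ := hsplit g₀ g₀.2
  set G0 := ρ (T.hom (g₀ : GalLoc p))
  set w := (ρ (T.hom φ⁻¹)).mulVec v with hw
  have hcomm : G0 * ρ (T.hom φ⁻¹) = ρ (T.hom φ⁻¹) * G0 ^ p := by
    rw [← hconj g₀, ← mul_assoc, ← mul_assoc, hFF', one_mul]
  have hGw : G0.mulVec w = a ^ p • w := by
    rw [hw, Matrix.mulVec_mulVec, hcomm, ← Matrix.mulVec_mulVec, coe_pow_vec hv, Matrix.mulVec_smul]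
  have hinert : ∀ i : inertiaLoc p, ∃ j : ℕ, ρ (T.hom (i : GalLoc p)) = G0 ^ j := fun i => by
    obtain ⟨j, hj⟩ := hg₀ i
    exact ⟨j, by rw [hθ i (g₀ ^ j) (by rw [hj, map_pow]), Subgroup.coe_pow, map_pow, map_pow]⟩
  -- independence
  have hind : v 0 * w 1 - w 0 * v 1 ≠ 0 := by
    intro hd
    obtain ⟨c, hc⟩ : ∃ c : k, w = c • v := by
      by_cases h0 : v 0 = 0
      · have h1 : v 1 ≠ 0 := fun h1 => hv0 (funext fun i => by fin_cases i <;> simpa)
        refine ⟨w 1 / v 1, funext fun i => ?_⟩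
        fin_cases i <;> simp [h0, h1]
        rw [h0, zero_mul, zero_sub, neg_eq_zero] at hd
        exact (mul_eq_zero.mp hd).resolve_right h1
      · refine ⟨w 0 / v 0, funext fun i => ?_⟩
        fin_cases i
        · simp [h0]
        · simp
          field_simp
          linear_combination hd
    have hc0 : c ≠ 0 := fun h => hv0 <| by
      have := congrArg (ρ (T.hom φ)).mulVec hc
      rwa [h, zero_smul, Matrix.mulVec_zero, hw, Matrix.mulVec_mulVec, hFF,
        Matrix.one_mulVec] at this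
    have hφv : (ρ (T.hom φ)).mulVec v = c⁻¹ • v := by
      have := congrArg (ρ (T.hom φ)).mulVec hc
      rw [hw, Matrix.mulVec_mulVec, hFF, Matrix.one_mulVec, Matrix.mulVec_smul] at this
      conv_rhs => rw [this, smul_smul, inv_mul_cancel₀ hc0, one_smul]
    refine hno ⟨v, hv0, fun g => ?_⟩
    obtain ⟨j, i, hi, hgi⟩ := exists_pow_mul_inertia L₀ hφ g
    obtain ⟨l, hl⟩ := hinert ⟨i, hi⟩
    refine ⟨a ^ l * c⁻¹ ^ j, ?_⟩
    rw [hfac g _ hgi, map_mul, map_mul, map_pow, map_pow, show ρ (T.hom i) = G0 ^ l from hl,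
      ← Matrix.mulVec_mulVec, coe_pow_vec hv, Matrix.mulVec_smul, coe_pow_vec hφv, smul_smul]
  obtain ⟨Q, hQ⟩ := (Matrix.isUnit_iff_isUnit_det !![v 0, w 0; v 1, w 1]).mpr (by
    rw [Matrix.det_fin_two_of]; exact isUnit_iff_ne_zero.mpr hind)
  set r := conjRep Q⁻¹ ρ with hr
  have hr_apply : ∀ σ, r σ = (↑Q⁻¹ : M2 k) * ρ σ * (Q : M2 k) := fun σ => by
    rw [hr, conjRep_apply, inv_inv]
  have hcol0 : (Q : M2 k).mulVec (Pi.single 0 1) = v := by
    rw [hQ]
    funext l
    fin_cases l <;> simp [Matrix.mulVec, dotProduct, Fin.sum_univ_two]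
  have hcol1 : (Q : M2 k).mulVec (Pi.single 1 1) = w := by
    rw [hQ]
    funext l
    fin_cases l <;> simp [Matrix.mulVec, dotProduct, Fin.sum_univ_two]
  have hback : ∀ x : Fin 2 → k, (↑Q⁻¹ : M2 k).mulVec ((Q : M2 k).mulVec x) = x := fun x => by
    rw [Matrix.mulVec_mulVec, Units.inv_mul, Matrix.one_mulVec]
  -- the frame
  have hD : r (T.hom (g₀ : GalLoc p)) = Matrix.diagonal ![a, a ^ p] := by
    refine Matrix.ext_of_mulVec_single fun j => ?_
    rw [hr_apply, ← Matrix.mulVec_mulVec, ← Matrix.mulVec_mulVec]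
    fin_cases j
    · show (↑Q⁻¹ : M2 k).mulVec (G0.mulVec ((Q : M2 k).mulVec (Pi.single 0 1))) = _
      rw [hcol0, hv, Matrix.mulVec_smul, ← hcol0, hback]
      funext l
      fin_cases l <;> simp [Matrix.mulVec_diagonal]
    · show (↑Q⁻¹ : M2 k).mulVec (G0.mulVec ((Q : M2 k).mulVec (Pi.single 1 1))) = _
      rw [hcol1, hGw, Matrix.mulVec_smul, ← hcol1, hback]
      funext l
      fin_cases l <;> simp [Matrix.mulVec_diagonal]
  have hdiagI : ∀ i : inertiaLoc p, ∃ j : ℕ,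
      r (T.hom (i : GalLoc p)) = Matrix.diagonal ![a ^ j, (a ^ j) ^ p] := fun i => by
    obtain ⟨j, hj⟩ := hinert i
    refine ⟨j, ?_⟩
    have e : r (T.hom (i : GalLoc p)) = r (T.hom (g₀ : GalLoc p)) ^ j := by
      rw [← map_pow r, hr_apply, hj, hr_apply, map_pow]
    rw [e, hD, Matrix.diagonal_pow, ← pow_mul, mul_comm j p, pow_mul]
    congr 1
    funext l
    fin_cases l <;> simp
  have ha2 : a ^ p ^ 2 = a := by
    -- the eigenvalue on `φ⁻² v`
    have h2 : r (T.hom (g₀ : GalLoc p)) * r (T.hom φ⁻¹) =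
        r (T.hom φ⁻¹) * r (T.hom (g₀ : GalLoc p)) ^ p := by
      rw [← map_pow r, hr_apply, hr_apply, hr_apply, map_pow]
      simp only [mul_assoc, Units.mul_inv_cancel_left]
      rw [← mul_assoc (ρ (T.hom (g₀ : GalLoc p))), hcomm, mul_assoc]
    rw [hD, Matrix.diagonal_pow] at h2
    have e1 := congrFun (congrFun h2 1) 1
    have e2 := congrFun (congrFun h2 0) 1
    simp [← pow_mul, ← sq, -map_inv] at e1 e2
    by_contra hne
    have h11 : r (T.hom φ⁻¹) 1 1 = 0 ∨ a ^ p = a ^ p ^ 2 := by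
      rcases eq_or_ne (r (T.hom φ⁻¹) 1 1) 0 with h | h
      · exact Or.inl h
      · exact Or.inr (mul_right_cancel₀ h (e1.trans (mul_comm _ _)))
    rcases h11 with h | h
    · have h01 : r (T.hom φ⁻¹) 0 1 ≠ 0 := fun h01 => by
        have hd : (r (T.hom φ⁻¹)).det * (r (T.hom φ)).det = 1 := by
          rw [← Matrix.det_mul, ← map_mul, ← map_mul, inv_mul_cancel, map_one, map_one,
            Matrix.det_one]
        rw [Matrix.det_fin_two, h, h01, mul_zero, zero_mul, sub_zero, zero_mul] at hd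
        exact zero_ne_one hd
      exact hne (mul_right_cancel₀ h01 (e2.trans (mul_comm _ _))).symm
    · have h1 : a = a ^ p := (frobenius_inj k p) (by simpa [frobenius_def, ← pow_mul, ← sq] using h)
      exact hne (by rw [sq, pow_mul, ← h1, ← h1])
  have hψ : ∀ i : inertiaLoc p, r (T.hom (i : GalLoc p)) 0 1 = 0 ∧
      r (T.hom (i : GalLoc p)) 1 0 = 0 ∧
      r (T.hom (i : GalLoc p)) 1 1 = r (T.hom (i : GalLoc p)) 0 0 ^ p ∧
      r (T.hom (i : GalLoc p)) 0 0 ^ p ^ 2 = r (T.hom (i : GalLoc p)) 0 0 := fun i => by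
    obtain ⟨j, hj⟩ := hdiagI i
    rw [hj]
    simp [← pow_mul, mul_comm j]
    rw [pow_mul, ha2]
  let ψ : inertiaLoc p →* k :=
    { toFun := fun i => r (T.hom (i : GalLoc p)) 0 0
      map_one' := by simp
      map_mul' := fun x y => by
        simp [Matrix.mul_apply, Fin.sum_univ_two, (hψ x).1] }
  have hrfac : ∀ g g' : GalLoc p, (∀ x ∈ L₀, g x = g' x) → r (T.hom g) = r (T.hom g') :=
    fun g g' h => by rw [hr_apply, hr_apply, hfac g g' h]
  have hJ : ∀ g ∈ U.J, r (T.hom g) = 1 := fun g hg => by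
    have hgI := (U.toUnif.mem_J.mp hg).1
    have h1 : ψ ⟨g, hgI⟩ = 1 := by
      refine char_eq_one_on_J U.toUnif (d := 2)
        (by rw [U.e_eq, he, ← Nat.sq_sub_sq p 1, one_pow]) ψ L₀
        (fun i hi => by
          show r (T.hom (i : GalLoc p)) 0 0 = 1
          rw [hrfac i 1 fun x hx => hi x hx, map_one, map_one, Matrix.one_apply_eq])
        hφ (fun i => ?_) (g := ⟨g, hgI⟩) hg
      show r (T.hom (φ ^ 2 * i * (φ ^ 2)⁻¹)) 0 0 = r (T.hom (i : GalLoc p)) 0 0
      have h1 := hconj i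
      have h2 := hconj (i ^ p)
      rw [Subgroup.coe_pow, map_pow, map_pow, ← h1] at h2
      have e : r (T.hom (φ ^ 2 * i * (φ ^ 2)⁻¹)) = r (T.hom (i : GalLoc p)) ^ (p * p) := by
        rw [← map_pow r, hr_apply, hr_apply, map_pow]
        congr 2
        rw [pow_mul, ← h1, ← h2, sq, _root_.mul_inv_rev]
        simp only [map_mul, mul_assoc]
      obtain ⟨j, hj⟩ := hdiagI i
      rw [e, hj, Matrix.diagonal_pow, Matrix.diagonal_apply_eq, Matrix.diagonal_apply_eq]
      simp [← pow_mul, mul_comm j, ← sq]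
      rw [pow_mul, ha2]
    obtain ⟨h01, h10, h11, -⟩ := hψ ⟨g, hgI⟩
    change r (T.hom g) 0 0 = 1 at h1
    refine Matrix.ext fun x y => ?_
    fin_cases x <;> fin_cases y <;> simp [h1, h01, h10, h11]
  have hrdet : ∀ g : GalLoc p, (r (T.hom g)).det = cyc U k g := fun g => by
    rw [hr_apply, Matrix.det_mul, Matrix.det_mul, mul_right_comm, ← Matrix.det_mul,
      Units.inv_mul, Matrix.det_one, one_mul, hdet]
  obtain ⟨M₀⟩ := (h0.conj Q⁻¹).residual
  obtain ⟨M⟩ := nonempty_model_actAt T M₀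
  have htame : ∀ τ ∈ inertiaLoc p, ∀ z : PadicAlgCl p, IsPrimitiveRoot z U.e →
      τ U.π = z * U.π → Conj p (r (T.hom τ) 0 0) (red z) ∧
        r (T.hom τ) 0 0 ^ p ≠ r (T.hom τ) 0 0 := fun τ hτ z hz hτπ => by
    obtain ⟨h01, h10, h11, h2⟩ := hψ ⟨τ, hτ⟩
    refine conj_of_conn U he M hJ hτ hz hτπ h2 rfl h10 ?_
    · have h := hrdet τ
      rw [Matrix.det_fin_two, h01, zero_mul, sub_zero, h11, ← pow_succ'] at h
      exact h
  obtain ⟨τ, hτ, z, hz, hτπ⟩ := U.toUnif.exists_generator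
  have hane : a ^ p ≠ a := fun h => by
    obtain ⟨j, hj⟩ := hdiagI ⟨τ, hτ⟩
    refine (htame τ hτ z hz hτπ).2 ?_
    change r (T.hom τ) = _ at hj
    rw [hj]
    simp [← pow_mul, mul_comm j]
    rw [pow_mul, h]
  -- Frobenius exchanges the lines
  have hswap : r (T.hom φ) 0 0 = 0 ∧ r (T.hom φ) 1 1 = 0 := by
    have h2 : r (T.hom (g₀ : GalLoc p)) ^ p * r (T.hom φ) =
        r (T.hom φ) * r (T.hom (g₀ : GalLoc p)) := by
      rw [← map_pow r, hr_apply, hr_apply, hr_apply, map_pow, ← hconj g₀]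
      simp only [mul_assoc, Units.mul_inv_cancel_left]
      rw [← mul_assoc (ρ (T.hom φ⁻¹)), hFF', one_mul]
    rw [hD, Matrix.diagonal_pow] at h2
    have e1 := congrFun (congrFun h2 0) 0
    have e2 := congrFun (congrFun h2 1) 1
    simp [← pow_mul, ← sq, ha2] at e1 e2
    constructor
    · by_contra h
      exact hane (mul_right_cancel₀ h (e1.trans (mul_comm _ _)))
    · by_contra h
      exact hane (mul_right_cancel₀ h (e2.trans (mul_comm _ _))).symm
  have hdiag2 : ∀ j : ℕ, r (T.hom (φ ^ (2 * j))) 0 1 = 0 ∧ r (T.hom (φ ^ (2 * j))) 1 0 = 0 := by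
    intro j
    induction j with
    | zero => simp
    | succ j ih =>
      rw [Nat.mul_succ, pow_add, sq, map_mul, map_mul, map_mul, map_mul]
      simp [Matrix.mul_apply, Fin.sum_univ_two, ih.1, ih.2, hswap.1, hswap.2, -map_pow]
  have hdiag : ∀ g ∈ Kd p 2, r (T.hom g) 0 1 = 0 ∧ r (T.hom g) 1 0 = 0 := fun g hg => by
    obtain ⟨j, i, hi, hgi⟩ := exists_decomp_Kd two_ne_zero hφ hg L₀
    obtain ⟨h01, h10, -, -⟩ := hψ ⟨i, hi⟩
    rw [hrfac g _ hgi, map_mul, map_mul]
    simp [Matrix.mul_apply, Fin.sum_univ_two, (hdiag2 j).1, (hdiag2 j).2, h01, h10, -map_pow]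
  refine ⟨Q⁻¹, φ, ⟨he, hN, hφ, hdiag, hswap, fun g hg => ?_, fun g hg hg1 => ?_, hrdet,
    fun τ hτ z hz hτπ => ⟨(htame τ hτ z hz hτπ).1, (hψ ⟨τ, hτ⟩).2.2.2, (hψ ⟨τ, hτ⟩).2.2.1⟩⟩⟩
  · refine U.toUnif.eq_one_on_fixing U.N_ne hφ hφπ (r.comp T.hom) L₀ hrfac hJ ?_ hg
    obtain ⟨c, hc⟩ := hN'
    rw [hc, pow_mul, show (r.comp T.hom) φ ^ Nat.card (M2 k)ˣ = 1 from ?_, one_pow]
    exact (congrArg Units.val (pow_card_eq_one' (x := (r.comp T.hom).toHomUnits φ)) : _)
  · obtain ⟨j, _, s, hs, rfl⟩ := U.toUnif.exists_eq_pow_mul hτ hz hτπ hg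
    change r (T.hom (τ ^ j * s)) = 1 at hg1
    rw [map_mul, map_mul, hJ s hs, mul_one, map_pow, map_pow] at hg1
    obtain ⟨l, hl⟩ := hdiagI ⟨τ, hτ⟩
    change r (T.hom τ) = _ at hl
    have hαj : r (T.hom τ) 0 0 ^ j = 1 := by
      rw [hl, Matrix.diagonal_pow] at hg1
      have := congrFun (congrFun hg1 0) 0
      rw [hl]
      simpa using this
    have h := (htame τ hτ z hz hτπ).1 (X ^ j - 1) (by simp [eval₂_sub, eval₂_X_pow, hαj])
    simp only [eval₂_sub, eval₂_X_pow, eval₂_one, sub_eq_zero] at h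
    obtain ⟨c, rfl⟩ := (red_prim U.toUnif hz).dvd_of_pow_eq_one _ h
    rw [AlgEquiv.mul_apply, (U.toUnif.mem_J.mp hs).2, U.toUnif.pow_apply_π hτ hz.pow_eq_one hτπ,
      pow_mul, hz.pow_eq_one, one_pow, one_mul]

end Fermat.Agent.LocalModelP
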