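import Fermat.Agent.LocalModelP.ShapeOrd
import Fermat.Agent.LocalModelP.ShapeSS
import Fermat.Agent.LocalModelP.OrdinaryLocal

/-!
# Coordinates of flat lifts at `p`

The flat tangent vectors on the decomposition group are at most four dimensional, so four matrix
entries determine a flat lift to first order.
-/

set_option autoImplicit false

noncomputable section

open IsLocalRing Matrix Module Polynomial

namespace Fermat.Agent.LocalModelP

open Fermat.Agent.Duality Fermat.Agent.FlatBound Fermat.Agent.FlatModel Fermat.Agent.Deformation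
  Fermat.Agent.Root.Patched

local notation "ℚbar" => AlgebraicClosure ℚ

variable {p : ℕ} [hp : Fact p.Prime]

/-- A finite extension in which all quadratic polynomials over `k` have a root. -/
theorem exists_quadratic_closure (p : ℕ) (k : Type) [Field k] [Finite k] [CharP k p] :
    ∃ (k' : Type) (_ : Field k') (_ : Finite k') (_ : CharP k' p) (ι : k →+* k'),
      ∀ a b : k, ∃ x : k', x ^ 2 + ι a * x + ι b = 0 := by
  classical
  have h : ∀ q : k × k, ∃ x : AlgebraicClosure k,
      x ^ 2 + algebraMap k _ q.1 * x + algebraMap k _ q.2 = 0 := fun q => by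
    obtain ⟨x, hx⟩ := IsAlgClosed.exists_eval₂_eq_zero (algebraMap k (AlgebraicClosure k))
      (X ^ 2 + C q.1 * X + C q.2) (fun h => by
        have h2 : (X ^ 2 + C q.1 * X + C q.2 : k[X]).natDegree = 2 := by compute_degree!
        rw [natDegree_eq_of_degree_eq_some h] at h2
        exact two_ne_zero h2.symm)
    exact ⟨x, by simpa [eval₂_add, eval₂_mul, eval₂_X_pow, eval₂_C, eval₂_X] using hx⟩
  choose x hx using h
  let L : IntermediateField k (AlgebraicClosure k) := IntermediateField.adjoin k (Set.range x)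
  have : FiniteDimensional k L := IntermediateField.finiteDimensional_adjoin fun y _ =>
    (Algebra.IsAlgebraic.isAlgebraic y).isIntegral
  have : Finite L := Module.finite_of_finite k
  refine ⟨L, inferInstance, inferInstance, charP_of_injective_ringHom (algebraMap k L).injective p,
    algebraMap k L, fun a b => ⟨⟨x (a, b), IntermediateField.subset_adjoin _ _ ⟨(a, b), rfl⟩⟩,
      Subtype.ext (hx (a, b))⟩⟩

variable {P : ValuationSubring ℚbar} (T : AtPlace p P)

/-- Transport of the bound along a change of frame. -/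
theorem finrank_flatTan_conj {k : Type} [Field k] [Finite k] {ρ : GQ →* M2 k}
    (h0 : IsFlatTan p ρ 0) (Q : (M2 k)ˣ) (hQ : IsFlatTan p (conjRep Q ρ) 0)
    (hb : Module.Finite k ((flatTan hQ).map (toLoc T)) ∧
      finrank k ((flatTan hQ).map (toLoc T)) ≤ 4) :
    Module.Finite k ((flatTan h0).map (toLoc T)) ∧
      finrank k ((flatTan h0).map (toLoc T)) ≤ 4 := by
  obtain ⟨hfin, hb⟩ := hb
  let Φ : (GalLoc p → M2 k) →ₗ[k] (GalLoc p → M2 k) :=
    { toFun := fun f g => (Q : M2 k) * f g * (↑Q⁻¹ : M2 k)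
      map_add' := fun f f' => funext fun g => by simp [mul_add, add_mul]
      map_smul' := fun a f => funext fun g => by simp }
  have hΦ : Function.Injective Φ := fun f f' h => funext fun g => by
    have h1 := congrArg (fun M => (↑Q⁻¹ : M2 k) * M * (Q : M2 k)) (congrFun h g)
    simpa [Φ, mul_assoc] using h1
  have hmem : ∀ f ∈ (flatTan h0).map (toLoc T), Φ f ∈ (flatTan hQ).map (toLoc T) := by
    rintro _ ⟨c, hc, rfl⟩
    exact ⟨fun σ => (Q : M2 k) * c σ * (↑Q⁻¹ : M2 k), IsFlatTan.conj Q hc, rfl⟩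
  have hinj : Function.Injective (Φ.restrict hmem) := fun a b h =>
    Subtype.ext (hΦ (congrArg Subtype.val h))
  exact ⟨Module.Finite.of_injective _ hinj,
    (LinearMap.finrank_le_finrank_of_injective hinj).trans hb⟩

/-- Four entries determine a flat tangent vector on the decomposition group. -/
theorem exists_flat_points {k : Type} [Field k] [Finite k] [CharP k p] (hp2 : p ≠ 2)
    {ρ : GQ →* M2 k} (h0 : IsFlatTan p ρ 0)
    (hdet : ∀ (U : Setup p) (g : GalLoc p), (ρ (T.hom g)).det = cyc U k g) :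
    ∃ x : Fin 4 → GalLoc p × Fin 2 × Fin 2, ∀ c, IsFlatTan p ρ c →
      (∀ i, c (T.hom (x i).1) (x i).2.1 (x i).2.2 = 0) → ∀ g, c (T.hom g) = 0 := by
  classical
  obtain ⟨k', _, _, _, ι, hquad⟩ := exists_quadratic_closure p k
  set ρ' := mapRep ι ρ with hρ'
  have h0' : IsFlatTan p ρ' 0 := by
    have := IsFlatTan.extend ι h0
    convert this using 1
    funext g
    simp
  have hdet' : ∀ (U : Setup p) (g : GalLoc p), (ρ' (T.hom g)).det = cyc U k' g := fun U g => by
    rw [hρ', mapRep_apply, ← RingHom.mapMatrix_apply, ← RingHom.map_det, hdet U g]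
    simp [cyc]
  have hbound : Module.Finite k' ((flatTan h0').map (toLoc T)) ∧
      finrank k' ((flatTan h0').map (toLoc T)) ≤ 4 := by
    have hzero : ∀ Q : (M2 k')ˣ, IsFlatTan p (conjRep Q ρ') 0 := fun Q => by
      have := IsFlatTan.conj Q h0'
      convert this using 1
      funext g
      simp
    by_cases hline : ∃ v : Fin 2 → k', v ≠ 0 ∧ ∀ g, ∃ c : k', (ρ' (T.hom g)).mulVec v = c • v
    · obtain ⟨v, hv0, hv⟩ := hline
      obtain ⟨Q₁, hQ₁⟩ := exists_lower_frame (fun g => ρ' (T.hom g)) hv0 hv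
      have : Nonempty k'ˣ := ⟨1⟩
      obtain ⟨U, hU, hUN⟩ := exists_setup (p := p) (e₁ := 1) (N := Nat.card k'ˣ) hp2
        Nat.card_pos.ne' (by rw [one_mul]; simpa using Nat.sub_dvd_pow_sub_pow p 1 (Nat.card k'ˣ))
      obtain ⟨Q₂, F⟩ := exists_ordFrame (T := T) (U := U) hU (dvd_of_eq hUN.symm) (hzero Q₁) hp2
        (fun g => by rw [conjRep_det]; exact hdet' U g)
        (fun g => by rw [conjRep_apply]; exact hQ₁ g)
      have h2 : IsFlatTan p (conjRep Q₂ (conjRep Q₁ ρ')) 0 := by
        have := IsFlatTan.conj Q₂ (hzero Q₁)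
        convert this using 1
        funext g
        simp
      exact finrank_flatTan_conj T h0' Q₁ (hzero Q₁)
        (finrank_flatTan_conj T (hzero Q₁) Q₂ h2 (finrank_flatTan_ord F hp2 h2))
    · have : Nonempty (M2 k')ˣ := ⟨1⟩
      obtain ⟨U, hU, hUN⟩ := exists_setup (p := p) (e₁ := p + 1) (N := 2 * Nat.card (M2 k')ˣ) hp2
        (mul_ne_zero two_ne_zero Nat.card_pos.ne')
        (by
          rw [← Nat.sq_sub_sq p 1, one_pow, pow_mul]
          simpa using Nat.sub_dvd_pow_sub_pow (p ^ 2) 1 (Nat.card (M2 k')ˣ))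
      obtain ⟨Q, φ, F⟩ := exists_ssFrame (T := T) (U := U) hU (hUN ▸ dvd_mul_right 2 _)
        (hUN ▸ dvd_mul_left _ 2) h0' (hdet' U)
        (fun g _ => by
          obtain ⟨a, ha⟩ := hquad (-(ρ (T.hom g)).trace) (ρ (T.hom g)).det
          obtain ⟨v, hv, hv'⟩ := Matrix.exists_mulVec_eq_zero_iff.mpr
            (show (ρ' (T.hom g) - a • (1 : M2 k')).det = 0 by
              rw [map_neg, Matrix.trace_fin_two, Matrix.det_fin_two, map_add, map_sub, map_mul,
                map_mul] at ha
              simp [hρ', Matrix.det_fin_two]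
              linear_combination ha)
          rw [Matrix.sub_mulVec, sub_eq_zero, Matrix.smul_mulVec, Matrix.one_mulVec] at hv'
          exact ⟨a, v, hv, hv'⟩)
        hline
      exact finrank_flatTan_conj T h0' Q (hzero Q) (finrank_flatTan_ss F (hzero Q))
  let E : (GalLoc p → M2 k') →ₗ[k'] (GalLoc p × Fin 2 × Fin 2 → k') :=
    { toFun := fun f q => f q.1 q.2.1 q.2.2
      map_add' := fun f f' => rfl
      map_smul' := fun a f => rfl }
  obtain ⟨hfin, hb⟩ := hbound
  obtain ⟨x, hx⟩ := exists_eval_points 4 (((flatTan h0').map (toLoc T)).map E) inferInstance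
    ((Submodule.finrank_map_le E _).trans hb)
  refine ⟨x, fun c hc hv g => ?_⟩
  have h := hx (E (toLoc T fun σ => (c σ).map ι)) ⟨_, ⟨_, IsFlatTan.extend ι hc, rfl⟩, rfl⟩
    fun i => by
      show ι (c (T.hom (x i).1) (x i).2.1 (x i).2.2) = 0
      rw [hv i, map_zero]
  refine Matrix.ext fun i j => ι.injective ?_
  rw [Matrix.zero_apply, map_zero]
  exact congrFun h (g, i, j)

variable {O : Type} [CommRing O] [IsLocalRing O] {ρbar : GQ →* M2 (ResidueField O)}

/-- **`p`, flat**: four coordinates. -/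
theorem exists_coords_flat [Finite (ResidueField O)] (hp2 : p ≠ 2)
    (hpO : (p : O) ∈ maximalIdeal O) (P : ValuationSubring ℚbar) (hP : P.LiesOverPrime p)
    (hres : ∀ (S : TestRing O) (r : Lift ρbar S), maximalIdeal S.R = ⊥ →
      DetCyclotomic p S r ∧ FlatShape p S r) :
    Nonempty (Coords ρbar P (Fin 4) fun S r => DetCyclotomic p S r ∧ FlatShape p S r) := by
  classical
  have := charP_residue hp.out hpO
  by_cases hex : ∃ (S : TestRing O) (r : Lift ρbar S), DetCyclotomic p S r ∧ FlatShape p S r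
  swap
  · exact ⟨{
      val := fun S r i => 0
      mem := fun S r hr i => zero_mem _
      natural := fun S S' φ _ _ r r' _ _ i => (map_zero φ).symm
      determine := fun S _ r r' hr => (hex ⟨S, r, hr⟩).elim }⟩
  obtain ⟨S₀, r₀, hr₀⟩ := hex
  obtain ⟨T⟩ := exists_atPlace hP
  obtain ⟨hd₀, hf₀⟩ := hres _ (residualLift r₀) maximalIdeal_residualRing
  have h0 : IsFlatTan p ρbar 0 := by
    have : Finite (residualRing O).R := ‹Finite (ResidueField O)›
    obtain ⟨M⟩ := exists_model_colAct hf₀
    exact isFlatTan_zero M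
  obtain ⟨x, hx⟩ := exists_flat_points T hp2 h0 fun U g => red_det_hom hpO T U hd₀ g
  choose c hc using fun i : Fin 4 =>
    residue_surjective (ρbar (T.hom (x i).1) (x i).2.1 (x i).2.2)
  refine ⟨{
    val := fun S r i => r.M (T.hom (x i).1) (x i).2.1 (x i).2.2 - S.alg (c i)
    mem := fun S r _ i => by
      rw [LocalModel.mem_max_iff, map_sub, S.red_alg, hc, LocalModel.red_entry, sub_self]
    natural := fun S S' φ hφ _ r r' hr' _ i => by
      simp only [map_sub, hr', Matrix.map_apply, show φ (S.alg (c i)) = S'.alg (c i) from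
        RingHom.congr_fun hφ _]
    determine := ?_ }⟩
  intro S hS r r' hr hr' hv g hg
  obtain ⟨g', rfl⟩ := T.exists_hom_eq hg
  refine Matrix.ext fun i j => eq_of_sub_eq_zero ?_
  by_contra hne
  have hmem : ∀ σ a b, r.M σ a b - r'.M σ a b ∈ maximalIdeal S.R := fun σ a b => by
    rw [LocalModel.mem_max_iff, map_sub, LocalModel.red_entry, LocalModel.red_entry, sub_self]
  obtain ⟨lm, hadd, hsmul, hlm⟩ := exists_tangent_functional hS (hmem _ i j) hne
  have h0m : lm 0 = 0 := by
    have := hadd 0 (zero_mem _) 0 (zero_mem _)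
    rwa [add_zero, left_eq_add] at this
  have htan := isFlatTan_of_lifts hS hr'.2 hr.2 (det_eq_det hpO hr'.1 hr.1) hadd hsmul
    (hmem _ i j) hlm
  refine hlm ?_
  have h := hx _ htan (fun l => by
    have h1 : r.M (T.hom (x l).1) (x l).2.1 (x l).2.2 =
        r'.M (T.hom (x l).1) (x l).2.1 (x l).2.2 := by
      simpa using congrFun hv l
    rw [Matrix.map_apply, Matrix.sub_apply, h1, sub_self, h0m]) g'
  exact congrFun (congrFun h i) j

end Fermat.Agent.LocalModelP
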