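import Fermat.Agent.FlatBound.OfHopf
import Fermat.Agent.LocalModelP.Bounds
import Fermat.Agent.Deformation.MatrixRep

/-!
# Kummer bounds from finite flat groups killed by `p`
-/

set_option autoImplicit false

noncomputable section

namespace Fermat.Agent.LocalModelP

open Fermat.Agent.Duality Fermat.Agent.FlatBound Fermat.Agent.FlatModel Fermat.Agent.Deformation

variable {p : ℕ} [hp : Fact p.Prime]

local notation "Ω" => PadicAlgCl p

/-- A homomorphism killed by the inertia elements acting trivially on a finite flat group killed by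
`p` has bounded radicands. -/
theorem kum_of_model {k : Type} [Field k] [CharP k p] (S : Setup p) {G : Type} [AddCommGroup G]
    [Finite G] {act : GQ →* AddMonoid.End G} (M : Model p act) (hG : ∀ x : G, p • x = 0)
    {t : k →+ ZMod p} {h : GalLoc p → k}
    (hπ : ∀ g ∈ inertiaLoc p, (∀ x : G, act (localGaloisToGlobal p g) x = x) → g S.π = S.π)
    (hker : ∀ g ∈ S.J, (∀ x : G, act (localGaloisToGlobal p g) x = x) → h g = 0) :
    Kum S t (FlatBd S) h := by
  have hF : FiniteDimensional ℚ_[p] S.F := S.toUnif.finiteDimensional_fld S.N_ne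
  have hp2 := hp.out.two_le
  have hfix : ∀ c x α, S.Rad (lam t h c) x → α ^ p = x →
      (∀ g ∈ S.GF, g α = zp S.ζ (lam t h c g) * α) →
      ∀ σ : Ω ≃ₐ[ℚ_[p]] Ω, FixesUnram σ → (∀ x : G, act (localGaloisToGlobal p σ) x = x) →
        (∀ z ∈ S.F, σ z = z) ∧ σ α = α := by
    intro c x α _ _ hα σ hσ hact
    have hI : σ ∈ inertiaLoc p := mem_inertiaLoc_of_fix_roots fun M η hM hη => hσ M η hM hη
    have hJ : σ ∈ S.J := S.toUnif.mem_J.mpr ⟨hI, hπ σ hI hact⟩
    refine ⟨fun z hz => S.mem_F.mp hz σ (S.J_le hJ), ?_⟩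
    rw [hα σ (S.J_le hJ), lam, hker σ hJ hact, mul_zero, map_zero, zp_zero, one_mul]
  constructor
  · intro c x hx
    obtain ⟨hxF, hx0, α, hαx, hα⟩ := hx
    obtain ⟨j, hj⟩ := S.norm_zpow hxF hx0
    rw [S.vp_eq hj, ZMod.intCast_zmod_eq_zero_iff_dvd]
    by_contra hdvd
    have hb := kummer_valuation M hG S.F S.π_mem S.norm_π_pow (fun z hz hz0 => S.norm_zpow hz hz0)
      (α := α) (hαx ▸ hxF) (hfix c x α ⟨hxF, hx0, α, hαx, hα⟩ hαx hα) (k := j)
      (by rw [hαx]; exact hj) hdvd
    have hp3 : 3 ≤ p := lt_of_le_of_ne hp2 (Ne.symm S.ne_two)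
    have he : 2 ≤ S.e := by
      rw [S.e_eq]
      exact le_trans (by omega) (Nat.le_mul_of_pos_left (p - 1) S.e₁_pos)
    obtain ⟨e', he'⟩ := Nat.exists_eq_add_of_le he
    obtain ⟨q, hq⟩ := Nat.exists_eq_add_of_le hp3
    rw [he', hq, show 3 + q - 1 = 2 + q by omega, show 2 + e' - 1 = 1 + e' by omega] at hb
    nlinarith [Nat.zero_le (q * e'), Nat.zero_le (q * q * e'), Nat.zero_le (q * q)]
  · intro c x i hx hi hpi hlt
    obtain ⟨hxF, hx0, α, hαx, hα⟩ := hx
    exact kummer_level M hG S.F S.π_mem S.norm_π_pow (fun z hz hz0 => S.norm_zpow hz hz0)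
      (α := α) (hαx ▸ hxF) (hfix c x α ⟨hxF, hx0, α, hαx, hα⟩ hαx hα)
      (by rw [hαx]; exact hi) hpi (by
        rw [S.e_eq, ← mul_assoc, mul_comm (p - 1) i]
        exact Nat.mul_lt_mul_of_pos_right hlt (by omega))

/-- The action of a matrix representation on the columns. -/
def colAct {A : Type} [CommRing A] (M : GQ →* M2 A) : GQ →* AddMonoid.End (Fin 2 → A) where
  toFun σ := (M σ).mulVecLin.toAddMonoidHom
  map_one' := AddMonoidHom.ext fun v => by
    show (M 1).mulVec v = v
    rw [map_one, Matrix.one_mulVec]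
  map_mul' σ τ := AddMonoidHom.ext fun v => by
    show (M (σ * τ)).mulVec v = (M σ).mulVec ((M τ).mulVec v)
    rw [map_mul, Matrix.mulVec_mulVec]

theorem colAct_apply {A : Type} [CommRing A] (M : GQ →* M2 A) (σ : GQ) (v : Fin 2 → A) :
    colAct M σ v = (M σ).mulVec v := rfl

omit hp in
/-- A flat representation over a finite ring has a flat model. -/
theorem exists_model_colAct {A : Type} [CommRing A] [IsLocalRing A] [Finite A] {M : GQ →* M2 A}
    {hM : MatCont M} (hflat : (ofMatrix M hM).IsFlatAt p) :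
    Nonempty (Model p (colAct M)) := by
  obtain ⟨H, _, _, _, -, -, e, hadd, hgal⟩ :=
      hflat.2 ⊥ (Finite.of_surjective _ Ideal.Quotient.mk_surjective)
  let π : ((ofMatrix M hM).V ⧸ ((⊥ : Ideal A) • (⊤ : Submodule A (ofMatrix M hM).V))) ≃ₗ[A]
      (Fin 2 → A) := Submodule.quotEquivOfEqBot _ (Submodule.bot_smul _)
  refine exists_model_of_hopf (colAct M) H (e.trans π.toEquiv) (fun f g => ?_) fun σ f g h => ?_
  · show π (e (f * g)) = π (e f) + π (e g)
    rw [hadd, map_add]
  · show π (e g) = colAct M σ (π (e f))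
    rw [hgal σ f g h]
    obtain ⟨v, hv⟩ := Submodule.Quotient.mk_surjective _ (e f)
    rw [← hv]
    rfl

end Fermat.Agent.LocalModelP
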