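import Fermat.Agent.LocalModelP.FlatTan

/-!
# Flat tangent vectors restricted to the place
-/

set_option autoImplicit false

noncomputable section

open Matrix

namespace Fermat.Agent.LocalModelP

open Fermat.Agent.Duality Fermat.Agent.FlatBound Fermat.Agent.FlatModel Fermat.Agent.Deformation

local notation "ℚbar" => AlgebraicClosure ℚ

variable {p : ℕ} [hp : Fact p.Prime] {P : ValuationSubring ℚbar} (T : AtPlace p P)

local notation "Ω" => PadicAlgCl p

/-- An action transported to the place. -/
def actAt {G : Type} [AddCommGroup G] (act : GQ →* AddMonoid.End G) : GQ →* AddMonoid.End G :=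
  act.comp (MulAut.conj T.σ).toMonoidHom

theorem actAt_loc {G : Type} [AddCommGroup G] (act : GQ →* AddMonoid.End G) (g : GalLoc p) :
    actAt T act (localGaloisToGlobal p g) = act (T.hom g) := rfl

/-- A flat model stays one after moving to the place. -/
theorem nonempty_model_actAt {G : Type} [AddCommGroup G] [Finite G]
    {act : GQ →* AddMonoid.End G} (M : Model p act) : Nonempty (Model p (actAt T act)) :=
  ⟨M.map (act T.σ) (FlatModel.act_surjective act T.σ) fun τ x => by
    show (act T.σ * act τ) x = (act (T.σ * τ * T.σ⁻¹) * act T.σ) x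
    rw [← map_mul, ← map_mul, inv_mul_cancel_right]⟩

/-- The local action on a flat model factors through a finite level. -/
theorem finLevel_act {G : Type} [AddCommGroup G] [Finite G] {act : GQ →* AddMonoid.End G}
    (M : Model p act) : FinLevel fun g : GalLoc p => act (localGaloisToGlobal p g) := by
  refine ⟨IntermediateField.adjoin ℚ_[p]
    (Set.range fun q : _ × G => (localCoords M).φ q.1 q.2),
    IntermediateField.finiteDimensional_adjoin fun x _ =>
      (Algebra.IsAlgebraic.isAlgebraic x).isIntegral, fun g g' hg => AddMonoidHom.ext fun x =>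
    M.separates _ _ fun φ hφ => (padicEmbedding p).injective ?_⟩
  show padicEmbedding p (φ (act (localGaloisToGlobal p g) x)) =
    padicEmbedding p (φ (act (localGaloisToGlobal p g') x))
  rw [emb_eq_sum M ⟨φ, hφ⟩, emb_eq_sum M ⟨φ, hφ⟩]
  refine Finset.sum_congr rfl fun j _ => ?_
  congr 1
  show localφ M j _ = localφ M j _
  rw [← localφ_act, ← localφ_act]
  exact hg _ (IntermediateField.subset_adjoin _ _ ⟨(j, x), rfl⟩)

variable {k : Type} [Field k] [Finite k] {ρ : GQ →* M2 k}

/-- The restriction of a family to the place. -/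
def toLoc : (GQ → M2 k) →ₗ[k] (GalLoc p → M2 k) := LinearMap.funLeft k (M2 k) T.hom

omit [Finite k] in
theorem toLoc_apply (c : GQ → M2 k) (g : GalLoc p) : toLoc T c g = c (T.hom g) := rfl

/-- A flat tangent vector and the representation have finite level at the place. -/
theorem IsFlatTan.level {c : GQ → M2 k} (hc : IsFlatTan p ρ c) :
    FinLevel fun g : GalLoc p => (ρ (T.hom g), c (T.hom g)) := by
  obtain ⟨h, ⟨M⟩⟩ := hc
  obtain ⟨M'⟩ := nonempty_model_actAt T M
  obtain ⟨L, hL, hfac⟩ := finLevel_act M'
  refine ⟨L, hL, fun g g' hg => ?_⟩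
  have e := eq_of_tanAct (σ := T.hom g) (τ := T.hom g') (hc := h.add) fun x =>
    DFunLike.congr_fun (hfac g g' hg) x
  exact Prod.ext e.1 e.2

end Fermat.Agent.LocalModelP
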