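import Fermat.Agent.LocalModelP.FlatLocal
import Fermat.Agent.LocalModelP.OrdinaryLocal

/-!
# Flat tangent vectors with ordinary residual representation

In a frame with `ρ = [χ₁ *; 0 χ₂]`, `χ₂` unramified, the lower left entry of a flat tangent vector
vanishes on `J`, then so does the lower right one, and the rest is a cyclotomic cocycle with
valuations prime to the residual ones: four dimensions.
-/

set_option autoImplicit false

noncomputable section

open Matrix Module

namespace Fermat.Agent.LocalModelP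

open Fermat.Agent.Duality Fermat.Agent.FlatBound Fermat.Agent.FlatModel Fermat.Agent.Deformation

local notation "ℚbar" => AlgebraicClosure ℚ

variable {p : ℕ} [hp : Fact p.Prime] {P : ValuationSubring ℚbar}

/-- An ordinary frame. -/
structure OrdFrame (T : AtPlace p P) (U : Setup p) {k : Type} [Field k] (ρ : GQ →* M2 k) :
    Prop where
  e_one : U.e₁ = 1
  card_dvd : Nat.card kˣ ∣ U.N
  det : ∀ g : GalLoc p, (ρ (T.hom g)).det = cyc U k g
  low : ∀ g : GalLoc p, ρ (T.hom g) 1 0 = 0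
  unr : ∀ g ∈ inertiaLoc p, ρ (T.hom g) 1 1 = 1

variable {T : AtPlace p P} {U : Setup p} {k : Type} [Field k] [Finite k] [CharP k p]
  {ρ : GQ →* M2 k}

omit [Finite k] [CharP k p] in
theorem mul_entries (F : OrdFrame T U ρ) (g h : GalLoc p) :
    ρ (T.hom (g * h)) 0 0 = ρ (T.hom g) 0 0 * ρ (T.hom h) 0 0 ∧
      ρ (T.hom (g * h)) 1 1 = ρ (T.hom g) 1 1 * ρ (T.hom h) 1 1 := by
  simp only [map_mul, Matrix.mul_apply, Fin.sum_univ_two, F.low, mul_zero, zero_mul, add_zero,
    zero_add, and_self]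

omit [Finite k] [CharP k p] in
theorem diag_ne_zero (F : OrdFrame T U ρ) (g : GalLoc p) :
    ρ (T.hom g) 0 0 ≠ 0 ∧ ρ (T.hom g) 1 1 ≠ 0 := by
  have h := mul_entries F g g⁻¹
  rw [mul_inv_cancel, map_one, map_one] at h
  simp only [Matrix.one_apply_eq] at h
  exact ⟨fun h0 => one_ne_zero (h.1.trans (by rw [h0, zero_mul])),
    fun h0 => one_ne_zero (h.2.trans (by rw [h0, zero_mul]))⟩

omit [Finite k] [CharP k p] in
theorem inertia_entry (F : OrdFrame T U ρ) {g : GalLoc p} (hg : g ∈ inertiaLoc p) :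
    ρ (T.hom g) 0 0 = cyc U k g := by
  have h := F.det g
  rwa [Matrix.det_fin_two, F.low, mul_zero, sub_zero, F.unr g hg, mul_one] at h

/-- The characters of the frame are trivial on `GF`. -/
theorem entries_GF (F : OrdFrame T U ρ) (h0 : IsFlatTan p ρ 0) {g : GalLoc p} (hg : g ∈ U.GF) :
    ρ (T.hom g) 0 0 = 1 ∧ ρ (T.hom g) 1 1 = 1 := by
  obtain ⟨φ, hφ, hφπ⟩ := U.exists_frob
  let χ : GalLoc p →* k :=
    { toFun := fun g => ρ (T.hom g) 1 1
      map_one' := by rw [map_one, map_one, Matrix.one_apply_eq]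
      map_mul' := fun g h => (mul_entries F g h).2 }
  obtain ⟨L, hL, hfac⟩ := h0.level T
  have h11 : χ g = 1 := U.toUnif.eq_one_on_fixing U.N_ne hφ hφπ χ L
    (fun g g' hgg => congrArg (fun M : M2 k => M 1 1) (congrArg Prod.fst (hfac g g' hgg)))
    (fun g hg => F.unr g (U.toUnif.mem_J.mp hg).1) (by
      obtain ⟨u, hu⟩ := (isUnit_iff_ne_zero.mpr (diag_ne_zero F φ).2 : IsUnit (χ φ))
      obtain ⟨m, hm⟩ := F.card_dvd
      rw [← hu, hm, pow_mul, ← Units.val_pow_eq_pow_val, pow_card_eq_one', Units.val_one, one_pow])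
    hg
  refine ⟨?_, h11⟩
  have h := F.det g
  rw [Matrix.det_fin_two, F.low, mul_zero, sub_zero, show ρ (T.hom g) 1 1 = 1 from h11, mul_one,
    cyc_GF hg] at h
  exact h

omit [CharP k p] in
/-- The ratio of the diagonal entries is a character. -/
theorem isChar_ratio (F : OrdFrame T U ρ) (h0 : IsFlatTan p ρ 0) (i j : Fin 2) :
    IsChar 1 fun g => ρ (T.hom g) i i / ρ (T.hom g) j j where
  level := (h0.level T).comp fun q => q.1 i i / q.1 j j
  map_one := by simp
  mul g _ h _ := by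
    have e := mul_entries F g h
    fin_cases i <;> fin_cases j <;> simp only [Fin.zero_eta, Fin.mk_one, e.1, e.2] <;>
      rw [mul_div_mul_comm]

/-- The flat tangent vectors on the decomposition group are at most four dimensional. -/
theorem finrank_flatTan_ord (F : OrdFrame T U ρ) (hp2 : p ≠ 2) (h0 : IsFlatTan p ρ 0) :
    Module.Finite k ((flatTan h0).map (toLoc T)) ∧
      finrank k ((flatTan h0).map (toLoc T)) ≤ 4 := by
  classical
  set V := (flatTan h0).map (toLoc T) with hVdef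
  set χ₁ : GalLoc p → k := fun g => ρ (T.hom g) 0 0
  set χ₂ : GalLoc p → k := fun g => ρ (T.hom g) 1 1
  have hne := diag_ne_zero F
  have hK1 : ∀ g : GalLoc p, g ∈ Kd p 1 := mem_Kd_one
  obtain ⟨t, ht⟩ := exists_functional (p := p) (k := k)
  obtain ⟨O, hOd, hOτ, hOφ⟩ := exists_ops U one_ne_zero (isChar_ratio F h0 1 0)
  set w := cyc U k O.τ
  have hw : w = (O.w : k) := cyc_eq O.τ_ζ
  have hw1 : w ≠ 1 := by
    intro h1
    rw [hw, ← Nat.cast_one, CharP.natCast_eq_natCast k p, ← CharP.natCast_eq_natCast (Res p) p,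
      O.cast_w, Nat.cast_one, F.e_one, pow_one] at h1
    have h2 := O.red_z_prim.eq_orderOf
    rw [h1, orderOf_one, setup_e_one F.e_one] at h2
    have := hp.out.two_le
    omega
  have hτ00 : χ₁ O.τ = w := inertia_entry F O.τ_mem
  have hJ : ∀ g ∈ U.J, χ₁ g = 1 ∧ χ₂ g = 1 := fun g hg => entries_GF F h0 (U.J_le hg)
  have hrule : ∀ f ∈ V, ∀ g h : GalLoc p,
      f (g * h) = f g * ρ (T.hom h) + ρ (T.hom g) * f h := by
    rintro _ ⟨c, ⟨hc, -⟩, rfl⟩ g h
    simp only [toLoc_apply, map_mul, hc.add]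
  have hlev : ∀ f ∈ V, FinLevel fun g : GalLoc p => (ρ (T.hom g), f g) := by
    rintro _ ⟨c, hc, rfl⟩
    exact IsFlatTan.level T hc
  -- connected points of the residual module have no unramified coordinate
  obtain ⟨M₀⟩ := h0.residual
  obtain ⟨M₀'⟩ := nonempty_model_actAt T M₀
  have hfunc : ∀ (M : Model p (actAt T (colAct ρ))) (v : Fin 2 → k), IsConn M v → v 1 = 0 := by
    intro M v hv
    refine eq_zero_of_lam ht fun a => ?_
    refine eq_zero_of_isConn_functional M U F.e_one hv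
      ((t.comp (AddMonoidHom.mulLeft a)).comp (Pi.evalAddMonoidHom _ 1)) fun g hg y => ?_
    rw [actAt_loc]
    simp [colAct_apply, F.low, F.unr g hg]
  -- the lower entries vanish on `J`
  have hlow : ∀ f ∈ V, ∀ g ∈ U.J,
      f g 1 0 = 0 ∧ (f O.τ 1 0 = 0 → f g 1 1 = 0) := by
    rintro _ ⟨c, ⟨hc, ⟨M⟩⟩, rfl⟩ g hg
    obtain ⟨M'⟩ := nonempty_model_actAt T M
    have hgI := (U.toUnif.mem_J.mp hg).1
    let i : (Fin 2 → k) →+ TanSpace k := AddMonoidHom.inr _ _
    have hcomap : ∀ v, IsConn M' (i v) → v 1 = 0 := fun v hv =>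
      hfunc _ v (isConn_comap M' (i := i) (act' := actAt T (colAct ρ))
        (fun a b h => congrArg Prod.snd h) (fun σ x => by
          show ((0 : Fin 2 → k), (ρ _).mulVec x) = ((ρ _).mulVec 0, (ρ _).mulVec x + (c _).mulVec 0)
          rw [Matrix.mulVec_zero, Matrix.mulVec_zero, add_zero]) hv)
    have hcol : ∀ (g : GalLoc p) (v u : Fin 2 → k),
        tanAct ρ c hc.add (T.hom g) (v, u) =
          ((ρ (T.hom g)).mulVec v, (ρ (T.hom g)).mulVec u + (c (T.hom g)).mulVec v) :=
            fun _ _ _ => rfl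
    constructor
    · have h1 := isConn_act_sub M' hgI (Pi.single 0 1, 0)
      rw [actAt_loc, hcol] at h1
      refine (Eq.trans ?_ (hcomap (fun l => c (T.hom g) l 0) ?_))
      · rfl
      convert h1 using 1
      refine Prod.ext (funext fun l => ?_) (funext fun l => ?_)
      · fin_cases l <;> simp [i, F.low,
          show ρ (T.hom g) 0 0 = 1 from (hJ g hg).1]
      · simp [i]
    · intro hτ0
      rw [toLoc_apply] at hτ0
      have h1 := isConn_act_sub M' hgI (Pi.single 1 1, 0)
      have h2 := (h1.act_loc M' O.τ).add M' (h1.nsmul M' ((p - 1) * O.w))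
      rw [actAt_loc, actAt_loc, hcol] at h2
      have h3 := hcomap (fun l => ((ρ (T.hom O.τ)).mulVec fun l => c (T.hom g) l 1) l +
        (c (T.hom O.τ)).mulVec ![ρ (T.hom g) 0 1, 0] l - w * c (T.hom g) l 1) ?_
      · simp [Matrix.mulVec, dotProduct, Fin.sum_univ_two, F.low, F.unr _ O.τ_mem, hτ0] at h3
        have h4 : (1 - w) * c (T.hom g) 1 1 = 0 := by linear_combination h3
        exact (mul_eq_zero.mp h4).resolve_left (sub_ne_zero.mpr (Ne.symm hw1))
      · have hn : (((p - 1) * O.w : ℕ) : k) = -w := by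
          rw [Nat.cast_mul, Nat.cast_sub hp.out.one_le, CharP.cast_eq_zero, Nat.cast_one, hw]
          ring
        have e : ∀ l, ((ρ (T.hom g)).mulVec (Pi.single 1 1) - Pi.single 1 1 : Fin 2 → k) l =
            ![ρ (T.hom g) 0 1, 0] l := fun l => by
          fin_cases l <;> simp [show ρ (T.hom g) 1 1 = 1 from (hJ g hg).2]
        convert h2 using 1
        rw [← Nat.cast_smul_eq_nsmul k ((p - 1) * O.w), hn, Prod.mk_sub_mk, hcol, funext e]
        refine Prod.ext (funext fun l => ?_) (funext fun l => ?_)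
        · fin_cases l <;> simp [i, Matrix.mulVec, dotProduct, Fin.sum_univ_two, F.low,
            show ρ (T.hom O.τ) 0 0 = w from hτ00]
        · fin_cases l <;> simp [i, Matrix.mulVec, dotProduct, Fin.sum_univ_two, Matrix.vecHead,
            Matrix.vecTail, Matrix.col] <;> ring
  -- the two scalar coordinates
  obtain ⟨φ, hφ⟩ := exists_isFrob (p := p)
  have hdiv : ∀ (f : GalLoc p → M2 k), f ∈ V → ∀ i j l : Fin 2,
      FinLevel fun g => f g i j / ρ (T.hom g) l l := fun f hf i j l =>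
    (hlev f hf).comp fun q => q.2 i j / q.1 l l
  have hlow0 : ∀ f ∈ V, f O.τ 1 0 = 0 → ∀ g, f g 1 0 = 0 := by
    intro f hf hτ g
    have hu : IsCocycle 1 (fun g => χ₂ g / χ₁ g) fun g => f g 1 0 / χ₁ g := by
      refine ⟨hdiv f hf 1 0 0, fun g _ h _ => ?_⟩
      have e : f (g * h) 1 0 = f g 1 0 * χ₁ h + χ₂ g * f h 1 0 := by
        rw [hrule f hf]
        simp [Matrix.mul_apply, Fin.sum_univ_two, F.low, χ₁, χ₂]
      simp only [e, show χ₁ (g * h) = χ₁ g * χ₁ h from (mul_entries F g h).1]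
      have := (hne g).1
      have := (hne h).1
      simp only [χ₁, χ₂] at *
      field_simp
    have h1 := hu.eq_coboundary one_ne_zero O (isChar_ratio F h0 1 0)
      (by
        show χ₂ O.τ / χ₁ O.τ ≠ 1
        rw [hτ00, show χ₂ O.τ = 1 from F.unr _ O.τ_mem, Ne,
          div_eq_one_iff_eq (hτ00 ▸ (hne O.τ).1)]
        exact Ne.symm hw1)
      (fun s hs => by rw [(hlow f hf s hs).1, zero_div]) (hK1 g)
      fun s hs => by
        show χ₂ s / χ₁ s = 1
        rw [(hJ s hs).1, (hJ s hs).2, div_one]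
    simp only [hτ, zero_div, mul_zero, div_eq_zero_iff] at h1
    exact h1.resolve_right (hne g).1
  have hlow1 : ∀ f ∈ V, f O.τ 1 0 = 0 → f φ 1 1 = 0 → ∀ g, f g 1 1 = 0 := by
    intro f hf hτ hφ0 g
    have h10 := hlow0 f hf hτ
    have hv : IsCocycle 1 (fun _ => (1 : k)) fun g => f g 1 1 / χ₂ g := by
      refine ⟨hdiv f hf 1 1 1, fun g _ h _ => ?_⟩
      have e : f (g * h) 1 1 = f g 1 1 * χ₂ h + χ₂ g * f h 1 1 := by
        rw [hrule f hf]
        simp [Matrix.mul_apply, Fin.sum_univ_two, F.low, h10, χ₂]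
      simp only [e, show χ₂ (g * h) = χ₂ g * χ₂ h from (mul_entries F g h).2, one_mul]
      have := (hne g).2
      have := (hne h).2
      simp only [χ₂] at *
      field_simp
    have hone : IsChar 1 fun _ : GalLoc p => (1 : k) :=
      ⟨finLevel_const 1, rfl, fun _ _ _ _ => (mul_one 1).symm⟩
    obtain ⟨O₁, -, -, -⟩ := exists_ops U one_ne_zero hone
    have hI : ∀ i ∈ inertiaLoc p, f i 1 1 / χ₂ i = 0 := fun i hi =>
      hv.eq_zero_on_inertia one_ne_zero O₁ hone (fun _ _ => rfl)
        (fun s hs => by rw [(hlow f hf s hs).2 hτ, zero_div]) hi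
    obtain ⟨L, hL, hfac⟩ := hv.level
    obtain ⟨j, i, hi, hgi⟩ := exists_decomp_Kd one_ne_zero hφ (hK1 g) L
    have h1 : f g 1 1 / χ₂ g = 0 := by
      refine (hfac g _ hgi).trans ((hv.add _ (hK1 _) _ (hK1 _)).trans ?_)
      show _ + 1 * (f i 1 1 / χ₂ i) = 0
      rw [hI i hi, mul_zero, add_zero]
      exact hv.pow hone (hK1 φ) (by rw [hφ0, zero_div]) _
    exact (div_eq_zero_iff.mp h1).resolve_right (hne g).2
  let Θ : V →ₗ[k] k × k :=
    { toFun := fun f => ((f : GalLoc p → M2 k) O.τ 1 0, (f : GalLoc p → M2 k) φ 1 1)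
      map_add' := fun f f' => rfl
      map_smul' := fun a f => rfl }
  have hker : ∀ f : LinearMap.ker Θ, ∀ g, ((f : V) : GalLoc p → M2 k) g 1 0 = 0 ∧
      ((f : V) : GalLoc p → M2 k) g 1 1 = 0 ∧ ((f : V) : GalLoc p → M2 k) g 0 0 = 0 := fun f g => by
    have h := LinearMap.mem_ker.mp f.2
    have h10 := hlow0 _ (f : V).2 (congrArg Prod.fst h)
    have h11 := hlow1 _ (f : V).2 (congrArg Prod.fst h) (congrArg Prod.snd h)
    refine ⟨h10 g, h11 g, ?_⟩
    obtain ⟨c, hc, hfc⟩ := (f : V).2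
    have htr := hc.choose.tr (T.hom g)
    rw [← toLoc_apply T c g, hfc, Matrix.trace_fin_two] at htr
    simp [Matrix.mul_apply, Fin.sum_univ_two, Matrix.adjugate_fin_two, F.low, h10 g, h11 g] at htr
    exact htr.resolve_left (hne g).2
  let E : LinearMap.ker Θ →ₗ[k] (GalLoc p → k) :=
    { toFun := fun f g => ((f : V) : GalLoc p → M2 k) g 0 1 / χ₂ g
      map_add' := fun f f' => funext fun g => add_div _ _ _
      map_smul' := fun a f => funext fun g => mul_div_assoc _ _ _ }
  have hEinj : Function.Injective E := fun f f' h => by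
    refine Subtype.ext (Subtype.ext (funext fun g => Matrix.ext fun i j => ?_))
    have e := congrFun h g
    change _ / χ₂ g = _ / χ₂ g at e
    have e' := (div_left_inj' (hne g).2).mp e
    fin_cases i <;> fin_cases j
    · exact (hker f g).2.2.trans (hker f' g).2.2.symm
    · exact e'
    · exact (hker f g).1.trans (hker f' g).1.symm
    · exact (hker f g).2.1.trans (hker f' g).2.1.symm
  set χ : GalLoc p → k := fun g => χ₁ g / χ₂ g
  obtain ⟨hWfin, hW2⟩ := finite_restrict_cyclotomic F.e_one (isChar_ratio F h0 0 1)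
    (fun s hs => by rw [(entries_GF F h0 hs).1, (entries_GF F h0 hs).2, div_one])
    (fun g hg a ha => by rw [inertia_entry F hg, F.unr g hg, div_one]; exact cyc_eq ha) ht
    (LinearMap.range E)
    (by
      rintro _ ⟨f, rfl⟩
      refine ⟨hdiv _ (f : V).2 0 1 1, fun g _ h _ => ?_⟩
      show _ / χ₂ (g * h) = _ / χ₂ g + χ g * (_ / χ₂ h)
      have e : ((f : V) : GalLoc p → M2 k) (g * h) 0 1 =
          ((f : V) : GalLoc p → M2 k) g 0 1 * χ₂ h + χ₁ g * ((f : V) : GalLoc p → M2 k) h 0 1 := by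
        rw [hrule _ (f : V).2]
        simp [Matrix.mul_apply, Fin.sum_univ_two, (hker f g).2.2, (hker f h).2.1, χ₁, χ₂]
      rw [e, show χ₂ (g * h) = χ₂ g * χ₂ h from (mul_entries F g h).2]
      have := (hne g).2
      have := (hne h).2
      simp only [χ, χ₁, χ₂] at *
      field_simp)
    (by
      rintro _ ⟨f, rfl⟩
      obtain ⟨c, hc, hfc⟩ := (f : V).2
      refine ⟨(IsFlatTan.kum T hc U (t := t) (h := E f) (fun g _ hg => ?_) fun g _ _ hg => ?_).val,
        fun _ _ _ _ _ _ _ => trivial⟩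
      · refine fix_pi_of_fix_zeta F.e_one (fix_zeta_of_cyc_eq_one (k := k) ?_)
        rw [← F.det g, hg, Matrix.det_one]
      · show ((f : V) : GalLoc p → M2 k) g 0 1 / χ₂ g = 0
        rw [← hfc, toLoc_apply, hg]
        exact zero_div _)
  have : Module.Finite k (LinearMap.ker Θ) :=
    Module.Finite.equiv (LinearEquiv.ofInjective E hEinj).symm
  have : Module.Finite k (V ⧸ LinearMap.ker Θ) := Module.Finite.equiv Θ.quotKerEquivRange.symm
  refine ⟨Module.Finite.of_submodule_quotient (LinearMap.ker Θ), ?_⟩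
  have : Module.Finite k V := Module.Finite.of_submodule_quotient (LinearMap.ker Θ)
  rw [← Θ.finrank_range_add_finrank_ker]
  have h1 : finrank k (LinearMap.range Θ) ≤ 2 :=
    (Submodule.finrank_le _).trans (by simp)
  have h2 : finrank k (LinearMap.ker Θ) ≤ 2 :=
    ((LinearEquiv.ofInjective E hEinj).finrank_eq).le.trans hW2
  omega

end Fermat.Agent.LocalModelP
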