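import Fermat.Agent.LocalModelP.FlatLocal
import Fermat.Agent.LocalModelP.Bounds

/-!
# Flat tangent vectors with supersingular residual representation

In a frame where `Kd p 2` acts diagonally through the fundamental characters of level two and
Frobenius swaps the lines, the diagonal classes are unramified and the upper right entry has one
surviving level: four dimensions.
-/

set_option autoImplicit false

noncomputable section

open Matrix Module Polynomial

namespace Fermat.Agent.LocalModelP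

open Fermat.Agent.Duality Fermat.Agent.FlatBound Fermat.Agent.FlatModel Fermat.Agent.Deformation

local notation "ℚbar" => AlgebraicClosure ℚ

variable {p : ℕ} [hp : Fact p.Prime] {P : ValuationSubring ℚbar}

theorem conj_pow {k K : Type} [Field k] [CharP k p] [Field K] [CharP K p] {a : k} {b : K}
    (h : Conj p a b) (n : ℕ) : Conj p (a ^ n) (b ^ n) := by
  intro Q hQ
  have h1 := h (Q.comp (X ^ n)) (by rw [eval₂_comp, eval₂_X_pow]; exact hQ)
  rwa [eval₂_comp, eval₂_X_pow] at h1

/-- A supersingular frame. -/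
structure SSFrame (T : AtPlace p P) (U : Setup p) {k : Type} [Field k] [CharP k p]
    (ρ : GQ →* M2 k) (φ : GalLoc p) : Prop where
  e_eq : U.e₁ = p + 1
  two_dvd : 2 ∣ U.N
  frob : IsFrob φ
  diag : ∀ g ∈ Kd p 2, ρ (T.hom g) 0 1 = 0 ∧ ρ (T.hom g) 1 0 = 0
  swap : ρ (T.hom φ) 0 0 = 0 ∧ ρ (T.hom φ) 1 1 = 0
  GF : ∀ g ∈ U.GF, ρ (T.hom g) = 1
  fixπ : ∀ g ∈ inertiaLoc p, ρ (T.hom g) = 1 → g U.π = U.π
  det : ∀ g : GalLoc p, (ρ (T.hom g)).det = cyc U k g
  tame : ∀ τ ∈ inertiaLoc p, ∀ z : PadicAlgCl p, IsPrimitiveRoot z U.e → τ U.π = z * U.π →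
    Conj p (ρ (T.hom τ) 0 0) (red z) ∧ ρ (T.hom τ) 0 0 ^ p ^ 2 = ρ (T.hom τ) 0 0 ∧
      ρ (T.hom τ) 1 1 = ρ (T.hom τ) 0 0 ^ p

variable {T : AtPlace p P} {U : Setup p} {k : Type} [Field k] [Finite k] [CharP k p]
  {ρ : GQ →* M2 k} {φ : GalLoc p}

omit [Finite k] in
theorem SSFrame.mul_diag (F : SSFrame T U ρ φ) {g h : GalLoc p} (hg : g ∈ Kd p 2)
    (_hh : h ∈ Kd p 2) (i : Fin 2) :
    ρ (T.hom (g * h)) i i = ρ (T.hom g) i i * ρ (T.hom h) i i := by
  fin_cases i <;>
    simp [Matrix.mul_apply, Fin.sum_univ_two, (F.diag g hg).1, (F.diag g hg).2]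

omit [Finite k] in
theorem SSFrame.diag_ne (F : SSFrame T U ρ φ) {g : GalLoc p} (hg : g ∈ Kd p 2) (i : Fin 2) :
    ρ (T.hom g) i i ≠ 0 := fun h0 => by
  have h := F.mul_diag hg (inv_mem hg) i
  rw [mul_inv_cancel, map_one, map_one, Matrix.one_apply_eq, h0, zero_mul] at h
  exact one_ne_zero h

/-- The flat tangent vectors on the decomposition group are at most four dimensional. -/
theorem finrank_flatTan_ss (F : SSFrame T U ρ φ) (h0 : IsFlatTan p ρ 0) :
    Module.Finite k ((flatTan h0).map (toLoc T)) ∧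
      finrank k ((flatTan h0).map (toLoc T)) ≤ 4 := by
  classical
  set V := (flatTan h0).map (toLoc T) with hVdef
  set A : GalLoc p → k := fun g => ρ (T.hom g) 0 0
  set D : GalLoc p → k := fun g => ρ (T.hom g) 1 1
  have hp3 : 3 ≤ p := lt_of_le_of_ne hp.out.two_le (Ne.symm U.ne_two)
  obtain ⟨q, hq⟩ := Nat.exists_eq_add_of_le hp3
  have he : U.e = p ^ 2 - 1 := by
    rw [U.e_eq, F.e_eq, ← Nat.sq_sub_sq p 1, one_pow]
  have he2 : U.e + 1 = p ^ 2 := by
    rw [he, Nat.sub_add_cancel (Nat.one_le_pow _ _ hp.out.pos)]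
  have he' : U.e = (q + 4) * (q + 2) := by
    rw [U.e_eq, F.e_eq, hq, show 3 + q - 1 = q + 2 by omega]
    ring
  have hI2 : inertiaLoc p ≤ Kd p 2 := inertia_le_Kd two_ne_zero
  have hGFK : U.GF ≤ Kd p 2 := GF_le_Kd F.two_dvd
  have hφ2 : φ ^ 2 ∈ Kd p 2 := by simpa using pow_frob_mem_Kd two_ne_zero F.frob 1
  have hrule : ∀ f ∈ V, ∀ g h : GalLoc p,
      f (g * h) = f g * ρ (T.hom h) + ρ (T.hom g) * f h := by
    rintro _ ⟨c, ⟨hc, -⟩, rfl⟩ g h
    simp only [toLoc_apply, map_mul, hc.add]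
  have hlev : ∀ f ∈ V, FinLevel fun g : GalLoc p => (ρ (T.hom g), f g) := by
    rintro _ ⟨c, hc, rfl⟩
    exact IsFlatTan.level T hc
  have htr : ∀ f ∈ V, ∀ g : GalLoc p, ρ (T.hom g) 1 1 * f g 0 0 - ρ (T.hom g) 0 1 * f g 1 0 +
      (-(ρ (T.hom g) 1 0) * f g 0 1 + ρ (T.hom g) 0 0 * f g 1 1) = 0 := by
    rintro _ ⟨c, ⟨hc, -⟩, rfl⟩ g
    have := hc.tr (T.hom g)
    rw [Matrix.trace_fin_two] at this
    simpa [toLoc_apply, Matrix.mul_apply, Fin.sum_univ_two, Matrix.adjugate_fin_two, sub_eq_add_neg]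
      using this
  obtain ⟨t, ht⟩ := exists_functional (p := p) (k := k)
  have hKum : ∀ f ∈ V, ∀ h : GalLoc p → k, (∀ g, f g = 0 → h g = 0) →
      Kum U t (FlatBd U) h := by
    rintro _ ⟨c, hc, rfl⟩ h hh
    exact IsFlatTan.kum T hc U F.fixπ fun g _ _ hcg => hh g hcg
  -- diagonal classes
  have hone : IsChar 2 fun _ : GalLoc p => (1 : k) :=
    ⟨⟨⊥, inferInstance, fun _ _ _ => rfl⟩, rfl, fun _ _ _ _ => (mul_one 1).symm⟩
  obtain ⟨O₁, hO₁d, hO₁τ, hO₁φ⟩ := exists_ops U two_ne_zero hone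
  have hdiag : ∀ f ∈ V, ∀ g ∈ inertiaLoc p, f g 0 0 = 0 := by
    intro f hf g hg
    set a : GalLoc p → k := fun g => f g 0 0 / A g
    have ha : IsCocycle 2 (fun _ => (1 : k)) a := by
      refine ⟨(hlev f hf).comp fun r => r.2 0 0 / r.1 0 0, fun g hg h hh => ?_⟩
      have e : f (g * h) 0 0 = f g 0 0 * A h + A g * f h 0 0 := by
        rw [hrule f hf]
        simp [Matrix.mul_apply, Fin.sum_univ_two, (F.diag g hg).1, (F.diag h hh).2, A]
      show f (g * h) 0 0 / A (g * h) = f g 0 0 / A g + 1 * (f h 0 0 / A h)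
      rw [e, show A (g * h) = A g * A h from F.mul_diag hg hh 0]
      have := F.diag_ne hg 0
      have := F.diag_ne hh 0
      simp only [A] at *
      field_simp
    have haO : O₁.a = (O₁.w : k) := by rw [Ops.a, hO₁τ, div_one]
    have hI : a g = 0 := by
      refine ha.eq_zero_on_inertia two_ne_zero O₁ hone (fun _ _ => rfl) (fun s hs => ?_) hg
      refine (ha.equivariant O₁ hone hGFK hO₁d (hI2 O₁.τ_mem)
        (by simpa using pow_frob_mem_Kd two_ne_zero O₁.φ_frob 1) (fun _ _ => rfl)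
        hO₁τ hO₁φ).eq_zero_on_J (a₀ := (O₁.w : Res p)) ht
        (hKum f hf a fun g h0 => by simp [a, h0]) (by rw [haO]; exact pow_p_sq_natCast _)
        (by rw [haO]; exact conj_natCast _) (fun i hi0 hi hpi hbd => ?_) hs
      have hne : red O₁.z ^ i ≠ (O₁.w : Res p) := by
        rw [O₁.cast_w, F.e_eq, Ne, O₁.red_z_pow_eq_iff]
        intro h0
        have hlt : p + 1 < U.e := by rw [he', hq]; nlinarith
        have hi' : i = p + 1 := by
          rw [Nat.mod_eq_of_lt hlt] at h0
          rw [F.e_eq, Nat.mul_succ, ← sq] at hi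
          rcases lt_or_ge i U.e with hlt' | hge
          · rwa [Nat.mod_eq_of_lt hlt'] at h0
          · rw [Nat.mod_eq_sub_mod hge, Nat.mod_eq_of_lt (by omega)] at h0
            omega
        subst hi'
        rw [FlatBd, he', hq, show 3 + q - 1 = q + 2 by omega,
          show 3 + q + 1 - 1 = 3 + q by omega] at hbd
        obtain ⟨e', he''⟩ : ∃ e', (q + 4) * (q + 2) = e' + 1 :=
          ⟨(q + 4) * (q + 2) - 1, by have : 0 < (q + 4) * (q + 2) := by positivity
                                     omega⟩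
        rw [he'', Nat.add_sub_cancel] at hbd
        have hb := Nat.lt_of_mul_lt_mul_left (a := 3 + q) (b := (q + 2) * e')
          (c := e' + 1 + (q + 2) ^ 2) (by linarith)
        nlinarith
      refine ⟨hne, fun h => hne (h.trans ?_)⟩
      rw [← map_natCast (ZMod.castHom dvd_rfl (Res p)), ← map_pow, ZMod.pow_card]
    exact (div_eq_zero_iff.mp hI).resolve_right (F.diag_ne (hI2 hg) 0)
  -- the upper right entry
  have hχ : IsChar 2 fun g => A g / D g :=
    { level := (h0.level T).comp fun r => r.1 0 0 / r.1 1 1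
      map_one := by simp [A, D]
      mul := fun g hg h hh => by
        simp only [A, D, F.mul_diag hg hh]
        rw [mul_div_mul_comm] }
  obtain ⟨O, hOd, hOτ, hOφ⟩ := exists_ops U two_ne_zero hχ
  obtain ⟨hconj, hα2, hβ⟩ := F.tame O.τ O.τ_mem O.z O.z_prim O.τ_π
  set α := A O.τ
  have hα0 : α ≠ 0 := F.diag_ne (hI2 O.τ_mem) 0
  have hw : (O.w : k) = α * α ^ p := by
    rw [← cyc_eq (k := k) O.τ_ζ, ← F.det, Matrix.det_fin_two, (F.diag _ (hI2 O.τ_mem)).1,
      zero_mul, sub_zero, hβ]
  have ha : O.a = α ^ (2 * p) := by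
    rw [Ops.a, hOτ, hw, show D O.τ = α ^ p from hβ]
    field_simp
    ring
  have haap : O.a ^ p ≠ O.a := by
    intro h
    rw [ha, ← pow_mul] at h
    have h1 := hconj (X ^ (2 * p * p) - X ^ (2 * p))
      (by rw [eval₂_sub, eval₂_X_pow, eval₂_X_pow, h, sub_self])
    rw [eval₂_sub, eval₂_X_pow, eval₂_X_pow, sub_eq_zero, O.red_z_pow_eq_iff,
      show 2 * p * p = 2 + U.e * 2 by nlinarith [he2], Nat.add_mul_mod_self_left,
      Nat.mod_eq_of_lt (show 2 < U.e by rw [he']; nlinarith),
      Nat.mod_eq_of_lt (show 2 * p < U.e by rw [he', hq]; nlinarith)] at h1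
    omega
  let Θ : V →ₗ[k] k × k × k :=
    { toFun := fun f => ((f : GalLoc p → M2 k) φ 0 0, (f : GalLoc p → M2 k) φ 0 1,
        (f : GalLoc p → M2 k) O.τ 0 1)
      map_add' := fun f f' => rfl
      map_smul' := fun a f => rfl }
  let E : LinearMap.ker Θ →ₗ[k] (GalLoc p → k) :=
    { toFun := fun f g => ((f : V) : GalLoc p → M2 k) g 0 1 / D g
      map_add' := fun f f' => funext fun g => add_div _ _ _
      map_smul' := fun a f => funext fun g => mul_div_assoc _ _ _ }
  have hEc : ∀ f, IsCocycle 2 (fun g => A g / D g) (E f) := fun f => by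
    refine ⟨(hlev _ (f : V).2).comp fun r => r.2 0 1 / r.1 1 1, fun g hg h hh => ?_⟩
    show _ / D (g * h) = _ / D g + A g / D g * (_ / D h)
    have e : ((f : V) : GalLoc p → M2 k) (g * h) 0 1 =
        ((f : V) : GalLoc p → M2 k) g 0 1 * D h + A g * ((f : V) : GalLoc p → M2 k) h 0 1 := by
      rw [hrule _ (f : V).2]
      simp [Matrix.mul_apply, Fin.sum_univ_two, (F.diag g hg).1, (F.diag h hh).1, A, D]
    rw [e, show D (g * h) = D g * D h from F.mul_diag hg hh 1]
    have := F.diag_ne hg 1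
    have := F.diag_ne hh 1
    simp only [A, D] at *
    field_simp
  let R : LinearMap.ker Θ →ₗ[k] (U.J → k) := (LinearMap.funLeft k k Subtype.val).comp E
  have hRinj : Function.Injective R := by
    rw [injective_iff_map_eq_zero]
    intro f hf
    have hfV := (f : V).2
    set f' := ((f : V) : GalLoc p → M2 k) with hf'
    have hΘ := LinearMap.mem_ker.mp f.2
    have hφ00 : f' φ 0 0 = 0 := congrArg Prod.fst hΘ
    have hφ01 : f' φ 0 1 = 0 := congrArg (fun r : k × k × k => r.2.1) hΘ
    have hτ01 : f' O.τ 0 1 = 0 := congrArg (fun r : k × k × k => r.2.2) hΘ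
    have h01 : ∀ g ∈ Kd p 2, f' g 0 1 = 0 := fun g hg => by
      have h1 := (hEc f).eq_coboundary two_ne_zero O hχ (g := g)
        (by
          show α / D O.τ ≠ 1
          rw [show D O.τ = α ^ p from hβ, Ne, div_eq_one_iff_eq (pow_ne_zero _ hα0)]
          intro h
          exact haap (by rw [ha, mul_comm 2 p, pow_mul, ← h,
            ← pow_mul, mul_comm 2 p, pow_mul, ← h]))
        (fun s hs => congrFun hf ⟨s, hs⟩) hg
        fun s hs => by simp [A, D, F.GF s (U.J_le hs)]
      change f' g 0 1 / D g = _ at h1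
      rw [show E f O.τ = f' O.τ 0 1 / D O.τ from rfl, hτ01, zero_div, zero_div, mul_zero] at h1
      exact (div_eq_zero_iff.mp h1).resolve_right (F.diag_ne hg 1)
    have hu : ρ (T.hom φ) 0 1 ≠ 0 ∧ ρ (T.hom φ) 1 0 ≠ 0 := by
      have hd : (ρ (T.hom φ)).det ≠ 0 := fun h0 => by
        have : (ρ (T.hom φ) * ρ (T.hom φ⁻¹)).det = 1 := by
          rw [← map_mul, ← map_mul, mul_inv_cancel, map_one, map_one, Matrix.det_one]
        rw [Matrix.det_mul, h0, zero_mul] at this
        exact zero_ne_one this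
      rw [Matrix.det_fin_two, F.swap.1, zero_mul, zero_sub, neg_ne_zero] at hd
      exact mul_ne_zero_iff.mp hd
    have hφ10 : f' φ 1 0 = 0 := by
      have h := htr _ hfV φ
      rw [F.swap.1, F.swap.2, hφ01, zero_mul, zero_mul, mul_zero, add_zero, add_zero,
        zero_sub, neg_eq_zero] at h
      exact (mul_eq_zero.mp h).resolve_left hu.1
    have hφ11 : f' φ 1 1 = 0 := by
      have h := h01 _ hφ2
      rw [sq, hrule _ hfV] at h
      simp [Matrix.mul_apply, Fin.sum_univ_two, hφ00, hφ01, F.swap.1] at h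
      exact h.resolve_left hu.1
    have hφ : f' φ = 0 := Matrix.ext fun i j => by
      fin_cases i <;> fin_cases j <;> assumption
    have hI : ∀ i ∈ inertiaLoc p, f' i = 0 := by
      have hoff : ∀ i ∈ inertiaLoc p, f' i 1 1 = 0 := fun i hi => by
        have h := htr _ hfV i
        rw [(F.diag i (hI2 hi)).1, (F.diag i (hI2 hi)).2, hdiag _ hfV i hi, mul_zero,
          zero_mul, neg_zero, zero_mul, sub_zero, zero_add, zero_add] at h
        exact (mul_eq_zero.mp h).resolve_left (F.diag_ne (hI2 hi) 0)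
      have h10 : ∀ i ∈ inertiaLoc p, f' i 1 0 = 0 := fun i' hi' => by
        set i := φ⁻¹ * i' * φ
        have hi : i ∈ inertiaLoc p := by simpa [i] using conj_mem_inertiaLoc φ⁻¹ hi'
        have h1 : φ * i = i' * φ := by simp [i, mul_assoc]
        have h2 := congrArg (fun x => f' x 1 1) h1
        change f' (φ * i) 1 1 = f' (i' * φ) 1 1 at h2
        rw [hrule _ hfV φ i, hrule _ hfV i' φ, hφ] at h2
        simp [Matrix.mul_apply, Fin.sum_univ_two, F.swap.2, h01 _ (hI2 hi)] at h2
        exact h2.resolve_right hu.1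
      exact fun i hi => Matrix.ext fun a b => by
        fin_cases a <;> fin_cases b
        · exact hdiag _ hfV i hi
        · exact h01 _ (hI2 hi)
        · exact h10 i hi
        · exact hoff i hi
    have hpow : ∀ j : ℕ, f' (φ ^ j) = 0 := fun j => by
      induction j with
      | zero =>
        have h := hrule _ hfV 1 1
        rw [one_mul, map_one, map_one, mul_one, one_mul, left_eq_add] at h
        rwa [pow_zero]
      | succ j ih => rw [pow_succ, hrule _ hfV, ih, hφ, zero_mul, mul_zero, add_zero]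
    refine Subtype.ext (Subtype.ext (funext fun g => ?_))
    obtain ⟨L, hL, hfac⟩ := (hlev _ hfV).comp Prod.snd
    obtain ⟨j, i, hi, hgi⟩ := exists_pow_mul_inertia L F.frob g
    show f' g = 0
    rw [show f' g = f' (φ ^ j * i) from hfac g _ hgi, hrule _ hfV, hpow, hI i hi, zero_mul,
      mul_zero, add_zero]
  obtain ⟨hWfin, hW1⟩ := finrank_restrict_le_one (O := O) (a₀ := red O.z ^ (2 * p))
    (LinearMap.range E)
    (by
      rintro _ ⟨f, rfl⟩
      exact (hEc f).equivariant O hχ hGFK hOd (hI2 O.τ_mem)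
        (by simpa using pow_frob_mem_Kd two_ne_zero O.φ_frob 1)
        (fun s hs => by simp [A, D, F.GF s hs]) hOτ hOφ)
    ht
    (by
      rintro _ ⟨f, rfl⟩
      exact hKum _ (f : V).2 _ fun g h0 => by
        show _ / D g = 0
        rw [h0]; exact zero_div _)
    (by rw [ha, ← pow_mul, mul_comm (2 * p), pow_mul, hα2])
    (by rw [ha]; exact conj_pow hconj _)
    (i₀ := p ^ 2 + 1) (Nat.succ_pos _) (by rw [F.e_eq, hq]; nlinarith)
    (fun h => by
      have h2 : p ∣ p ^ 2 := dvd_pow_self p two_ne_zero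
      exact hp.out.not_dvd_one ((Nat.dvd_add_right h2).mp h))
    (Or.inr ⟨hOd, haap⟩)
    (fun i hi0 hi hpi hne hbd => by
      rw [F.e_eq, Nat.mul_succ, ← sq] at hi
      have hlt2 : 2 < U.e := by rw [he']; nlinarith
      have hlt2p : 2 * p < U.e := by rw [he', hq]; nlinarith
      have hcase : i % U.e ≠ 2 ∧ i % U.e ≠ 2 * p := by
        rcases lt_or_ge i U.e with hlt | hge
        · rw [Nat.mod_eq_of_lt hlt]
          refine ⟨fun h => ?_, fun h => hpi (h ▸ dvd_mul_left p 2)⟩
          subst h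
          rw [FlatBd, he', hq, show 3 + q - 1 = q + 2 by omega, show 2 - 1 = 1 from rfl,
            mul_one] at hbd
          obtain ⟨e', he''⟩ : ∃ e', (q + 4) * (q + 2) = e' + 1 :=
            ⟨(q + 4) * (q + 2) - 1, by have : 0 < (q + 4) * (q + 2) := by positivity
                                       omega⟩
          rw [he'', Nat.add_sub_cancel] at hbd
          nlinarith
        · rw [Nat.mod_eq_sub_mod hge, Nat.mod_eq_of_lt (by omega)]
          omega
      refine ⟨?_, ?_⟩
      · rw [Ne, O.red_z_pow_eq_iff, Nat.mod_eq_of_lt hlt2p]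
        exact hcase.2
      · rw [← pow_mul, Ne, O.red_z_pow_eq_iff, show 2 * p * p = 2 + U.e * 2 by nlinarith [he2],
          Nat.add_mul_mod_self_left, Nat.mod_eq_of_lt hlt2]
        exact hcase.1)
  have hrange : LinearMap.range R = (LinearMap.range E).map
      (LinearMap.funLeft k k (Subtype.val : U.J → GalLoc p)) := LinearMap.range_comp _ _
  rw [← hrange] at hWfin hW1
  have : Module.Finite k (LinearMap.ker Θ) :=
    Module.Finite.equiv (LinearEquiv.ofInjective R hRinj).symm
  have : Module.Finite k (V ⧸ LinearMap.ker Θ) := Module.Finite.equiv Θ.quotKerEquivRange.symm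
  have hfin : Module.Finite k V := Module.Finite.of_submodule_quotient (LinearMap.ker Θ)
  refine ⟨hfin, ?_⟩
  rw [← Θ.finrank_range_add_finrank_ker]
  have h1 : finrank k (LinearMap.range Θ) ≤ 3 := (Submodule.finrank_le _).trans (by simp)
  have h2 : finrank k (LinearMap.ker Θ) ≤ 1 :=
    ((LinearEquiv.ofInjective R hRinj).finrank_eq).le.trans hW1
  omega

end Fermat.Agent.LocalModelP
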