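import Fermat.Agent.LocalModelP.FlatKum
import Fermat.Agent.LocalModelP.Conn
import Fermat.Agent.LocalModelP.Tangent
import Fermat.Agent.Patching.Limit

/-!
# Flat tangent vectors

A tangent vector `c` of `ρ` is flat if the Galois module `k² × k²` with
`g (v, w) = (ρ g v, ρ g w + c g v)` has a flat model.  They form a subspace, stable under change
of frame and extension of the field, and differences of flat lifts are flat.
-/

set_option autoImplicit false

noncomputable section

open IsLocalRing Matrix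

namespace Fermat.Agent.LocalModelP

open Fermat.Agent.Duality Fermat.Agent.FlatBound Fermat.Agent.FlatModel Fermat.Agent.Deformation
  Fermat.Agent.Root.Patched

local notation "ℚbar" => AlgebraicClosure ℚ

variable {p : ℕ} [hp : Fact p.Prime] {k : Type} [Field k]

/-- The action on a stable subgroup. -/
def subAct {G : Type} [AddCommGroup G] (act : GQ →* AddMonoid.End G) (E : AddSubgroup G)
    (hE : ∀ σ, ∀ x ∈ E, act σ x ∈ E) : GQ →* AddMonoid.End E where
  toFun σ :=
    { toFun := fun x => ⟨act σ x, hE σ x x.2⟩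
      map_zero' := Subtype.ext (map_zero (act σ))
      map_add' := fun x y => Subtype.ext (map_add (act σ) (x : G) y) }
  map_one' := AddMonoidHom.ext fun x => Subtype.ext (show act 1 x = x by rw [map_one]; rfl)
  map_mul' σ τ := AddMonoidHom.ext fun x =>
    Subtype.ext (show act (σ * τ) x = act σ (act τ x) by rw [map_mul]; rfl)

/-- The action on a finite product. -/
def prodAct {κ : Type} {F : κ → Type} [∀ i, AddCommGroup (F i)]
    (act : ∀ i, GQ →* AddMonoid.End (F i)) : GQ →* AddMonoid.End (∀ i, F i) where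
  toFun σ :=
    { toFun := fun x i => act i σ (x i)
      map_zero' := funext fun i => map_zero (act i σ)
      map_add' := fun x y => funext fun i => map_add (act i σ) (x i) (y i) }
  map_one' := AddMonoidHom.ext fun x => funext fun i =>
    show act i 1 (x i) = x i by rw [map_one]; rfl
  map_mul' σ τ := AddMonoidHom.ext fun x => funext fun i =>
    show act i (σ * τ) (x i) = act i σ (act i τ (x i)) by rw [map_mul]; rfl

theorem prodAct_apply {κ : Type} {F : κ → Type} [∀ i, AddCommGroup (F i)]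
    (act : ∀ i, GQ →* AddMonoid.End (F i)) (σ : GQ) (x : ∀ i, F i) (i : κ) :
    prodAct act σ x i = act i σ (x i) := rfl

/-! ### Tangent vectors -/

/-- The cocycle rule and the determinant condition. -/
structure IsTanCocycle (ρ : GQ →* M2 k) (c : GQ → M2 k) : Prop where
  add : ∀ g h, c (g * h) = c g * ρ h + ρ g * c h
  tr : ∀ g, ((ρ g).adjugate * c g).trace = 0

/-- The space `k² × k²`. -/
abbrev TanSpace (k : Type) : Type := (Fin 2 → k) × (Fin 2 → k)

/-- The module of a tangent vector. -/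
def tanAct (ρ : GQ →* M2 k) (c : GQ → M2 k) (hc : ∀ g h, c (g * h) = c g * ρ h + ρ g * c h) :
    GQ →* AddMonoid.End (TanSpace k) where
  toFun σ :=
    { toFun := fun x => ((ρ σ).mulVec x.1, (ρ σ).mulVec x.2 + (c σ).mulVec x.1)
      map_zero' := by simp
      map_add' := fun x y => by
        simp only [Prod.fst_add, Prod.snd_add, Matrix.mulVec_add, Prod.mk_add_mk]
        rw [add_add_add_comm] }
  map_one' := AddMonoidHom.ext fun x => by
    have h1 : c 1 = 0 := by
      have := hc 1 1
      rwa [one_mul, map_one, mul_one, one_mul, left_eq_add] at this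
    show ((ρ 1).mulVec x.1, (ρ 1).mulVec x.2 + (c 1).mulVec x.1) = x
    rw [map_one, h1, Matrix.one_mulVec, Matrix.one_mulVec, Matrix.zero_mulVec, add_zero]
  map_mul' σ τ := AddMonoidHom.ext fun x => by
    show ((ρ (σ * τ)).mulVec x.1, (ρ (σ * τ)).mulVec x.2 + (c (σ * τ)).mulVec x.1) =
      ((ρ σ).mulVec ((ρ τ).mulVec x.1), (ρ σ).mulVec ((ρ τ).mulVec x.2 + (c τ).mulVec x.1) +
        (c σ).mulVec ((ρ τ).mulVec x.1))
    rw [map_mul, hc, Matrix.mulVec_add, Matrix.add_mulVec]
    simp only [Matrix.mulVec_mulVec]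
    refine Prod.ext rfl ?_
    simp only
    abel

theorem tanAct_apply (ρ : GQ →* M2 k) (c : GQ → M2 k)
    (hc : ∀ g h, c (g * h) = c g * ρ h + ρ g * c h) (σ : GQ) (x : TanSpace k) :
    tanAct ρ c hc σ x = ((ρ σ).mulVec x.1, (ρ σ).mulVec x.2 + (c σ).mulVec x.1) := rfl

theorem eq_of_tanAct {ρ : GQ →* M2 k} {c : GQ → M2 k}
    {hc : ∀ g h, c (g * h) = c g * ρ h + ρ g * c h} {σ τ : GQ}
    (h : ∀ x, tanAct ρ c hc σ x = tanAct ρ c hc τ x) : ρ σ = ρ τ ∧ c σ = c τ := by
  constructor <;> refine Matrix.ext_of_mulVec_single fun j => ?_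
  · exact congrArg Prod.fst (h (Pi.single j 1, 0))
  · have h1 := congrArg Prod.snd (h (Pi.single j 1, 0))
    simpa [tanAct_apply] using h1

/-- The flat tangent vectors. -/
def IsFlatTan (p : ℕ) [Fact p.Prime] (ρ : GQ →* M2 k) (c : GQ → M2 k) : Prop :=
  ∃ h : IsTanCocycle ρ c, Nonempty (Model p (tanAct ρ c h.add))

variable {ρ : GQ →* M2 k} {c c' : GQ → M2 k}

theorem isTanCocycle_zero (ρ : GQ →* M2 k) : IsTanCocycle ρ 0 :=
  ⟨fun g h => by simp, fun g => by simp⟩

theorem isFlatTan_zero [Finite k] (M : Model p (colAct ρ)) : IsFlatTan p ρ 0 := by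
  let MM := Model.pi (fun _ : Bool => M) (prodAct fun _ : Bool => colAct ρ) fun _ _ _ => rfl
  let π : (Bool → Fin 2 → k) →+ TanSpace k :=
    { toFun := fun x => (x false, x true)
      map_zero' := rfl
      map_add' := fun _ _ => rfl }
  refine ⟨isTanCocycle_zero ρ, ⟨MM.map π (fun y => ⟨fun b => bif b then y.2 else y.1, rfl⟩)
    fun σ x => ?_⟩⟩
  rw [tanAct_apply]
  simp only [Pi.zero_apply, Matrix.zero_mulVec, add_zero]
  rfl

theorem IsFlatTan.residual [Finite k] (hc : IsFlatTan p ρ c) : Nonempty (Model p (colAct ρ)) := by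
  obtain ⟨h, ⟨M⟩⟩ := hc
  exact ⟨M.map (AddMonoidHom.fst _ _) (fun y => ⟨(y, 0), rfl⟩) fun σ x => rfl⟩

theorem IsFlatTan.add [Finite k] (hc : IsFlatTan p ρ c) (hc' : IsFlatTan p ρ c') :
    IsFlatTan p ρ (c + c') := by
  obtain ⟨h, ⟨M⟩⟩ := hc
  obtain ⟨h', ⟨M'⟩⟩ := hc'
  have hs : IsTanCocycle ρ (c + c') :=
    ⟨fun g g' => by simp only [Pi.add_apply, h.add, h'.add, add_mul, mul_add]; abel,
      fun g => by simp only [Pi.add_apply, mul_add, Matrix.trace_add, h.tr, h'.tr, add_zero]⟩
  let act : Bool → GQ →* AddMonoid.End (TanSpace k) := fun b =>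
    match b with | false => tanAct ρ c h.add | true => tanAct ρ c' h'.add
  let F : ∀ b, Model p (act b) := fun b => match b with | false => M | true => M'
  let MM := Model.pi F (prodAct act) fun _ _ _ => rfl
  let E : AddSubgroup (Bool → TanSpace k) :=
    { carrier := {x | (x false).1 = (x true).1}
      add_mem' := fun {x y} hx hy => show (x false).1 + (y false).1 = _ + _ by rw [hx, hy]
      zero_mem' := rfl
      neg_mem' := fun {x} hx => show -(x false).1 = -(x true).1 by rw [hx] }
  have hE : ∀ σ, ∀ x ∈ E, prodAct act σ x ∈ E := fun σ x hx =>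
    show (ρ σ).mulVec (x false).1 = (ρ σ).mulVec (x true).1 from congrArg _ hx
  let π : E →+ TanSpace k :=
    { toFun := fun x => (((x : Bool → TanSpace k) false).1,
        ((x : Bool → TanSpace k) false).2 + ((x : Bool → TanSpace k) true).2)
      map_zero' := by simp
      map_add' := fun x y => by
        simp only [AddSubgroup.coe_add, Pi.add_apply, Prod.fst_add, Prod.snd_add, Prod.mk_add_mk]
        rw [add_add_add_comm] }
  refine ⟨hs, ⟨(MM.comap E.subtype E.subtype_injective (act' := subAct _ E hE) fun _ _ => rfl).map π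
    (fun y => ⟨⟨fun b => (y.1, bif b then 0 else y.2), rfl⟩, by simp [π]⟩) fun σ x => ?_⟩⟩
  show (_, (_ + (c σ).mulVec _) + (_ + (c' σ).mulVec _)) = tanAct ρ (c + c') hs.add σ (π x)
  rw [tanAct_apply]
  simp only [π, AddMonoidHom.coe_mk, ZeroHom.coe_mk, Pi.add_apply, Matrix.mulVec_add,
    Matrix.add_mulVec]
  rw [show ((x : Bool → TanSpace k) true).1 = ((x : Bool → TanSpace k) false).1 from x.2.symm]
  refine Prod.ext rfl ?_
  simp only
  abel

theorem IsFlatTan.smul [Finite k] (hc : IsFlatTan p ρ c) (a : k) : IsFlatTan p ρ (a • c) := by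
  rcases eq_or_ne a 0 with rfl | ha
  · obtain ⟨M⟩ := hc.residual
    rw [zero_smul]
    exact isFlatTan_zero M
  obtain ⟨h, ⟨M⟩⟩ := hc
  have hs : IsTanCocycle ρ (a • c) :=
    ⟨fun g g' => by simp only [Pi.smul_apply, h.add, smul_add, Matrix.smul_mul, Matrix.mul_smul],
      fun g => by simp only [Pi.smul_apply, Matrix.mul_smul, Matrix.trace_smul, h.tr, smul_zero]⟩
  let π : TanSpace k →+ TanSpace k :=
    { toFun := fun x => (x.1, a • x.2)
      map_zero' := by simp
      map_add' := fun x y => by simp [smul_add] }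
  refine ⟨hs, ⟨M.map π (fun y => ⟨(y.1, a⁻¹ • y.2), by simp [π, smul_smul, ha]⟩) fun σ x => ?_⟩⟩
  simp [π, tanAct_apply, Matrix.mulVec_smul, Matrix.smul_mulVec, mul_add]

/-- The subspace of flat tangent vectors. -/
def flatTan [Finite k] (h0 : IsFlatTan p ρ 0) : Submodule k (GQ → M2 k) where
  carrier := {c | IsFlatTan p ρ c}
  add_mem' hc hc' := hc.add hc'
  zero_mem' := h0
  smul_mem' a _ hc := hc.smul a

/-- Change of frame. -/
theorem IsFlatTan.conj [Finite k] (U : (M2 k)ˣ) (hc : IsFlatTan p ρ c) :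
    IsFlatTan p (conjRep U ρ) (fun g => U * c g * (↑U⁻¹ : M2 k)) := by
  obtain ⟨h, ⟨M⟩⟩ := hc
  have hs : IsTanCocycle (conjRep U ρ) (fun g => U * c g * (↑U⁻¹ : M2 k)) := by
    refine ⟨fun g g' => ?_, fun g => ?_⟩
    · simp only [conjRep_apply, h.add, mul_add, add_mul, mul_assoc, Units.inv_mul_cancel_left]
    · have hadj : ((U : M2 k) * ρ g * (↑U⁻¹ : M2 k)).adjugate =
          (U : M2 k) * (ρ g).adjugate * (↑U⁻¹ : M2 k) := by
        have hu : ∀ (V : (M2 k)ˣ), (V : M2 k).adjugate =
            (V : M2 k).det • (↑V⁻¹ : M2 k) := fun V => by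
          calc (V : M2 k).adjugate = (V : M2 k).adjugate * ((V : M2 k) * (↑V⁻¹ : M2 k)) := by simp
            _ = _ := by rw [← mul_assoc, Matrix.adjugate_mul, Matrix.smul_mul, one_mul]
        rw [Matrix.adjugate_mul_distrib, Matrix.adjugate_mul_distrib, hu, hu, inv_inv]
        simp only [Matrix.smul_mul, Matrix.mul_smul, smul_smul, mul_assoc, ← Matrix.det_mul,
          Units.mul_inv, Matrix.det_one, one_smul]
      rw [conjRep_apply, hadj]
      rw [show (U : M2 k) * (ρ g).adjugate * (↑U⁻¹ : M2 k) * ((U : M2 k) * c g * (↑U⁻¹ : M2 k)) =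
        (U : M2 k) * ((ρ g).adjugate * c g) * (↑U⁻¹ : M2 k) by
          simp only [mul_assoc, Units.inv_mul_cancel_left],
        Matrix.trace_mul_cycle, Units.inv_mul, one_mul, h.tr]
  let π : TanSpace k →+ TanSpace k :=
    { toFun := fun x => ((U : M2 k).mulVec x.1, (U : M2 k).mulVec x.2)
      map_zero' := by simp
      map_add' := fun x y => by simp [Matrix.mulVec_add] }
  refine ⟨hs, ⟨M.map π (fun y => ⟨((↑U⁻¹ : M2 k).mulVec y.1, (↑U⁻¹ : M2 k).mulVec y.2),
    Prod.ext ?_ ?_⟩) fun σ x => Prod.ext ?_ ?_⟩⟩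
  · show (U : M2 k).mulVec ((↑U⁻¹ : M2 k).mulVec y.1) = y.1
    rw [Matrix.mulVec_mulVec, Units.mul_inv, Matrix.one_mulVec]
  · show (U : M2 k).mulVec ((↑U⁻¹ : M2 k).mulVec y.2) = y.2
    rw [Matrix.mulVec_mulVec, Units.mul_inv, Matrix.one_mulVec]
  · show (U : M2 k).mulVec ((ρ σ).mulVec x.1) = (conjRep U ρ σ).mulVec ((U : M2 k).mulVec x.1)
    rw [conjRep_apply, Matrix.mulVec_mulVec, Matrix.mulVec_mulVec, mul_assoc _ _ (U : M2 k),
      Units.inv_mul, mul_one]
  · show (U : M2 k).mulVec ((ρ σ).mulVec x.2 + (c σ).mulVec x.1) =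
      (conjRep U ρ σ).mulVec ((U : M2 k).mulVec x.2) +
        ((U : M2 k) * c σ * (↑U⁻¹ : M2 k)).mulVec ((U : M2 k).mulVec x.1)
    simp only [conjRep_apply, Matrix.mulVec_add, Matrix.mulVec_mulVec, mul_assoc, Units.inv_mul,
      mul_one]

/-- Extension of the field. -/
theorem IsFlatTan.extend [Finite k] {k' : Type} [Field k'] [Finite k'] (ι : k →+* k')
    (hc : IsFlatTan p ρ c) : IsFlatTan p (mapRep ι ρ) (fun g => (c g).map ι) := by
  obtain ⟨h, ⟨M⟩⟩ := hc
  have hs : IsTanCocycle (mapRep ι ρ) (fun g => (c g).map ι) := by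
    refine ⟨fun g g' => ?_, fun g => ?_⟩
    · show ι.mapMatrix (c (g * g')) = ι.mapMatrix (c g) * ι.mapMatrix (ρ g') +
        ι.mapMatrix (ρ g) * ι.mapMatrix (c g')
      rw [h.add, map_add, map_mul, map_mul]
    · show (((ι.mapMatrix (ρ g))).adjugate * ι.mapMatrix (c g)).trace = 0
      rw [← RingHom.map_adjugate, ← map_mul, RingHom.mapMatrix_apply, ← AddMonoidHom.map_trace,
        h.tr, map_zero]
  let : Algebra k k' := ι.toAlgebra
  set b := Module.finBasis k k'
  let MM := Model.pi (fun _ : Fin (Module.finrank k k') => M)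
    (prodAct fun _ : Fin (Module.finrank k k') => tanAct ρ c h.add) fun _ _ _ => rfl
  let π : (Fin (Module.finrank k k') → TanSpace k) →+ TanSpace k' :=
    { toFun := fun x => (fun i => ∑ l, b l * ι ((x l).1 i), fun i => ∑ l, b l * ι ((x l).2 i))
      map_zero' := by ext i <;> simp
      map_add' := fun x y => by
        ext i <;> simp [mul_add, Finset.sum_add_distrib] }
  refine ⟨hs, ⟨MM.map π (fun y => ⟨fun l => (fun i => b.repr (y.1 i) l, fun i => b.repr (y.2 i) l),
    ?_⟩) fun σ x => ?_⟩⟩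
  · have e : ∀ z : k', ∑ l, b l * ι (b.repr z l) = z := fun z => by
      conv_rhs => rw [← b.sum_repr z]
      exact Finset.sum_congr rfl fun l _ => by rw [Algebra.smul_def, mul_comm]; rfl
    ext i <;> simp [π, e]
  · rw [tanAct_apply]
    refine Prod.ext (funext fun i => ?_) (funext fun i => ?_)
    · simp only [π, AddMonoidHom.coe_mk, ZeroHom.coe_mk, prodAct_apply, tanAct_apply, mapRep_apply,
        Matrix.mulVec, dotProduct, Matrix.map_apply, map_sum, map_mul, Finset.mul_sum]
      rw [Finset.sum_comm]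
      exact Finset.sum_congr rfl fun l _ => Finset.sum_congr rfl fun j _ => by ring
    · simp only [π, AddMonoidHom.coe_mk, ZeroHom.coe_mk, prodAct_apply, tanAct_apply, mapRep_apply,
        Matrix.mulVec, dotProduct, Matrix.map_apply, Pi.add_apply, map_add, map_sum, map_mul,
        Finset.mul_sum, mul_add, Finset.sum_add_distrib]
      congr 1 <;> rw [Finset.sum_comm] <;>
        exact Finset.sum_congr rfl fun l _ => Finset.sum_congr rfl fun j _ => by ring

/-! ### Restriction to the place -/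

section AtP

variable {P : ValuationSubring ℚbar} (T : AtPlace p P)

theorem act_hom_eq_iff {G : Type} [AddCommGroup G] (act : GQ →* AddMonoid.End G) (g : GalLoc p)
    (x : G) : act (T.hom g) (act T.σ x) = act T.σ (act (localGaloisToGlobal p g) x) := by
  show (act (T.hom g) * act T.σ) x = (act T.σ * act (localGaloisToGlobal p g)) x
  rw [← map_mul, ← map_mul, T.hom_apply, inv_mul_cancel_right]

theorem act_loc_trivial {G : Type} [AddCommGroup G] (act : GQ →* AddMonoid.End G) {g : GalLoc p}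
    (h : ∀ x, act (localGaloisToGlobal p g) x = x) (x : G) : act (T.hom g) x = x := by
  obtain ⟨y, rfl⟩ := FlatModel.act_surjective act T.σ x
  rw [act_hom_eq_iff, h]

/-- Entries of flat tangent vectors have bounded radicands. -/
theorem IsFlatTan.kum [CharP k p] [Finite k] (hc : IsFlatTan p ρ c) (S : Setup p)
    {t : k →+ ZMod p} {h : GalLoc p → k}
    (hπ : ∀ g ∈ inertiaLoc p, ρ (T.hom g) = 1 → g S.π = S.π)
    (hker : ∀ g ∈ S.J, ρ (T.hom g) = 1 → c (T.hom g) = 0 → h g = 0) :
    Kum S t (FlatBd S) h := by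
  obtain ⟨hh, ⟨M⟩⟩ := hc
  have h1 : ∀ g : GalLoc p, (∀ x, tanAct ρ c hh.add (localGaloisToGlobal p g) x = x) →
      ρ (T.hom g) = 1 ∧ c (T.hom g) = 0 := fun g hg => by
    have e := eq_of_tanAct (σ := T.hom g) (τ := 1) (hc := hh.add) fun x => by
      rw [act_loc_trivial T _ hg, map_one]; rfl
    rw [map_one] at e
    refine ⟨e.1, e.2.trans ?_⟩
    have := hh.add 1 1
    rwa [one_mul, map_one, mul_one, one_mul, left_eq_add] at this
  refine kum_of_model S M (fun x => ?_) (fun g hg hx => hπ g hg (h1 g hx).1)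
    (fun g hg hx => hker g hg (h1 g hx).1 (h1 g hx).2)
  rw [← Nat.cast_smul_eq_nsmul k, CharP.cast_eq_zero, zero_smul]

end AtP

/-! ### Differences of flat lifts -/

variable {O : Type} [CommRing O] [IsLocalRing O] {ρbar : GQ →* M2 (ResidueField O)} {S : TestRing O}

theorem finite_of_isTangent (hS : S.IsTangent) : Finite S.R := by
  have := Patching.finite_quotient_maximalIdeal_pow (R := S.R) 2
  refine Finite.of_injective (Ideal.Quotient.mk (maximalIdeal S.R ^ 2)) fun x y h => ?_
  rw [Ideal.Quotient.eq, show maximalIdeal S.R ^ 2 = ⊥ from hS, Ideal.mem_bot, sub_eq_zero] at h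
  exact h

/-- The difference of two flat lifts is a flat tangent vector. -/
theorem isFlatTan_of_lifts [Finite (ResidueField O)] (hS : S.IsTangent) {r r' : Lift ρbar S}
    (hr : FlatShape p S r) (hr' : FlatShape p S r') (hdet : ∀ σ, (r.M σ).det = (r'.M σ).det)
    {lm : S.R → ResidueField O}
    (hadd : ∀ a ∈ maximalIdeal S.R, ∀ b ∈ maximalIdeal S.R, lm (a + b) = lm a + lm b)
    (hsmul : ∀ (u : S.R), ∀ a ∈ maximalIdeal S.R, lm (u * a) = S.red u * lm a)
    {x₀ : S.R} (hx₀ : x₀ ∈ maximalIdeal S.R) (hne : lm x₀ ≠ 0) :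
    IsFlatTan p ρbar fun σ => (r'.M σ - r.M σ).map lm := by
  have := finite_of_isTangent hS
  have hmem : ∀ σ i j, r'.M σ i j - r.M σ i j ∈ maximalIdeal S.R := fun σ i j => by
    rw [LocalModel.mem_max_iff, map_sub, LocalModel.red_entry, LocalModel.red_entry, sub_self]
  have hzero : ∀ a ∈ maximalIdeal S.R, ∀ b ∈ maximalIdeal S.R, a * b = 0 := fun a ha b hb => by
    have := Ideal.mul_mem_mul ha hb
    rwa [← sq, show maximalIdeal S.R ^ 2 = ⊥ from hS, Ideal.mem_bot] at this
  have hsum2 : ∀ (u v a b : S.R), a ∈ maximalIdeal S.R → b ∈ maximalIdeal S.R →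
      lm (u * a + v * b) = S.red u * lm a + S.red v * lm b := fun u v a b ha hb => by
    rw [hadd _ (Ideal.mul_mem_left _ u ha) _ (Ideal.mul_mem_left _ v hb), hsmul u a ha,
      hsmul v b hb]
  have hcoc : IsTanCocycle ρbar fun σ => (r'.M σ - r.M σ).map lm := by
    refine ⟨fun g h => Matrix.ext fun i j => ?_, fun g => ?_⟩
    · have e : (r'.M (g * h) - r.M (g * h)) i j =
          (r'.M h 0 j * (r'.M g i 0 - r.M g i 0) + r'.M h 1 j * (r'.M g i 1 - r.M g i 1)) +
          (r.M g i 0 * (r'.M h 0 j - r.M h 0 j) + r.M g i 1 * (r'.M h 1 j - r.M h 1 j)) := by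
        simp only [map_mul, Matrix.sub_apply, Matrix.mul_apply, Fin.sum_univ_two]
        ring
      simp only [Matrix.map_apply, e, Matrix.add_apply, Matrix.mul_apply, Fin.sum_univ_two,
        Matrix.sub_apply]
      rw [hadd _ (add_mem (Ideal.mul_mem_left _ _ (hmem g i 0))
          (Ideal.mul_mem_left _ _ (hmem g i 1)))
          _ (add_mem (Ideal.mul_mem_left _ _ (hmem h 0 j)) (Ideal.mul_mem_left _ _ (hmem h 1 j))),
        hsum2 _ _ _ _ (hmem g i 0) (hmem g i 1), hsum2 _ _ _ _ (hmem h 0 j) (hmem h 1 j)]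
      simp only [LocalModel.red_entry]
      ring
    · have hd := hdet g
      rw [Matrix.det_fin_two, Matrix.det_fin_two] at hd
      have h2 := hzero _ (hmem g 0 0) _ (hmem g 1 1)
      have h3 := hzero _ (hmem g 0 1) _ (hmem g 1 0)
      have e : (r.M g 1 1 * (r'.M g 0 0 - r.M g 0 0) + r.M g 0 0 * (r'.M g 1 1 - r.M g 1 1)) +
          ((-r.M g 0 1) * (r'.M g 1 0 - r.M g 1 0) +
            (-r.M g 1 0) * (r'.M g 0 1 - r.M g 0 1)) = 0 := by
        linear_combination -hd - h2 + h3
      have e1 := congrArg lm e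
      rw [hadd _ (add_mem (Ideal.mul_mem_left _ _ (hmem g 0 0))
          (Ideal.mul_mem_left _ _ (hmem g 1 1)))
          _ (add_mem (Ideal.mul_mem_left _ _ (hmem g 1 0)) (Ideal.mul_mem_left _ _ (hmem g 0 1))),
        hsum2 _ _ _ _ (hmem g 0 0) (hmem g 1 1), hsum2 _ _ _ _ (hmem g 1 0) (hmem g 0 1),
        map_neg, map_neg, LocalModel.red_entry, LocalModel.red_entry, LocalModel.red_entry,
        LocalModel.red_entry] at e1
      have h0 : lm 0 = 0 := by
        have := hadd 0 (zero_mem _) 0 (zero_mem _)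
        rwa [add_zero, left_eq_add] at this
      rw [h0] at e1
      rw [Matrix.trace_fin_two]
      simp only [Matrix.mul_apply, Fin.sum_univ_two, Matrix.adjugate_fin_two, Matrix.map_apply,
        Matrix.sub_apply, Matrix.of_apply, Matrix.cons_val_zero, Matrix.cons_val_one]
      linear_combination e1
  obtain ⟨M⟩ := exists_model_colAct hr
  obtain ⟨M'⟩ := exists_model_colAct hr'
  let act : Bool → GQ →* AddMonoid.End (Fin 2 → S.R) := fun b =>
    match b with | false => colAct r.M | true => colAct r'.M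
  let F : ∀ b, Model p (act b) := fun b => match b with | false => M | true => M'
  let MM := Model.pi F (prodAct act) fun _ _ _ => rfl
  let E : AddSubgroup (Bool → Fin 2 → S.R) :=
    { carrier := {x | ∀ i, x true i - x false i ∈ maximalIdeal S.R}
      add_mem' := fun {x y} hx hy i => by
        simpa [add_sub_add_comm] using add_mem (hx i) (hy i)
      zero_mem' := fun i => by simp
      neg_mem' := fun {x} hx i => by
        rw [show (-x) true i - (-x) false i = -(x true i - x false i) by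
          simp only [Pi.neg_apply]; ring]
        exact neg_mem (hx i) }
  have hE : ∀ σ, ∀ x ∈ E, prodAct act σ x ∈ E := fun σ x hx i => by
    show (r'.M σ).mulVec (x true) i - (r.M σ).mulVec (x false) i ∈ _
    simp only [Matrix.mulVec, dotProduct, Fin.sum_univ_two]
    rw [show r'.M σ i 0 * x true 0 + r'.M σ i 1 * x true 1 -
        (r.M σ i 0 * x false 0 + r.M σ i 1 * x false 1) =
      (r'.M σ i 0 * (x true 0 - x false 0) + r'.M σ i 1 * (x true 1 - x false 1)) +
      ((r'.M σ i 0 - r.M σ i 0) * x false 0 + (r'.M σ i 1 - r.M σ i 1) * x false 1) by ring]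
    exact add_mem (add_mem (Ideal.mul_mem_left _ _ (hx 0)) (Ideal.mul_mem_left _ _ (hx 1)))
      (add_mem (Ideal.mul_mem_right _ _ (hmem σ i 0)) (Ideal.mul_mem_right _ _ (hmem σ i 1)))
  let π : E →+ TanSpace (ResidueField O) :=
    { toFun := fun x => (fun i => S.red ((x : Bool → Fin 2 → S.R) false i),
        fun i => lm ((x : Bool → Fin 2 → S.R) true i - (x : Bool → Fin 2 → S.R) false i))
      map_zero' := by
        have h0 : lm 0 = 0 := by
          have := hadd 0 (zero_mem _) 0 (zero_mem _)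
          rwa [add_zero, left_eq_add] at this
        ext i <;> simp [h0]
      map_add' := fun x y => by
        refine Prod.ext (funext fun i => ?_) (funext fun i => ?_)
        · simp
        · show lm (_ + _ - (_ + _)) = lm _ + lm _
          rw [← hadd _ (x.2 i) _ (y.2 i), add_sub_add_comm] }
  refine ⟨hcoc, ⟨(MM.comap E.subtype E.subtype_injective (act' := subAct _ E hE)
      fun _ _ => rfl).map π
    (fun y => ?_) fun σ x => ?_⟩⟩
  · classical
    obtain ⟨a, ha⟩ := Classical.axiom_of_choice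
      (r := fun (i : Fin 2) (a : O) => residue O a = y.1 i) fun i => residue_surjective _
    obtain ⟨b, hb⟩ := Classical.axiom_of_choice
      (r := fun (i : Fin 2) (b : O) => residue O b = y.2 i / lm x₀) fun i => residue_surjective _
    refine ⟨⟨fun t i => if t then S.alg (a i) + S.alg (b i) * x₀ else S.alg (a i), fun i => by
      simpa using Ideal.mul_mem_left _ (S.alg (b i)) hx₀⟩, ?_⟩
    refine Prod.ext (funext fun i => ?_) (funext fun i => ?_)
    · show S.red (S.alg (a i)) = _
      rw [S.red_alg, ha]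
    · show lm (S.alg (a i) + S.alg (b i) * x₀ - S.alg (a i)) = _
      rw [add_sub_cancel_left, hsmul _ _ hx₀, S.red_alg, hb, div_mul_cancel₀ _ hne]
  · rw [tanAct_apply]
    have hx := x.2
    refine Prod.ext (funext fun i => ?_) (funext fun i => ?_)
    · show S.red ((r.M σ).mulVec _ i) = (ρbar σ).mulVec _ i
      simp [Matrix.mulVec, dotProduct, Fin.sum_univ_two, LocalModel.red_entry, π]
    · show lm ((r'.M σ).mulVec _ i - (r.M σ).mulVec _ i) =
        (ρbar σ).mulVec _ i + ((r'.M σ - r.M σ).map lm).mulVec _ i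
      set u := (x : Bool → Fin 2 → S.R) true with hu
      set v := (x : Bool → Fin 2 → S.R) false with hv
      have hd : ∀ l, u l - v l ∈ maximalIdeal S.R := hx
      simp only [Matrix.mulVec, dotProduct, Fin.sum_univ_two, Matrix.map_apply, Matrix.sub_apply,
        π, AddMonoidHom.coe_mk, ZeroHom.coe_mk]
      rw [show r'.M σ i 0 * u 0 + r'.M σ i 1 * u 1 - (r.M σ i 0 * v 0 + r.M σ i 1 * v 1) =
        (r'.M σ i 0 * (u 0 - v 0) + r'.M σ i 1 * (u 1 - v 1)) +
        (v 0 * (r'.M σ i 0 - r.M σ i 0) + v 1 * (r'.M σ i 1 - r.M σ i 1)) by ring,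
        hadd _ (add_mem (Ideal.mul_mem_left _ _ (hd 0)) (Ideal.mul_mem_left _ _ (hd 1)))
          _ (add_mem (Ideal.mul_mem_left _ _ (hmem σ i 0)) (Ideal.mul_mem_left _ _ (hmem σ i 1))),
        hsum2 _ _ _ _ (hd 0) (hd 1), hsum2 _ _ _ _ (hmem σ i 0) (hmem σ i 1)]
      simp only [LocalModel.red_entry, ← hu, ← hv]
      ring

end Fermat.Agent.LocalModelP
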