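import Fermat.Agent.LocalModelP.Tame

/-!
# Radicands of homomorphisms to `ℤ/p` and their levels
-/

set_option autoImplicit false

noncomputable section

open scoped Pointwise IntermediateField

namespace Fermat.Agent.LocalModelP

open Fermat.Agent.Duality Fermat.Agent.FlatBound

variable {p : ℕ} [hp : Fact p.Prime]

local notation "Ω" => PadicAlgCl p

/-- `ζ ^ n` for `n : ZMod p`. -/
def zp (ζ : Ω) (n : ZMod p) : Ω := ζ ^ n.val

theorem zp_natCast {ζ : Ω} (hζ : ζ ^ p = 1) (a : ℕ) : zp ζ (a : ZMod p) = ζ ^ a := by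
  rw [zp, ZMod.val_natCast, ← pow_eq_pow_mod a hζ]

theorem zp_add {ζ : Ω} (hζ : ζ ^ p = 1) (a b : ZMod p) : zp ζ (a + b) = zp ζ a * zp ζ b := by
  rw [zp, zp, zp, ZMod.val_add, ← pow_eq_pow_mod _ hζ, pow_add]

theorem zp_zero (ζ : Ω) : zp ζ (0 : ZMod p) = 1 := by simp [zp]

theorem zp_pow_p {ζ : Ω} (hζ : ζ ^ p = 1) (a : ZMod p) : zp ζ a ^ p = 1 := by
  rw [zp, ← pow_mul, mul_comm, pow_mul, hζ, one_pow]

theorem zp_ne_zero {ζ : Ω} (hζ : ζ ^ p = 1) (a : ZMod p) : zp ζ a ≠ 0 := fun h => by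
  simpa [h, zero_pow hp.out.ne_zero] using zp_pow_p hζ a

/-- A root of `X ^ (e₁ (p - 1)) + p`, a root of unity of order `p` and a level `N`. -/
structure Setup (p : ℕ) [Fact p.Prime] extends Unif p where
  /-- `e / (p - 1)` -/
  e₁ : ℕ
  e_eq : e = e₁ * (p - 1)
  ne_two : p ≠ 2
  /-- a root of unity of order `p` -/
  ζ : PadicAlgCl p
  hζ : IsPrimitiveRoot ζ p
  /-- the level of the unramified part -/
  N : ℕ
  N_ne : N ≠ 0
  e_dvd : e ∣ p ^ N - 1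

/-- A setup exists for every `e₁`, `N` with `e₁ (p - 1) ∣ p ^ N - 1`. -/
theorem exists_setup {e₁ N : ℕ} (hp2 : p ≠ 2) (hN : N ≠ 0) (he : e₁ * (p - 1) ∣ p ^ N - 1) :
    ∃ S : Setup p, S.e₁ = e₁ ∧ S.N = N := by
  have hd : ¬ p ∣ e₁ * (p - 1) := fun h => not_dvd_pow_sub_one hN (h.trans he)
  obtain ⟨U, hU⟩ := exists_unif hd
  obtain ⟨ζ, hζ⟩ := HasEnoughRootsOfUnity.exists_primitiveRoot Ω p
  exact ⟨⟨U, e₁, hU, hp2, ζ, hζ, N, hN, hU ▸ he⟩, rfl, rfl⟩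

namespace Setup

variable (S : Setup p)

/-- The field `F`. -/
def F : IntermediateField ℚ_[p] Ω := S.toUnif.fld S.N

/-- Its Galois group. -/
def GF : Subgroup (GalLoc p) := S.F.fixingSubgroup

theorem mem_GF {g : GalLoc p} :
    g ∈ S.GF ↔ g S.π = S.π ∧ ∀ η : Ω, η ^ (p ^ S.N - 1) = 1 → g η = η :=
  S.toUnif.mem_fixing_fld

theorem mem_F {x : Ω} : x ∈ S.F ↔ ∀ g ∈ S.GF, g x = x := S.toUnif.mem_fld_iff

theorem J_le : S.J ≤ S.GF := S.toUnif.J_le_fixing S.N_ne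

theorem π_mem : S.π ∈ S.F := S.toUnif.π_mem_fld S.N

theorem ζ_pow : S.ζ ^ p = 1 := S.hζ.pow_eq_one

theorem GF_fix_ζ {g : GalLoc p} (hg : g ∈ S.GF) : g S.ζ = S.ζ :=
  S.toUnif.fix_root_p S.e_eq S.ne_two S.hζ (S.mem_GF.mp hg).1

theorem e₁_pos : 0 < S.e₁ :=
  Nat.pos_of_ne_zero fun h => S.toUnif.e_ne_zero (by rw [S.e_eq, h, zero_mul])

theorem apply_mem_F (d : GalLoc p) {x : Ω} (hx : x ∈ S.F) : d x ∈ S.F := by
  rw [S.mem_F] at hx ⊢
  intro g hg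
  have h := congrArg d (hx _ (S.toUnif.conj_mem_fixing S.e_dvd d⁻¹ hg))
  rwa [inv_inv, AlgEquiv.mul_apply, AlgEquiv.mul_apply, AlgEquiv.aut_inv,
    AlgEquiv.apply_symm_apply] at h

theorem norm_zpow {x : Ω} (hx : x ∈ S.F) (hx0 : x ≠ 0) : ∃ k : ℤ, ‖x‖ = ‖S.π‖ ^ k :=
  S.toUnif.norm_eq_zpow hx0 fun g hg => S.mem_F.mp hx g (S.J_le hg)

theorem norm_ζ_sub_one : ‖S.ζ - 1‖ = ‖S.π‖ ^ S.e₁ := by
  refine (pow_left_inj₀ (norm_nonneg _) (pow_nonneg (norm_nonneg _) _)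
    (Nat.sub_ne_zero_of_lt hp.out.one_lt)).mp ?_
  rw [norm_root_sub_one_pow S.ζ_pow (fun h => hp.out.ne_one
    (S.hζ.unique (h ▸ IsPrimitiveRoot.one))), ← pow_mul, ← S.e_eq, S.norm_π_pow]

/-- Discreteness of the norm on `F`. -/
theorem le_pow_succ {z : Ω} (hz : z ∈ S.F) {i : ℕ} (h : ‖z‖ < ‖S.π‖ ^ i) :
    ‖z‖ ≤ ‖S.π‖ ^ (i + 1) := by
  rcases eq_or_ne z 0 with rfl | hz0
  · rw [norm_zero]; exact pow_nonneg (norm_nonneg _) _
  obtain ⟨k, hk⟩ := S.norm_zpow hz hz0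
  rw [hk] at h ⊢
  rw [← zpow_natCast, zpow_lt_zpow_iff_right_of_lt_one₀ S.norm_π_pos S.norm_π_lt_one] at h
  rw [← zpow_natCast, zpow_le_zpow_iff_right_of_lt_one₀ S.norm_π_pos S.norm_π_lt_one]
  push_cast
  omega

/-! ### Radicands -/

/-- `x` is a radicand of `h` on `GF`. -/
def Rad (h : GalLoc p → ZMod p) (x : Ω) : Prop :=
  x ∈ S.F ∧ x ≠ 0 ∧ ∃ α : Ω, α ^ p = x ∧ ∀ g ∈ S.GF, g α = zp S.ζ (h g) * α

/-- Kummer theory: an additive function on `GF` of finite level has a radicand. -/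
theorem exists_rad (h : GalLoc p → ZMod p) (hadd : ∀ g ∈ S.GF, ∀ g' ∈ S.GF, h (g * g') = h g + h g')
    (L : IntermediateField ℚ_[p] Ω) [FiniteDimensional ℚ_[p] L]
    (hL : ∀ g g' : GalLoc p, (∀ x ∈ L, g x = g' x) → h g = h g') : ∃ x, S.Rad h x := by
  obtain ⟨b, hb0, hb⟩ := hilbert90 S.GF (fun g => zp S.ζ (h g)) (fun g _ => zp_ne_zero S.ζ_pow _)
    (fun g hg g' hg' => by
      rw [hadd g hg g' hg', zp_add S.ζ_pow]
      simp only [zp, map_pow, S.GF_fix_ζ hg]) L fun g _ g' _ hgg => by rw [hL g g' hgg]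
  refine ⟨b ^ p, S.mem_F.mpr fun g hg => ?_, pow_ne_zero _ hb0, b, rfl, hb⟩
  rw [map_pow, hb g hg, mul_pow, zp_pow_p S.ζ_pow, one_mul]

/-- Radicands of functions equal on `GF` differ by a `p`-th power. -/
theorem rad_unique {h h' : GalLoc p → ZMod p} (hh : ∀ g ∈ S.GF, h g = h' g) {x x' : Ω}
    (hx : S.Rad h x) (hx' : S.Rad h' x') : ∃ y ∈ S.F, y ≠ 0 ∧ x' = x * y ^ p := by
  obtain ⟨-, hx0, α, rfl, hα⟩ := hx
  obtain ⟨-, hx0', β, rfl, hβ⟩ := hx'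
  have hα0 : α ≠ 0 := fun e => hx0 (by rw [e, zero_pow hp.out.ne_zero])
  have hβ0 : β ≠ 0 := fun e => hx0' (by rw [e, zero_pow hp.out.ne_zero])
  refine ⟨β / α, S.mem_F.mpr fun g hg => ?_, div_ne_zero hβ0 hα0, ?_⟩
  · rw [map_div₀, hα g hg, hβ g hg, hh g hg, mul_div_mul_left _ _ (zp_ne_zero S.ζ_pow _)]
  · rw [div_pow, mul_div_cancel₀ _ (pow_ne_zero _ hα0)]

theorem rad_mul {h h' : GalLoc p → ZMod p} {x x' : Ω} (hx : S.Rad h x) (hx' : S.Rad h' x') :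
    S.Rad (fun g => h g + h' g) (x * x') := by
  obtain ⟨hm, h0, α, rfl, hα⟩ := hx
  obtain ⟨hm', h0', β, rfl, hβ⟩ := hx'
  exact ⟨mul_mem hm hm', mul_ne_zero h0 h0', α * β, mul_pow α β p, fun g hg => by
    rw [map_mul, hα g hg, hβ g hg, zp_add S.ζ_pow]; ring⟩

theorem rad_apply {h : GalLoc p → ZMod p} {x : Ω} (hx : S.Rad h x) (d : GalLoc p) {a : ℕ}
    (hd : d S.ζ = S.ζ ^ a) :
    S.Rad (fun g => (a : ZMod p) * h (d⁻¹ * g * d)) (d x) := by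
  obtain ⟨hm, h0, α, rfl, hα⟩ := hx
  refine ⟨S.apply_mem_F d hm, (map_ne_zero _).mpr h0, d α, (map_pow _ _ _).symm, fun g hg => ?_⟩
  have hg' : d⁻¹ * g * d ∈ S.GF := by
    have := S.toUnif.conj_mem_fixing S.e_dvd d⁻¹ hg
    rwa [inv_inv] at this
  obtain ⟨m, hm'⟩ := ZMod.natCast_zmod_surjective (h (d⁻¹ * g * d))
  have h1 := congrArg d (hα _ hg')
  rw [← hm', map_mul, AlgEquiv.mul_apply, AlgEquiv.mul_apply, AlgEquiv.aut_inv,
    AlgEquiv.apply_symm_apply] at h1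
  rw [h1]
  congr 1
  simp only [← hm']
  rw [← Nat.cast_mul, zp_natCast S.ζ_pow, zp_natCast S.ζ_pow, map_pow, hd, ← pow_mul]

/-! ### Levels -/

/-- `x` is congruent to a `p`-th power modulo `π ^ i`. -/
def Lev (i : ℕ) (x : Ω) : Prop :=
  ∃ y ∈ S.F, y ≠ 0 ∧ ‖x / y ^ p - 1‖ ≤ ‖S.π‖ ^ i

theorem Lev.mul_pow {i : ℕ} {x y : Ω} (hx : S.Lev i x) (hy : y ∈ S.F) (hy0 : y ≠ 0) :
    S.Lev i (x * y ^ p) := by
  obtain ⟨z, hz, hz0, h⟩ := hx
  refine ⟨z * y, mul_mem hz hy, mul_ne_zero hz0 hy0, ?_⟩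
  rwa [_root_.mul_pow, mul_div_mul_right _ _ (pow_ne_zero _ hy0)]

theorem one_add_pow_eq {w : Ω} :
    ∃ r : Ω, (‖w‖ ≤ 1 → ‖r‖ ≤ ‖w‖) ∧ (1 + w) ^ p = 1 + w ^ p + p * r := by
  refine ⟨w * ∑ k ∈ Finset.Ioo 0 p, (1 : Ω) ^ (k - 1) * w ^ (p - k - 1) * ↑(p.choose k / p),
    fun hw => ?_, (add_pow_prime_eq hp.out 1 w).trans (by rw [one_pow]; ring)⟩
  rw [norm_mul]
  refine mul_le_of_le_one_right (norm_nonneg _) ?_
  refine IsUltrametricDist.norm_sum_le_of_forall_le_of_nonneg zero_le_one fun k _ => ?_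
  rw [one_pow, one_mul, norm_mul, norm_pow]
  exact mul_le_one₀ (pow_le_one₀ (norm_nonneg _) hw) (norm_nonneg _) (norm_natCast_le_one' _)

theorem norm_p_mul_le {r : Ω} {c : ℕ} (h : ‖r‖ ≤ ‖S.π‖ ^ c) :
    ‖(p : Ω) * r‖ ≤ ‖S.π‖ ^ (S.e + c) := by
  rw [norm_mul, pow_add, S.norm_π_pow]
  exact mul_le_mul_of_nonneg_left h (norm_nonneg _)

/-- A `p`-th power congruent to `1` to a level prime to `p` is congruent one step further. -/
theorem pow_gap {y : Ω} (hy : y ∈ S.F) {i : ℕ} (hi : i < p * S.e₁) (hpi : ¬ p ∣ i)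
    (h : ‖y ^ p - 1‖ ≤ ‖S.π‖ ^ i) : ‖y ^ p - 1‖ ≤ ‖S.π‖ ^ (i + 1) := by
  have hi0 : i ≠ 0 := fun e => hpi (e ▸ dvd_zero p)
  have hlt : ‖y ^ p - 1‖ < 1 := h.trans_lt (pow_lt_one₀ (norm_nonneg _) S.norm_π_lt_one hi0)
  have hy1 : ‖y‖ = 1 := by
    refine (pow_eq_one_iff_of_nonneg (norm_nonneg y) hp.out.ne_zero).mp ?_
    rw [← norm_pow, show y ^ p = 1 - (1 - y ^ p) by ring,
      norm_sub_eq_of_lt (by rw [norm_sub_rev, norm_one]; exact hlt), norm_one]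
  have hw : ‖y - 1‖ < 1 := by
    rw [← red_eq_red_iff hy1.le (norm_one (α := Ω)).le, red_one]
    have h1 := (red_eq_red_iff (x := y ^ p) (y := 1) (by rw [norm_pow, hy1, one_pow]) (by simp)).mpr
      hlt
    rw [red_one, red_pow hy1.le] at h1
    refine sub_eq_zero.mp (eq_zero_of_pow_eq_zero (n := p) ?_)
    rw [sub_pow_char, h1, one_pow, sub_self]
  set w := y - 1
  have hyw : y = 1 + w := by simp [w]
  rcases eq_or_ne w 0 with hw0 | hw0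
  · rw [hyw, hw0, add_zero, one_pow, sub_self, norm_zero]
    exact pow_nonneg (norm_nonneg _) _
  obtain ⟨j, hj⟩ := S.norm_zpow (sub_mem hy (one_mem _)) hw0
  have hj0 : 0 < j := by
    rw [hj, ← zpow_zero ‖S.π‖,
      zpow_lt_zpow_iff_right_of_lt_one₀ S.norm_π_pos S.norm_π_lt_one] at hw
    exact hw
  obtain ⟨j, rfl⟩ := Int.eq_ofNat_of_zero_le hj0.le
  rw [zpow_natCast] at hj
  obtain ⟨r, hr, he⟩ := one_add_pow_eq (p := p) (w := w)
  have hr' := S.norm_p_mul_le (r := r) (c := j) (hj ▸ hr hw.le)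
  rw [hyw, he, show 1 + w ^ p + p * r - 1 = w ^ p + p * r by ring] at h ⊢
  have hwp : ‖w ^ p‖ = ‖S.π‖ ^ (p * j) := by rw [norm_pow, hj, ← pow_mul, mul_comm]
  rcases lt_or_ge j S.e₁ with hje | hje
  · have hlt' : p * j < S.e + j := by
      have : (p - 1) * j < S.e := by
        rw [S.e_eq, mul_comm S.e₁]
        exact Nat.mul_lt_mul_of_pos_left hje (Nat.sub_pos_of_lt hp.out.one_lt)
      have : p * j = (p - 1) * j + j := by
        conv_lhs => rw [← Nat.sub_add_cancel hp.out.one_le, add_mul, one_mul]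
      omega
    have hn : ‖w ^ p + p * r‖ = ‖S.π‖ ^ (p * j) := by
      rw [IsUltrametricDist.norm_add_eq_max_of_norm_ne_norm, hwp, max_eq_left]
      · exact hr'.trans (pow_le_pow_of_le_one (norm_nonneg _) S.norm_π_lt_one.le hlt'.le)
      · rw [hwp]
        exact ne_of_gt (hr'.trans_lt
          (pow_lt_pow_right_of_lt_one₀ S.norm_π_pos S.norm_π_lt_one hlt'))
    rw [hn] at h ⊢
    rw [pow_le_pow_iff_right_of_lt_one₀ S.norm_π_pos S.norm_π_lt_one] at h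
    have hne : p * j ≠ i := fun e => hpi ⟨j, e.symm⟩
    exact pow_le_pow_of_le_one (norm_nonneg _) S.norm_π_lt_one.le (by omega)
  · refine (IsUltrametricDist.norm_add_le_max _ _).trans (max_le ?_ (hr'.trans ?_))
    · rw [hwp]
      exact pow_le_pow_of_le_one (norm_nonneg _) S.norm_π_lt_one.le
        (Nat.lt_of_lt_of_le hi (Nat.mul_le_mul_left p hje))
    · refine pow_le_pow_of_le_one (norm_nonneg _) S.norm_π_lt_one.le ?_
      have : p * S.e₁ = S.e + S.e₁ := by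
        obtain ⟨q, hq⟩ : ∃ q, p = q + 1 := ⟨p - 1, (Nat.sub_add_cancel hp.out.one_le).symm⟩
        rw [S.e_eq, show p - 1 = q by omega]
        calc p * S.e₁ = (q + 1) * S.e₁ := by rw [← hq]
          _ = S.e₁ * q + S.e₁ := by ring
      omega

theorem exists_frob : ∃ φ : GalLoc p, IsFrob φ ∧ φ S.π = S.π := S.toUnif.exists_frob_fix

/-- Residues of `F` are `p`-th powers. -/
theorem exists_pow_near {c : Ω} (hc : c ∈ S.F) (hc1 : ‖c‖ ≤ 1) :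
    ∃ c₀ ∈ S.F, ‖c₀‖ ≤ 1 ∧ ‖c₀ ^ p - c‖ < 1 := by
  obtain ⟨φ, hφ, hφπ⟩ := S.exists_frob
  refine ⟨c ^ p ^ (S.N - 1), pow_mem hc _, by
    rw [norm_pow]; exact pow_le_one₀ (norm_nonneg _) hc1, ?_⟩
  rw [← pow_mul, ← pow_succ, Nat.sub_add_cancel (Nat.pos_of_ne_zero S.N_ne)]
  exact S.toUnif.norm_pow_frobenius_sub S.N_ne hφ hφπ hc hc1

/-- Levels divisible by `p` can be absorbed. -/
theorem Lev.succ_of_dvd {i : ℕ} {x : Ω} (hxF : x ∈ S.F) (hx : S.Lev i x) (hi0 : i ≠ 0)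
    (hi : i < p * S.e₁) (hpi : p ∣ i) : S.Lev (i + 1) x := by
  obtain ⟨j, rfl⟩ := hpi
  obtain ⟨y, hy, hy0, h⟩ := hx
  set u := x / y ^ p
  have huF : u ∈ S.F := div_mem hxF (pow_mem hy _)
  set c := (u - 1) / S.π ^ (p * j)
  have hc1 : ‖c‖ ≤ 1 := by
    rw [norm_div, norm_pow]
    exact (div_le_one (pow_pos S.norm_π_pos _)).mpr h
  obtain ⟨c₀, hc₀F, hc₀1, hc₀⟩ := S.exists_pow_near
    (div_mem (sub_mem huF (one_mem _)) (pow_mem S.π_mem _)) hc1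
  have hj : j < S.e₁ := Nat.lt_of_mul_lt_mul_left hi
  have hj0 : j ≠ 0 := fun e => hi0 (by rw [e, mul_zero])
  set w := c₀ * S.π ^ j
  have hwn : ‖w‖ ≤ ‖S.π‖ ^ j := by
    rw [norm_mul, norm_pow]
    exact mul_le_of_le_one_left (pow_nonneg (norm_nonneg _) _) hc₀1
  have hw1 : ‖w‖ < 1 := hwn.trans_lt (pow_lt_one₀ (norm_nonneg _) S.norm_π_lt_one hj0)
  obtain ⟨r, hr, he⟩ := one_add_pow_eq (p := p) (w := w)
  have hzn : ‖1 + w‖ = 1 := by
    rw [IsUltrametricDist.norm_add_eq_max_of_norm_ne_norm (by rw [norm_one]; exact hw1.ne'),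
      norm_one, max_eq_left hw1.le]
  have hz0 : 1 + w ≠ 0 := norm_pos_iff.mp (by rw [hzn]; exact one_pos)
  have hzF : 1 + w ∈ S.F := add_mem (one_mem _) (mul_mem hc₀F (pow_mem S.π_mem _))
  refine ⟨y * (1 + w), mul_mem hy hzF, mul_ne_zero hy0 hz0, ?_⟩
  have e : x / (y * (1 + w)) ^ p - 1 = (u - (1 + w) ^ p) / (1 + w) ^ p := by
    rw [_root_.mul_pow, sub_div, div_self (pow_ne_zero _ hz0), div_div]
  rw [e, norm_div, norm_pow, hzn, one_pow, div_one]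
  refine S.le_pow_succ (sub_mem huF (pow_mem hzF _)) ?_
  rw [he, show u - (1 + w ^ p + p * r) = (c - c₀ ^ p) * S.π ^ (p * j) - p * r by
    simp only [c, w, sub_mul, _root_.mul_pow]
    rw [div_mul_cancel₀ _ (pow_ne_zero _ S.π_ne_zero), ← pow_mul, mul_comm j p]
    ring]
  refine (norm_sub_le_max' _ _).trans_lt (max_lt ?_ ?_)
  · rw [norm_mul, norm_pow, norm_sub_rev]
    exact mul_lt_of_lt_one_left (pow_pos S.norm_π_pos _) hc₀
  · refine (S.norm_p_mul_le ((hr hw1.le).trans hwn)).trans_lt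
      (pow_lt_pow_right_of_lt_one₀ S.norm_π_pos S.norm_π_lt_one ?_)
    have : (p - 1) * j < S.e := by
      rw [S.e_eq, mul_comm S.e₁]
      exact Nat.mul_lt_mul_of_pos_left hj (Nat.sub_pos_of_lt hp.out.one_lt)
    have : p * j = (p - 1) * j + j := by
      conv_lhs => rw [← Nat.sub_add_cancel hp.out.one_le, add_mul, one_mul]
    omega

/-- Elements of valuation divisible by `p` have level one. -/
theorem lev_one {x : Ω} (hxF : x ∈ S.F) {k : ℤ} (hk : ‖x‖ = ‖S.π‖ ^ ((p : ℤ) * k)) :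
    S.Lev 1 x := by
  have hπ0 : S.π ^ k ≠ 0 := zpow_ne_zero _ S.π_ne_zero
  have hπk : S.π ^ k ∈ S.F := zpow_mem S.π_mem k
  set u := x / (S.π ^ k) ^ p
  have huF : u ∈ S.F := div_mem hxF (pow_mem hπk _)
  have hu1 : ‖u‖ = 1 := by
    rw [norm_div, norm_pow, _root_.norm_zpow, hk, mul_comm, zpow_mul, zpow_natCast,
      div_self (pow_ne_zero _ (zpow_ne_zero _ S.norm_π_pos.ne'))]
  obtain ⟨c₀, hc₀F, hc₀1, hc₀⟩ := S.exists_pow_near huF hu1.le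
  have hc₀n : ‖c₀ ^ p‖ = 1 := by
    rw [show c₀ ^ p = u - (u - c₀ ^ p) by ring,
      norm_sub_eq_of_lt (by rw [hu1, norm_sub_rev]; exact hc₀), hu1]
  have hc₀0 : c₀ ≠ 0 := fun e => by simp [e, zero_pow hp.out.ne_zero] at hc₀n
  refine ⟨S.π ^ k * c₀, mul_mem hπk hc₀F, mul_ne_zero hπ0 hc₀0, ?_⟩
  refine S.le_pow_succ (sub_mem (div_mem hxF (pow_mem (mul_mem hπk hc₀F) _)) (one_mem _)) ?_
  rw [pow_zero, _root_.mul_pow, ← div_div]
  change ‖u / c₀ ^ p - 1‖ < 1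
  rw [div_sub_one (pow_ne_zero _ hc₀0), norm_div, hc₀n, div_one, norm_sub_rev]
  exact hc₀

/-- At the top level the homomorphism vanishes on `J`. -/
theorem eq_zero_on_J_of_top {h : GalLoc p → ZMod p} {x : Ω} (hx : S.Rad h x)
    (htop : S.Lev (p * S.e₁) x) {s : GalLoc p} (hs : s ∈ S.J) : h s = 0 := by
  obtain ⟨y, hy, hy0, hlev⟩ := htop
  obtain ⟨-, hx0, α, rfl, hα⟩ := hx
  have hm0 : p * S.e₁ ≠ 0 := (Nat.mul_pos hp.out.pos S.e₁_pos).ne'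
  set β := α / y
  have hβp : β ^ p = α ^ p / y ^ p := div_pow α y p
  have hlt : ‖β ^ p - 1‖ < 1 := by
    rw [hβp]; exact hlev.trans_lt (pow_lt_one₀ (norm_nonneg _) S.norm_π_lt_one hm0)
  have hβ1 : ‖β‖ = 1 := by
    refine (pow_eq_one_iff_of_nonneg (norm_nonneg β) hp.out.ne_zero).mp ?_
    rw [← norm_pow, show β ^ p = 1 - (1 - β ^ p) by ring,
      norm_sub_eq_of_lt (by rw [norm_sub_rev, norm_one]; exact hlt), norm_one]
  have hw : ‖β - 1‖ < 1 := by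
    rw [← red_eq_red_iff hβ1.le (norm_one (α := Ω)).le, red_one]
    have h1 := (red_eq_red_iff (x := β ^ p) (y := 1) (by rw [norm_pow, hβ1, one_pow])
      (by simp)).mpr hlt
    rw [red_one, red_pow hβ1.le] at h1
    refine sub_eq_zero.mp (eq_zero_of_pow_eq_zero (n := p) ?_)
    rw [sub_pow_char, h1, one_pow, sub_self]
  set w := β - 1
  have hβw : β = 1 + w := by simp [w]
  have hwle : ‖w‖ ≤ ‖S.π‖ ^ S.e₁ := by
    by_contra hgt
    rw [not_le] at hgt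
    obtain ⟨r, hr, he⟩ := one_add_pow_eq (p := p) (w := w)
    have h1 : ‖(p : Ω) * r‖ < ‖w ^ p‖ := by
      rw [norm_mul, norm_pow]
      refine (mul_le_mul_of_nonneg_left (hr hw.le) (norm_nonneg _)).trans_lt ?_
      rw [show ‖w‖ ^ p = ‖w‖ ^ (p - 1) * ‖w‖ by
        rw [← pow_succ]; congr 1; have := hp.out.one_le; omega]
      refine mul_lt_mul_of_pos_right ?_ ((pow_nonneg (norm_nonneg _) _).trans_lt hgt)
      rw [← S.norm_π_pow, S.e_eq, pow_mul]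
      exact pow_lt_pow_left₀ hgt (pow_nonneg (norm_nonneg _) _)
        (Nat.sub_ne_zero_of_lt hp.out.one_lt)
    have h2 : ‖β ^ p - 1‖ = ‖w‖ ^ p := by
      rw [hβw, he, show 1 + w ^ p + p * r - 1 = w ^ p + p * r by ring,
        IsUltrametricDist.norm_add_eq_max_of_norm_ne_norm h1.ne', max_eq_left h1.le, norm_pow]
    rw [← hβp, h2, mul_comm, pow_mul] at hlev
    exact absurd hlev (not_le.mpr
      (pow_lt_pow_left₀ hgt (pow_nonneg (norm_nonneg _) _) hp.out.ne_zero))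
  have hζ1 : S.ζ - 1 ≠ 0 := sub_ne_zero.mpr fun e =>
    hp.out.ne_one (S.hζ.unique (e ▸ IsPrimitiveRoot.one))
  set z := w / (S.ζ - 1)
  have hz1 : ‖z‖ ≤ 1 := by
    rw [norm_div, S.norm_ζ_sub_one]
    exact (div_le_one (pow_pos S.norm_π_pos _)).mpr hwle
  set n := (h s).val
  have hsGF := S.J_le hs
  have hsβ : s β = S.ζ ^ n * β := by
    rw [map_div₀, hα s hsGF, (IntermediateField.mem_fixingSubgroup_iff _ _).mp hsGF y hy,
      mul_div_assoc]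
    rfl
  have hζn : ‖∑ i ∈ Finset.range n, S.ζ ^ i‖ ≤ 1 :=
    IsUltrametricDist.norm_sum_le_of_forall_le_of_nonneg zero_le_one fun i _ => by
      rw [norm_pow, norm_eq_one_of_pow_eq_one hp.out.ne_zero S.ζ_pow, one_pow]
  have hkey : s z - z = (∑ i ∈ Finset.range n, S.ζ ^ i) * β := by
    simp only [z, w]
    rw [map_div₀, map_sub, map_sub, map_one, hsβ, S.GF_fix_ζ hsGF, ← sub_div,
      div_eq_iff hζ1]
    linear_combination (-β) * geom_sum_mul S.ζ n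
  have h0 := congrArg red hkey
  have hs' := (S.toUnif.mem_J.mp hs).1
  rw [red_sub (by rwa [norm_loc]) hz1, red_inertia hs' hz1, sub_self,
    red_mul hζn hβ1.le, red_sum _ _ (fun i _ => by
      rw [norm_pow, norm_eq_one_of_pow_eq_one hp.out.ne_zero S.ζ_pow, one_pow]),
    (red_eq_red_iff hβ1.le (by simp)).mpr (show ‖β - 1‖ < 1 from hw), red_one, mul_one] at h0
  simp only [red_pow (norm_eq_one_of_pow_eq_one hp.out.ne_zero S.ζ_pow).le,
    red_root_p S.ζ_pow, one_pow, Finset.sum_const, Finset.card_range, nsmul_one] at h0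
  rw [eq_comm, CharP.cast_eq_zero_iff (Res p) p] at h0
  rw [← ZMod.natCast_zmod_val (h s)]
  exact (ZMod.natCast_eq_zero_iff _ _).mpr h0

/-! ### Leading coefficients -/

/-- The leading coefficient at level `i`. -/
def lead (i : ℕ) (x : Ω) : Res p :=
  open scoped Classical in
  if h : S.Lev i x then red ((x / h.choose ^ p - 1) / S.π ^ i) else 0

theorem lead_eq {i : ℕ} (hi : i < p * S.e₁) (hpi : ¬ p ∣ i) {x y : Ω} (hy : y ∈ S.F) (hy0 : y ≠ 0)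
    (hx0 : x ≠ 0) (h : ‖x / y ^ p - 1‖ ≤ ‖S.π‖ ^ i) :
    S.lead i x = red ((x / y ^ p - 1) / S.π ^ i) := by
  have hL : S.Lev i x := ⟨y, hy, hy0, h⟩
  rw [lead, dif_pos hL]
  obtain ⟨hz, hz0, hzl⟩ := hL.choose_spec
  set z := hL.choose
  set q := x / y ^ p
  set q' := x / z ^ p
  have hint : ∀ t : Ω, ‖t‖ ≤ ‖S.π‖ ^ i → ‖t / S.π ^ i‖ ≤ 1 := fun t ht => by
    rw [norm_div, norm_pow]; exact (div_le_one (pow_pos S.norm_π_pos _)).mpr ht
  rw [red_eq_red_iff (hint _ hzl) (hint _ h), ← sub_div, norm_div, norm_pow,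
    div_lt_one (pow_pos S.norm_π_pos _), show q' - 1 - (q - 1) = q' - q by ring]
  have hi0 : i ≠ 0 := fun e => hpi (e ▸ dvd_zero p)
  have hq : ‖q‖ = 1 := by
    rw [show q = 1 - (1 - q) by ring, norm_sub_eq_of_lt, norm_one]
    rw [norm_one, norm_sub_rev]
    exact h.trans_lt (pow_lt_one₀ (norm_nonneg _) S.norm_π_lt_one hi0)
  have he : q' - q = q * ((y / z) ^ p - 1) := by
    simp only [q, q', div_pow]
    field_simp
  rw [he, norm_mul, hq, one_mul]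
  have hq' : ‖q' - q‖ ≤ ‖S.π‖ ^ i := by
    rw [show q' - q = (q' - 1) - (q - 1) by ring]
    exact (norm_sub_le_max' _ _).trans (max_le hzl h)
  rw [he, norm_mul, hq, one_mul] at hq'
  exact (S.pow_gap (div_mem hy hz) hi hpi hq').trans_lt
    (pow_lt_pow_right_of_lt_one₀ S.norm_π_pos S.norm_π_lt_one (Nat.lt_succ_self i))

theorem lead_mul {i : ℕ} (hi : i < p * S.e₁) (hpi : ¬ p ∣ i) {x x' : Ω} (hx0 : x ≠ 0)
    (hx0' : x' ≠ 0) (hx : S.Lev i x) (hx' : S.Lev i x') :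
    S.Lev i (x * x') ∧ S.lead i (x * x') = S.lead i x + S.lead i x' := by
  obtain ⟨y, hy, hy0, h⟩ := hx
  obtain ⟨y', hy', hy0', h'⟩ := hx'
  set a := x / y ^ p - 1
  set b := x' / y' ^ p - 1
  have he : x * x' / (y * y') ^ p - 1 = a + b + a * b := by
    rw [_root_.mul_pow, ← div_mul_div_comm]
    simp only [a, b]
    ring
  have hi0 : i ≠ 0 := fun e => hpi (e ▸ dvd_zero p)
  have hπi : ‖S.π‖ ^ i < 1 := pow_lt_one₀ (norm_nonneg _) S.norm_π_lt_one hi0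
  have hab : ‖a * b‖ < ‖S.π‖ ^ i := by
    rw [norm_mul]
    exact (mul_le_mul h h' (norm_nonneg _) (pow_nonneg (norm_nonneg _) _)).trans_lt
      (mul_lt_of_lt_one_left (pow_pos S.norm_π_pos _) hπi)
  have hs : ‖x * x' / (y * y') ^ p - 1‖ ≤ ‖S.π‖ ^ i := by
    rw [he]
    exact (IsUltrametricDist.norm_add_le_max _ _).trans
      (max_le ((IsUltrametricDist.norm_add_le_max _ _).trans (max_le h h')) hab.le)
  refine ⟨⟨y * y', mul_mem hy hy', mul_ne_zero hy0 hy0', hs⟩, ?_⟩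
  have hint : ∀ t : Ω, ‖t‖ ≤ ‖S.π‖ ^ i → ‖t / S.π ^ i‖ ≤ 1 := fun t ht => by
    rw [norm_div, norm_pow]; exact (div_le_one (pow_pos S.norm_π_pos _)).mpr ht
  rw [S.lead_eq hi hpi hy hy0 hx0 h, S.lead_eq hi hpi hy' hy0' hx0' h',
    S.lead_eq hi hpi (mul_mem hy hy') (mul_ne_zero hy0 hy0') (mul_ne_zero hx0 hx0') hs, he,
    ← red_add (hint _ h) (hint _ h'), ← add_div,
    red_eq_red_iff (hint _ (he ▸ hs)) (hint _ ((IsUltrametricDist.norm_add_le_max _ _).trans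
      (max_le h h'))), ← sub_div, add_sub_cancel_left, norm_div, norm_pow,
    div_lt_one (pow_pos S.norm_π_pos _)]
  exact hab

theorem lead_mul_pow {i : ℕ} (hi : i < p * S.e₁) (hpi : ¬ p ∣ i) {x y : Ω} (hx0 : x ≠ 0)
    (hy : y ∈ S.F) (hy0 : y ≠ 0) (hx : S.Lev i x) : S.lead i (x * y ^ p) = S.lead i x := by
  obtain ⟨z, hz, hz0, h⟩ := hx
  have e : x * y ^ p / (z * y) ^ p = x / z ^ p := by
    rw [_root_.mul_pow, mul_div_mul_right _ _ (pow_ne_zero _ hy0)]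
  rw [S.lead_eq hi hpi (mul_mem hz hy) (mul_ne_zero hz0 hy0)
    (mul_ne_zero hx0 (pow_ne_zero _ hy0)) (by rw [e]; exact h), e,
    S.lead_eq hi hpi hz hz0 hx0 h]

theorem lev_succ_of_lead_eq_zero {i : ℕ} (hi : i < p * S.e₁) (hpi : ¬ p ∣ i) {x : Ω}
    (hxF : x ∈ S.F) (hx0 : x ≠ 0) (hx : S.Lev i x) (h0 : S.lead i x = 0) : S.Lev (i + 1) x := by
  obtain ⟨y, hy, hy0, h⟩ := hx
  rw [S.lead_eq hi hpi hy hy0 hx0 h] at h0
  refine ⟨y, hy, hy0, S.le_pow_succ (sub_mem (div_mem hxF (pow_mem hy _)) (one_mem _)) ?_⟩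
  rw [red_eq_zero_iff
      (by rw [norm_div, norm_pow]; exact (div_le_one (pow_pos S.norm_π_pos _)).mpr h),
    norm_div, norm_pow, div_lt_one (pow_pos S.norm_π_pos _)] at h0
  exact h0

theorem lead_apply {i : ℕ} (hi : i < p * S.e₁) (hpi : ¬ p ∣ i) {x : Ω} (hx0 : x ≠ 0)
    (hx : S.Lev i x) (d : GalLoc p) {z : Ω} (hdπ : d S.π = z * S.π) (f : Res p → Res p)
    (hf : ∀ u : Ω, ‖u‖ ≤ 1 → red (d u) = f (red u)) :
    S.Lev i (d x) ∧ S.lead i (d x) = red z ^ i * f (S.lead i x) := by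
  obtain ⟨y, hy, hy0, h⟩ := hx
  have e : d x / d y ^ p - 1 = d (x / y ^ p - 1) := by rw [map_sub, map_div₀, map_pow, map_one]
  have h' : ‖d x / d y ^ p - 1‖ ≤ ‖S.π‖ ^ i := by rw [e, norm_loc]; exact h
  have hdy := S.apply_mem_F d hy
  have hdy0 : d y ≠ 0 := (map_ne_zero _).mpr hy0
  refine ⟨⟨d y, hdy, hdy0, h'⟩, ?_⟩
  rw [S.lead_eq hi hpi hdy hdy0 ((map_ne_zero _).mpr hx0) h', S.lead_eq hi hpi hy hy0 hx0 h, e]
  set u := (x / y ^ p - 1) / S.π ^ i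
  have hu : ‖u‖ ≤ 1 := by
    rw [norm_div, norm_pow]; exact (div_le_one (pow_pos S.norm_π_pos _)).mpr h
  have hzn : ‖z‖ = 1 := by
    have h1 := congrArg norm hdπ
    rw [norm_loc, norm_mul] at h1
    exact (mul_eq_right₀ S.norm_π_pos.ne').mp h1.symm
  have hd : d (x / y ^ p - 1) / S.π ^ i = z ^ i * d u := by
    have hu' : x / y ^ p - 1 = u * S.π ^ i :=
      (div_mul_cancel₀ _ (pow_ne_zero _ S.π_ne_zero)).symm
    rw [hu', map_mul, map_pow, hdπ, _root_.mul_pow]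
    field_simp [pow_ne_zero i S.π_ne_zero]
  rw [hd, red_mul (by rw [norm_pow, hzn, one_pow]) (by rwa [norm_loc]), red_pow hzn.le, hf u hu]

/-! ### Valuations -/

/-- The valuation of `x` modulo `p`. -/
def vp (x : Ω) : ZMod p :=
  open scoped Classical in
  if h : ∃ k : ℤ, ‖x‖ = ‖S.π‖ ^ k then (h.choose : ZMod p) else 0

theorem vp_eq {x : Ω} {k : ℤ} (h : ‖x‖ = ‖S.π‖ ^ k) : S.vp x = (k : ZMod p) := by
  have h' : ∃ k : ℤ, ‖x‖ = ‖S.π‖ ^ k := ⟨k, h⟩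
  rw [vp, dif_pos h', zpow_right_injective₀ S.norm_π_pos S.norm_π_lt_one.ne
    (h'.choose_spec.symm.trans h)]

theorem vp_mul {x y : Ω} (hx : x ∈ S.F) (hx0 : x ≠ 0) (hy : y ∈ S.F) (hy0 : y ≠ 0) :
    S.vp (x * y) = S.vp x + S.vp y := by
  obtain ⟨a, ha⟩ := S.norm_zpow hx hx0
  obtain ⟨b, hb⟩ := S.norm_zpow hy hy0
  rw [S.vp_eq ha, S.vp_eq hb, S.vp_eq (k := a + b)
    (by rw [norm_mul, ha, hb, zpow_add₀ S.norm_π_pos.ne']), Int.cast_add]

theorem vp_mul_pow {x y : Ω} (hx : x ∈ S.F) (hx0 : x ≠ 0) (hy : y ∈ S.F) (hy0 : y ≠ 0) :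
    S.vp (x * y ^ p) = S.vp x := by
  obtain ⟨b, hb⟩ := S.norm_zpow hy hy0
  rw [S.vp_mul hx hx0 (pow_mem hy _) (pow_ne_zero _ hy0), S.vp_eq (x := y ^ p) (k := b * p)
    (by rw [norm_pow, hb, zpow_mul, zpow_natCast]), Int.cast_mul, Int.cast_natCast,
    ZMod.natCast_self, mul_zero, add_zero]

/-- An element of valuation divisible by `p` has level one. -/
theorem lev_one_of_vp {x : Ω} (hx : x ∈ S.F) (hx0 : x ≠ 0) (h : S.vp x = 0) : S.Lev 1 x := by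
  obtain ⟨k, hk⟩ := S.norm_zpow hx hx0
  rw [S.vp_eq hk, ZMod.intCast_zmod_eq_zero_iff_dvd] at h
  obtain ⟨c, rfl⟩ := h
  exact S.lev_one hx hk

end Setup

end Fermat.Agent.LocalModelP
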