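import Fermat.Agent.LocalModelP.OrdinaryLocal
import Fermat.Agent.FlatBound.AtPlace

/-!
# Coordinates of ordinary lifts at a flip place over `p`

`a = s(φ) - s₀`, `x` the off-diagonal coordinate at a quiet element (the valuation of the Kummer
class, so `x a = 0`), and three frame coordinates.
-/

set_option autoImplicit false

noncomputable section

open IsLocalRing Matrix

namespace Fermat.Agent.LocalModelP

open Fermat.Agent.Duality Fermat.Agent.Deformation Fermat.Agent.Root.Patched

local notation "ℚbar" => AlgebraicClosure ℚ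

variable {O : Type} [CommRing O] [IsLocalRing O] {ρbar : GQ →* M2 (ResidueField O)}
  {p : ℕ} [hp : Fact p.Prime]

set_option quotPrecheck false in
local notation "𝕜" => ResidueField O

/-- **`p`, ordinary flip**, residual representation flat: `a = s(Frob_p) - s₀`, one `x` with
`x a = 0`, three frame coordinates. -/
theorem exists_coords_ordinary [Finite (ResidueField O)] (hp2 : p ≠ 2)
    (hpO : (p : O) ∈ maximalIdeal O) (P : ValuationSubring ℚbar) (hP : P.LiesOverPrime p)
    (φ : P.decompositionSubgroup ℚ) (hφ : P.IsFrobeniusAt (φ : GQ) p) (s₀ : O)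
    (hs₀ : s₀ = 1 ∨ s₀ = -1)
    (hres : ∀ (S : TestRing O) (r : Lift ρbar S), maximalIdeal S.R = ⊥ →
      DetCyclotomic p S r ∧ FlatShape p S r) :
    ∃ C : Coords ρbar P (Option (Fin 1) ⊕ Fin 3) (fun S r => DetCyclotomic p S r ∧
        ∃ s, OrdinaryShape P S r s ∧ S.red (s φ) = residue O s₀),
      ∀ S r s, DetCyclotomic p S r → OrdinaryShape P S r s → S.red (s φ) = residue O s₀ →
        C.val S r (.inl none) = s φ - S.alg s₀ ∧
          C.val S r (.inl (some 0)) * (s φ - S.alg s₀) = 0 := by
  classical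
  have := charP_residue hp.out hpO
  have hk2 := LocalModel.two_ne_zero hpO hp.out hp2
  have hs2 : residue O s₀ * residue O s₀ = 1 := by rcases hs₀ with h | h <;> simp [h]
  obtain ⟨T⟩ := exists_atPlace hP
  obtain ⟨U, hU, -⟩ := exists_setup (p := p) (e₁ := 1) (N := 1) hp2 one_ne_zero (by simp)
  obtain ⟨g₀, hg₀, hne⟩ := exists_cyc_ne_one (k := ResidueField O) hU
  obtain ⟨rp, hrp⟩ := IsAlgClosed.exists_pow_nat_eq (p : PadicAlgCl p) hp.out.pos
  obtain ⟨σ, hσ, hσr⟩ := exists_quiet_move hU hrp
  obtain ⟨g₁, hg₁⟩ := exists_quiet_point hU hne hσ hrp hσr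
  obtain ⟨d₀, hd₀⟩ := T.exists_hom_eq φ.2
  have hd₀' : T.homD d₀ = φ := Subtype.ext hd₀
  have hfrob : IsFrob d₀ := (T.isFrobeniusAt_hom_iff d₀).mp (hd₀.symm ▸ hφ)
  let E₀ : M2 𝕜 := eProj (ρbar (T.hom g₀))
  let U₀ : (M2 𝕜)ˣ :=
    if h : E₀ * E₀ = E₀ ∧ E₀.trace = 1 then (exists_conj_diag h.1 h.2).choose else 1
  obtain ⟨V, hV⟩ := exists_frame_lift U₀
  let E : ∀ S : TestRing O, Lift ρbar S → M2 S.R := fun S r => eProj (r.M (T.hom g₀))
  let F : ∀ S : TestRing O, Lift ρbar S → GalLoc p → S.R := fun S r g =>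
    cj (frame V S) (fPart (E S r) (r.M (T.hom g))) 0 1
  let fbar : GalLoc p → 𝕜 := fun g => cj U₀ (fPart E₀ (ρbar (T.hom g))) 0 1
  obtain ⟨c₁, hc₁⟩ := residue_surjective (fbar g₁)
  let raw : ∀ S : TestRing O, Lift ρbar S → Option (Fin 1) ⊕ Fin 3 → S.R := fun S r =>
    Sum.elim (fun o => o.elim ((E S r * r.M (T.hom d₀)).trace - S.alg s₀) fun _ => F S r σ)
      ![cj (frame V S) (E S r) 0 1, cj (frame V S) (E S r) 1 0, F S r g₁ - S.alg c₁]
  -- facts on a lift of the given shape
  have hu : ∀ (S : TestRing O) (r : Lift ρbar S), DetCyclotomic p S r →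
      IsUnit ((r.M (T.hom g₀)).det - 1) := fun S r hdet =>
    LocalModel.isUnit_of_red_ne_zero (by
      rw [map_sub, map_one, LocalModel.red_det, red_det_hom hpO T U hdet g₀]
      exact sub_ne_zero.mpr hne)
  have hEred : ∀ (S : TestRing O) (r : Lift ρbar S), DetCyclotomic p S r →
      (E S r).map S.red = E₀ := fun S r hdet => by
    rw [map_eProj _ (hu S r hdet), r.reduces]
  have hFred : ∀ (S : TestRing O) (r : Lift ρbar S) g, DetCyclotomic p S r →
      S.red (F S r g) = fbar g := fun S r g hdet => by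
    show S.red (cj _ _ 0 1) = cj _ _ 0 1
    rw [← Matrix.map_apply (f := S.red), red_frame, hV, map_fPart, hEred S r hdet, r.reduces]
  have hidem : ∀ (S : TestRing O) (r : Lift ρbar S) (s : P.decompositionSubgroup ℚ →* S.R),
      DetCyclotomic p S r → OrdinaryShape P S r s → E₀ * E₀ = E₀ ∧ E₀.trace = 1 :=
    fun S r s hdet hs => by
    have L := (line_of_ordinary T hpO U hdet hs hg₀ hne).map S.red
    have he : S.red.mapMatrix.toMonoidHom.comp (r.M.comp T.hom) g₀ = ρbar (T.hom g₀) :=
      r.reduces _
    refine ⟨?_, ?_⟩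
    · have := L.proj_idem
      rwa [he] at this
    · have := L.trace_proj (by rw [he]; exact isUnit_det_lift ρbar _)
      rwa [he] at this
  have hframe : ∀ (S : TestRing O) (r : Lift ρbar S) (s : P.decompositionSubgroup ℚ →* S.R),
      DetCyclotomic p S r → OrdinaryShape P S r s → cj U₀ E₀ = !![0, 0; 0, 1] :=
    fun S r s hdet hs => by
    have h := hidem S r s hdet hs
    have h1 := (exists_conj_diag h.1 h.2).choose_spec
    rw [show U₀ = (exists_conj_diag h.1 h.2).choose from dif_pos h]
    revert h1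
    generalize (exists_conj_diag h.1 h.2).choose = W
    intro h1
    rw [cj, h1]
    simp [mul_assoc]
  have hEmem : ∀ (S : TestRing O) (q : Lift ρbar S) (s : P.decompositionSubgroup ℚ →* S.R),
      DetCyclotomic p S q → OrdinaryShape P S q s → ∀ i j,
      S.red (cj (frame V S) (E S q) i j) = !![(0 : 𝕜), 0; 0, 1] i j := fun S q s hq hs i j => by
    rw [← Matrix.map_apply (f := S.red), red_frame, hV, hEred S q hq, hframe S q s hq hs]
  have hsval : ∀ (S : TestRing O) (q : Lift ρbar S) (s : P.decompositionSubgroup ℚ →* S.R),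
      DetCyclotomic p S q → OrdinaryShape P S q s → ∀ g,
      s (T.homD g) = (E S q * q.M (T.hom g)).trace := fun S q s hq hqs g =>
    (line_of_ordinary T hpO U hq hqs hg₀ hne).s_eq_trace (isUnit_det_lift q.M _) g
  have hsbar : ∀ (S : TestRing O) (q : Lift ρbar S) (s : P.decompositionSubgroup ℚ →* S.R),
      DetCyclotomic p S q → OrdinaryShape P S q s → ∀ g,
      S.red (s (T.homD g)) = (E₀ * ρbar (T.hom g)).trace := fun S q s hq hqs g => by
    rw [hsval S q s hq hqs g, AddMonoidHom.map_trace S.red, Matrix.map_mul, hEred S q hq, q.reduces]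
  have hFmul : ∀ (S : TestRing O) (q : Lift ρbar S) (s : P.decompositionSubgroup ℚ →* S.R),
      DetCyclotomic p S q → OrdinaryShape P S q s → ∀ g h, F S q (g * h) =
        (q.M (T.hom g)).det * s (T.homD g)⁻¹ * F S q h + s (T.homD h) * F S q g :=
    fun S q s hq hqs g h => by
    have L := line_of_ordinary T hpO U hq hqs hg₀ hne
    show cj _ (fPart _ (q.M (T.hom (g * h)))) 0 1 = _
    rw [show q.M (T.hom (g * h)) = (q.M.comp T.hom) (g * h) from rfl,
      show E S q = eProj ((q.M.comp T.hom) g₀) from rfl, L.fPart_mul, cj_add, cj_smul, cj_smul,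
      Matrix.add_apply, Matrix.smul_apply, Matrix.smul_apply, smul_eq_mul, smul_eq_mul]
    rfl
  -- the residual character and cocycle
  have hsq : ∀ (S : TestRing O) (q : Lift ρbar S) (s : P.decompositionSubgroup ℚ →* S.R),
      DetCyclotomic p S q → OrdinaryShape P S q s → S.red (s φ) = residue O s₀ →
      ∀ g, S.red (s (T.homD g)) * S.red (s (T.homD g)) = 1 := fun S q s hq hqs hsφ g => by
    let u : GalLoc p →* 𝕜 := S.red.toMonoidHom.comp (s.comp T.homD)
    have hu1 : FinLevel (u * u) := by
      have e : (fun g => (u * u) g) =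
          fun g => (E₀ * ρbar (T.hom g)).trace * (E₀ * ρbar (T.hom g)).trace :=
        funext fun g => by
          show S.red (s (T.homD g)) * S.red (s (T.homD g)) = _
          rw [hsbar S q s hq hqs g]
      show FinLevel fun g => (u * u) g
      rw [e]
      exact (finLevel_residual T q).comp fun X => (E₀ * X).trace * (E₀ * X).trace
    exact hom_ext_frob (v := (1 : GalLoc p →* 𝕜)) hu1 (finLevel_const (1 : 𝕜))
      (fun i hi => by
        show S.red (s (T.homD i)) * S.red (s (T.homD i)) = 1
        rw [hqs.1 _ ((T.hom_mem_inertia_iff i).mpr hi), map_one, one_mul])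
      (fun _ _ => rfl) hfrob (by
        show S.red (s (T.homD d₀)) * S.red (s (T.homD d₀)) = 1
        rw [hd₀', hsφ, hs2]) g
  have hdbar : ∀ (S : TestRing O) (q : Lift ρbar S) (s : P.decompositionSubgroup ℚ →* S.R),
      DetCyclotomic p S q → OrdinaryShape P S q s → S.red (s φ) = residue O s₀ → ∀ g,
      S.red ((q.M (T.hom g)).det * s (T.homD g)⁻¹) = cyc U 𝕜 g * S.red (s (T.homD g)) :=
    fun S q s hq hqs hsφ g => by
    have h1 : S.red (s (T.homD g)⁻¹) * S.red (s (T.homD g)) = 1 := by
      rw [← map_mul, ← map_mul, inv_mul_cancel, map_one, map_one]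
    rw [map_mul, LocalModel.red_det, red_det_hom hpO T U hq g]
    linear_combination (cyc U 𝕜 g * S.red (s (T.homD g))) * h1 -
      (cyc U 𝕜 g * S.red (s (T.homD g)⁻¹)) * hsq S q s hq hqs hsφ g
  have hflat : ∀ (S : TestRing O) (q : Lift ρbar S) (s : P.decompositionSubgroup ℚ →* S.R),
      DetCyclotomic p S q → OrdinaryShape P S q s → S.red (s φ) = residue O s₀ → fbar σ = 0 :=
    fun S q s hq hqs hsφ => by
    set u : GalLoc p → 𝕜 := fun g => S.red (s (T.homD g))
    let c : GalLoc p → 𝕜 := fun g => fbar g * u g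
    have hc : IsCocycle 1 (cyc U 𝕜) c := by
      refine ⟨?_, fun g _ h _ => ?_⟩
      · have e : c = fun g => cj U₀ (fPart E₀ (ρbar (T.hom g))) 0 1 *
            (E₀ * ρbar (T.hom g)).trace := funext fun g => by
          show fbar g * S.red (s (T.homD g)) = _
          rw [hsbar S q s hq hqs g]
        rw [e]
        exact (finLevel_residual T q).comp fun X =>
          cj U₀ (fPart E₀ X) 0 1 * (E₀ * X).trace
      · have h1 : fbar (g * h) = cyc U 𝕜 g * u g * fbar h + u h * fbar g := by
          rw [← hFred S q _ hq, hFmul S q s hq hqs, map_add, map_mul,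
            hdbar S q s hq hqs hsφ g, map_mul, hFred S q h hq, hFred S q g hq]
        have hgh : u (g * h) = u g * u h := by simp only [u, map_mul]
        show fbar (g * h) * u (g * h) = fbar g * u g + cyc U 𝕜 g * (fbar h * u h)
        rw [h1, hgh]
        linear_combination (cyc U 𝕜 g * fbar h * u h) * hsq S q s hq hqs hsφ g +
          (fbar g * u g) * hsq S q s hq hqs hsφ h
    obtain ⟨t, ht⟩ := exists_functional (p := p) (k := 𝕜)
    have hF : (Deformation.ofMatrix (A := 𝕜) ρbar (residualLift q).cont).IsFlatAt p :=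
      (hres (residualRing O) (residualLift q) maximalIdeal_residualRing).2
    have hk : Kum U t (FlatBd U) c := by
      refine FlatBound.kum_of_isFlatAt T hF U (fun g hg hg1 => ?_) t fun g _ hg1 => ?_
      · refine fix_pi_of_fix_zeta hU (fix_zeta_of_cyc_eq_one (k := 𝕜) ?_)
        rw [← red_det_hom hpO T U hq g, hg1, Matrix.det_one]
      · show fbar g * u g = 0
        have h0 : fPart E₀ (1 : M2 𝕜) = 0 := by
          rw [fPart, mul_one, sub_mul, one_mul, (hidem S q s hq hqs).1, sub_self]
        simp only [fbar, hg1, h0, cj_zero, Matrix.zero_apply, zero_mul]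
    have h0 := (quiet_eq_zero_iff hc (fun g a ha => cyc_eq ha) ht hσ hrp hσr).mpr hk.val
    have hu : u σ = 1 := by
      show S.red (s (T.homD σ)) = 1
      rw [hqs.1 _ ((T.hom_mem_inertia_iff σ).mpr hσ.1), map_one]
    simpa [c, hu] using h0
  refine ⟨{
    val := raw
    mem := ?_
    natural := ?_
    determine := ?_ }, fun S r s hdet hs hsφ => ⟨?_, ?_⟩⟩
  · rintro S r ⟨hdet, s, hs, hsφ⟩ ((_ | i) | j) <;> rw [LocalModel.mem_max_iff]
    · show S.red ((E S r * r.M (T.hom d₀)).trace - S.alg s₀) = 0
      rw [map_sub, ← hsval S r s hdet hs, hd₀', hsφ, S.red_alg, sub_self]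
    · show S.red (F S r σ) = 0
      rw [hFred S r σ hdet, hflat S r s hdet hs hsφ]
    · fin_cases j <;> simp [raw, hEmem S r s hdet hs, hFred S r g₁ hdet, S.red_alg, hc₁]
  · intro S S' f hf _ r r' hr' hr i
    have hE : (E S r).map f = E S' r' := by rw [map_eProj _ (hu S r hr.1), ← hr']
    have hcj : ∀ (M : M2 S.R) i j, f (cj (frame V S) M i j) =
        cj (frame V S') (M.map f) i j := fun M i j => by
      rw [← map_frame V f hf]; rfl
    have hF : ∀ g, f (F S r g) = F S' r' g := fun g => by
      simp only [F]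
      rw [hcj, map_fPart, hE, ← hr']
    have ha : ∀ a, f (S.alg a) = S'.alg a := RingHom.congr_fun hf
    obtain (_ | i) | j := i
    · show (E S' r' * r'.M (T.hom d₀)).trace - S'.alg s₀ =
        f ((E S r * r.M (T.hom d₀)).trace - S.alg s₀)
      rw [map_sub, ha, AddMonoidHom.map_trace f, Matrix.map_mul, hE, ← hr']
    · exact (hF σ).symm
    · fin_cases j <;> simp [raw, hcj, hE, hF, ha]
  · intro S hS r r' hr hr' hv g hg
    obtain ⟨hdet, s, hs, hsφ⟩ := hr
    obtain ⟨hdet', s', hs', hsφ'⟩ := hr'
    have L := line_of_ordinary T hpO U hdet hs hg₀ hne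
    have L' := line_of_ordinary T hpO U hdet' hs' hg₀ hne
    have va : (E S r * r.M (T.hom d₀)).trace = (E S r' * r'.M (T.hom d₀)).trace := by
      simpa [raw] using congrFun hv (.inl none)
    have vx : F S r σ = F S r' σ := congrFun hv (.inl (some 0))
    have v0 : cj (frame V S) (E S r) 0 1 = cj (frame V S) (E S r') 0 1 := congrFun hv (.inr 0)
    have v1 : cj (frame V S) (E S r) 1 0 = cj (frame V S) (E S r') 1 0 := congrFun hv (.inr 1)
    have v2 : F S r g₁ = F S r' g₁ := by simpa [raw] using congrFun hv (.inr 2)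
    -- the projectors agree
    have key : ∀ (q : Lift ρbar S) (sq : P.decompositionSubgroup ℚ →* S.R),
        DetCyclotomic p S q → OrdinaryShape P S q sq → cj (frame V S) (E S q) =
          !![0, cj (frame V S) (E S q) 0 1; cj (frame V S) (E S q) 1 0, 1] := fun q sq hq hqs => by
      have Lq := line_of_ordinary T hpO U hq hqs hg₀ hne
      have e1 := Lq.proj_idem
      have e2 := Lq.trace_proj (isUnit_det_lift q.M _)
      refine eq_of_idem hS (by rw [← cj_mul]; exact congrArg _ e1) (by rw [trace_cj]; exact e2)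
        ?_ ?_ ?_ <;> rw [LocalModel.mem_max_iff, hEmem S q sq hq hqs] <;> rfl
    have hcE := key r s hdet hs
    have hEE : E S r = E S r' := cj_injective (frame V S) (by
      rw [hcE, key r' s' hdet' hs', v0, v1])
    -- the characters agree
    have hlev : ∀ (q : Lift ρbar S) (sq : P.decompositionSubgroup ℚ →* S.R),
        DetCyclotomic p S q → OrdinaryShape P S q sq → FinLevel (sq.comp T.homD) :=
      fun q sq hq hqs => by
      have e : (fun g => (sq.comp T.homD) g) = fun g => (E S q * q.M (T.hom g)).trace :=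
        funext fun g => hsval S q sq hq hqs g
      show FinLevel fun g => (sq.comp T.homD) g
      rw [e]
      exact (finLevel_lift T q hS).comp fun X => (E S q * X).trace
    have hss : ∀ g, s (T.homD g) = s' (T.homD g) := fun g =>
      hom_ext_frob (hlev r s hdet hs) (hlev r' s' hdet' hs')
        (fun i hi => hs.1 _ ((T.hom_mem_inertia_iff i).mpr hi))
        (fun i hi => hs'.1 _ ((T.hom_mem_inertia_iff i).mpr hi)) hfrob (by
          show s (T.homD d₀) = s' (T.homD d₀)
          rw [hsval S r s hdet hs, hsval S r' s' hdet' hs', va]) g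
    have hdd : ∀ g, (r.M (T.hom g)).det * s (T.homD g)⁻¹ =
        (r'.M (T.hom g)).det * s' (T.homD g)⁻¹ := fun g => by
      rw [det_eq_det hpO hdet hdet' (T.hom g), ← map_inv T.homD, hss]
    -- the off-diagonal entries agree
    set δ : GalLoc p → S.R := fun g => F S r g - F S r' g with hδdef
    have hδ : ∀ g, δ g ∈ maximalIdeal S.R := fun g => by
      rw [LocalModel.mem_max_iff, map_sub, hFred S r g hdet, hFred S r' g hdet', sub_self]
    have hzero : ∀ g, δ g = 0 := fun g => by
      by_contra hne0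
      obtain ⟨lm, hadd, hsmul, hlm⟩ := exists_tangent_functional hS (hδ g) hne0
      let u : GalLoc p → 𝕜 := fun g => S.red (s (T.homD g))
      have hu2 : ∀ g, u g * u g = 1 := hsq S r s hdet hs hsφ
      have h0 : lm 0 = 0 := by
        have := hadd 0 (zero_mem _) 0 (zero_mem _)
        rwa [add_zero, left_eq_add] at this
      let ψ : GalLoc p → 𝕜 := fun g => lm (δ g) * u g
      have hψ : IsCocycle 1 (cyc U 𝕜) ψ := by
        refine ⟨?_, fun g _ h _ => ?_⟩
        · have e : ψ = fun g => lm (cj (frame V S) (fPart (E S r) (r.M (T.hom g))) 0 1 -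
              cj (frame V S) (fPart (E S r') (r'.M (T.hom g))) 0 1) *
                (E₀ * ρbar (T.hom g)).trace := funext fun g => by
            show lm (δ g) * S.red (s (T.homD g)) = _
            rw [hsbar S r s hdet hs g]
          rw [e]
          exact ((((finLevel_lift T r hS).prod (finLevel_lift T r' hS)).prod
            (finLevel_residual T r)).comp fun q =>
              lm (cj (frame V S) (fPart (E S r) q.1.1) 0 1 -
                cj (frame V S) (fPart (E S r') q.1.2) 0 1) * (E₀ * q.2).trace)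
        · have e1 : δ (g * h) =
              ((r.M (T.hom g)).det * s (T.homD g)⁻¹) * δ h + s (T.homD h) * δ g := by
            simp only [hδdef]
            rw [hFmul S r s hdet hs g h, hFmul S r' s' hdet' hs' g h, ← hdd g, ← hss h]
            ring
          have hgh : u (g * h) = u g * u h := by simp only [u, map_mul]
          show lm (δ (g * h)) * u (g * h) = lm (δ g) * u g + cyc U 𝕜 g * (lm (δ h) * u h)
          rw [e1, hadd _ (Ideal.mul_mem_left _ _ (hδ h)) _ (Ideal.mul_mem_left _ _ (hδ g)),
            hsmul _ _ (hδ h), hsmul _ _ (hδ g), hdbar S r s hdet hs hsφ g, hgh]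
          linear_combination (cyc U 𝕜 g * lm (δ h) * u h) * hu2 g + (lm (δ g) * u g) * hu2 h
      have hδ0 : δ g₀ = 0 := by
        simp only [hδdef, F]
        have e1 := L.fPart_g₀
        have e2 := L'.fPart_g₀
        simp only [MonoidHom.comp_apply] at e1 e2
        simp only [E]
        rw [e1, e2, cj_zero, sub_self]
      have hψ0 : ∀ x, δ x = 0 → ψ x = 0 := fun x hx => by
        show lm (δ x) * _ = 0
        rw [hx, h0, zero_mul]
      have h := congrFun (hg₁ ψ hψ (hψ0 _ hδ0) (hψ0 _ (sub_eq_zero.mpr vx))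
        (hψ0 _ (sub_eq_zero.mpr v2))) g
      refine hlm ?_
      calc lm (δ g) = lm (δ g) * u g * u g := by rw [mul_assoc, hu2, mul_one]
        _ = 0 := by rw [show lm (δ g) * u g = 0 from h, zero_mul]
    obtain ⟨g', rfl⟩ := T.exists_hom_eq hg
    have e1 := L.decomp g'
    have e2 := L'.decomp g'
    simp only [MonoidHom.comp_apply] at e1 e2
    have hf : fPart (E S r) (r.M (T.hom g') - r'.M (T.hom g')) = 0 := by
      refine cj_injective (frame V S) ?_
      have hmap : cj (frame V S) (fPart (E S r) (r.M (T.hom g') - r'.M (T.hom g'))) =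
          fPart (cj (frame V S) (E S r)) (cj (frame V S) (r.M (T.hom g') - r'.M (T.hom g'))) := by
        simp only [fPart, cj_mul, cj_sub, cj_one]
      have hD : ∀ i j, cj (frame V S) (r.M (T.hom g') - r'.M (T.hom g')) i j ∈ maximalIdeal S.R :=
        fun i j => by
          rw [LocalModel.mem_max_iff, ← Matrix.map_apply (f := S.red), red_frame,
            Matrix.map_sub _ (map_sub S.red), r.reduces, r'.reduces, sub_self, cj_zero]
          rfl
      have h01 : cj (frame V S) (E S r) 0 1 ∈ maximalIdeal S.R := by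
        rw [LocalModel.mem_max_iff, hEmem S r s hdet hs]; rfl
      have h10 : cj (frame V S) (E S r) 1 0 ∈ maximalIdeal S.R := by
        rw [LocalModel.mem_max_iff, hEmem S r s hdet hs]; rfl
      have h3 := fPart_tangent hS h01 h10 hD
      rw [← hcE] at h3
      have hlin : fPart (E S r) (r.M (T.hom g') - r'.M (T.hom g')) =
          fPart (E S r) (r.M (T.hom g')) - fPart (E S r') (r'.M (T.hom g')) := by
        rw [← hEE]
        simp [fPart, mul_sub, sub_mul]
      have h4 : cj (frame V S) (fPart (E S r) (r.M (T.hom g') - r'.M (T.hom g'))) 0 1 = 0 := by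
        rw [hlin, cj_sub, Matrix.sub_apply]
        exact hzero g'
      rw [hmap, h3] at h4 ⊢
      have h6 : cj (frame V S) (r.M (T.hom g') - r'.M (T.hom g')) 0 1 = 0 := h4
      rw [cj_zero, h6]
      refine Matrix.ext fun i j => ?_
      fin_cases i <;> fin_cases j <;> rfl
    refine sub_eq_zero.mp ?_
    have hEr : eProj (r.M (T.hom g₀)) = eProj (r'.M (T.hom g₀)) := hEE
    rw [← hEr] at e2
    have h5 : fPart (eProj (r.M (T.hom g₀))) (r.M (T.hom g')) -
        fPart (eProj (r.M (T.hom g₀))) (r'.M (T.hom g')) = 0 := by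
      rw [← hf]
      simp [fPart, E, mul_sub, sub_mul]
    conv_lhs => rw [e1, e2]
    rw [hdd g', hss g', add_sub_add_left_eq_sub]
    exact h5
  · show (E S r * r.M (T.hom d₀)).trace - S.alg s₀ = s φ - S.alg s₀
    rw [← hsval S r s hdet hs, hd₀']
  · show F S r σ * (s φ - S.alg s₀) = 0
    have hunit : IsUnit (s φ + S.alg s₀) := LocalModel.isUnit_of_red_ne_zero (by
      rw [map_add, hsφ, S.red_alg, ← two_mul]
      exact mul_ne_zero hk2 fun h0 => by rw [h0, zero_mul] at hs2; exact zero_ne_one hs2)
    have h := quiet_mul T hpO U hdet hs hg₀ hne hσ d₀ (frame V S)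
    rw [hd₀'] at h
    have hs₀S : S.alg s₀ * S.alg s₀ = 1 := by rcases hs₀ with h | h <;> simp [h]
    refine hunit.mul_left_eq_zero.mp ?_
    linear_combination h - F S r σ * hs₀S

end Fermat.Agent.LocalModelP
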