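import Fermat.Agent.LocalModelP.FlatOrd

/-!
# The ordinary shape of a flat residual representation with a stable line
-/

set_option autoImplicit false

noncomputable section

open Matrix Module

namespace Fermat.Agent.LocalModelP

open Fermat.Agent.Duality Fermat.Agent.FlatBound Fermat.Agent.FlatModel Fermat.Agent.Deformation

local notation "ℚbar" => AlgebraicClosure ℚ

variable {p : ℕ} [hp : Fact p.Prime] {P : ValuationSubring ℚbar} {T : AtPlace p P}
  {k : Type} [Field k]

omit hp in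
theorem conjRep_det (U : (M2 k)ˣ) (ρ : GQ →* M2 k) (σ : GQ) :
    (conjRep U ρ σ).det = (ρ σ).det := by
  rw [conjRep_apply, Matrix.det_mul, Matrix.det_mul, mul_right_comm, ← Matrix.det_mul,
    Units.mul_inv, Matrix.det_one, one_mul]

omit hp in
/-- An eigenvector gives a triangular frame. -/
theorem exists_lower_frame {ι : Type} (M : ι → M2 k) {v : Fin 2 → k} (hv : v ≠ 0)
    (h : ∀ i, ∃ c : k, (M i).mulVec v = c • v) :
    ∃ U : (M2 k)ˣ, ∀ i, ((U : M2 k) * M i * (↑U⁻¹ : M2 k)) 1 0 = 0 := by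
  have hw : ∃ w : Fin 2 → k, v 0 * w 1 - w 0 * v 1 ≠ 0 := by
    by_cases h0 : v 0 = 0
    · refine ⟨![1, 0], ?_⟩
      have h1 : v 1 ≠ 0 := fun h1 => hv (funext fun i => by fin_cases i <;> simpa)
      simpa [h0] using h1
    · exact ⟨![0, 1], by simpa using h0⟩
  obtain ⟨w, hw⟩ := hw
  obtain ⟨Q, hQ⟩ := (Matrix.isUnit_iff_isUnit_det !![v 0, w 0; v 1, w 1]).mpr (by
    rw [Matrix.det_fin_two_of]; exact isUnit_iff_ne_zero.mpr hw)
  refine ⟨Q⁻¹, fun i => ?_⟩
  obtain ⟨c, hc⟩ := h i
  have hcol : (Q : M2 k).mulVec (Pi.single 0 1) = v := by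
    rw [hQ]
    funext l
    fin_cases l <;> simp [Matrix.mulVec, dotProduct, Fin.sum_univ_two]
  have h2 : ((↑Q⁻¹ : M2 k) * M i * (Q : M2 k)).mulVec (Pi.single 0 1) = c • Pi.single 0 1 := by
    rw [← Matrix.mulVec_mulVec, ← Matrix.mulVec_mulVec, hcol, hc, Matrix.mulVec_smul]
    congr 1
    conv_rhs => rw [← Matrix.one_mulVec (Pi.single (0 : Fin 2) (1 : k)), ← Units.inv_mul Q]
    rw [← Matrix.mulVec_mulVec, hcol]
  have h3 := congrFun h2 1
  rw [inv_inv]
  simpa using h3

variable [Finite k] [CharP k p]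

/-- Characters of the local group are trivial on `J` for `e = p - 1`. -/
theorem hom_eq_one_on_J {p : ℕ} [Fact p.Prime] {k : Type} [Field k] [CharP k p] (U : Unif p)
    (he : U.e = p ^ 1 - 1) (χ : GalLoc p →* k) (L₀ : IntermediateField ℚ_[p] (PadicAlgCl p))
    [FiniteDimensional ℚ_[p] L₀] (hfac : ∀ g g' : GalLoc p, (∀ x ∈ L₀, g x = g' x) → χ g = χ g')
    {g : GalLoc p} (hg : g ∈ U.J) : χ g = 1 := by
  obtain ⟨φ, hφ⟩ := exists_isFrob (p := p)
  refine char_eq_one_on_J U (d := 1) he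
    (χ.comp (inertiaLoc p).subtype) L₀
    (fun x hx => (hfac (x : GalLoc p) 1 fun y hy => hx y hy).trans (map_one χ)) hφ (fun x => ?_)
    (g := ⟨g, (U.mem_J.mp hg).1⟩) hg
  simp only [MonoidHom.comp_apply, Subgroup.subtype_apply, map_mul]
  rw [mul_right_comm, ← map_mul, mul_inv_cancel, map_one, one_mul]

/-- A flat representation with a stable line has an ordinary frame. -/
theorem exists_ordFrame {U : Setup p} (he : U.e₁ = 1) (hN : Nat.card kˣ ∣ U.N) {ρ : GQ →* M2 k}
    (h0 : IsFlatTan p ρ 0) (hp2 : p ≠ 2) (hdet : ∀ g : GalLoc p, (ρ (T.hom g)).det = cyc U k g)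
    (hlow : ∀ g : GalLoc p, ρ (T.hom g) 1 0 = 0) :
    ∃ Q : (M2 k)ˣ, OrdFrame T U (conjRep Q ρ) := by
  obtain ⟨M₀⟩ := h0.residual
  obtain ⟨M⟩ := nonempty_model_actAt T M₀
  have hG : ∀ x : Fin 2 → k, p • x = 0 := fun x => by
    rw [← Nat.cast_smul_eq_nsmul k, CharP.cast_eq_zero, zero_smul]
  have hmul : ∀ g h : GalLoc p, ρ (T.hom (g * h)) 0 0 = ρ (T.hom g) 0 0 * ρ (T.hom h) 0 0 ∧
      ρ (T.hom (g * h)) 1 1 = ρ (T.hom g) 1 1 * ρ (T.hom h) 1 1 := fun g h => by
    simp [Matrix.mul_apply, Fin.sum_univ_two, hlow]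
  let χ : GalLoc p →* k :=
    { toFun := fun g => ρ (T.hom g) 0 0
      map_one' := by simp
      map_mul' := fun g h => (hmul g h).1 }
  obtain ⟨φ, hφ⟩ := exists_isFrob (p := p)
  obtain ⟨L₀, hL₀, hfac₀⟩ := h0.level T
  have he' : U.e = p - 1 := setup_e_one he
  have hJ : ∀ g ∈ U.J, χ g = 1 := fun g hg =>
    hom_eq_one_on_J U.toUnif (by rw [he', pow_one]) χ L₀ (fun g g' hg =>
      congrArg (fun q : M2 k × M2 k => q.1 0 0) (hfac₀ g g' hg)) hg
  obtain ⟨τ, hτ, z, hz, hτπ⟩ := U.toUnif.exists_generator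
  have hcycJ : ∀ g ∈ U.J, cyc U k g = 1 := fun g hg => cyc_GF (U.J_le hg)
  have hgen : ∀ g ∈ inertiaLoc p, ∃ (j : ℕ) (s : GalLoc p), s ∈ U.J ∧ g = τ ^ j * s := fun g hg =>
    let ⟨j, _, s, hs, e⟩ := U.toUnif.exists_eq_pow_mul hτ hz hτπ hg
    ⟨j, s, hs, e⟩
  by_cases hχ : ∀ g ∈ inertiaLoc p, χ g = 1
  · -- the sub is unramified: the representation splits
    have h22 : ∀ g ∈ inertiaLoc p, ρ (T.hom g) 1 1 = cyc U k g := fun g hg => by
      have h := hdet g
      rw [Matrix.det_fin_two, hlow, mul_zero, sub_zero, show ρ (T.hom g) 0 0 = 1 from hχ g hg,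
        one_mul] at h
      exact h
    have hb : ∀ g ∈ U.J, ρ (T.hom g) 0 1 = 0 := by
      intro g hg
      have hgI := (U.toUnif.mem_J.mp hg).1
      have h1 := isConn_act_sub M hgI (Pi.single 1 1)
      rw [actAt_loc] at h1
      have e : colAct ρ (T.hom g) (Pi.single 1 1) - Pi.single 1 1 = ![ρ (T.hom g) 0 1, 0] := by
        funext l
        fin_cases l <;> simp [colAct_apply, show ρ (T.hom g) 1 1 = 1 from (h22 g hgI).trans
          (hcycJ g hg)]
      rw [e] at h1
      have h2 := eq_zero_of_isConn_fixed M hG hp2 h1 fun g' hg' => by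
        rw [actAt_loc]
        funext l
        fin_cases l <;> simp [colAct_apply, Matrix.mulVec, dotProduct, Fin.sum_univ_two, hlow,
          show ρ (T.hom g') 0 0 = 1 from hχ g' hg']
      simpa using congrFun h2 0
    set ψ : GalLoc p → k := fun g => ρ (T.hom g) 0 0 / ρ (T.hom g) 1 1
    have hne : ∀ g, ρ (T.hom g) 1 1 ≠ 0 := fun g h => by
      have := (hmul g g⁻¹).2
      rw [mul_inv_cancel, h, zero_mul] at this
      simp at this
    have hψ : IsChar 1 ψ :=
      ⟨(h0.level T).comp fun q => q.1 0 0 / q.1 1 1, by simp [ψ], fun g _ h _ => by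
        simp only [ψ, (hmul g h).1, (hmul g h).2]; rw [mul_div_mul_comm]⟩
    set b : GalLoc p → k := fun g => ρ (T.hom g) 0 1 / ρ (T.hom g) 1 1
    have hbc : IsCocycle 1 ψ b := by
      refine ⟨(h0.level T).comp fun q => q.1 0 1 / q.1 1 1, fun g _ h _ => ?_⟩
      show _ / _ = _ / _ + _ / _ * (_ / _)
      rw [(hmul g h).2]
      have := hne g
      have := hne h
      simp [Matrix.mul_apply, Fin.sum_univ_two]
      field_simp
      ring
    obtain ⟨O, -, -, -⟩ := exists_ops U one_ne_zero hψ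
    have hw1 : cyc U k O.τ ≠ 1 := by
      intro h1
      rw [cyc_eq O.τ_ζ, ← Nat.cast_one, CharP.natCast_eq_natCast k p,
        ← CharP.natCast_eq_natCast (Res p) p, O.cast_w, Nat.cast_one, he, pow_one] at h1
      have h2 := O.red_z_prim.eq_orderOf
      rw [h1, orderOf_one, he'] at h2
      have := hp.out.two_le
      omega
    set Y := b O.τ / (ψ O.τ - 1)
    have hY : ∀ g, ρ (T.hom g) 0 1 = (ρ (T.hom g) 0 0 - ρ (T.hom g) 1 1) * Y := fun g => by
      have h := hbc.eq_coboundary one_ne_zero O hψ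
        (by
          show χ O.τ / _ ≠ 1
          rw [hχ _ O.τ_mem, h22 _ O.τ_mem, one_div, Ne, inv_eq_one]
          exact hw1)
        (fun s hs => by
          show _ / _ = 0
          rw [hb s hs, zero_div]) (mem_Kd_one g)
        (fun s hs => by
          show χ s / _ = 1
          rw [hJ s hs, h22 s (U.toUnif.mem_J.mp hs).1, hcycJ s hs, div_one])
      change ρ (T.hom g) 0 1 / _ = (ρ (T.hom g) 0 0 / _ - 1) * Y at h
      have := hne g
      field_simp at h
      linear_combination h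
    let Q : (M2 k)ˣ :=
      { val := !![0, 1; 1, Y]
        inv := !![-Y, 1; 1, 0]
        val_inv := Matrix.ext fun i j => by
          fin_cases i <;> fin_cases j <;> simp [Matrix.mul_apply, Fin.sum_univ_two]
        inv_val := Matrix.ext fun i j => by
          fin_cases i <;> fin_cases j <;> simp [Matrix.mul_apply, Fin.sum_univ_two] }
    refine ⟨Q, ⟨he, hN, fun g => by rw [conjRep_det]; exact hdet g, fun g => ?_, fun g hg => ?_⟩⟩
    · simp [Q, conjRep_apply, Matrix.mul_apply, Matrix.vecMul, dotProduct, Fin.sum_univ_two, hlow,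
        hY g]
      ring
    · simp [Q, conjRep_apply, Matrix.mul_apply, Matrix.vecMul, dotProduct, Fin.sum_univ_two, hlow,
        show ρ (T.hom g) 0 0 = 1 from hχ g hg]
  · -- the sub is the cyclotomic character
    push Not at hχ
    obtain ⟨g₁, hg₁, hne₁⟩ := hχ
    have h1 := isConn_act_sub M hg₁ (Pi.single 0 1)
    rw [actAt_loc] at h1
    set x₁ : Fin 2 → k := colAct ρ (T.hom g₁) (Pi.single 0 1) - Pi.single 0 1
    have hx₁ : x₁ = (χ g₁ - 1) • Pi.single 0 1 := by
      funext l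
      fin_cases l <;> simp [x₁, colAct_apply, hlow, χ]
    have hx₁0 : x₁ ≠ 0 := fun h => by
      have := congrFun h 0
      rw [hx₁] at this
      exact hne₁ (sub_eq_zero.mp (by simpa using this))
    have hact : ∀ g, colAct ρ (T.hom g) x₁ = χ g • x₁ := fun g => by
      funext l
      fin_cases l <;> simp [hx₁, colAct_apply, Matrix.mulVec, dotProduct, Fin.sum_univ_two, hlow, χ,
        mul_comm]
    obtain ⟨m, hm1, hm, hrel⟩ := exists_exponent_conn M hG U.toUnif h1 hx₁0 fun g hg => by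
      rw [actAt_loc, hact, hJ g hg, one_smul]
    have hτ' : χ τ ^ (p - 1) = 1 := by
      rw [← map_pow]
      refine hJ _ (U.toUnif.mem_J.mpr ⟨pow_mem hτ _, ?_⟩)
      rw [U.toUnif.pow_apply_π hτ hz.pow_eq_one hτπ, ← he', hz.pow_eq_one, one_mul]
    obtain ⟨c, hc⟩ := exists_castHom_eq (p := p) (x := χ τ) (by
      calc χ τ ^ p = χ τ ^ (p - 1) * χ τ := by
            rw [← pow_succ, Nat.sub_add_cancel hp.out.one_le]
        _ = χ τ := by rw [hτ', one_mul])
    obtain ⟨n, rfl⟩ := ZMod.natCast_zmod_surjective c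
    rw [map_natCast] at hc
    have hm' : m = 1 := by
      have hp1 : 0 < p - 1 := by have := hp.out.two_le; omega
      rw [he'] at hm
      have : m * (p - 1) ≤ 1 * (p - 1) := by rwa [one_mul]
      have := Nat.le_of_mul_le_mul_right this hp1
      omega
    have h2 := hrel τ hτ z hτπ ((p - 1) * n) 1 0 (by
      rw [zero_smul, zero_add, one_smul, actAt_loc, hact, ← Nat.cast_smul_eq_nsmul k, ← hc,
        ← add_smul]
      refine smul_eq_zero.mpr (Or.inl ?_)
      rw [Nat.cast_mul, Nat.cast_sub hp.out.one_le, CharP.cast_eq_zero k p, Nat.cast_one]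
      ring)
    rw [hm', pow_one, Nat.cast_mul, Nat.cast_sub hp.out.one_le, CharP.cast_eq_zero (Res p) p,
      Nat.cast_one, Nat.cast_zero] at h2
    obtain ⟨a, ha, ha'⟩ := cyc_spec (k := k) U τ
    have hna : χ τ = cyc U k τ := by
      have h3 := U.toUnif.cast_eq_red_pow U.e_eq U.ne_two U.hζ hτπ ha
      rw [he, pow_one] at h3
      rw [ha', ← hc, CharP.natCast_eq_natCast k p, ← CharP.natCast_eq_natCast (R := Res p) (p := p),
        h3]
      linear_combination -h2
    refine ⟨1, ⟨he, hN, fun g => by rw [conjRep_det]; exact hdet g, fun g => by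
      simp [conjRep_apply, hlow], fun g hg => ?_⟩⟩
    have h4 : χ g = cyc U k g := by
      obtain ⟨j, s, hs, rfl⟩ := hgen g hg
      rw [map_mul, map_pow, hJ s hs, hna, (cyc_isChar (k := k) U).mul _ (mem_Kd_one _) _
        (mem_Kd_one _), hcycJ s hs]
      congr 1
      induction j with
      | zero => rw [pow_zero, pow_zero, (cyc_isChar (k := k) U).map_one]
      | succ j ih =>
        rw [pow_succ, pow_succ, (cyc_isChar (k := k) U).mul _ (mem_Kd_one _) _ (mem_Kd_one _),
          ih (pow_mem hτ j |> fun h => mul_mem h (U.toUnif.mem_J.mp hs).1)]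
    have h5 := hdet g
    rw [Matrix.det_fin_two, hlow, mul_zero, sub_zero, show ρ (T.hom g) 0 0 = _ from h4,
      mul_right_eq_self₀] at h5
    simpa [conjRep_apply] using h5.resolve_right (h4 ▸ fun h => by
      have := map_mul χ g g⁻¹
      rw [mul_inv_cancel, map_one, h, zero_mul] at this
      exact one_ne_zero this)

end Fermat.Agent.LocalModelP
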