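import Fermat.Agent.LocalModelP.Count
import Fermat.Agent.LocalModelP.Frame

/-!
# Coordinates of Steinberg lifts at `p`
-/

set_option autoImplicit false

noncomputable section

open IsLocalRing Matrix

namespace Fermat.Agent.LocalModelP

open Fermat.Agent.Duality Fermat.Agent.Deformation Fermat.Agent.Root.Patched

local notation "ℚbar" => AlgebraicClosure ℚ

variable {O : Type} [CommRing O] [IsLocalRing O] {ρbar : GQ →* M2 (ResidueField O)}
  {p : ℕ} [hp : Fact p.Prime]

set_option quotPrecheck false in
local notation "𝕜" => ResidueField O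

theorem exists_setup_one (hp2 : p ≠ 2) : ∃ U : Setup p, U.e₁ = 1 := by
  obtain ⟨U, h1, -⟩ := exists_setup (p := p) (e₁ := 1) (N := 1) hp2 one_ne_zero (by simp)
  exact ⟨U, h1⟩

/-- **`p`, Steinberg**: four coordinates. -/
theorem exists_coords_steinberg [Finite (ResidueField O)] (hp2 : p ≠ 2)
    (hpO : (p : O) ∈ maximalIdeal O) (P : ValuationSubring ℚbar) (hP : P.LiesOverPrime p) :
    Nonempty (Coords ρbar P (Fin 4)
      fun S r => DetCyclotomic p S r ∧ SteinbergShape P S r) := by
  classical
  have := charP_residue hp.out hpO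
  have hk2 := LocalModel.two_ne_zero hpO hp.out hp2
  obtain ⟨T⟩ := exists_atPlace hP
  obtain ⟨U, hU⟩ := exists_setup_one hp2
  obtain ⟨g₀, hg₀, hne⟩ := exists_cyc_ne_one (k := ResidueField O) hU
  obtain ⟨x, hx⟩ := exists_cyclotomic_points hU hne
  let E₀ : M2 𝕜 := eProj (ρbar (T.hom g₀))
  let U₀ : (M2 𝕜)ˣ :=
    if h : E₀ * E₀ = E₀ ∧ E₀.trace = 1 then (exists_conj_diag h.1 h.2).choose else 1
  obtain ⟨V, hV⟩ := exists_frame_lift U₀
  let E : ∀ S : TestRing O, Lift ρbar S → M2 S.R := fun S r => eProj (r.M (T.hom g₀))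
  let F : ∀ S : TestRing O, Lift ρbar S → GalLoc p → S.R := fun S r g =>
    cj (frame V S) (fPart (E S r) (r.M (T.hom g))) 0 1
  let fbar : GalLoc p → 𝕜 := fun g => cj U₀ (fPart E₀ (ρbar (T.hom g))) 0 1
  let raw : ∀ S : TestRing O, Lift ρbar S → Fin 4 → S.R := fun S r =>
    ![cj (frame V S) (E S r) 0 1, cj (frame V S) (E S r) 1 0, F S r (x 0), F S r (x 1)]
  have hc : ∀ i : Fin 4, ∃ c : O, residue O c = ![0, 0, fbar (x 0), fbar (x 1)] i := fun i =>
    residue_surjective _
  choose c hc using hc
  -- facts on a lift of the given shape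
  have hu : ∀ (S : TestRing O) (r : Lift ρbar S), DetCyclotomic p S r →
      IsUnit ((r.M (T.hom g₀)).det - 1) := fun S r hdet =>
    LocalModel.isUnit_of_red_ne_zero (by
      rw [map_sub, map_one, LocalModel.red_det, red_det_hom hpO T U hdet g₀]
      exact sub_ne_zero.mpr hne)
  have hEred : ∀ (S : TestRing O) (r : Lift ρbar S), DetCyclotomic p S r →
      (E S r).map S.red = E₀ := fun S r hdet => by
    rw [map_eProj _ (hu S r hdet), r.reduces]
  have hidem : ∀ (S : TestRing O) (r : Lift ρbar S), DetCyclotomic p S r → SteinbergShape P S r →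
      E₀ * E₀ = E₀ ∧ E₀.trace = 1 := fun S r hdet hs => by
    obtain ⟨s, hs, -⟩ := hs
    have L := (line_of_ordinary T hpO U hdet hs hg₀ hne).map S.red
    have he : S.red.mapMatrix.toMonoidHom.comp (r.M.comp T.hom) g₀ = ρbar (T.hom g₀) :=
      r.reduces _
    refine ⟨?_, ?_⟩
    · have := L.proj_idem
      rwa [he] at this
    · have := L.trace_proj (by rw [he]; exact isUnit_det_lift ρbar _)
      rwa [he] at this
  have hframe : ∀ (S : TestRing O) (r : Lift ρbar S), DetCyclotomic p S r → SteinbergShape P S r →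
      cj U₀ E₀ = !![0, 0; 0, 1] := fun S r hdet hs => by
    have h := hidem S r hdet hs
    have h1 := (exists_conj_diag h.1 h.2).choose_spec
    rw [show U₀ = (exists_conj_diag h.1 h.2).choose from dif_pos h]
    revert h1
    generalize (exists_conj_diag h.1 h.2).choose = W
    intro h1
    rw [cj, h1]
    simp [mul_assoc]
  have hFred : ∀ (S : TestRing O) (r : Lift ρbar S) g, DetCyclotomic p S r →
      S.red (F S r g) = fbar g := fun S r g hdet => by
    show S.red (cj _ _ 0 1) = cj _ _ 0 1
    rw [← Matrix.map_apply (f := S.red), red_frame, hV, map_fPart, hEred S r hdet, r.reduces]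
  refine ⟨{
    val := fun S r i => raw S r i - S.alg (c i)
    mem := ?_
    natural := ?_
    determine := ?_ }⟩
  · intro S r hr i
    have he : ∀ i j, S.red (cj (frame V S) (E S r) i j) = !![(0 : 𝕜), 0; 0, 1] i j := fun i j => by
      rw [← Matrix.map_apply (f := S.red), red_frame, hV, hEred S r hr.1, hframe S r hr.1 hr.2]
    rw [LocalModel.mem_max_iff, map_sub, S.red_alg, hc]
    fin_cases i <;> simp [raw, he, hFred S r _ hr.1]
  · intro S S' φ hφ _ r r' hr' hr i
    have hE : (E S r).map φ = E S' r' := by rw [map_eProj _ (hu S r hr.1), ← hr']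
    have hcj : ∀ (M : M2 S.R) i j, φ (cj (frame V S) M i j) =
        cj (frame V S') (M.map φ) i j := fun M i j => by
      rw [← map_frame V φ hφ]; rfl
    have hF : ∀ g, φ (F S r g) = F S' r' g := fun g => by
      simp only [F]
      rw [hcj, map_fPart, hE, ← hr']
    rw [map_sub, show φ (S.alg (c i)) = S'.alg (c i) from RingHom.congr_fun hφ _]
    congr 1
    fin_cases i <;> simp [raw, hcj, hE, hF]
  intro S hS r r' hr hr' hv g hg
  have hv' : ∀ i, raw S r i = raw S r' i := fun i => by simpa using congrFun hv i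
  obtain ⟨hdet, hst⟩ := hr
  obtain ⟨hdet', hst'⟩ := hr'
  have hdiag := hframe S r hdet hst
  obtain ⟨s, hs, hs1⟩ := hst
  obtain ⟨s', hs', hs1'⟩ := hst'
  have L := line_of_ordinary T hpO U hdet hs hg₀ hne
  have L' := line_of_ordinary T hpO U hdet' hs' hg₀ hne
  -- the projectors agree
  have hEmem : ∀ (q : Lift ρbar S), DetCyclotomic p S q → ∀ i j,
      S.red (cj (frame V S) (E S q) i j) = !![(0 : 𝕜), 0; 0, 1] i j := fun q hq i j => by
    rw [← Matrix.map_apply (f := S.red), red_frame, hV, hEred S q hq, hdiag]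
  have hdetu : ∀ q : Lift ρbar S, IsUnit ((q.M.comp T.hom) g₀).det := fun q =>
    isUnit_det_lift q.M _
  have key : ∀ (q : Lift ρbar S), DetCyclotomic p S q →
      E S q * E S q = E S q → (E S q).trace = 1 → cj (frame V S) (E S q) =
        !![0, cj (frame V S) (E S q) 0 1; cj (frame V S) (E S q) 1 0, 1] := fun q hq h1 h2 => by
    refine eq_of_idem hS (by rw [← cj_mul, h1]) (by rw [trace_cj, h2]) ?_ ?_ ?_ <;>
      rw [LocalModel.mem_max_iff, hEmem q hq] <;> rfl
  have hcE := key r hdet L.proj_idem (L.trace_proj (hdetu r))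
  have hcE' := key r' hdet' L'.proj_idem (L'.trace_proj (hdetu r'))
  have hEE : E S r = E S r' := cj_injective (frame V S) (by
    rw [hcE, hcE', show cj (frame V S) (E S r) 0 1 = cj (frame V S) (E S r') 0 1 from hv' 0,
      show cj (frame V S) (E S r) 1 0 = cj (frame V S) (E S r') 1 0 from hv' 1])
  -- the characters agree
  have hsbar : ∀ (q : Lift ρbar S) (s : P.decompositionSubgroup ℚ →* S.R),
      DetCyclotomic p S q → OrdinaryShape P S q s → ∀ g,
      S.red (s (T.homD g)) = (E₀ * ρbar (T.hom g)).trace := fun q s hq hqs g => by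
    have L₀ := line_of_ordinary T hpO U hq hqs hg₀ hne
    rw [show s (T.homD g) = _ from L₀.s_eq_trace (hdetu q) g, MonoidHom.comp_apply,
      MonoidHom.comp_apply, Matrix.trace_fin_two, Matrix.trace_fin_two, map_add,
      ← Matrix.map_apply (f := S.red), ← Matrix.map_apply (f := S.red),
      ← RingHom.mapMatrix_apply S.red, map_mul, RingHom.mapMatrix_apply, RingHom.mapMatrix_apply,
      hEred S q hq, q.reduces]
  have hsne : ∀ g, (E₀ * ρbar (T.hom g)).trace ^ 2 = 1 := fun g => by
    rw [← hsbar r s hdet hs g, ← map_pow, sq, hs1, map_one]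
  have hss : ∀ g, s (T.homD g) = s' (T.homD g) := fun g => by
    refine LocalModel.eq_of_sq_eq_sq (by rw [sq, sq, hs1, hs1'])
      (LocalModel.isUnit_of_red_ne_zero ?_)
    rw [map_add, hsbar r s hdet hs, hsbar r' s' hdet' hs', ← two_mul]
    refine mul_ne_zero hk2 fun h0 => ?_
    have := hsne g
    rw [h0, zero_pow two_ne_zero] at this
    exact zero_ne_one this
  have hdd : ∀ g, (r.M (T.hom g)).det * s (T.homD g)⁻¹ =
      (r'.M (T.hom g)).det * s' (T.homD g)⁻¹ := fun g => by
    rw [det_eq_det hpO hdet hdet' (T.hom g), ← map_inv T.homD, hss]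
  -- the off-diagonal entries agree
  set e := cj (frame V S) (E S r)
  set δ : GalLoc p → S.R := fun g => F S r g - F S r' g with hδdef
  have hδ : ∀ g, δ g ∈ maximalIdeal S.R := fun g => by
    rw [LocalModel.mem_max_iff, map_sub, hFred S r g hdet, hFred S r' g hdet', sub_self]
  have hFmul : ∀ (q : Lift ρbar S) (d t : GalLoc p → S.R), Line (q.M.comp T.hom) d t g₀ →
      ∀ g h, F S q (g * h) = d g * F S q h + t h * F S q g := fun q d t Lq g h => by
    show cj _ (fPart _ (q.M (T.hom (g * h)))) 0 1 = _
    rw [show q.M (T.hom (g * h)) = (q.M.comp T.hom) (g * h) from rfl,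
      show E S q = eProj ((q.M.comp T.hom) g₀) from rfl, Lq.fPart_mul, cj_add, cj_smul, cj_smul,
      Matrix.add_apply, Matrix.smul_apply, Matrix.smul_apply, smul_eq_mul, smul_eq_mul]
    rfl
  have hzero : ∀ g, δ g = 0 := fun g => by
    by_contra hne0
    obtain ⟨lm, hadd, hsmul, hlm⟩ := exists_tangent_functional hS (hδ g) hne0
    let sb : GalLoc p → 𝕜 := fun g => (E₀ * ρbar (T.hom g)).trace
    have hsb0 : ∀ g, sb g ≠ 0 := fun g h0 => by
      have := hsne g
      rw [show (E₀ * ρbar (T.hom g)).trace = 0 from h0, zero_pow two_ne_zero] at this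
      exact zero_ne_one this
    let ψ : GalLoc p → 𝕜 := fun g => lm (δ g) / sb g
    have hψ : IsCocycle 1 (cyc U 𝕜) ψ := by
      constructor
      · exact ((((finLevel_lift T r hS).prod (finLevel_lift T r' hS)).prod
          (finLevel_residual T r)).comp fun q =>
            lm (cj (frame V S) (fPart (E S r) q.1.1) 0 1 -
              cj (frame V S) (fPart (E S r') q.1.2) 0 1) / (E₀ * q.2).trace)
      · intro g _ h _
        have hd : S.red ((r.M (T.hom g)).det * s (T.homD g)⁻¹) = cyc U 𝕜 g * sb g := by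
          rw [map_mul, LocalModel.red_det, red_det_hom hpO T U hdet g]
          congr 1
          have h1 : S.red (s (T.homD g)⁻¹) * sb g = 1 := by
            rw [show sb g = S.red (s (T.homD g)) from (hsbar r s hdet hs g).symm, ← map_mul,
              ← map_mul, inv_mul_cancel, map_one, map_one]
          calc S.red (s (T.homD g)⁻¹) = S.red (s (T.homD g)⁻¹) * sb g ^ 2 := by
                rw [show sb g ^ 2 = 1 from hsne g, mul_one]
            _ = sb g := by rw [sq, ← mul_assoc, h1, one_mul]
        have hsh : sb (g * h) = sb g * sb h := by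
          simp only [sb]
          rw [← hsbar r s hdet hs (g * h), map_mul T.homD, map_mul, map_mul, hsbar r s hdet hs,
            hsbar r s hdet hs]
        have e1 : δ (g * h) =
            ((r.M (T.hom g)).det * s (T.homD g)⁻¹) * δ h + s (T.homD h) * δ g := by
          simp only [hδdef]
          rw [hFmul r _ _ L g h, hFmul r' _ _ L' g h, ← hdd g, ← hss h]
          ring
        show lm (δ (g * h)) / sb (g * h) = lm (δ g) / sb g + cyc U 𝕜 g * (lm (δ h) / sb h)
        rw [e1, hadd _ (Ideal.mul_mem_left _ _ (hδ h)) _ (Ideal.mul_mem_left _ _ (hδ g)),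
          hsmul _ _ (hδ h), hsmul _ _ (hδ g), hd, hsbar r s hdet hs h, hsh]
        have := hsb0 g
        have := hsb0 h
        simp only [sb] at *
        field_simp
        ring
    have hψ0 : ψ g₀ = 0 := by
      have hd0 : δ g₀ = 0 := by
        simp only [hδdef, F]
        have e1 := L.fPart_g₀
        have e2 := L'.fPart_g₀
        simp only [MonoidHom.comp_apply] at e1 e2
        simp only [E]
        rw [e1, e2, cj_zero, sub_self]
      show lm (δ g₀) / sb g₀ = 0
      rw [hd0]
      have := hadd 0 (zero_mem _) 0 (zero_mem _)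
      rw [add_zero, left_eq_add] at this
      rw [this, zero_div]
    have h0 : lm 0 = 0 := by
      have := hadd 0 (zero_mem _) 0 (zero_mem _)
      rwa [add_zero, left_eq_add] at this
    have hψx : ∀ i, ψ (x i) = 0 := fun i => by
      have : δ (x i) = 0 := by
        fin_cases i
        · exact sub_eq_zero.mpr (hv' 2)
        · exact sub_eq_zero.mpr (hv' 3)
      show lm (δ (x i)) / _ = 0
      rw [this, h0, zero_div]
    have := congrFun (hx ψ hψ hψ0 hψx) g
    exact hlm ((div_eq_zero_iff.mp this).resolve_right (hsb0 g))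
  obtain ⟨g', rfl⟩ := T.exists_hom_eq hg
  have e1 := L.decomp g'
  have e2 := L'.decomp g'
  simp only [MonoidHom.comp_apply] at e1 e2
  have hEr : eProj (r.M (T.hom g₀)) = eProj (r'.M (T.hom g₀)) := hEE
  rw [← hEr] at e2
  have hf : fPart (E S r) (r.M (T.hom g') - r'.M (T.hom g')) = 0 := by
    refine cj_injective (frame V S) ?_
    have hmap : cj (frame V S) (fPart (E S r) (r.M (T.hom g') - r'.M (T.hom g'))) =
        fPart e (cj (frame V S) (r.M (T.hom g') - r'.M (T.hom g'))) := by
      simp only [fPart, cj_mul, cj_sub, cj_one, e]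
    have hD : ∀ i j, cj (frame V S) (r.M (T.hom g') - r'.M (T.hom g')) i j ∈ maximalIdeal S.R :=
      fun i j => by
        rw [LocalModel.mem_max_iff, ← Matrix.map_apply (f := S.red), red_frame,
          Matrix.map_sub _ (map_sub S.red), r.reduces, r'.reduces, sub_self, cj_zero]
        rfl
    have h01 : cj (frame V S) (E S r) 0 1 ∈ maximalIdeal S.R := by
      rw [LocalModel.mem_max_iff, hEmem r hdet]; rfl
    have h10 : cj (frame V S) (E S r) 1 0 ∈ maximalIdeal S.R := by
      rw [LocalModel.mem_max_iff, hEmem r hdet]; rfl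
    have h3 := fPart_tangent hS h01 h10 hD
    rw [← hcE] at h3
    have hlin : fPart (E S r) (r.M (T.hom g') - r'.M (T.hom g')) =
        fPart (E S r) (r.M (T.hom g')) - fPart (E S r') (r'.M (T.hom g')) := by
      rw [← hEE]
      simp [fPart, mul_sub, sub_mul]
    have h4 : cj (frame V S) (fPart (E S r) (r.M (T.hom g') - r'.M (T.hom g'))) 0 1 = 0 := by
      rw [hlin, cj_sub, Matrix.sub_apply]
      exact hzero g'
    rw [hmap, h3] at h4 ⊢
    have h6 : cj (frame V S) (r.M (T.hom g') - r'.M (T.hom g')) 0 1 = 0 := h4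
    rw [cj_zero, h6]
    refine Matrix.ext fun i j => ?_
    fin_cases i <;> fin_cases j <;> rfl
  have hsub : r.M (T.hom g') - r'.M (T.hom g') = 0 := by
    have h5 : fPart (eProj (r.M (T.hom g₀))) (r.M (T.hom g')) -
        fPart (eProj (r.M (T.hom g₀))) (r'.M (T.hom g')) = 0 := by
      rw [← hf]
      simp [fPart, E, mul_sub, sub_mul]
    conv_lhs => rw [e1, e2]
    rw [hdd g', hss g', add_sub_add_left_eq_sub]
    exact h5
  exact sub_eq_zero.mp hsub

end Fermat.Agent.LocalModelP
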