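import Fermat.Agent.LocalModelP.Field
import Fermat.Agent.Gal.Decomposition
import Fermat.Agent.LocalModelP.Line

/-!
# The tame extensions `K(π)`, `π ^ e = -p`
-/

set_option autoImplicit false

noncomputable section

open scoped Pointwise IntermediateField

namespace Fermat.Agent.LocalModelP

open Fermat.Agent.Duality Fermat.Agent.FlatBound

variable {p : ℕ} [hp : Fact p.Prime]

local notation "Ω" => PadicAlgCl p

theorem not_dvd_pow_sub_one {N : ℕ} (hN : N ≠ 0) : ¬ p ∣ p ^ N - 1 := by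
  intro h
  have h1 : 1 < p ^ N := Nat.one_lt_pow hN hp.out.one_lt
  have h2 := Nat.dvd_sub (dvd_pow_self p hN) h
  rw [Nat.sub_sub_self h1.le, Nat.dvd_one] at h2
  exact hp.out.ne_one h2

/-- On a finite level every element is a power of Frobenius times an inertia element. -/
theorem exists_pow_mul_inertia (L : IntermediateField ℚ_[p] Ω) [FiniteDimensional ℚ_[p] L]
    {φ : GalLoc p} (hφ : IsFrob φ) (g : GalLoc p) :
    ∃ (j : ℕ) (i : GalLoc p), i ∈ inertiaLoc p ∧ ∀ x ∈ L, g x = (φ ^ j * i) x := by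
  obtain ⟨F, hF, hFL⟩ := Places.exists_localField_eq p L
  obtain ⟨j, σ, hσ, h⟩ := Gal.exists_pow_mul_inertia_eqOn hp.out F
    (Places.liesOverPrime_padicPlace p) (isFrob_iff.mp hφ)
    (localGaloisToGlobal_mem_decompositionSubgroup p g)
  have hσ' : σ ∈ (localGaloisToGlobal p).range := by
    rw [Places.range_localGaloisToGlobal]
    exact ((Gal.mem_inertia_iff _ _).mp hσ).1
  obtain ⟨i, rfl⟩ := hσ'
  refine ⟨j, i, hσ, fun x hx => ?_⟩
  have hmem : g⁻¹ * (φ ^ j * i) ∈ (Places.localField p F).fixingSubgroup := by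
    rw [Places.fixingSubgroup_localField, Subgroup.mem_comap,
      IntermediateField.mem_fixingSubgroup_iff]
    intro y hy
    rw [map_mul, map_inv, map_mul, map_pow, AlgEquiv.mul_apply, ← h y hy, AlgEquiv.aut_inv,
      AlgEquiv.symm_apply_apply]
  rw [IntermediateField.mem_fixingSubgroup_iff, hFL] at hmem
  have h1 := congrArg g (hmem x hx)
  rwa [AlgEquiv.mul_apply g⁻¹, AlgEquiv.aut_inv, AlgEquiv.apply_symm_apply, eq_comm] at h1

/-- A root `π` of `X ^ e + p` with `p ∤ e`. -/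
structure Unif (p : ℕ) [Fact p.Prime] where
  /-- the degree -/
  e : ℕ
  not_dvd : ¬ p ∣ e
  /-- the root -/
  π : PadicAlgCl p
  π_pow : π ^ e = -(p : PadicAlgCl p)

/-- A root of `X ^ e + p` exists for every `e` prime to `p`. -/
theorem exists_unif {e : ℕ} (he : ¬ p ∣ e) : ∃ U : Unif p, U.e = e := by
  obtain ⟨π, hπ⟩ := IsAlgClosed.exists_pow_nat_eq (-(p : Ω))
    (Nat.pos_of_ne_zero fun h : e = 0 => he (h ▸ dvd_zero p))
  exact ⟨⟨e, he, π, hπ⟩, rfl⟩

namespace Unif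

variable (U : Unif p)

theorem e_ne_zero : U.e ≠ 0 := fun h => U.not_dvd (h ▸ dvd_zero p)

theorem norm_π_pow : ‖U.π‖ ^ U.e = ‖(p : Ω)‖ := by rw [← norm_pow, U.π_pow, norm_neg]

theorem π_ne_zero : U.π ≠ 0 := fun h => by
  have := U.π_pow
  rw [h, zero_pow U.e_ne_zero, eq_comm, neg_eq_zero, Nat.cast_eq_zero] at this
  exact hp.out.ne_zero this

theorem norm_π_pos : 0 < ‖U.π‖ := norm_pos_iff.mpr U.π_ne_zero

theorem norm_π_lt_one : ‖U.π‖ < 1 :=
  (pow_lt_one_iff_of_nonneg (norm_nonneg _) U.e_ne_zero).mp (U.norm_π_pow ▸ norm_p_lt_one)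

/-- Any element moves `π` by an `e`-th root of unity. -/
theorem apply_π (g : GalLoc p) : ∃ z : Ω, z ^ U.e = 1 ∧ g U.π = z * U.π := by
  refine ⟨g U.π / U.π, ?_, (div_mul_cancel₀ _ U.π_ne_zero).symm⟩
  rw [div_pow, ← map_pow, U.π_pow, map_neg, map_natCast, div_self]
  exact neg_ne_zero.mpr (Nat.cast_ne_zero.mpr hp.out.ne_zero)

/-- Inertia elements fixing `π`. -/
def J : Subgroup (GalLoc p) :=
  inertiaLoc p ⊓ MulAction.stabilizer (GalLoc p) U.π

theorem mem_J {g : GalLoc p} : g ∈ U.J ↔ g ∈ inertiaLoc p ∧ g U.π = U.π := Iff.rfl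

theorem inertia_apply_root {g : GalLoc p} (hg : g ∈ inertiaLoc p) {z : Ω} (hz : z ^ U.e = 1) :
    g z = z :=
  inertia_fix_root hg U.not_dvd hz

/-- The powers of an inertia element act on `π` by the powers of its root of unity. -/
theorem pow_apply_π {τ : GalLoc p} (hτ : τ ∈ inertiaLoc p) {z : Ω} (hz : z ^ U.e = 1)
    (hτπ : τ U.π = z * U.π) (n : ℕ) : (τ ^ n) U.π = z ^ n * U.π := by
  induction n with
  | zero => simp
  | succ n ih =>
    rw [pow_succ, AlgEquiv.mul_apply, hτπ, map_mul, ih,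
      U.inertia_apply_root (pow_mem hτ n) hz, pow_succ]
    ring

theorem conj_mem_J (d : GalLoc p) {g : GalLoc p} (hg : g ∈ U.J) : d * g * d⁻¹ ∈ U.J := by
  refine U.mem_J.mpr ⟨conj_mem_inertiaLoc d (U.mem_J.mp hg).1, ?_⟩
  obtain ⟨z, hz, hzπ⟩ := U.apply_π d⁻¹
  rw [AlgEquiv.mul_apply, AlgEquiv.mul_apply, hzπ, map_mul,
    U.inertia_apply_root (U.mem_J.mp hg).1 hz, (U.mem_J.mp hg).2, ← hzπ, AlgEquiv.aut_inv,
    AlgEquiv.apply_symm_apply]

/-- An element of inertia acting on `π` by a generator of the roots of unity. -/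
theorem exists_generator : ∃ τ ∈ inertiaLoc p, ∃ z : Ω, IsPrimitiveRoot z U.e ∧
    τ U.π = z * U.π := by
  classical
  have : NeZero U.e := ⟨U.e_ne_zero⟩
  let θ : inertiaLoc p →* rootsOfUnity U.e Ω := MonoidHom.mk'
    (fun g => rootsOfUnity.mkOfPowEq ((g : GalLoc p) U.π / U.π) (by
      obtain ⟨z, hz, hzπ⟩ := U.apply_π (g : GalLoc p)
      rw [hzπ, mul_div_assoc, div_self U.π_ne_zero, mul_one, hz]))
    fun g h => by
      apply Subtype.ext; apply Units.ext
      simp only [rootsOfUnity.val_mkOfPowEq_coe, Subgroup.coe_mul, Units.val_mul]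
      obtain ⟨z, hz, hzπ⟩ := U.apply_π (h : GalLoc p)
      rw [AlgEquiv.mul_apply, hzπ, map_mul, U.inertia_apply_root g.2 hz]
      field_simp [U.π_ne_zero]
  obtain ⟨w, hw⟩ := IsCyclic.exists_generator (α := θ.range)
  obtain ⟨τ, hτ⟩ := w.2
  set z : Ω := ((θ τ : Ωˣ) : Ω) with hzdef
  have hτπ : (τ : GalLoc p) U.π = z * U.π := by
    simp only [hzdef, θ, MonoidHom.mk'_apply, rootsOfUnity.val_mkOfPowEq_coe]
    rw [div_mul_cancel₀ _ U.π_ne_zero]
  set r := orderOf z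
  have hze : z ^ U.e = 1 := by
    rw [hzdef, ← Units.val_pow_eq_pow_val]
    exact congrArg Units.val ((mem_rootsOfUnity _ _).mp (θ τ).2)
  have hfix : ∀ g ∈ inertiaLoc p, g (U.π ^ r) = U.π ^ r := fun g hg => by
    obtain ⟨k, hk⟩ := (IsOfFinOrder.mem_zpowers_iff_mem_range_orderOf
      (isOfFinOrder_of_finite w)).mp (hw ⟨θ ⟨g, hg⟩, ⟨g, hg⟩, rfl⟩) |> fun h => 
        (Finset.mem_image.mp h).imp fun _ h' => h'.2
    have hgz : g U.π = z ^ k * U.π := by
      have h1 : ((θ ⟨g, hg⟩ : Ωˣ) : Ω) = z ^ k := by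
        rw [hzdef, ← Units.val_pow_eq_pow_val, ← SubmonoidClass.coe_pow, hτ,
          ← SubmonoidClass.coe_pow, hk]
      simp only [θ, MonoidHom.mk'_apply, rootsOfUnity.val_mkOfPowEq_coe] at h1
      rw [← h1, div_mul_cancel₀ _ U.π_ne_zero]
    rw [map_pow, hgz, mul_pow, ← pow_mul, mul_comm k, pow_mul, pow_orderOf_eq_one, one_pow,
      one_mul]
  obtain ⟨m, hm⟩ := norm_eq_zpow_of_fixed (pow_ne_zero r U.π_ne_zero) hfix
  refine ⟨τ, τ.2, z, ?_, hτπ⟩
  have hzr : IsPrimitiveRoot z r := IsPrimitiveRoot.orderOf z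
  suffices r = U.e by rwa [this] at hzr
  have hre : r ∣ U.e := orderOf_dvd_of_pow_eq_one hze
  have her : (r : ℤ) = U.e * m := by
    rw [norm_pow, ← U.norm_π_pow, ← zpow_natCast, ← zpow_natCast, ← zpow_mul] at hm
    exact zpow_right_injective₀ U.norm_π_pos U.norm_π_lt_one.ne hm
  exact Nat.dvd_antisymm hre (Int.natCast_dvd_natCast.mp ⟨m, her⟩)

/-- Every inertia element is a power of `τ` times an element of `J`. -/
theorem exists_eq_pow_mul {τ : GalLoc p} (hτ : τ ∈ inertiaLoc p) {z : Ω}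
    (hz : IsPrimitiveRoot z U.e) (hτπ : τ U.π = z * U.π) {g : GalLoc p} (hg : g ∈ inertiaLoc p) :
    ∃ j, j < U.e ∧ ∃ i ∈ U.J, g = τ ^ j * i := by
  have : NeZero U.e := ⟨U.e_ne_zero⟩
  obtain ⟨w, hw, hwπ⟩ := U.apply_π g
  obtain ⟨j, hj, rfl⟩ := hz.eq_pow_of_pow_eq_one hw
  refine ⟨j, hj, (τ ^ j)⁻¹ * g, U.mem_J.mpr ⟨mul_mem (inv_mem (pow_mem hτ j)) hg, ?_⟩,
    (mul_inv_cancel_left _ _).symm⟩
  rw [AlgEquiv.mul_apply, hwπ, ← U.pow_apply_π hτ hz.pow_eq_one hτπ, AlgEquiv.aut_inv,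
    AlgEquiv.symm_apply_apply]

/-- The elements fixed by `J` have norms powers of `‖π‖`. -/
theorem norm_eq_zpow {x : Ω} (hx0 : x ≠ 0) (hx : ∀ g ∈ U.J, g x = x) :
    ∃ k : ℤ, ‖x‖ = ‖U.π‖ ^ k := by
  obtain ⟨τ, hτ, z, hz, hτπ⟩ := U.exists_generator
  set y := ∏ j ∈ Finset.range U.e, (τ ^ j) x
  have hτe : (τ ^ U.e) x = x := by
    refine hx _ (U.mem_J.mpr ⟨pow_mem hτ _, ?_⟩)
    rw [U.pow_apply_π hτ hz.pow_eq_one hτπ, hz.pow_eq_one, one_mul]
  have hy : ∀ g ∈ inertiaLoc p, g y = y := by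
    have hτy : τ y = y := by
      have h0 : (τ ^ 0) x = x := rfl
      simp only [y, map_prod, ← AlgEquiv.mul_apply, ← pow_succ']
      refine mul_right_cancel₀ hx0 ?_
      have h1 := Finset.prod_range_succ (fun j => (τ ^ j) x) U.e
      rw [Finset.prod_range_succ', h0, hτe] at h1
      exact h1
    have hJy : ∀ g ∈ U.J, g y = y := fun g hg => by
      simp only [y, map_prod]
      refine Finset.prod_congr rfl fun j _ => ?_
      have h1 := hx _ (U.conj_mem_J (τ ^ j)⁻¹ hg)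
      rw [inv_inv, AlgEquiv.mul_apply, AlgEquiv.mul_apply] at h1
      conv_rhs => rw [← h1]
      rw [AlgEquiv.aut_inv, AlgEquiv.apply_symm_apply]
    intro g hg
    obtain ⟨j, -, i, hi, rfl⟩ := U.exists_eq_pow_mul hτ hz hτπ hg
    rw [AlgEquiv.mul_apply, hJy i hi]
    exact MulAction.mem_stabilizer_iff.1
      (pow_mem (show τ ∈ MulAction.stabilizer (GalLoc p) y from hτy) j)
  have hy0 : y ≠ 0 := Finset.prod_ne_zero_iff.mpr fun j _ => (map_ne_zero _).mpr hx0
  obtain ⟨m, hm⟩ := norm_eq_zpow_of_fixed hy0 hy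
  rw [norm_prod, Finset.prod_congr rfl (fun j _ => norm_loc (τ ^ j) x), Finset.prod_const,
    Finset.card_range, ← U.norm_π_pow] at hm
  refine ⟨m, ?_⟩
  rw [← zpow_natCast, ← zpow_natCast, ← zpow_mul, mul_comm, zpow_mul, zpow_natCast,
    zpow_natCast] at hm
  exact (pow_left_inj₀ (norm_nonneg _) (zpow_nonneg (norm_nonneg _) _) U.e_ne_zero).mp hm

/-- A Frobenius fixing `π`. -/
theorem exists_frob_fix : ∃ φ : GalLoc p, IsFrob φ ∧ φ U.π = U.π := by
  obtain ⟨φ, hφ⟩ := exists_isFrob (p := p)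
  obtain ⟨τ, hτ, z, hz, hτπ⟩ := U.exists_generator
  have : NeZero U.e := ⟨U.e_ne_zero⟩
  obtain ⟨w, hw, hwπ⟩ := U.apply_π φ⁻¹
  obtain ⟨j, -, rfl⟩ := hz.eq_pow_of_pow_eq_one hw
  refine ⟨φ * τ ^ j, hφ.mul_inertia (pow_mem hτ j), ?_⟩
  rw [AlgEquiv.mul_apply, U.pow_apply_π hτ hz.pow_eq_one hτπ, ← hwπ, AlgEquiv.aut_inv,
    AlgEquiv.apply_symm_apply]

end Unif

/-! ### The roots of unity of order `p` -/

theorem red_prod {ι : Type} (s : Finset ι) (f : ι → Ω) (hf : ∀ i ∈ s, ‖f i‖ ≤ 1) :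
    red (∏ i ∈ s, f i) = ∏ i ∈ s, red (f i) := by
  classical
  induction s using Finset.induction_on with
  | empty => simp
  | insert a s ha ih =>
    rw [Finset.prod_insert ha, Finset.prod_insert ha, red_mul (hf a (Finset.mem_insert_self a s))
      (by
        rw [norm_prod]
        exact Finset.prod_le_one (fun i _ => norm_nonneg (f i))
          (fun i hi => hf i (Finset.mem_insert_of_mem hi))),
      ih fun i hi => hf i (Finset.mem_insert_of_mem hi)]

theorem red_sum {ι : Type} (s : Finset ι) (f : ι → Ω) (hf : ∀ i ∈ s, ‖f i‖ ≤ 1) :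
    red (∑ i ∈ s, f i) = ∑ i ∈ s, red (f i) := by
  classical
  induction s using Finset.induction_on with
  | empty => simp
  | insert a s ha ih =>
    rw [Finset.sum_insert ha, Finset.sum_insert ha, red_add (hf a (Finset.mem_insert_self a s))
      (IsUltrametricDist.norm_sum_le_of_forall_le_of_nonneg zero_le_one
        fun i hi => hf i (Finset.mem_insert_of_mem hi)),
      ih fun i hi => hf i (Finset.mem_insert_of_mem hi)]

theorem red_root_p {η : Ω} (hη : η ^ p = 1) : red η = 1 := by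
  have hn := norm_eq_one_of_pow_eq_one hp.out.ne_zero hη
  have h : red η ^ p = 1 := by rw [← red_pow hn.le, hη, red_one]
  refine sub_eq_zero.mp (eq_zero_of_pow_eq_zero (n := p) ?_)
  rw [sub_pow_char, h, one_pow, sub_self]

/-- The residue of `(ζ - 1) ^ (p - 1) / (-p)` is `1`. -/
theorem red_root_norm {ζ : Ω} (hζ : IsPrimitiveRoot ζ p) (hp2 : p ≠ 2) :
    red ((ζ - 1) ^ (p - 1) / (-(p : Ω))) = 1 := by
  obtain ⟨m, hm⟩ := Nat.exists_eq_succ_of_ne_zero hp.out.ne_zero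
  have hm' : p - 1 = m := by omega
  have hζ' : IsPrimitiveRoot ζ (m + 1) := hm ▸ hζ
  have heven : Even m := by
    have := hp.out.odd_of_ne_two hp2
    rw [hm, Nat.succ_eq_add_one, Nat.odd_add_one, Nat.not_odd_iff_even] at this
    exact this
  set s : ℕ → Ω := fun k => ∑ i ∈ Finset.range (k + 1), ζ ^ i
  have h1 : (1 - ζ) ^ m * ∏ k ∈ Finset.range m, s k = (p : Ω) := by
    conv_lhs => rw [← Finset.card_range m, ← Finset.prod_const, Finset.card_range,
      ← Finset.prod_mul_distrib]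
    rw [show ((p : ℕ) : Ω) = (m : Ω) + 1 from (congrArg (Nat.cast : ℕ → Ω) hm).trans
      (Nat.cast_succ m), ← hζ'.prod_one_sub_pow_eq_order]
    exact Finset.prod_congr rfl fun k _ => mul_neg_geom_sum ζ (k + 1)
  have hs : ∀ k, ‖s k‖ ≤ 1 := fun k =>
    IsUltrametricDist.norm_sum_le_of_forall_le_of_nonneg zero_le_one fun i _ => by
      rw [norm_pow, norm_eq_one_of_pow_eq_one hp.out.ne_zero hζ.pow_eq_one, one_pow]
  have hredP : red (∏ k ∈ Finset.range m, s k) = -1 := by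
    rw [red_prod _ _ fun k _ => hs k]
    have h2 : ∀ k, red (s k) = ((k + 1 : ℕ) : Res p) := fun k => by
      rw [red_sum _ _ fun i _ => by
        rw [norm_pow, norm_eq_one_of_pow_eq_one hp.out.ne_zero hζ.pow_eq_one, one_pow]]
      simp [red_pow (norm_eq_one_of_pow_eq_one hp.out.ne_zero hζ.pow_eq_one).le,
        red_root_p hζ.pow_eq_one]
    rw [Finset.prod_congr rfl fun k _ => h2 k, ← Nat.cast_prod,
      Finset.prod_range_add_one_eq_factorial]
    have h3 := congrArg (ZMod.castHom dvd_rfl (Res p)) (ZMod.wilsons_lemma p)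
    rwa [map_natCast, map_neg, map_one, hm'] at h3
  have hp0 : (p : Ω) ≠ 0 := Nat.cast_ne_zero.mpr hp.out.ne_zero
  set P := ∏ k ∈ Finset.range m, s k
  have hP0 : P ≠ 0 := fun h0 => by rw [h0, mul_zero] at h1; exact hp0 h1.symm
  have hval : (ζ - 1) ^ (p - 1) / (-(p : Ω)) * -P = 1 := by
    rw [hm', ← neg_sub 1 ζ, heven.neg_pow, ← h1]
    have hq : (1 - ζ) ^ m ≠ 0 := fun h0 => hp0 (by rw [← h1, h0, zero_mul])
    field_simp
  have hPn : ‖P‖ = 1 := by
    refine le_antisymm ?_ (not_lt.mp fun hlt => ?_)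
    · rw [norm_prod]
      exact Finset.prod_le_one (fun k _ => norm_nonneg _) fun k _ => hs k
    · rw [red_eq_zero_of_lt hlt] at hredP
      exact one_ne_zero (neg_eq_zero.mp hredP.symm)
  have hwn : ‖(ζ - 1) ^ (p - 1) / (-(p : Ω))‖ = 1 := by
    have h2 := congrArg norm hval
    rwa [norm_mul, norm_neg, hPn, norm_one, mul_one] at h2
  have h2 := congrArg red hval
  rw [red_mul hwn.le (by rw [norm_neg, hPn]), show red (-P) = -red P by
    rw [← zero_sub P, red_sub (by simp) hPn.le, red_zero, zero_sub], hredP, neg_neg, mul_one,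
    red_one] at h2
  exact h2

namespace Unif

variable (U : Unif p)

/-- The exponent on `ζ` of an element is read on the residue of its action on `π`. -/
theorem cast_eq_red_pow {e₁ : ℕ} (he : U.e = e₁ * (p - 1)) (hp2 : p ≠ 2) {ζ : Ω}
    (hζ : IsPrimitiveRoot ζ p) {g : GalLoc p} {z : Ω} (hgπ : g U.π = z * U.π) {a : ℕ}
    (ha : g ζ = ζ ^ a) : (a : Res p) = red z ^ e₁ := by
  set w := (ζ - 1) / U.π ^ e₁
  have hw : w ^ (p - 1) = (ζ - 1) ^ (p - 1) / (-(p : Ω)) := by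
    rw [div_pow, ← pow_mul, ← he, U.π_pow]
  have h1 := red_root_norm hζ hp2
  rw [← hw] at h1
  have hn1 : ‖w‖ = 1 := by
    refine (pow_eq_one_iff_of_nonneg (norm_nonneg w)
      (Nat.sub_ne_zero_of_lt hp.out.one_lt)).mp ?_
    rw [← norm_pow, hw, norm_div, norm_pow, norm_neg,
      norm_root_sub_one_pow hζ.pow_eq_one (fun h => hp.out.ne_one (hζ.unique
        (h ▸ IsPrimitiveRoot.one))), div_self (norm_p_pos (p := p)).ne']
  rw [red_pow hn1.le] at h1
  have hwp : red w ^ p = red w := by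
    calc red w ^ p = red w ^ (p - 1) * red w := by
          rw [← pow_succ]; congr 1; have := hp.out.one_le; omega
      _ = red w := by rw [h1, one_mul]
  obtain ⟨c, hc⟩ := exists_castHom_eq (p := p) hwp
  obtain ⟨c', rfl⟩ := ZMod.natCast_zmod_surjective c
  rw [map_natCast] at hc
  have hgw : red (g w) = red w := by
    rw [← hc, ← red_natCast, red_eq_red_iff (by rw [norm_loc, hn1]) (norm_natCast_le_one' c'),
      show g w - (c' : Ω) = g (w - c') by rw [map_sub, map_natCast], norm_loc,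
      ← red_eq_red_iff hn1.le (norm_natCast_le_one' c'), red_natCast, hc]
  have hz : ‖z‖ = 1 := by
    have h2 := congrArg norm hgπ
    rw [norm_loc, norm_mul] at h2
    exact (mul_eq_right₀ U.norm_π_pos.ne').mp h2.symm
  have key : g w * z ^ e₁ = w * ∑ i ∈ Finset.range a, ζ ^ i := by
    have h2 : g (ζ - 1) = (ζ - 1) * ∑ i ∈ Finset.range a, ζ ^ i := by
      rw [map_sub, map_one, ha, mul_geom_sum]
    rw [map_div₀, map_pow, hgπ, h2]
    simp only [w, mul_pow]
    have hz0 : z ^ e₁ ≠ 0 := pow_ne_zero _ (norm_pos_iff.mp (by rw [hz]; exact one_pos))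
    field_simp
  have hζn : ∀ i : ℕ, ‖ζ ^ i‖ ≤ 1 := fun i => by
    rw [norm_pow, norm_eq_one_of_pow_eq_one hp.out.ne_zero hζ.pow_eq_one, one_pow]
  have h3 := congrArg red key
  rw [red_mul (by rw [norm_loc, hn1]) (by rw [norm_pow, hz, one_pow]), hgw,
    red_mul hn1.le (IsUltrametricDist.norm_sum_le_of_forall_le_of_nonneg zero_le_one
      fun i _ => hζn i), red_pow hz.le, red_sum _ _ fun i _ => hζn i] at h3
  have hw0 : red w ≠ 0 := fun h0 => by
    rw [h0, zero_pow (Nat.sub_ne_zero_of_lt hp.out.one_lt)] at h1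
    exact zero_ne_one h1
  rw [mul_left_cancel₀ hw0 h3]
  simp [red_pow (norm_eq_one_of_pow_eq_one hp.out.ne_zero hζ.pow_eq_one).le,
    red_root_p hζ.pow_eq_one]

/-- Elements fixing `π` fix the roots of unity of order `p`. -/
theorem fix_root_p {e₁ : ℕ} (he : U.e = e₁ * (p - 1)) (hp2 : p ≠ 2) {ζ : Ω}
    (hζ : IsPrimitiveRoot ζ p) {g : GalLoc p} (hg : g U.π = U.π) : g ζ = ζ := by
  have : NeZero p := ⟨hp.out.ne_zero⟩
  obtain ⟨a, -, ha⟩ := hζ.eq_pow_of_pow_eq_one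
    (show (g ζ) ^ p = 1 by rw [← map_pow, hζ.pow_eq_one, map_one])
  have h := U.cast_eq_red_pow he hp2 hζ (z := 1) (by rw [one_mul, hg]) ha.symm
  rw [red_one, one_pow, ← Nat.cast_one, CharP.natCast_eq_natCast (Res p) p] at h
  rw [← ha, pow_eq_pow_mod a hζ.pow_eq_one, h, Nat.mod_eq_of_lt hp.out.one_lt, pow_one]

/-! ### The field `F = ℚ_p(μ_{p^N - 1}, π)` -/

/-- The field generated by the roots of unity of order `p ^ N - 1` and `π`. -/
def fld (N : ℕ) : IntermediateField ℚ_[p] Ω :=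
  IntermediateField.adjoin ℚ_[p] (insert U.π {η | η ^ (p ^ N - 1) = 1})

/-- `U.fld N` is a finite extension of `ℚ_p`. -/
theorem finiteDimensional_fld {N : ℕ} (hN : N ≠ 0) : FiniteDimensional ℚ_[p] (U.fld N) := by
  have hfin : Set.Finite (insert U.π {η : Ω | η ^ (p ^ N - 1) = 1}) := by
    refine ((Polynomial.nthRoots (p ^ N - 1) (1 : Ω)).finite_toSet.subset fun η hη => ?_).insert _
    exact (Polynomial.mem_nthRoots (Nat.sub_pos_of_lt (Nat.one_lt_pow hN hp.out.one_lt))).mpr hη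
  have := hfin.to_subtype
  exact IntermediateField.finiteDimensional_adjoin fun x _ =>
    (Algebra.IsAlgebraic.isAlgebraic x).isIntegral

/-- The fixing group of `U.fld N` fixes `π` and the `p ^ N - 1`-th roots of unity. -/
theorem mem_fixing_fld {N : ℕ} {g : GalLoc p} :
    g ∈ (U.fld N).fixingSubgroup ↔
      g U.π = U.π ∧ ∀ η : Ω, η ^ (p ^ N - 1) = 1 → g η = η := by
  rw [IntermediateField.mem_fixingSubgroup_iff]
  refine ⟨fun h => ⟨h _ (IntermediateField.subset_adjoin _ _ (Set.mem_insert _ _)), fun η hη =>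
    h _ (IntermediateField.subset_adjoin _ _ (Set.mem_insert_of_mem _ hη))⟩, fun h x hx => ?_⟩
  have hle : U.fld N ≤ IntermediateField.fixedField (Subgroup.zpowers g) := by
    rw [fld, IntermediateField.adjoin_le_iff]
    rintro y hy ⟨_, m, rfl⟩
    refine MulAction.mem_stabilizer_iff.1
      (zpow_mem (K := MulAction.stabilizer (GalLoc p) y) ?_ m)
    rcases hy with rfl | hy
    · exact h.1
    · exact h.2 y hy
  exact hle hx ⟨g, Subgroup.mem_zpowers g⟩

theorem π_mem_fld (N : ℕ) : U.π ∈ U.fld N :=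
  IntermediateField.subset_adjoin _ _ (Set.mem_insert _ _)

theorem mem_fld_iff {N : ℕ} {x : Ω} :
    x ∈ U.fld N ↔ ∀ g ∈ (U.fld N).fixingSubgroup, g x = x := by
  refine ⟨fun hx g hg => (IntermediateField.mem_fixingSubgroup_iff _ _).mp hg x hx, fun h => ?_⟩
  rw [← InfiniteGalois.fixedField_fixingSubgroup (U.fld N)]
  exact fun g => h g g.2

theorem J_le_fixing {N : ℕ} (hN : N ≠ 0) : U.J ≤ (U.fld N).fixingSubgroup := fun _ hg =>
  U.mem_fixing_fld.mpr ⟨(U.mem_J.mp hg).2, fun _ hη =>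
    inertia_fix_root (U.mem_J.mp hg).1 (not_dvd_pow_sub_one hN) hη⟩

theorem conj_mem_fixing {N : ℕ} (he : U.e ∣ p ^ N - 1) (d : GalLoc p) {g : GalLoc p}
    (hg : g ∈ (U.fld N).fixingSubgroup) : d * g * d⁻¹ ∈ (U.fld N).fixingSubgroup := by
  rw [mem_fixing_fld] at hg ⊢
  have hroot : ∀ η : Ω, η ^ (p ^ N - 1) = 1 → g (d⁻¹ η) = d⁻¹ η := fun η hη =>
    hg.2 _ (by rw [← map_pow, hη, map_one])
  refine ⟨?_, fun η hη => ?_⟩
  · obtain ⟨z, hz, hzπ⟩ := U.apply_π d⁻¹
    have hz' : z ^ (p ^ N - 1) = 1 := by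
      obtain ⟨c, hc⟩ := he
      rw [hc, pow_mul, hz, one_pow]
    rw [AlgEquiv.mul_apply, AlgEquiv.mul_apply, hzπ, map_mul, hg.2 z hz', hg.1, ← hzπ,
      AlgEquiv.aut_inv, AlgEquiv.apply_symm_apply]
  · rw [AlgEquiv.mul_apply, AlgEquiv.mul_apply, hroot η hη, AlgEquiv.aut_inv,
      AlgEquiv.apply_symm_apply]

/-- The residue field of `F` is perfect. -/
theorem norm_pow_frobenius_sub {N : ℕ} (hN : N ≠ 0) {φ : GalLoc p} (hφ : IsFrob φ)
    (hφπ : φ U.π = U.π) {x : Ω} (hx : x ∈ U.fld N) (hx1 : ‖x‖ ≤ 1) :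
    ‖x ^ p ^ N - x‖ < 1 := by
  have hmem : φ ^ N ∈ (U.fld N).fixingSubgroup := by
    refine U.mem_fixing_fld.mpr ⟨MulAction.mem_stabilizer_iff.1
      (pow_mem (show φ ∈ MulAction.stabilizer (GalLoc p) U.π from hφπ) N), fun η hη => ?_⟩
    rw [hφ.apply_root (not_dvd_pow_sub_one hN) hη N,
      ← Nat.sub_add_cancel (Nat.one_le_pow N p hp.out.pos), pow_succ, hη, one_mul]
  have h := hφ.pow N hx1
  rwa [(IntermediateField.mem_fixingSubgroup_iff _ _).mp hmem x hx, norm_sub_rev] at h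

/-- A function of finite level which is multiplicative, trivial on `J` and on `φ ^ N`, is trivial
on the subgroup fixing `F`. -/
theorem eq_one_on_fixing {N : ℕ} (hN : N ≠ 0) {φ : GalLoc p} (hφ : IsFrob φ) (hφπ : φ U.π = U.π)
    {H : Type} [Monoid H] (χ : GalLoc p →* H) (L : IntermediateField ℚ_[p] Ω)
    [FiniteDimensional ℚ_[p] L] (hL : ∀ g g' : GalLoc p, (∀ x ∈ L, g x = g' x) → χ g = χ g')
    (hJ : ∀ g ∈ U.J, χ g = 1) (hφN : χ φ ^ N = 1) {g : GalLoc p}
    (hg : g ∈ (U.fld N).fixingSubgroup) : χ g = 1 := by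
  have := U.finiteDimensional_fld hN
  obtain ⟨j, i, hi, hgi⟩ := exists_pow_mul_inertia (L ⊔ U.fld N) hφ g
  have hgF : ∀ x ∈ U.fld N, (φ ^ j * i) x = x := fun x hx => by
    rw [← hgi x (le_sup_right (a := L) hx)]
    exact (IntermediateField.mem_fixingSubgroup_iff _ _).mp hg x hx
  have hM := not_dvd_pow_sub_one (p := p) hN
  have hpos : 0 < p ^ N - 1 := Nat.sub_pos_of_lt (Nat.one_lt_pow hN hp.out.one_lt)
  have : NeZero ((p ^ N - 1 : ℕ) : Ω) := ⟨Nat.cast_ne_zero.mpr hpos.ne'⟩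
  obtain ⟨η, hη⟩ := HasEnoughRootsOfUnity.exists_primitiveRoot Ω (p ^ N - 1)
  have h1 := hgF η (IntermediateField.subset_adjoin _ _ (Set.mem_insert_of_mem _ hη.pow_eq_one))
  rw [AlgEquiv.mul_apply, inertia_fix_root hi hM hη.pow_eq_one,
    hφ.apply_root hM hη.pow_eq_one] at h1
  have hdvd : N ∣ j := by
    have h2 : η ^ (p ^ j - 1) = 1 := by
      refine mul_right_cancel₀ (hη.ne_zero hpos.ne') ?_
      rw [one_mul, ← pow_succ, Nat.sub_add_cancel (Nat.one_le_pow j p hp.out.pos), h1]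
    have h3 := Nat.dvd_gcd (hη.dvd_of_pow_eq_one _ h2) (dvd_refl (p ^ N - 1))
    rw [Nat.pow_sub_one_gcd_pow_sub_one] at h3
    have hle := Nat.le_of_dvd (Nat.sub_pos_of_lt (Nat.one_lt_pow
      (fun h => hN (Nat.gcd_eq_zero_iff.mp h).2) hp.out.one_lt)) h3
    have hge : N ≤ j.gcd N := by
      by_contra hlt
      have := Nat.pow_lt_pow_right hp.out.one_lt (not_le.mp hlt)
      have := Nat.one_le_pow (j.gcd N) p hp.out.pos
      omega
    exact le_antisymm hge (Nat.le_of_dvd (Nat.pos_of_ne_zero hN) (Nat.gcd_dvd_right j N)) ▸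
      Nat.gcd_dvd_left j N
  have hφj : (φ ^ j) U.π = U.π := MulAction.mem_stabilizer_iff.1
    (pow_mem (show φ ∈ MulAction.stabilizer (GalLoc p) U.π from hφπ) j)
  have hiπ : i U.π = U.π := by
    apply (φ ^ j).injective
    rw [hφj, ← AlgEquiv.mul_apply]
    exact hgF _ (U.π_mem_fld N)
  obtain ⟨c, rfl⟩ := hdvd
  rw [hL g _ fun x hx => hgi x (le_sup_left (b := U.fld N) hx), map_mul,
    hJ i (U.mem_J.mpr ⟨hi, hiπ⟩), mul_one, map_pow, pow_mul, hφN, one_pow]

end Unif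

end Fermat.Agent.LocalModelP
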